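/-
G1 / CONG, abstract part: field embeddings from analytic data.

* `exists_algHom_of_relations` : two families `L : σ → E`, `L' : σ → E'` in field extensions of `K`
  satisfying the same polynomial relations over `K` define a `K`-embedding
  `K(L) → E'`, `L s ↦ L' s`;
* `exists_algHom_of_hasQExp` : the analytic criterion — if the `L s` are the `q_h`-expansions of
  functions `f s` on the upper half plane and the `L' s` are the `q_{h'}`-expansions of the
  `f s ∘ g` for a surjective `g : ℍ → ℍ`, the relations agree;
* `laurentBaseChange_adjoin` : `L · ℚ(S) = L(S)` inside `L((q))`.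

This is `ESJ/Cong/ConjAnalytic.exists_hom_of_series` for arbitrary generators.
-/
import Mathlib
import Fermat.Agent.S24.QExpJ

set_option autoImplicit false

open UpperHalfPlane

namespace Fermat.Agent.G1.ConjAbs

open ModularCurve Fermat.Agent.S24 Fermat.Agent.S24.QExp

noncomputable section

section Algebra

open IntermediateField.algebraAdjoinAdjoin

variable {K E E' : Type*} [Field K] [Field E] [Field E'] [Algebra K E] [Algebra K E']
  {σ : Type*}

/-- Two families with the same polynomial relations over `K` define a `K`-embedding of the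
field generated by the first into the ambient field of the second. -/
theorem exists_algHom_of_relations (L : σ → E) (L' : σ → E')
    (hrel : ∀ P : MvPolynomial σ K, MvPolynomial.aeval L P = 0 ↔ MvPolynomial.aeval L' P = 0) :
    ∃ τ : IntermediateField.adjoin K (Set.range L) →ₐ[K] E',
      ∀ s, τ ⟨L s, IntermediateField.subset_adjoin K _ ⟨s, rfl⟩⟩ = L' s := by
  have hrange : (MvPolynomial.aeval L : MvPolynomial σ K →ₐ[K] E).range =
      Algebra.adjoin K (Set.range L) := (Algebra.adjoin_range_eq_range_aeval K L).symm
  let f : MvPolynomial σ K →ₐ[K] Algebra.adjoin K (Set.range L) :=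
    (MvPolynomial.aeval L).codRestrict (Algebra.adjoin K (Set.range L))
      (fun P => by rw [← hrange]; exact ⟨P, rfl⟩)
  have hfval : ∀ P, ((f P : Algebra.adjoin K (Set.range L)) : E) = MvPolynomial.aeval L P :=
    fun P => rfl
  have hf : Function.Surjective f := by
    rintro ⟨a, ha⟩
    rw [← hrange] at ha
    obtain ⟨P, rfl⟩ := ha
    exact ⟨P, Subtype.ext (hfval P)⟩
  let g : MvPolynomial σ K →ₐ[K] E' := MvPolynomial.aeval L'
  have H : RingHom.ker f.toRingHom ≤ RingHom.ker g.toRingHom := by
    intro P hP
    rw [RingHom.mem_ker] at hP ⊢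
    have h0 : MvPolynomial.aeval L P = 0 := by
      rw [← hfval P]
      exact congrArg Subtype.val hP
    exact (hrel P).mp h0
  let φ : Algebra.adjoin K (Set.range L) →ₐ[K] E' := AlgHom.liftOfSurjective f hf g H
  have hφ : ∀ P, φ (f P) = g P := AlgHom.liftOfSurjective_apply f hf g H
  have hinj : Function.Injective φ := by
    rw [injective_iff_map_eq_zero]
    intro a ha
    obtain ⟨P, rfl⟩ := hf a
    rw [hφ] at ha
    exact Subtype.ext ((hfval P).trans ((hrel P).mpr ha))
  refine ⟨IsFractionRing.liftAlgHom hinj, fun s => ?_⟩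
  have e : (⟨L s, IntermediateField.subset_adjoin K _ ⟨s, rfl⟩⟩ :
      IntermediateField.adjoin K (Set.range L)) =
      algebraMap (Algebra.adjoin K (Set.range L)) (IntermediateField.adjoin K (Set.range L))
        (f (MvPolynomial.X s)) := by
    apply Subtype.ext
    rw [IntermediateField.algebraAdjoinAdjoin.coe_algebraMap, hfval, MvPolynomial.aeval_X]
  rw [e, IsFractionRing.liftAlgHom_apply, IsFractionRing.lift_algebraMap]
  exact (hφ (MvPolynomial.X s)).trans (MvPolynomial.aeval_X L' s)

end Algebra

section Analytic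

variable {K : Type*} [Field K] (ι : K →+* ℂ) {σ : Type*} {h h' : ℕ} [NeZero h] [NeZero h']

theorem eval₂_comp_apply (f : σ → ℍ → ℂ) (g : ℍ → ℍ) (P : MvPolynomial σ K) (z : ℍ) :
    MvPolynomial.eval₂ ((Pi.constRingHom ℍ ℂ).comp ι) (fun s z => f s (g z)) P z =
      MvPolynomial.eval₂ ((Pi.constRingHom ℍ ℂ).comp ι) f P (g z) := by
  have h1 := MvPolynomial.eval₂_comp_left (Pi.evalRingHom (fun _ : ℍ => ℂ) z)
    ((Pi.constRingHom ℍ ℂ).comp ι) (fun s z => f s (g z)) P
  have h2 := MvPolynomial.eval₂_comp_left (Pi.evalRingHom (fun _ : ℍ => ℂ) (g z))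
    ((Pi.constRingHom ℍ ℂ).comp ι) f P
  exact h1.trans h2.symm

/-- **Embedding from analytic data.**  If the `L s` are the `q_h`-expansions of functions `f s`
and the `L' s` are the `q_{h'}`-expansions of `f s ∘ g` with `g : ℍ → ℍ` surjective, then
`L s ↦ L' s` extends to a `K`-embedding of `K(L s : s)` into `K((q))`. -/
theorem exists_algHom_of_hasQExp (L L' : σ → LaurentSeries K) (f : σ → ℍ → ℂ) (g : ℍ → ℍ)
    (hg : Function.Surjective g)
    (hf : ∀ s, HasQExp h (f s) (coeffMap ι (L s)))
    (hf' : ∀ s, HasQExp h' (fun z => f s (g z)) (coeffMap ι (L' s))) :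
    ∃ τ : IntermediateField.adjoin K (Set.range L) →ₐ[K] LaurentSeries K,
      ∀ s, τ ⟨L s, IntermediateField.subset_adjoin K _ ⟨s, rfl⟩⟩ = L' s := by
  apply exists_algHom_of_relations
  intro P
  rw [relation_transfer ι f L hf P, relation_transfer ι (fun s z => f s (g z)) L' hf' P]
  constructor
  · intro h0
    funext z
    rw [eval₂_comp_apply, h0]
    rfl
  · intro h0
    funext w
    obtain ⟨z, rfl⟩ := hg w
    rw [← eval₂_comp_apply, h0]
    rfl

end Analytic

section BaseChange

variable (L : Type*) [Field L] [Algebra ℚ L]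

/-- `L · ℚ(S) = L(S)` inside `L((q))`. -/
theorem laurentBaseChange_adjoin (S : Set (LaurentSeries ℚ)) :
    laurentBaseChange L (IntermediateField.adjoin ℚ S) =
      IntermediateField.adjoin L (⇑(coeffEmb L) '' S) := by
  apply le_antisymm
  · rw [laurentBaseChange, IntermediateField.adjoin_le_iff]
    rintro _ ⟨x, hx, rfl⟩
    induction hx using IntermediateField.adjoin_induction with
    | mem x hx => exact IntermediateField.subset_adjoin L _ ⟨x, hx, rfl⟩
    | algebraMap q =>
      have : coeffEmb L (algebraMap ℚ (LaurentSeries ℚ) q) =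
          algebraMap L (LaurentSeries L) (algebraMap ℚ L q) := by
        rw [algebraMap_laurentSeries_eq_single, algebraMap_laurentSeries_eq_single, coeffEmb,
          coeffMap_single]
      rw [this]
      exact IntermediateField.algebraMap_mem _ _
    | add x y _ _ hx hy => rw [map_add]; exact add_mem hx hy
    | inv x _ hx => rw [map_inv₀]; exact inv_mem hx
    | mul x y _ _ hx hy => rw [map_mul]; exact mul_mem hx hy
  · rw [IntermediateField.adjoin_le_iff]
    rintro _ ⟨x, hx, rfl⟩
    exact coeffEmb_mem_laurentBaseChange L (IntermediateField.subset_adjoin ℚ S hx)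

end BaseChange

end

end Fermat.Agent.G1.ConjAbs
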