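/-
G1 (function field of `X_1(M)`, μ-model): explicit generators with INTEGER `q`-expansions.

For `u : ZMod M` the weight-3 Eisenstein-type form

  `H_u(z) = C₃⁻¹ ∑_{(c,d) ∈ ℤ², c ≡ u (M)} (c z + d)⁻³ = ∑_{n ≥ 1} hCoeff M u n qⁿ`,
  `hCoeff M u n = ∑_{r ∣ n} r² ([n/r ≡ u] − [n/r ≡ −u]) ∈ ℤ`

is a modular form on `Γ₁(M)`; `Γ₀(M)` permutes the family (`H_u ∣ γ = H_{u'}` when
`u' · γ₁₁ = u`: the diamond operators), and for `0 < u.val`, `2 u.val < M` the expansion starts
with `q^{u.val}` (coefficient `1`) — so the reductions of the `H_u` modulo any prime are pairwise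
distinct.

* `hCoeff`, `hSeries` : the integer coefficients / the series in `ℤ⟦q⟧`;
* `H M u : ModularForm (Gamma1 M) 3`, `qExpansion_H_coeff`, `hasSum_H`, `hasQExp_H`;
* `H_slash` (diamond action), `H_neg`, `hCoeff_eq_zero_of_lt`, `hCoeff_val`.
-/
import Mathlib
import Fermat.Agent.DS.EisV
import Fermat.Agent.S24.QExpJ

set_option autoImplicit false

namespace Fermat.Agent.G1.EisGen

open UpperHalfPlane ModularForm CongruenceSubgroup Complex
open Fermat.Agent.DS Fermat.Agent.S24.QExp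
open scoped MatrixGroups Manifold Real

variable (M : ℕ)

/-- The integer `q`-expansion coefficients of `H_u`. -/
def hCoeff (u : ZMod M) (n : ℕ) : ℤ :=
  ∑ r ∈ n.divisors, (r : ℤ) ^ 2 *
    ((if ((n / r : ℕ) : ZMod M) = u then 1 else 0) - (if ((n / r : ℕ) : ZMod M) = -u then 1 else 0))

/-- The `q`-expansion of `H_u` as an integral power series. -/
def hSeries (u : ZMod M) : PowerSeries ℤ := PowerSeries.mk (hCoeff M u)

@[simp]
theorem coeff_hSeries (u : ZMod M) (n : ℕ) : PowerSeries.coeff n (hSeries M u) = hCoeff M u n :=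
  PowerSeries.coeff_mk _ _

theorem hCoeff_zero (u : ZMod M) : hCoeff M u 0 = 0 := by
  simp [hCoeff]

theorem hCoeff_neg (u : ZMod M) (n : ℕ) : hCoeff M (-u) n = -hCoeff M u n := by
  unfold hCoeff
  rw [← Finset.sum_neg_distrib]
  refine Finset.sum_congr rfl fun r _ => ?_
  rw [neg_neg]
  ring

/-- Below the first exponent the coefficients vanish. -/
theorem hCoeff_eq_zero_of_lt {u : ZMod M} (h2 : 2 * u.val < M) {n : ℕ}
    (hn : n < u.val) : hCoeff M u n = 0 := by
  unfold hCoeff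
  refine Finset.sum_eq_zero fun r hr => ?_
  have hr' := Nat.mem_divisors.mp hr
  have hrpos : 0 < r := Nat.pos_of_mem_divisors hr
  have hq1 : 0 < n / r := Nat.div_pos (Nat.le_of_dvd (Nat.pos_of_ne_zero hr'.2) hr'.1) hrpos
  have hq2 : n / r < u.val := lt_of_le_of_lt (Nat.div_le_self _ _) hn
  have hM : 0 < M := by omega
  haveI : NeZero M := ⟨hM.ne'⟩
  have e1 : ((n / r : ℕ) : ZMod M) ≠ u := by
    intro h
    have := congrArg ZMod.val h
    rw [ZMod.val_natCast, Nat.mod_eq_of_lt (by omega)] at this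
    omega
  have e2 : ((n / r : ℕ) : ZMod M) ≠ -u := by
    intro h
    have h' : ((n / r + u.val : ℕ) : ZMod M) = 0 := by
      rw [Nat.cast_add, h, ZMod.natCast_zmod_val, neg_add_cancel]
    rw [ZMod.natCast_eq_zero_iff] at h'
    have := Nat.le_of_dvd (by omega) h'
    omega
  rw [if_neg e1, if_neg e2]
  ring

/-- The first coefficient is `1`. -/
theorem hCoeff_val {u : ZMod M} (h0 : 0 < u.val) (h2 : 2 * u.val < M) :
    hCoeff M u u.val = 1 := by
  have hM : 0 < M := by omega
  haveI : NeZero M := ⟨hM.ne'⟩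
  unfold hCoeff
  rw [Finset.sum_eq_single_of_mem 1 (Nat.one_mem_divisors.mpr h0.ne')]
  · have e1 : ((u.val / 1 : ℕ) : ZMod M) = u := by
      rw [Nat.div_one, ZMod.natCast_zmod_val]
    have e2 : ((u.val / 1 : ℕ) : ZMod M) ≠ -u := by
      rw [e1]
      intro h
      have h' : ((u.val + u.val : ℕ) : ZMod M) = 0 := by
        rw [Nat.cast_add, ZMod.natCast_zmod_val]
        nth_rewrite 1 [h]
        exact neg_add_cancel u
      rw [ZMod.natCast_eq_zero_iff] at h'
      have := Nat.le_of_dvd (by omega) h'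
      omega
    rw [if_pos e1, if_neg e2]
    norm_num
  · intro r hr hr1
    have hr' := Nat.mem_divisors.mp hr
    have hrpos : 0 < r := Nat.pos_of_mem_divisors hr
    have hr2 : 2 ≤ r := by omega
    have hq1 : 0 < u.val / r := Nat.div_pos (Nat.le_of_dvd h0 hr'.1) hrpos
    have hq2 : u.val / r < u.val := Nat.div_lt_self h0 hr2
    have e1 : ((u.val / r : ℕ) : ZMod M) ≠ u := by
      intro h
      have := congrArg ZMod.val h
      rw [ZMod.val_natCast, Nat.mod_eq_of_lt (by omega)] at this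
      omega
    have e2 : ((u.val / r : ℕ) : ZMod M) ≠ -u := by
      intro h
      have h' : ((u.val / r + u.val : ℕ) : ZMod M) = 0 := by
        rw [Nat.cast_add, h, ZMod.natCast_zmod_val, neg_add_cancel]
      rw [ZMod.natCast_eq_zero_iff] at h'
      have := Nat.le_of_dvd (by omega) h'
      omega
    rw [if_neg e1, if_neg e2]
    ring

variable {M} [NeZero M]

/-- The normalising constant `C₃ = (-2πi)³ / 2`. -/
noncomputable def C3 : ℂ := (-2 * π * Complex.I) ^ 3 / 2

theorem C3_ne_zero : C3 ≠ 0 := by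
  unfold C3
  refine div_ne_zero (pow_ne_zero _ ?_) two_ne_zero
  simp [Real.pi_ne_zero, Complex.I_ne_zero]

variable (M) in
/-- **The generator `H_u`**, a modular form of weight `3` on `Γ₁(M)` with integer
`q`-expansion. -/
noncomputable def H (u : ZMod M) : ModularForm (Gamma1 M) 3 :=
  C3⁻¹ • EisV.G (Pi.single u 1)

theorem H_apply (u : ZMod M) (z : ℍ) :
    H M u z = C3⁻¹ * EisV.Gfun (Pi.single u 1) 3 z := rfl

theorem coe_H (u : ZMod M) : ⇑(H M u) = C3⁻¹ • EisV.Gfun (Pi.single u (1 : ℂ)) 3 := rfl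

/-- The coefficients of `G_{δ_u}` in terms of `hCoeff`. -/
theorem coeffV_single (u : ZMod M) (n : ℕ) :
    EisV.coeffV (Pi.single u (1 : ℂ)) 3 n = C3 * (hCoeff M u n : ℂ) := by
  have h := EisV.qExpansion_Gfun_coeff_odd (Pi.single u (1 : ℂ)) (le_refl 3) (by decide) n
  rw [EisV.qExpansion_Gfun_coeff (Pi.single u (1 : ℂ)) (le_refl 3) n] at h
  rw [h]
  have hC : ((-2 * π * Complex.I) ^ 3 / ((3 - 1).factorial : ℂ)) = C3 := by
    unfold C3
    norm_num [Nat.factorial]
  rw [hC]
  congr 1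
  unfold hCoeff
  push_cast
  refine Finset.sum_congr rfl fun r _ => ?_
  simp [Pi.single_apply, neg_eq_iff_eq_neg]

/-- **The `q`-expansion of `H_u`** as a convergent series. -/
theorem hasSum_H (u : ZMod M) (z : ℍ) :
    HasSum (fun n : ℕ => (hCoeff M u n : ℂ) * Function.Periodic.qParam 1 z ^ n) (H M u z) := by
  have h := (EisV.hasSum_Gfun (Pi.single u (1 : ℂ)) (le_refl 3) z).mul_left C3⁻¹
  rw [H_apply]
  refine h.congr_fun fun n => ?_
  rw [coeffV_single, ← mul_assoc, ← mul_assoc, inv_mul_cancel₀ C3_ne_zero, one_mul]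

theorem qExpansion_H_coeff (u : ZMod M) (n : ℕ) :
    (qExpansion 1 (H M u)).coeff n = (hCoeff M u n : ℂ) := by
  have hq : Fermat.Agent.S23.QAn (⇑(H M u)) := by
    have h := EisV.qan_Gfun (Pi.single u (1 : ℂ)) (le_refl 3)
    rw [coe_H]
    exact ⟨fun w => by
        have := h.per w
        simp only [Function.comp_apply, Pi.smul_apply] at this ⊢
        rw [this],
      h.hol.const_smul _, h.bdd.const_smul_left _⟩
  exact EisChar.coeff_eq_of_hasSum hq.analytic (hasSum_H u) n

/-- `H_u` in the `q`-expansion calculus of S24. -/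
theorem hasQExp_H (u : ZMod M) :
    HasQExp 1 (fun z : ℍ => H M u z)
      (HahnSeries.ofPowerSeries ℤ ℂ ((hSeries M u).map (Int.castRingHom ℂ))) := by
  refine hasQExp_of_hasSum_nat 1 _ _ (fun τ => ?_)
  have := hasSum_H u τ
  simpa using this

/-- **Diamond action**: `Γ₀(M)` permutes the `H_u`. -/
theorem H_slash (u u' : ZMod M) (γ : SL(2, ℤ)) (hγ : γ ∈ Gamma0 M)
    (hu : u' * ((γ 1 1 : ℤ) : ZMod M) = u) :
    ⇑(H M u) ∣[(3 : ℤ)] γ = ⇑(H M u') := by
  rw [coe_H, coe_H, ModularForm.SL_smul_slash]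
  congr 1
  have h := EisV.Gfun_slash (Pi.single u (1 : ℂ)) 3 γ hγ
  have hunit : IsUnit ((γ 1 1 : ℤ) : ZMod M) := by
    have hc : ((γ 1 0 : ℤ) : ZMod M) = 0 := Gamma0_mem.mp hγ
    have hdet : (γ 0 0 : ℤ) * γ 1 1 - γ 0 1 * γ 1 0 = 1 := by
      have := γ.det_coe
      rw [Matrix.det_fin_two] at this
      exact this
    have h1 : ((γ 0 0 : ℤ) : ZMod M) * ((γ 1 1 : ℤ) : ZMod M) = 1 := by
      have := congrArg (Int.cast : ℤ → ZMod M) hdet
      push_cast at this
      rw [hc, mul_zero, sub_zero] at this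
      exact this
    exact IsUnit.of_mul_eq_one_right _ h1
  have hfun : (fun c : ZMod M => (Pi.single u (1 : ℂ) : ZMod M → ℂ) (c * ((γ 1 1 : ℤ) : ZMod M)))
      = Pi.single u' (1 : ℂ) := by
    funext c
    simp only [Pi.single_apply]
    have : c * ((γ 1 1 : ℤ) : ZMod M) = u ↔ c = u' := by
      rw [← hu]
      exact hunit.mul_left_inj
    simp [this]
  rw [hfun] at h
  exact h

theorem H_neg (u : ZMod M) : H M (-u) = -H M u := by
  apply DFunLike.ext
  intro z
  have h1 := hasSum_H (-u) z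
  have h2 := (hasSum_H u z).neg
  have h3 : H M (-u) z = -(H M u z) :=
    h1.unique (h2.congr_fun fun n => by rw [hCoeff_neg]; push_cast; ring)
  exact h3

end Fermat.Agent.G1.EisGen
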