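/-
G1 (function field of `X_1(M)`, μ-model): weight-0 generators with INTEGER `q`-expansions.

For `u : Fin 4 → ZMod M` the function

  `w_u(z) = H_{u₀}(z) H_{u₁}(z) H_{u₂}(z) H_{u₃}(z) / Δ(z)`

is holomorphic on `ℍ`, invariant under `Γ₁(M)`, permuted by `Γ₀(M)` through the diamond action on
the indices, and its `q`-expansion is the formal series `wq M u = q⁻¹ · wNum M u` with
`wNum M u ∈ ℤ⟦q⟧`.

* `wNum`, `wq` : the formal series; `wfun` : the analytic function;
* `hasQExp_wfun` : formal = analytic; `wfun_smul` (diamonds), `wfun_smul_Gamma1`, `mdiff_wfun`.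
-/
import Mathlib
import Fermat.Agent.G1.EisGen
import Fermat.Agent.S24.CuspTop

set_option autoImplicit false

namespace Fermat.Agent.G1.EisGen

open UpperHalfPlane ModularForm CongruenceSubgroup Complex ModularCurve
open Fermat.Agent.DS Fermat.Agent.S24.QExp
open scoped MatrixGroups Manifold Real

variable (M : ℕ)

/-- The integral numerator series of the weight-0 generator: `(∏ H_{u i}) · (Δ/q)⁻¹ ∈ ℤ⟦q⟧`. -/
noncomputable def wNum (u : Fin 4 → ZMod M) : PowerSeries ℤ :=
  (∏ i, hSeries M (u i)) * dedekindEtaUnitInv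

/-- The formal weight-0 generator `q⁻¹ · wNum` in `ℚ((q))`. -/
noncomputable def wq (u : Fin 4 → ZMod M) : LaurentSeries ℚ :=
  HahnSeries.single (-1 : ℤ) 1 *
    HahnSeries.ofPowerSeries ℤ ℚ ((wNum M u).map (Int.castRingHom ℚ))

variable {M} [NeZero M]

variable (M) in
/-- The analytic weight-0 generator `H_{u₀} H_{u₁} H_{u₂} H_{u₃} / Δ`. -/
noncomputable def wfun (u : Fin 4 → ZMod M) (z : ℍ) : ℂ :=
  (∏ i, H M (u i) z) / ModularForm.discriminant z

/-- **Formal = analytic** for the weight-0 generators. -/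
theorem hasQExp_wfun (u : Fin 4 → ZMod M) :
    HasQExp 1 (wfun M u) (coeffMap (algebraMap ℚ ℂ) (wq M u)) := by
  have hprod : HasQExp 1 (∏ i : Fin 4, fun z : ℍ => H M (u i) z)
      (∏ i : Fin 4, HahnSeries.ofPowerSeries ℤ ℂ ((hSeries M (u i)).map (Int.castRingHom ℂ))) :=
    HasQExp.prod Finset.univ _ _ (fun i _ => hasQExp_H (u i))
  have h := hprod.div hasQExp_discriminant ModularForm.discriminant_ne_zero
  have hD : HahnSeries.ofPowerSeries ℤ ℂ
      ((PowerSeries.X * dedekindEtaUnit).map (Int.castRingHom ℂ)) ≠ 0 := by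
    intro h0
    have := (hasQExp_discriminant.eq_zero_iff).mpr h0 UpperHalfPlane.I
    exact ModularForm.discriminant_ne_zero _ this
  have h1 : coeffMap (algebraMap ℚ ℂ) (wq M u) = HahnSeries.single (-1 : ℤ) (1 : ℂ) *
      HahnSeries.ofPowerSeries ℤ ℂ ((wNum M u).map (Int.castRingHom ℂ)) := by
    rw [wq, map_mul, coeffMap_single, map_one, coeffMap_ofPowerSeries']
    congr 2
  have h2 : HahnSeries.ofPowerSeries ℤ ℂ
      ((PowerSeries.X * dedekindEtaUnit).map (Int.castRingHom ℂ))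
      = HahnSeries.single (1 : ℤ) (1 : ℂ) *
        HahnSeries.ofPowerSeries ℤ ℂ (dedekindEtaUnit.map (Int.castRingHom ℂ)) := by
    rw [map_mul, PowerSeries.map_X, map_mul, HahnSeries.ofPowerSeries_X]
  have h3 : HahnSeries.single (-1 : ℤ) (1 : ℂ) * HahnSeries.single (1 : ℤ) (1 : ℂ) = 1 := by
    rw [HahnSeries.single_mul_single]
    simp
  have h4 : HahnSeries.ofPowerSeries ℤ ℂ ((wNum M u).map (Int.castRingHom ℂ)) *
      HahnSeries.ofPowerSeries ℤ ℂ (dedekindEtaUnit.map (Int.castRingHom ℂ))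
      = ∏ i : Fin 4, HahnSeries.ofPowerSeries ℤ ℂ ((hSeries M (u i)).map (Int.castRingHom ℂ)) := by
    rw [← map_mul, ← map_mul, wNum, mul_assoc, mul_comm dedekindEtaUnitInv,
      dedekindEtaUnit_mul_inv, mul_one, map_prod, map_prod]
  have key : coeffMap (algebraMap ℚ ℂ) (wq M u) *
      HahnSeries.ofPowerSeries ℤ ℂ ((PowerSeries.X * dedekindEtaUnit).map (Int.castRingHom ℂ))
      = ∏ i : Fin 4, HahnSeries.ofPowerSeries ℤ ℂ ((hSeries M (u i)).map (Int.castRingHom ℂ)) := by
    rw [h1, h2]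
    calc _ = (HahnSeries.single (-1 : ℤ) (1 : ℂ) * HahnSeries.single (1 : ℤ) (1 : ℂ)) *
          (HahnSeries.ofPowerSeries ℤ ℂ ((wNum M u).map (Int.castRingHom ℂ)) *
            HahnSeries.ofPowerSeries ℤ ℂ (dedekindEtaUnit.map (Int.castRingHom ℂ))) := by ring
      _ = _ := by rw [h3, h4, one_mul]
  rw [← key, mul_div_cancel_right₀ _ hD] at h
  exact h.congr_fun' (fun τ => by simp [wfun, Finset.prod_apply])

/-- **Diamond action on the weight-0 generators.** -/
theorem wfun_smul (u u' : Fin 4 → ZMod M) (γ : SL(2, ℤ)) (hγ : γ ∈ Gamma0 M)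
    (hu : ∀ i, u' i * ((γ 1 1 : ℤ) : ZMod M) = u i) (z : ℍ) :
    wfun M u (γ • z) = wfun M u' z := by
  have hH : ∀ i, H M (u i) (γ • z) = denom γ z ^ (3 : ℤ) * H M (u' i) z := by
    intro i
    have h := congrFun (H_slash (u i) (u' i) γ hγ (hu i)) z
    rw [ModularForm.SL_slash_apply] at h
    have hd := denom_ne_zero γ z
    rw [← h, mul_comm, mul_assoc, ← zpow_add₀ hd]
    simp
  unfold wfun
  rw [Fermat.Agent.S24.CuspTop.disc_smul]
  simp only [hH, Fin.prod_univ_four]
  have hd := denom_ne_zero γ z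
  have hΔ := ModularForm.discriminant_ne_zero z
  field_simp

/-- The weight-0 generators are `Γ₁(M)`-invariant. -/
theorem wfun_smul_Gamma1 (u : Fin 4 → ZMod M) (γ : SL(2, ℤ)) (hγ : γ ∈ Gamma1 M) (z : ℍ) :
    wfun M u (γ • z) = wfun M u z := by
  refine wfun_smul u u γ (Gamma1_in_Gamma0 M hγ) (fun i => ?_) z
  have h11 : ((γ 1 1 : ℤ) : ZMod M) = 1 := (Gamma1_mem M γ).mp hγ |>.2.1
  rw [h11, mul_one]

/-- The weight-0 generators are holomorphic on `ℍ`. -/
theorem mdiff_wfun (u : Fin 4 → ZMod M) : MDiff (wfun M u) := by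
  have h1 : MDiff (fun z : ℍ => ∏ i : Fin 4, H M (u i) z) := by
    have : (fun z : ℍ => ∏ i : Fin 4, H M (u i) z) =
        fun z => H M (u 0) z * H M (u 1) z * H M (u 2) z * H M (u 3) z := by
      funext z
      rw [Fin.prod_univ_four]
    rw [this]
    exact (((H M (u 0)).holo'.mul (H M (u 1)).holo').mul (H M (u 2)).holo').mul (H M (u 3)).holo'
  exact h1.div CuspForm.discriminant.holo' ModularForm.discriminant_ne_zero

end Fermat.Agent.G1.EisGen
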