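/-
G1 / CONG, the analytic heart: conjugate embeddings, diamond automorphisms and the Atkin–Lehner
map for ANY family of generators permuted by `Γ₀(M)` through the lower right entry.

A *diamond family* (`IsDiamondFam M act fn ser`) is a family of functions `fn i : ℍ → ℂ` with
rational `q`-expansions `ser i` (globally on `ℍ`) and an action `act` of `(ℤ/M)ˣ` on the index
set such that `fn (act d i) (γ z) = fn i z` for `γ ∈ Γ₀(M)` with lower right entry `≡ d`.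
Examples: `famJ` (`J(d z)`, `d ∣ M`, trivial action), `famW` (helper82's weight-0 generators
`wfun M u`, `u : Fin 4 → ZMod M`, `act d u = u · d`), and sums of families.

For a coefficient field `K` with `ι : K →+* ℂ`, `F := K(ser i)`, `F' := K(ser i, V_ℓ ser i)`
(`V_ℓ = qExpand ℓ`), `ℓ` prime to `M`:

* `exists_conj` : for an `ℓ`-th root of unity `w`, a `K`-embedding `τ : F' → K((t))` with
  `τ (ser i) = (ser i)(t^ℓ)` and `τ (V_ℓ ser i) = (ser (act ℓ i))(w t)`;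
* `exists_diamond` : a `K`-embedding `δ : F → K((q))` with `δ (ser i) = ser (act c i)`;
* `exists_atkinLehner` : a `K`-embedding `W : F' → K((q))` with
  `W (ser i) = V_ℓ (ser (act ℓ⁻¹ i))` and `W (V_ℓ ser i) = ser i`.
-/
import Mathlib
import Fermat.Agent.G1.ConjAbs
import Fermat.Agent.G1.EisGen0
import Fermat.Agent.ESJ.Cong.ConjAnalytic

set_option autoImplicit false

open UpperHalfPlane CongruenceSubgroup
open scoped MatrixGroups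

namespace Fermat.Agent.G1.ConjFam

open ModularCurve Fermat.Agent.S24 Fermat.Agent.S24.QExp Fermat.Agent.S28.Chain

noncomputable section

/-! ### The matrices -/

theorem den_ne (c d : ℤ) (hcd : c ≠ 0 ∨ d ≠ 0) (z : ℍ) : (c : ℂ) * (z : ℂ) + (d : ℂ) ≠ 0 := by
  intro h0
  have him : (c : ℝ) * z.im = 0 := by
    have := congrArg Complex.im h0
    simpa using this
  have hc0 : c = 0 := by
    rcases mul_eq_zero.mp him with h1 | h1
    · exact_mod_cast h1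
    · exact absurd h1 z.im_pos.ne'
  rw [hc0] at h0
  have hd0 : d = 0 := by
    simp only [Int.cast_zero, zero_mul, zero_add] at h0
    exact_mod_cast h0
  rcases hcd with h | h
  · exact h hc0
  · exact h hd0

theorem coe_smul_of (g : SL(2, ℤ)) (a b c d : ℤ) (h00 : g 0 0 = a) (h01 : g 0 1 = b)
    (h10 : g 1 0 = c) (h11 : g 1 1 = d) (z : ℍ) :
    ((g • z : ℍ) : ℂ) = ((a : ℂ) * (z : ℂ) + (b : ℂ)) / ((c : ℂ) * (z : ℂ) + (d : ℂ)) := by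
  rw [coe_specialLinearGroup_apply, h00, h01, h10, h11]
  simp

/-- For `ℓ` coprime to `M` and any `b`: `γ ∈ Γ₁(M)`, `γ' ∈ Γ₀(M)` with lower right entry
`≡ ℓ⁻¹` and `[ℓ 0; 0 1] γ = γ' [1 b; 0 ℓ]`, in Möbius form. -/
theorem exists_gamma1 (M ℓ : ℕ) (hℓ0 : ℓ ≠ 0) (hcop : Nat.Coprime ℓ M) (b : ℕ) :
    ∃ γ γ' : SL(2, ℤ), γ ∈ Gamma1 M ∧ γ' ∈ Gamma0 M ∧
      ((γ' 1 1 : ℤ) : ZMod M) * (ℓ : ZMod M) = 1 ∧
      ∀ z w : ℍ, (w : ℂ) = ((z : ℂ) + b) / ℓ →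
        ((γ' • w : ℍ) : ℂ) = (ℓ : ℂ) * ((γ • z : ℍ) : ℂ) := by
  obtain ⟨r, s, hrs⟩ : IsCoprime (ℓ : ℤ) (M : ℤ) := Nat.isCoprime_iff_coprime.mpr hcop
  -- r * ℓ + s * M = 1
  obtain ⟨k, hk⟩ : ∃ k : ℤ, r * (ℓ : ℤ) + (M : ℤ) * (b : ℤ) = 1 + (M : ℤ) * k :=
    ⟨(b : ℤ) - s, by linear_combination hrs⟩
  let γ : SL(2, ℤ) := ⟨!![1 - (M : ℤ) * k, -((M : ℤ) * k ^ 2); (M : ℤ), 1 + (M : ℤ) * k], by
    rw [Matrix.det_fin_two_of]; ring⟩
  let γ' : SL(2, ℤ) := ⟨!![(ℓ : ℤ) * (1 - (M : ℤ) * k),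
      -((b : ℤ) * (1 - (M : ℤ) * k)) - (M : ℤ) * k ^ 2; (M : ℤ), r], by
    rw [Matrix.det_fin_two_of]; linear_combination (1 - (M : ℤ) * k) * hk⟩
  refine ⟨γ, γ', ?_, ?_, ?_, ?_⟩
  · rw [Gamma1_mem]
    refine ⟨?_, ?_, ?_⟩
    · show ((1 - (M : ℤ) * k : ℤ) : ZMod M) = 1
      simp
    · show ((1 + (M : ℤ) * k : ℤ) : ZMod M) = 1
      simp
    · show (((M : ℤ) : ℤ) : ZMod M) = 0
      simp
  · rw [Gamma0_mem]
    show (((M : ℤ) : ℤ) : ZMod M) = 0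
    simp
  · show ((r : ℤ) : ZMod M) * (ℓ : ZMod M) = 1
    have := congrArg (Int.cast : ℤ → ZMod M) hrs
    push_cast at this
    simpa using this
  · intro z w hw
    have hℓC : (ℓ : ℂ) ≠ 0 := by exact_mod_cast hℓ0
    have hkC : (r : ℂ) * (ℓ : ℂ) + (M : ℂ) * (b : ℂ) = 1 + (M : ℂ) * (k : ℂ) := by
      exact_mod_cast hk
    have hden1 : (((M : ℤ) : ℤ) : ℂ) * (z : ℂ) + ((1 + (M : ℤ) * k : ℤ) : ℂ) ≠ 0 := by
      refine den_ne _ _ ?_ z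
      by_cases hM : (M : ℤ) = 0
      · right
        rw [hM]
        norm_num
      · exact Or.inl hM
    have e1 : ((γ' • w : ℍ) : ℂ) = ((((ℓ : ℤ) * (1 - (M : ℤ) * k) : ℤ) : ℂ) * (w : ℂ) +
          ((-((b : ℤ) * (1 - (M : ℤ) * k)) - (M : ℤ) * k ^ 2 : ℤ) : ℂ)) /
        ((((M : ℤ) : ℤ) : ℂ) * (w : ℂ) + ((r : ℤ) : ℂ)) :=
      coe_smul_of γ' _ _ _ _ rfl rfl rfl rfl w
    have e2 : ((γ • z : ℍ) : ℂ) = (((1 - (M : ℤ) * k : ℤ) : ℂ) * (z : ℂ) +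
          ((-((M : ℤ) * k ^ 2) : ℤ) : ℂ)) /
        ((((M : ℤ) : ℤ) : ℂ) * (z : ℂ) + ((1 + (M : ℤ) * k : ℤ) : ℂ)) :=
      coe_smul_of γ _ _ _ _ rfl rfl rfl rfl z
    rw [e1, e2]
    have hnum : (((ℓ : ℤ) * (1 - (M : ℤ) * k) : ℤ) : ℂ) * (w : ℂ) +
          ((-((b : ℤ) * (1 - (M : ℤ) * k)) - (M : ℤ) * k ^ 2 : ℤ) : ℂ) =
        ((1 - (M : ℤ) * k : ℤ) : ℂ) * (z : ℂ) + ((-((M : ℤ) * k ^ 2) : ℤ) : ℂ) := by
      rw [hw]
      push_cast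
      field_simp
      ring
    have hden : (((M : ℤ) : ℤ) : ℂ) * (w : ℂ) + ((r : ℤ) : ℂ) =
        ((((M : ℤ) : ℤ) : ℂ) * (z : ℂ) + ((1 + (M : ℤ) * k : ℤ) : ℂ)) / ℓ := by
      rw [hw]
      push_cast
      field_simp
      linear_combination hkC
    rw [hnum, hden]
    field_simp

/-- For `ℓ` coprime to `M`: `γ₁ ∈ Γ₀(M)` with lower right entry `ℓ` and `γ₂ ∈ Γ₁(M)` with
`ℓ · γ₁(ℓ z) = γ₂ z` (the Atkin–Lehner matrix `W_ℓ = γ₁ [ℓ 0; 0 1]`, `[ℓ 0; 0 1] W_ℓ = ℓ γ₂`). -/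
theorem exists_gammaAL (M ℓ : ℕ) (hℓ0 : ℓ ≠ 0) (hcop : Nat.Coprime ℓ M) :
    ∃ γ₁ γ₂ : SL(2, ℤ), γ₁ ∈ Gamma0 M ∧ γ₂ ∈ Gamma1 M ∧
      ((γ₁ 1 1 : ℤ) : ZMod M) = (ℓ : ZMod M) ∧
      ∀ z w : ℍ, (w : ℂ) = (ℓ : ℂ) * (z : ℂ) →
        (ℓ : ℂ) * ((γ₁ • w : ℍ) : ℂ) = ((γ₂ • z : ℍ) : ℂ) := by
  obtain ⟨r, s, hrs⟩ : IsCoprime (ℓ : ℤ) (M : ℤ) := Nat.isCoprime_iff_coprime.mpr hcop
  let γ₁ : SL(2, ℤ) := ⟨!![r, -s; (M : ℤ), (ℓ : ℤ)], by
    rw [Matrix.det_fin_two_of]; linear_combination hrs⟩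
  let γ₂ : SL(2, ℤ) := ⟨!![(ℓ : ℤ) * r, -s; (M : ℤ), 1], by
    rw [Matrix.det_fin_two_of]; linear_combination hrs⟩
  have hrsZ : ((r : ℤ) : ZMod M) * (ℓ : ZMod M) = 1 := by
    have := congrArg (Int.cast : ℤ → ZMod M) hrs
    push_cast at this
    simpa using this
  refine ⟨γ₁, γ₂, ?_, ?_, ?_, ?_⟩
  · rw [Gamma0_mem]
    show (((M : ℤ) : ℤ) : ZMod M) = 0
    simp
  · rw [Gamma1_mem]
    refine ⟨?_, ?_, ?_⟩
    · show (((ℓ : ℤ) * r : ℤ) : ZMod M) = 1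
      push_cast
      rw [mul_comm]
      exact hrsZ
    · show ((1 : ℤ) : ZMod M) = 1
      simp
    · show (((M : ℤ) : ℤ) : ZMod M) = 0
      simp
  · show (((ℓ : ℤ) : ℤ) : ZMod M) = (ℓ : ZMod M)
    simp
  · intro z w hw
    have hℓC : (ℓ : ℂ) ≠ 0 := by exact_mod_cast hℓ0
    have hden1 : (((M : ℤ) : ℤ) : ℂ) * (z : ℂ) + ((1 : ℤ) : ℂ) ≠ 0 :=
      den_ne _ _ (Or.inr one_ne_zero) z
    have e1 : ((γ₁ • w : ℍ) : ℂ) = (((r : ℤ) : ℂ) * (w : ℂ) + ((-s : ℤ) : ℂ)) /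
        ((((M : ℤ) : ℤ) : ℂ) * (w : ℂ) + (((ℓ : ℤ) : ℤ) : ℂ)) :=
      coe_smul_of γ₁ _ _ _ _ rfl rfl rfl rfl w
    have e2 : ((γ₂ • z : ℍ) : ℂ) = ((((ℓ : ℤ) * r : ℤ) : ℂ) * (z : ℂ) + ((-s : ℤ) : ℂ)) /
        ((((M : ℤ) : ℤ) : ℂ) * (z : ℂ) + ((1 : ℤ) : ℂ)) :=
      coe_smul_of γ₂ _ _ _ _ rfl rfl rfl rfl z
    rw [e1, e2]
    have hden : (((M : ℤ) : ℤ) : ℂ) * (w : ℂ) + (((ℓ : ℤ) : ℤ) : ℂ) =
        (ℓ : ℂ) * ((((M : ℤ) : ℤ) : ℂ) * (z : ℂ) + ((1 : ℤ) : ℂ)) := by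
      rw [hw]
      push_cast
      ring
    have hnum : ((r : ℤ) : ℂ) * (w : ℂ) + ((-s : ℤ) : ℂ) =
        (((ℓ : ℤ) * r : ℤ) : ℂ) * (z : ℂ) + ((-s : ℤ) : ℂ) := by
      rw [hw]
      push_cast
      ring
    rw [hnum, hden]
    field_simp

/-- Every unit of `ℤ/M` is the lower right entry of an element of `Γ₀(M)`. -/
theorem exists_gamma0_unit (M : ℕ) (c : (ZMod M)ˣ) :
    ∃ γ : SL(2, ℤ), γ ∈ Gamma0 M ∧ ((γ 1 1 : ℤ) : ZMod M) = (c : ZMod M) := by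
  obtain ⟨d₀, hd₀⟩ := ZMod.intCast_surjective (c : ZMod M)
  obtain ⟨e₀, he₀⟩ := ZMod.intCast_surjective ((c⁻¹ : (ZMod M)ˣ) : ZMod M)
  have h1 : ((1 : ℤ) : ZMod M) = ((e₀ * d₀ : ℤ) : ZMod M) := by
    push_cast
    rw [hd₀, he₀]
    simp
  obtain ⟨t, ht⟩ := (ZMod.intCast_eq_intCast_iff_dvd_sub 1 (e₀ * d₀) M).mp h1
  -- e₀ * d₀ - 1 = M * t
  let γ : SL(2, ℤ) := ⟨!![e₀, t; (M : ℤ), d₀], by
    rw [Matrix.det_fin_two_of]; linear_combination ht⟩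
  refine ⟨γ, ?_, ?_⟩
  · rw [Gamma0_mem]
    show (((M : ℤ) : ℤ) : ZMod M) = 0
    simp
  · show ((d₀ : ℤ) : ZMod M) = (c : ZMod M)
    exact hd₀

/-! ### Affine substitutions -/

theorem hasQExp_affPt {h : ℕ} {f : ℍ → ℂ} {L : LaurentSeries ℂ} (hf : HasQExp h f L)
    (a b d : ℕ) [NeZero a] [NeZero d] (ha : 0 < a) (hd : 0 < d) :
    HasQExp (h * d) (fun z : ℍ => f (HNFMod.affPt a b d ha hd z))
      (qExpand ℂ a (rot (zetaU (h * d) (b : ℤ)) L)) := by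
  refine (hf.comp_affine a d (b : ℤ)).congr_fun' (fun z => ?_)
  have e : (((a : ℂ) * (z : ℂ) + ((b : ℤ) : ℂ)) / (d : ℂ)) = ((a : ℂ) * z + b) / d := by
    push_cast
    rfl
  rw [e, ofComplex_apply_of_im_pos (HNFMod.im_aff_pos a b d ha hd z)]
  rfl

/-- The analytic `V_ℓ`: `f ↦ (z ↦ f (ℓ z))`. -/
def Vfn (ℓ : ℕ) (hℓ : 0 < ℓ) (f : ℍ → ℂ) : ℍ → ℂ :=
  fun z => f (HNFMod.affPt ℓ 0 1 hℓ one_pos z)

theorem hasQExp_Vfn {f : ℍ → ℂ} {L : LaurentSeries ℂ} (hf : HasQExp 1 f L) (ℓ : ℕ) [NeZero ℓ]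
    (hℓ : 0 < ℓ) : HasQExp 1 (Vfn ℓ hℓ f) (qExpand ℂ ℓ L) := by
  have h1 := hasQExp_affPt hf ℓ 0 1 hℓ one_pos
  have hz : zetaU (1 * 1) ((0 : ℕ) : ℤ) = 1 := by
    ext
    simp [zetaU]
  rw [hz, rot_one_apply] at h1
  exact h1

theorem coeffMap_comp_coeffEmb {K : Type*} [Field K] [Algebra ℚ K] (ι : K →+* ℂ)
    (x : LaurentSeries ℚ) : coeffMap ι (coeffEmb K x) = coeffMap (algebraMap ℚ ℂ) x := by
  rw [coeffEmb, coeffMap_coeffMap]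
  exact coeffMap_congr (RingHom.ext_rat _ _) x

theorem coeffEmb_qExpand (K : Type*) [Field K] [Algebra ℚ K] (n : ℕ) [NeZero n]
    (x : LaurentSeries ℚ) : coeffEmb K (qExpand ℚ n x) = qExpand K n (coeffEmb K x) :=
  coeffMap_qExpand _ n x

/-! ### Diamond families -/

/-- A family of functions on `ℍ` with rational `q`-expansions, permuted by `Γ₀(M)` through an
action of `(ℤ/M)ˣ` (via the lower right entry) on the index set. -/
structure IsDiamondFam (M : ℕ) {I : Type*} (act : (ZMod M)ˣ → I → I) (fn : I → ℍ → ℂ)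
    (ser : I → LaurentSeries ℚ) : Prop where
  act_one : ∀ i, act 1 i = i
  act_mul : ∀ c d i, act (c * d) i = act c (act d i)
  hasQExp : ∀ i, HasQExp 1 (fn i) (coeffMap (algebraMap ℚ ℂ) (ser i))
  smul : ∀ γ : SL(2, ℤ), γ ∈ Gamma0 M → ∀ d : (ZMod M)ˣ,
    (d : ZMod M) = ((γ 1 1 : ℤ) : ZMod M) → ∀ i z, fn (act d i) (γ • z) = fn i z

namespace IsDiamondFam

variable {M : ℕ} {I : Type*} {act : (ZMod M)ˣ → I → I} {fn : I → ℍ → ℂ}
  {ser : I → LaurentSeries ℚ}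

theorem fn_smul_Gamma1 (hF : IsDiamondFam M act fn ser) {γ : SL(2, ℤ)} (hγ : γ ∈ Gamma1 M)
    (i : I) (z : ℍ) : fn i (γ • z) = fn i z := by
  have h := hF.smul γ (Gamma1_in_Gamma0 M hγ) 1
    (by rw [Units.val_one]; exact ((Gamma1_mem M γ).mp hγ).2.1.symm) i z
  rwa [hF.act_one] at h

/-- `fn i ∘ γ = fn (act c i)` when the lower right entry `d` of `γ ∈ Γ₀(M)` satisfies
`d c = 1`. -/
theorem fn_smul (hF : IsDiamondFam M act fn ser) {γ : SL(2, ℤ)} (hγ : γ ∈ Gamma0 M)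
    (c : (ZMod M)ˣ) (hc : ((γ 1 1 : ℤ) : ZMod M) * (c : ZMod M) = 1) (i : I) (z : ℍ) :
    fn i (γ • z) = fn (act c i) z := by
  have hd : ((c⁻¹ : (ZMod M)ˣ) : ZMod M) = ((γ 1 1 : ℤ) : ZMod M) :=
    Units.inv_eq_of_mul_eq_one_left hc
  have h := hF.smul γ hγ c⁻¹ hd (act c i) z
  rwa [← hF.act_mul, inv_mul_cancel, hF.act_one] at h

theorem hasQExp_K (hF : IsDiamondFam M act fn ser) {K : Type*} [Field K] [Algebra ℚ K]
    (ι : K →+* ℂ) (i : I) : HasQExp 1 (fn i) (coeffMap ι (coeffEmb K (ser i))) := by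
  rw [coeffMap_comp_coeffEmb]
  exact hF.hasQExp i

/-- The sum of two diamond families. -/
theorem sum {I' : Type*} {act' : (ZMod M)ˣ → I' → I'} {fn' : I' → ℍ → ℂ}
    {ser' : I' → LaurentSeries ℚ} (hF : IsDiamondFam M act fn ser)
    (hF' : IsDiamondFam M act' fn' ser') :
    IsDiamondFam M (fun d => Sum.map (act d) (act' d)) (Sum.elim fn fn') (Sum.elim ser ser') where
  act_one := by
    rintro (i | i)
    · exact congrArg Sum.inl (hF.act_one i)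
    · exact congrArg Sum.inr (hF'.act_one i)
  act_mul := by
    rintro c d (i | i)
    · exact congrArg Sum.inl (hF.act_mul c d i)
    · exact congrArg Sum.inr (hF'.act_mul c d i)
  hasQExp := by
    rintro (i | i)
    · exact hF.hasQExp i
    · exact hF'.hasQExp i
  smul := by
    rintro γ hγ d hd (i | i) z
    · exact hF.smul γ hγ d hd i z
    · exact hF'.smul γ hγ d hd i z

end IsDiamondFam

/-- The family `J(d z)`, `d ∣ M`, with trivial action. -/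
theorem famJ (M : ℕ) [NeZero M] :
    IsDiamondFam M (fun _ (d : Dv M) => d) (fun d : Dv M => Jabd d.1 0 1)
      (fun d : Dv M => have : NeZero d.1 := d.neZero; qExpand ℚ d.1 jq) where
  act_one := fun _ => rfl
  act_mul := fun _ _ _ => rfl
  hasQExp := fun d => by
    have : NeZero d.1 := d.neZero
    have h := hasQExp_Jabd_scale d.1
    rwa [← coeffMap_qExpand] at h
  smul := fun γ hγ _ _ d z => PtInv.Jabd_smul_Gamma0 M d γ hγ z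

/-- helper82's weight-0 generators `wfun M u = H_{u₀} H_{u₁} H_{u₂} H_{u₃} / Δ`, with
`act d u = u · d`. -/
theorem famW (M : ℕ) [NeZero M] :
    IsDiamondFam M (fun (d : (ZMod M)ˣ) (u : Fin 4 → ZMod M) => fun i => u i * (d : ZMod M))
      (EisGen.wfun M) (EisGen.wq M) where
  act_one := fun u => by
    funext i
    simp
  act_mul := fun c d u => by
    funext i
    simp only [Units.val_mul]
    ring
  hasQExp := fun u => EisGen.hasQExp_wfun u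
  smul := fun γ hγ d hd u z =>
    EisGen.wfun_smul (fun i => u i * (d : ZMod M)) u γ hγ (fun i => by rw [hd]) z

/-! ### The three embeddings -/

section Main

variable {M : ℕ} {I : Type*} {act : (ZMod M)ˣ → I → I} {fn : I → ℍ → ℂ}
  {ser : I → LaurentSeries ℚ}
variable (K : Type*) [Field K] [Algebra ℚ K]

/-- The generators of `K(ser i)`. -/
def gens0 (ser : I → LaurentSeries ℚ) : I → LaurentSeries K := fun i => coeffEmb K (ser i)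

/-- The generators of `K(ser i, V_ℓ ser i)`. -/
def gens (ℓ : ℕ) [NeZero ℓ] (ser : I → LaurentSeries ℚ) : I ⊕ I → LaurentSeries K :=
  Sum.elim (fun i => coeffEmb K (ser i)) (fun i => coeffEmb K (qExpand ℚ ℓ (ser i)))

/-- The functions with expansions `gens`. -/
def gfun (ℓ : ℕ) (hℓ : 0 < ℓ) (fn : I → ℍ → ℂ) : I ⊕ I → ℍ → ℂ :=
  Sum.elim fn (fun i => Vfn ℓ hℓ (fn i))

variable {K}

theorem hasQExp_gens (hF : IsDiamondFam M act fn ser) (ι : K →+* ℂ) (ℓ : ℕ) [NeZero ℓ]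
    (hℓ : 0 < ℓ) (s : I ⊕ I) :
    HasQExp 1 (gfun ℓ hℓ fn s) (coeffMap ι (gens K ℓ ser s)) := by
  rcases s with i | i
  · exact hF.hasQExp_K ι i
  · show HasQExp 1 (Vfn ℓ hℓ (fn i)) (coeffMap ι (coeffEmb K (qExpand ℚ ℓ (ser i))))
    rw [coeffEmb_qExpand, coeffMap_qExpand]
    exact hasQExp_Vfn (hF.hasQExp_K ι i) ℓ hℓ

/-- **Conjugate embeddings** (form with `ι w = exp(2πi b/ℓ)`). -/
theorem exists_conj_of_zetaU (hF : IsDiamondFam M act fn ser) (ι : K →+* ℂ) (ℓ : ℕ) [NeZero ℓ]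
    (hcop : Nat.Coprime ℓ M) (b : ℕ) (w : Kˣ) (hw : Units.map (ι : K →* ℂ) w = zetaU ℓ b) :
    ∃ τ : IntermediateField.adjoin K (Set.range (gens K ℓ ser)) →ₐ[K] LaurentSeries K,
      ∀ s, τ ⟨gens K ℓ ser s, IntermediateField.subset_adjoin K _ ⟨s, rfl⟩⟩ =
        Sum.elim (fun i => qExpand K ℓ (coeffEmb K (ser i)))
          (fun i => rot w (coeffEmb K (ser (act (ZMod.unitOfCoprime ℓ hcop) i)))) s := by
  have hℓ : 0 < ℓ := Nat.pos_of_ne_zero (NeZero.ne ℓ)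
  obtain ⟨γ, γ', hγ, hγ', h11, hrel⟩ := exists_gamma1 M ℓ (NeZero.ne ℓ) hcop b
  refine ConjAbs.exists_algHom_of_hasQExp (h := 1) (h' := ℓ) ι (gens K ℓ ser) _ (gfun ℓ hℓ fn)
    (fun z => γ • z) (MulAction.surjective γ) (hasQExp_gens hF ι ℓ hℓ) ?_
  rintro (i | i)
  · show HasQExp ℓ (fun z => fn i (γ • z)) (coeffMap ι (qExpand K ℓ (coeffEmb K (ser i))))
    rw [coeffMap_qExpand]
    have h1 := (hF.hasQExp_K ι i).level ℓ
    rw [one_mul] at h1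
    exact h1.congr_fun' (fun z => (hF.fn_smul_Gamma1 hγ i z).symm)
  · show HasQExp ℓ (fun z => Vfn ℓ hℓ (fn i) (γ • z))
      (coeffMap ι (rot w (coeffEmb K (ser (act (ZMod.unitOfCoprime ℓ hcop) i)))))
    rw [coeffMap_rot, hw]
    have h1 := hasQExp_affPt (hF.hasQExp_K ι (act (ZMod.unitOfCoprime ℓ hcop) i)) 1 b ℓ
      one_pos hℓ
    rw [one_mul, qExpand_one_apply] at h1
    refine h1.congr_fun' (fun z => ?_)
    have hpt : HNFMod.affPt ℓ 0 1 hℓ one_pos (γ • z) = γ' • HNFMod.affPt 1 b ℓ one_pos hℓ z := by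
      apply UpperHalfPlane.ext
      rw [hrel z (HNFMod.affPt 1 b ℓ one_pos hℓ z) (by rw [HNFMod.coe_affPt]; push_cast; ring),
        HNFMod.coe_affPt]
      push_cast
      ring
    show fn (act (ZMod.unitOfCoprime ℓ hcop) i) (HNFMod.affPt 1 b ℓ one_pos hℓ z) =
      fn i (HNFMod.affPt ℓ 0 1 hℓ one_pos (γ • z))
    rw [hpt]
    exact (hF.fn_smul hγ' (ZMod.unitOfCoprime ℓ hcop)
      (by rw [ZMod.coe_unitOfCoprime]; exact h11) i _).symm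

/-- **Conjugate embeddings.**  For `ℓ` prime to `M` and an `ℓ`-th root of unity `w` of `K`
(with `ι : K →+* ℂ`): a `K`-embedding `τ : K(ser i, V_ℓ ser i) → K((t))` with
`τ (ser i) = (ser i)(t^ℓ)` and `τ (V_ℓ ser i) = (ser (act ℓ i))(w t)`. -/
theorem exists_conj (hF : IsDiamondFam M act fn ser) (ι : K →+* ℂ) (ℓ : ℕ) [NeZero ℓ]
    (hcop : Nat.Coprime ℓ M) (w : Kˣ) (hw : w ^ ℓ = 1) :
    ∃ τ : IntermediateField.adjoin K (Set.range (gens K ℓ ser)) →ₐ[K] LaurentSeries K,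
      ∀ s, τ ⟨gens K ℓ ser s, IntermediateField.subset_adjoin K _ ⟨s, rfl⟩⟩ =
        Sum.elim (fun i => qExpand K ℓ (coeffEmb K (ser i)))
          (fun i => rot w (coeffEmb K (ser (act (ZMod.unitOfCoprime ℓ hcop) i)))) s := by
  have hprim := Complex.isPrimitiveRoot_exp ℓ (NeZero.ne ℓ)
  have hpow : (ι (w : K)) ^ ℓ = 1 := by
    rw [← map_pow, ← Units.val_pow_eq_pow_val, hw, Units.val_one, map_one]
  obtain ⟨b, -, hb⟩ := hprim.eq_pow_of_pow_eq_one hpow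
  refine exists_conj_of_zetaU hF ι ℓ hcop b w ?_
  ext
  simp only [Units.coe_map, MonoidHom.coe_coe, zetaU, Units.val_mk0]
  rw [← hb, ← Complex.exp_nat_mul]
  congr 1
  push_cast
  ring

/-- **Diamond embeddings.**  For `c ∈ (ℤ/M)ˣ`: a `K`-embedding `δ : K(ser i) → K((q))` with
`δ (ser i) = ser (act c i)`. -/
theorem exists_diamond (hF : IsDiamondFam M act fn ser) (ι : K →+* ℂ) (c : (ZMod M)ˣ) :
    ∃ δ : IntermediateField.adjoin K (Set.range (gens0 K ser)) →ₐ[K] LaurentSeries K,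
      ∀ i, δ ⟨gens0 K ser i, IntermediateField.subset_adjoin K _ ⟨i, rfl⟩⟩ =
        coeffEmb K (ser (act c i)) := by
  obtain ⟨γ, hγ, h11⟩ := exists_gamma0_unit M c⁻¹
  refine ConjAbs.exists_algHom_of_hasQExp (h := 1) (h' := 1) ι (gens0 K ser) _ fn
    (fun z => γ • z) (MulAction.surjective γ) (fun i => hF.hasQExp_K ι i) ?_
  intro i
  refine (hF.hasQExp_K ι (act c i)).congr_fun' (fun z => ?_)
  exact (hF.fn_smul hγ c (by rw [h11]; simp) i z).symm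

/-- **Atkin–Lehner.**  For `ℓ` prime to `M`: a `K`-embedding `W : K(ser i, V_ℓ ser i) → K((q))`
with `W (ser i) = V_ℓ (ser (act ℓ⁻¹ i))` and `W (V_ℓ ser i) = ser i`. -/
theorem exists_atkinLehner (hF : IsDiamondFam M act fn ser) (ι : K →+* ℂ) (ℓ : ℕ) [NeZero ℓ]
    (hcop : Nat.Coprime ℓ M) :
    ∃ W : IntermediateField.adjoin K (Set.range (gens K ℓ ser)) →ₐ[K] LaurentSeries K,
      ∀ s, W ⟨gens K ℓ ser s, IntermediateField.subset_adjoin K _ ⟨s, rfl⟩⟩ =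
        Sum.elim
          (fun i => coeffEmb K (qExpand ℚ ℓ (ser (act (ZMod.unitOfCoprime ℓ hcop)⁻¹ i))))
          (fun i => coeffEmb K (ser i)) s := by
  have hℓ : 0 < ℓ := Nat.pos_of_ne_zero (NeZero.ne ℓ)
  obtain ⟨γ₁, γ₂, hγ₁, hγ₂, h11, hrel⟩ := exists_gammaAL M ℓ (NeZero.ne ℓ) hcop
  have hsurj : Function.Surjective (fun z : ℍ => γ₁ • HNFMod.affPt ℓ 0 1 hℓ one_pos z) := by
    intro w
    obtain ⟨v, rfl⟩ := MulAction.surjective γ₁ w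
    have hv : 0 < ((v : ℂ) / (ℓ : ℂ)).im := by
      rw [Complex.div_natCast_im]
      exact div_pos v.im_pos (by exact_mod_cast hℓ)
    refine ⟨⟨(v : ℂ) / (ℓ : ℂ), hv⟩, ?_⟩
    show γ₁ • HNFMod.affPt ℓ 0 1 hℓ one_pos ⟨(v : ℂ) / (ℓ : ℂ), hv⟩ = γ₁ • v
    congr 1
    apply UpperHalfPlane.ext
    rw [HNFMod.coe_affPt]
    have hℓC : (ℓ : ℂ) ≠ 0 := by exact_mod_cast hℓ.ne'
    show ((ℓ : ℂ) * ((v : ℂ) / (ℓ : ℂ)) + ((0 : ℕ) : ℂ)) / ((1 : ℕ) : ℂ) = (v : ℂ)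
    push_cast
    field_simp
    ring
  refine ConjAbs.exists_algHom_of_hasQExp (h := 1) (h' := 1) ι (gens K ℓ ser) _ (gfun ℓ hℓ fn)
    (fun z => γ₁ • HNFMod.affPt ℓ 0 1 hℓ one_pos z) hsurj (hasQExp_gens hF ι ℓ hℓ) ?_
  rintro (i | i)
  · show HasQExp 1 (fun z => fn i (γ₁ • HNFMod.affPt ℓ 0 1 hℓ one_pos z))
      (coeffMap ι (coeffEmb K (qExpand ℚ ℓ (ser (act (ZMod.unitOfCoprime ℓ hcop)⁻¹ i)))))
    rw [coeffEmb_qExpand, coeffMap_qExpand]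
    refine (hasQExp_Vfn (hF.hasQExp_K ι (act (ZMod.unitOfCoprime ℓ hcop)⁻¹ i)) ℓ hℓ).congr_fun'
      (fun z => ?_)
    refine (hF.fn_smul hγ₁ (ZMod.unitOfCoprime ℓ hcop)⁻¹ ?_ i _).symm
    rw [h11, ← ZMod.coe_unitOfCoprime ℓ hcop]
    exact Units.mul_inv _
  · show HasQExp 1 (fun z => Vfn ℓ hℓ (fn i) (γ₁ • HNFMod.affPt ℓ 0 1 hℓ one_pos z))
      (coeffMap ι (coeffEmb K (ser i)))
    refine (hF.hasQExp_K ι i).congr_fun' (fun z => ?_)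
    have hpt : HNFMod.affPt ℓ 0 1 hℓ one_pos (γ₁ • HNFMod.affPt ℓ 0 1 hℓ one_pos z) = γ₂ • z := by
      apply UpperHalfPlane.ext
      rw [← hrel z (HNFMod.affPt ℓ 0 1 hℓ one_pos z) (by rw [HNFMod.coe_affPt]; push_cast; ring),
        HNFMod.coe_affPt]
      push_cast
      ring
    show fn i z = fn i (HNFMod.affPt ℓ 0 1 hℓ one_pos (γ₁ • HNFMod.affPt ℓ 0 1 hℓ one_pos z))
    rw [hpt]
    exact (hF.fn_smul_Gamma1 hγ₂ i z).symm

end Main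

end

end Fermat.Agent.G1.ConjFam
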