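/-
G1-GEN (function field of `X_1(M)`, μ-model): the generators `x_u = H_u⁴ / Δ`.

For `u : ZMod M` the function `x_u = H_u⁴ / Δ` (`H_u` the weight-3 Eisenstein series of
`G1/EisGen.lean`) is holomorphic on `ℍ`, of weight `0`, invariant under `Γ₁(M)`, even in `u`,
permuted by `Γ₀(M)` (`x_{u d}(γ z) = x_u(z)`, `d = γ₁₁`), meromorphic at all cusps, and its
`q`-expansion is `q⁻¹ · xNum M u` with `xNum M u ∈ ℤ⟦q⟧`, starting with `1 · q^{4 u₀ - 1}`,
`u₀ = xlead M u = min(u.val, (-u).val)`.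

* formal side: `xNum`, `xgenR R M u` (coefficients in any commutative ring), `xgen M u`
  (`u : (ZMod M)ˣ`, coefficients in `ℚ`), `coeffMap_xgenR`, `xgenR_neg`, `xlead`,
  `xgenR_coeff_of_lt_lead`, `xgenR_coeff_lead`, property (U): `xgenR_sub_leading`,
  `xgen_sub_leading`;
* fields: `F1 M`, `F1a M a`, `F1C k M`;
* analytic side: `xfun`, `mdiff_xfun`, `xfun_smul`, `xfun_smul_Gamma1`, `xfun_neg`,
  `xfun_comp_mem_MerInf`, `xfun_cusp`, `hasQExp_xfun`.
-/
import Mathlib
import Fermat.Agent.G1.EisGenCusp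
import Fermat.Agent.S20.Defs

set_option autoImplicit false

namespace Fermat.Agent.G1

open UpperHalfPlane ModularForm CongruenceSubgroup Complex ModularCurve
open Fermat.Agent.S24.QExp
open scoped MatrixGroups Manifold Real

/-! ### The formal generators -/

/-- The integral numerator series of `x_u`: `H_u⁴ · (Δ/q)⁻¹ ∈ ℤ⟦q⟧`. -/
noncomputable def xNum (M : ℕ) (u : ZMod M) : PowerSeries ℤ := EisGen.wNum M (fun _ => u)

/-- The formal generator `x_u = q⁻¹ · xNum` with coefficients in a commutative ring `R`. -/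
noncomputable def xgenR (R : Type*) [CommRing R] (M : ℕ) (u : ZMod M) : LaurentSeries R :=
  HahnSeries.single (-1 : ℤ) 1 *
    HahnSeries.ofPowerSeries ℤ R ((xNum M u).map (Int.castRingHom R))

/-- The formal generator `x_u ∈ ℚ((q))`, `u` a unit modulo `M`. -/
noncomputable def xgen (M : ℕ) (u : (ZMod M)ˣ) : LaurentSeries ℚ := xgenR ℚ M (u : ZMod M)

section Formal

variable (M : ℕ)

theorem xNum_eq (u : ZMod M) :
    xNum M u = EisGen.hSeries M u ^ 4 * dedekindEtaUnitInv := by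
  unfold xNum EisGen.wNum
  rw [Fin.prod_univ_four]
  ring

theorem xgen_eq_wq (u : (ZMod M)ˣ) : xgen M u = EisGen.wq M (fun _ => (u : ZMod M)) := rfl

theorem xgen_eq_xgenR (u : (ZMod M)ˣ) : xgen M u = xgenR ℚ M (u : ZMod M) := rfl

/-- Integrality / base change: the generators are defined over `ℤ`. -/
theorem coeffMap_xgenR {R S : Type*} [CommRing R] [CommRing S] (f : R →+* S) (u : ZMod M) :
    coeffMap f (xgenR R M u) = xgenR S M u := by
  rw [xgenR, map_mul, coeffMap_single, map_one, coeffMap_ofPowerSeries,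
    ← RingHom.comp_apply (PowerSeries.map f) (PowerSeries.map (Int.castRingHom R)),
    ← PowerSeries.map_comp, RingHom.ext_int (f.comp (Int.castRingHom R)) (Int.castRingHom S)]
  rfl

theorem coeffEmb_xgen (L : Type*) [Field L] [Algebra ℚ L] (u : (ZMod M)ˣ) :
    coeffEmb L (xgen M u) = xgenR L M (u : ZMod M) :=
  coeffMap_xgenR M _ _

theorem xgenR_coeff_natCast_sub_one (R : Type*) [CommRing R] (u : ZMod M) (n : ℕ) :
    (xgenR R M u).coeff ((n : ℤ) - 1) = ((PowerSeries.coeff n (xNum M u) : ℤ) : R) := by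
  have h := HahnSeries.coeff_single_mul_add (r := (1 : R))
    (x := HahnSeries.ofPowerSeries ℤ R ((xNum M u).map (Int.castRingHom R))) (a := (n : ℤ))
    (b := (-1 : ℤ))
  rw [one_mul, HahnSeries.ofPowerSeries_apply_coeff, PowerSeries.coeff_map] at h
  rw [sub_eq_add_neg]
  exact h

theorem xgenR_coeff_of_lt (R : Type*) [CommRing R] (u : ZMod M) {m : ℤ} (hm : m < -1) :
    (xgenR R M u).coeff m = 0 := by
  have h := HahnSeries.coeff_single_mul_add (r := (1 : R))
    (x := HahnSeries.ofPowerSeries ℤ R ((xNum M u).map (Int.castRingHom R))) (a := m + 1)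
    (b := (-1 : ℤ))
  rw [one_mul, ofPowerSeries_coeff_of_neg _ (by omega)] at h
  have e : m + 1 + -1 = m := by ring
  rw [e] at h
  exact h

/-- The coefficients of `xgen` are integers. -/
theorem xgen_coeff_isInt (u : (ZMod M)ˣ) (m : ℤ) : ∃ c : ℤ, (xgen M u).coeff m = (c : ℚ) := by
  rcases lt_or_ge m (-1) with h | h
  · exact ⟨0, by rw [xgen, xgenR_coeff_of_lt M ℚ _ h]; simp⟩
  · obtain ⟨n, hn⟩ := Int.eq_ofNat_of_zero_le (by omega : 0 ≤ m + 1)
    have e : m = (n : ℤ) - 1 := by omega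
    exact ⟨_, by rw [e, xgen, xgenR_coeff_natCast_sub_one]⟩

theorem hSeries_neg (u : ZMod M) : EisGen.hSeries M (-u) = -EisGen.hSeries M u := by
  ext n
  rw [EisGen.coeff_hSeries, EisGen.hCoeff_neg, map_neg, EisGen.coeff_hSeries]

theorem xNum_neg (u : ZMod M) : xNum M (-u) = xNum M u := by
  rw [xNum_eq, xNum_eq, hSeries_neg]
  ring

theorem xgenR_neg (R : Type*) [CommRing R] (u : ZMod M) : xgenR R M (-u) = xgenR R M u := by
  rw [xgenR, xgenR, xNum_neg]

theorem xgen_neg (u : (ZMod M)ˣ) : xgen M (-u) = xgen M u := by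
  rw [xgen, xgen, Units.val_neg, xgenR_neg]

/-! ### Leading terms and property (U) -/

/-- The least positive residue of `±u`. -/
def xlead (u : ZMod M) : ℕ := min u.val (-u).val

theorem xlead_neg (u : ZMod M) : xlead M (-u) = xlead M u := by
  unfold xlead
  rw [neg_neg, min_comm]

variable {M}

theorem exists_rep_xlead [NeZero M] {u : ZMod M} (hu : u ≠ -u) :
    ∃ v : ZMod M, (v = u ∨ v = -u) ∧ v.val = xlead M u ∧ 0 < v.val ∧ 2 * v.val < M := by
  have hu0 : u ≠ 0 := by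
    rintro rfl
    exact hu (by simp)
  have hpos : 0 < u.val := (ZMod.val_pos).mpr hu0
  have hlt : u.val < M := ZMod.val_lt u
  have hneg : (-u).val = M - u.val := by
    rw [ZMod.neg_val, if_neg hu0]
  have hne : 2 * u.val ≠ M := by
    intro h
    apply hu
    apply ZMod.val_injective M
    rw [hneg]
    omega
  unfold xlead
  rw [hneg]
  rcases le_or_gt u.val (M - u.val) with h | h
  · exact ⟨u, Or.inl rfl, by rw [min_eq_left h], hpos, by omega⟩
  · exact ⟨-u, Or.inr rfl, by rw [hneg, min_eq_right h.le], by rw [hneg]; omega,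
      by rw [hneg]; omega⟩

theorem xlead_pos [NeZero M] {u : ZMod M} (hu : u ≠ -u) : 0 < xlead M u := by
  obtain ⟨v, -, hv, h0, -⟩ := exists_rep_xlead hu
  rw [← hv]
  exact h0

theorem two_mul_xlead_lt [NeZero M] {u : ZMod M} (hu : u ≠ -u) : 2 * xlead M u < M := by
  obtain ⟨v, -, hv, -, h2⟩ := exists_rep_xlead hu
  rw [← hv]
  exact h2

theorem xlead_eq_iff [NeZero M] {u u' : ZMod M} (hu : u ≠ -u) (hu' : u' ≠ -u') :
    xlead M u = xlead M u' ↔ u = u' ∨ u = -u' := by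
  constructor
  · intro h
    obtain ⟨v, hv, hvl, -, -⟩ := exists_rep_xlead hu
    obtain ⟨v', hv', hvl', -, -⟩ := exists_rep_xlead hu'
    have e : v = v' := ZMod.val_injective M (by rw [hvl, hvl', h])
    rcases hv with rfl | rfl <;> rcases hv' with rfl | rfl
    · exact Or.inl e
    · exact Or.inr e
    · right
      rw [← e, neg_neg]
    · left
      exact neg_injective e
  · rintro (rfl | rfl)
    · rfl
    · exact xlead_neg M u'

theorem unit_ne_neg (hM : 3 ≤ M) (u : (ZMod M)ˣ) : (u : ZMod M) ≠ -(u : ZMod M) := by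
  intro h
  have h2 : (2 : ZMod M) * (u : ZMod M) = 0 := by
    rw [two_mul]
    nth_rewrite 1 [h]
    exact neg_add_cancel _
  have h3 : (2 : ZMod M) = 0 := by
    have := congrArg (fun x => x * ((u⁻¹ : (ZMod M)ˣ) : ZMod M)) h2
    simpa [mul_assoc] using this
  have h4 : ((2 : ℕ) : ZMod M) = 0 := by exact_mod_cast h3
  rw [ZMod.natCast_eq_zero_iff] at h4
  have := Nat.le_of_dvd (by norm_num) h4
  omega

/-- `xNum M u = q^{4 u₀} · (1 + …)`. -/
theorem exists_xNum_eq [NeZero M] {u : ZMod M} (hu : u ≠ -u) :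
    ∃ g : PowerSeries ℤ, PowerSeries.constantCoeff g = 1 ∧
      xNum M u = PowerSeries.X ^ (4 * xlead M u) * g := by
  obtain ⟨v, hv, hvl, h0, h2⟩ := exists_rep_xlead hu
  have hx : xNum M u = xNum M v := by
    rcases hv with rfl | rfl
    · rfl
    · rw [xNum_neg]
  have hdvd : (PowerSeries.X : PowerSeries ℤ) ^ v.val ∣ EisGen.hSeries M v := by
    rw [PowerSeries.X_pow_dvd_iff]
    intro m hm
    rw [EisGen.coeff_hSeries]
    exact EisGen.hCoeff_eq_zero_of_lt M h2 hm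
  obtain ⟨g, hg⟩ := hdvd
  have hg0 : PowerSeries.constantCoeff g = 1 := by
    have h1 : PowerSeries.coeff v.val (EisGen.hSeries M v) = 1 := by
      rw [EisGen.coeff_hSeries]
      exact EisGen.hCoeff_val M h0 h2
    rw [hg, PowerSeries.coeff_X_pow_mul', if_pos le_rfl, Nat.sub_self] at h1
    rw [← PowerSeries.coeff_zero_eq_constantCoeff_apply]
    exact h1
  refine ⟨g ^ 4 * dedekindEtaUnitInv, ?_, ?_⟩
  · rw [map_mul, map_pow, hg0, ModularCurve.constantCoeff_dedekindEtaUnitInv]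
    norm_num
  · rw [hx, xNum_eq, hg, ← hvl]
    ring

theorem xNum_coeff_of_lt [NeZero M] {u : ZMod M} (hu : u ≠ -u) {n : ℕ}
    (hn : n < 4 * xlead M u) : PowerSeries.coeff n (xNum M u) = 0 := by
  obtain ⟨g, -, hg⟩ := exists_xNum_eq hu
  rw [hg, PowerSeries.coeff_X_pow_mul', if_neg (by omega)]

theorem xNum_coeff_lead [NeZero M] {u : ZMod M} (hu : u ≠ -u) :
    PowerSeries.coeff (4 * xlead M u) (xNum M u) = 1 := by
  obtain ⟨g, hg0, hg⟩ := exists_xNum_eq hu
  rw [hg, PowerSeries.coeff_X_pow_mul', if_pos le_rfl, Nat.sub_self,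
    PowerSeries.coeff_zero_eq_constantCoeff_apply, hg0]

/-- Below the exponent `4 u₀ - 1` the coefficients of `x_u` vanish. -/
theorem xgenR_coeff_of_lt_lead (R : Type*) [CommRing R] [NeZero M] {u : ZMod M} (hu : u ≠ -u)
    {m : ℤ} (hm : m < 4 * (xlead M u : ℤ) - 1) : (xgenR R M u).coeff m = 0 := by
  rcases lt_or_ge m (-1) with h | h
  · exact xgenR_coeff_of_lt M R u h
  · obtain ⟨n, hn⟩ := Int.eq_ofNat_of_zero_le (by omega : 0 ≤ m + 1)
    have e : m = (n : ℤ) - 1 := by omega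
    rw [e, xgenR_coeff_natCast_sub_one, xNum_coeff_of_lt hu (by omega), Int.cast_zero]

/-- The leading coefficient of `x_u` (at `q^{4 u₀ - 1}`) is `1`. -/
theorem xgenR_coeff_lead (R : Type*) [CommRing R] [NeZero M] {u : ZMod M} (hu : u ≠ -u) :
    (xgenR R M u).coeff (4 * (xlead M u : ℤ) - 1) = 1 := by
  have e : 4 * (xlead M u : ℤ) - 1 = ((4 * xlead M u : ℕ) : ℤ) - 1 := by push_cast; ring
  rw [e, xgenR_coeff_natCast_sub_one, xNum_coeff_lead hu, Int.cast_one]

/-- **Property (U)** over any coefficient ring: for `u ≠ ±u'` the difference `x_u - x_{u'}` has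
leading coefficient `±1`. -/
theorem xgenR_sub_leading (R : Type*) [CommRing R] [NeZero M] {u u' : ZMod M} (hu : u ≠ -u)
    (hu' : u' ≠ -u') (h1 : u ≠ u') (h2 : u ≠ -u') :
    ∃ n : ℤ, (∀ m < n, (xgenR R M u - xgenR R M u').coeff m = 0) ∧
      ((xgenR R M u - xgenR R M u').coeff n = 1 ∨
        (xgenR R M u - xgenR R M u').coeff n = -1) := by
  have hne : xlead M u ≠ xlead M u' := by
    intro h
    rcases (xlead_eq_iff hu hu').mp h with h | h
    · exact h1 h
    · exact h2 h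
  rcases lt_or_gt_of_ne hne with h | h
  · refine ⟨4 * (xlead M u : ℤ) - 1, fun m hm => ?_, Or.inl ?_⟩
    · rw [HahnSeries.coeff_sub, xgenR_coeff_of_lt_lead R hu hm,
        xgenR_coeff_of_lt_lead R hu' (by omega), sub_zero]
    · rw [HahnSeries.coeff_sub, xgenR_coeff_lead R hu,
        xgenR_coeff_of_lt_lead R hu' (by omega), sub_zero]
  · refine ⟨4 * (xlead M u' : ℤ) - 1, fun m hm => ?_, Or.inr ?_⟩
    · rw [HahnSeries.coeff_sub, xgenR_coeff_of_lt_lead R hu (by omega),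
        xgenR_coeff_of_lt_lead R hu' hm, sub_zero]
    · rw [HahnSeries.coeff_sub, xgenR_coeff_lead R hu',
        xgenR_coeff_of_lt_lead R hu (by omega), zero_sub]

/-- The reductions of the generators are pairwise distinct (up to sign of the index) over any
nontrivial coefficient ring. -/
theorem xgenR_eq_iff (R : Type*) [CommRing R] [Nontrivial R] [NeZero M] {u u' : ZMod M}
    (hu : u ≠ -u) (hu' : u' ≠ -u') : xgenR R M u = xgenR R M u' ↔ u = u' ∨ u = -u' := by
  constructor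
  · intro h
    by_contra hcon
    rw [not_or] at hcon
    obtain ⟨n, -, hn⟩ := xgenR_sub_leading R hu hu' hcon.1 hcon.2
    rw [h, sub_self, HahnSeries.coeff_zero] at hn
    rcases hn with hn | hn
    · exact zero_ne_one hn
    · exact one_ne_zero (neg_eq_zero.mp hn.symm)
  · rintro (rfl | rfl)
    · rfl
    · exact xgenR_neg M R u'

/-- **Property (U)** for the rational generators. -/
theorem xgen_sub_leading (hM : 3 ≤ M) (u u' : (ZMod M)ˣ) (h1 : u ≠ u') (h2 : u ≠ -u') :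
    ∃ n : ℤ, (∀ m < n, (xgen M u - xgen M u').coeff m = 0) ∧
      ((xgen M u - xgen M u').coeff n = 1 ∨ (xgen M u - xgen M u').coeff n = -1) := by
  have : NeZero M := ⟨by omega⟩
  refine xgenR_sub_leading ℚ (unit_ne_neg hM u) (unit_ne_neg hM u') ?_ ?_
  · exact fun h => h1 (Units.ext h)
  · exact fun h => h2 (Units.ext (by rw [Units.val_neg]; exact h))

theorem xgen_eq_iff (hM : 3 ≤ M) (u u' : (ZMod M)ˣ) : xgen M u = xgen M u' ↔ u = u' ∨ u = -u' := by
  have : NeZero M := ⟨by omega⟩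
  rw [xgen, xgen, xgenR_eq_iff ℚ (unit_ne_neg hM u) (unit_ne_neg hM u')]
  constructor
  · rintro (h | h)
    · exact Or.inl (Units.ext h)
    · exact Or.inr (Units.ext (by rw [Units.val_neg]; exact h))
  · rintro (rfl | rfl)
    · exact Or.inl rfl
    · exact Or.inr (by rw [Units.val_neg])

end Formal

/-! ### The fields -/

section Fields

open IntermediateField

/-- The function field of `X_1(M)` over `ℚ` (μ-model) inside `ℚ((q))`. -/
noncomputable def F1 (M : ℕ) [NeZero M] : IntermediateField ℚ (LaurentSeries ℚ) :=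
  IntermediateField.adjoin ℚ
    ((modularFunctionFieldFull M : Set (LaurentSeries ℚ)) ∪ Set.range (xgen M))

/-- The function field of `Γ₁(M) ∩ Γ₀(M a)`. -/
noncomputable def F1a (M a : ℕ) [NeZero M] [NeZero a] : IntermediateField ℚ (LaurentSeries ℚ) :=
  F1 M ⊔ modularFunctionFieldFull (M * a)

/-- The twin of `F1 M` with coefficients in an arbitrary field `k`. -/
noncomputable def F1C (k : Type*) [Field k] (M : ℕ) [NeZero M] :
    IntermediateField k (LaurentSeries k) :=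
  IntermediateField.adjoin k
    ((modularFunctionFieldFullC k M : Set (LaurentSeries k)) ∪
      Set.range (fun u : (ZMod M)ˣ => xgenR k M (u : ZMod M)))

variable (M : ℕ) [NeZero M]

theorem full_le_F1 : modularFunctionFieldFull M ≤ F1 M := fun _ hx =>
  subset_adjoin ℚ _ (Or.inl hx)

theorem xgen_mem_F1 (u : (ZMod M)ˣ) : xgen M u ∈ F1 M :=
  subset_adjoin ℚ _ (Or.inr ⟨u, rfl⟩)

theorem F1_le_F1a (a : ℕ) [NeZero a] : F1 M ≤ F1a M a := le_sup_left

theorem full_le_F1a (a : ℕ) [NeZero a] : modularFunctionFieldFull (M * a) ≤ F1a M a := le_sup_right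

theorem F1C_rat : F1C ℚ M = F1 M := rfl

theorem fullC_le_F1C (k : Type*) [Field k] : modularFunctionFieldFullC k M ≤ F1C k M := fun _ hx =>
  subset_adjoin k _ (Or.inl hx)

theorem xgenR_mem_F1C (k : Type*) [Field k] (u : (ZMod M)ˣ) : xgenR k M (u : ZMod M) ∈ F1C k M :=
  subset_adjoin k _ (Or.inr ⟨u, rfl⟩)

theorem F1a_one : F1a M 1 = F1 M := by
  unfold F1a
  rw [sup_eq_left]
  refine le_trans ?_ (full_le_F1 M)
  unfold modularFunctionFieldFull
  apply IntermediateField.adjoin.mono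
  rintro x ⟨d, hd, hdvd, rfl⟩
  exact ⟨d, hd, by simpa using hdvd, rfl⟩

end Fields

/-! ### The analytic generators -/

section Analytic

/-- The analytic generator `x_u = H_u⁴ / Δ` on the upper half plane. -/
noncomputable def xfun (M : ℕ) [NeZero M] (u : ZMod M) : ℍ → ℂ := EisGen.wfun M (fun _ => u)

variable {M : ℕ} [NeZero M]

theorem xfun_apply (u : ZMod M) (z : ℍ) :
    xfun M u z = EisGen.H M u z ^ 4 / ModularForm.discriminant z := by
  unfold xfun EisGen.wfun
  rw [Fin.prod_univ_four]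
  ring

/-- `x_u` is holomorphic on `ℍ`. -/
theorem mdiff_xfun (u : ZMod M) : MDiff (xfun M u) := EisGen.mdiff_wfun _

/-- **Diamond action**: for `γ ∈ Γ₀(M)` with lower right entry `d`, `x_u ∘ γ = x_{u'}` where
`u' d = u`. -/
theorem xfun_smul_of_eq (u u' : ZMod M) (γ : SL(2, ℤ)) (hγ : γ ∈ Gamma0 M)
    (hu : u' * ((γ 1 1 : ℤ) : ZMod M) = u) (z : ℍ) : xfun M u (γ • z) = xfun M u' z :=
  EisGen.wfun_smul _ _ γ hγ (fun _ => hu) z

/-- **Diamond action**: `x_{u d}(γ z) = x_u(z)` for `γ ∈ Γ₀(M)`, `d = γ₁₁`. -/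
theorem xfun_smul (u : ZMod M) (γ : SL(2, ℤ)) (hγ : γ ∈ Gamma0 M) (z : ℍ) :
    xfun M (u * ((γ 1 1 : ℤ) : ZMod M)) (γ • z) = xfun M u z :=
  xfun_smul_of_eq _ u γ hγ rfl z

/-- **Diamond action**, unit form: `x_u ∘ γ = x_{u c⁻¹}` for `γ ∈ Γ₀(M)`, `c = γ₁₁`. -/
theorem xfun_smul_unit (u c : (ZMod M)ˣ) (γ : SL(2, ℤ)) (hγ : γ ∈ Gamma0 M)
    (hc : (c : ZMod M) = ((γ 1 1 : ℤ) : ZMod M)) (z : ℍ) :
    xfun M (u : ZMod M) (γ • z) = xfun M ((u * c⁻¹ : (ZMod M)ˣ) : ZMod M) z := by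
  refine xfun_smul_of_eq _ _ γ hγ ?_ z
  rw [← hc, ← Units.val_mul, inv_mul_cancel_right]

/-- `x_u` is `Γ₁(M)`-invariant. -/
theorem xfun_smul_Gamma1 (u : ZMod M) (γ : SL(2, ℤ)) (hγ : γ ∈ Gamma1 M) (z : ℍ) :
    xfun M u (γ • z) = xfun M u z :=
  EisGen.wfun_smul_Gamma1 _ γ hγ z

/-- `x_{-u} = x_u`. -/
theorem xfun_neg (u : ZMod M) : xfun M (-u) = xfun M u := by
  funext z
  rw [xfun_apply, xfun_apply, EisGen.H_neg]
  simp only [neg_apply]
  ring

/-- `M`-periodicity of all `SL(2, ℤ)`-translates. -/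
theorem xfun_comp_vadd (u : ZMod M) (g : SL(2, ℤ)) (z : ℍ) :
    xfun M u (g • (((M : ℕ) : ℝ) +ᵥ z)) = xfun M u (g • z) :=
  EisGen.wfun_comp_vadd _ g z

/-- **Cusps**: every `SL(2, ℤ)`-translate of `x_u` is holomorphic, `M`-periodic and meromorphic
at `i∞`. -/
theorem xfun_comp_mem_MerInf (u : ZMod M) (g : SL(2, ℤ)) :
    (fun z : ℍ => xfun M u (g • z)) ∈ Fermat.Agent.S24.QLaurent.MerInf M :=
  EisGen.wfun_comp_mem_MerInf _ g

/-- **Cusps**: `Δ · (x_u ∘ g)` is bounded at `i∞` for every `g ∈ SL(2, ℤ)`. -/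
theorem isBoundedAtImInfty_disc_mul_xfun (u : ZMod M) (g : SL(2, ℤ)) :
    IsBoundedAtImInfty (fun z : ℍ => ModularForm.discriminant z * xfun M u (g • z)) := by
  have hb : IsBoundedAtImInfty (fun z : ℍ => (⇑(EisGen.H M u) ∣[(3 : ℤ)] g) z *
      (⇑(EisGen.H M u) ∣[(3 : ℤ)] g) z * (⇑(EisGen.H M u) ∣[(3 : ℤ)] g) z *
      (⇑(EisGen.H M u) ∣[(3 : ℤ)] g) z) :=
    (((EisGen.isBoundedAtImInfty_H_slash u g).mul (EisGen.isBoundedAtImInfty_H_slash u g)).mul
      (EisGen.isBoundedAtImInfty_H_slash u g)).mul (EisGen.isBoundedAtImInfty_H_slash u g)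
  have e : (fun z : ℍ => ModularForm.discriminant z * xfun M u (g • z)) =
      fun z : ℍ => (⇑(EisGen.H M u) ∣[(3 : ℤ)] g) z *
      (⇑(EisGen.H M u) ∣[(3 : ℤ)] g) z * (⇑(EisGen.H M u) ∣[(3 : ℤ)] g) z *
      (⇑(EisGen.H M u) ∣[(3 : ℤ)] g) z := by
    funext z
    unfold xfun
    rw [EisGen.wfun_smul_eq, Fin.prod_univ_four,
      mul_div_cancel₀ _ (ModularForm.discriminant_ne_zero z)]
  rw [e]
  exact hb

/-- **Cusps**, in the literal shape consumed by `ESJ.Jac.GalC.exists_rep_of_invariant`. -/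
theorem xfun_cusp (u : ZMod M) (g : SL(2, ℤ)) :
    ∃ m : ℕ, IsBoundedAtImInfty
      (Fermat.Agent.S20.Δf ^ m * Fermat.Agent.S24.trans g (xfun M u)) := by
  refine ⟨1, ?_⟩
  have h := isBoundedAtImInfty_disc_mul_xfun u g⁻¹
  have e : Fermat.Agent.S20.Δf ^ 1 * Fermat.Agent.S24.trans g (xfun M u) =
      fun z : ℍ => ModularForm.discriminant z * xfun M u (g⁻¹ • z) := by
    funext z
    simp [Fermat.Agent.S20.Δf, Fermat.Agent.S24.trans]
  rw [e]
  exact h

/-- **Formal = analytic**: `x_u(τ) = ∑ₙ (xgenR ℂ M u)ₙ qⁿ`, `q = exp(2πiτ)`. -/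
theorem hasQExp_xfun (u : ZMod M) : HasQExp 1 (xfun M u) (xgenR ℂ M u) := by
  have h := EisGen.hasQExp_wfun (M := M) (fun _ => u)
  have e : coeffMap (algebraMap ℚ ℂ) (EisGen.wq M (fun _ => u)) = xgenR ℂ M u :=
    coeffMap_xgenR M (algebraMap ℚ ℂ) u
  rw [e] at h
  exact h

/-- **Formal = analytic**, rational form. -/
theorem hasQExp_xfun' (u : (ZMod M)ˣ) :
    HasQExp 1 (xfun M (u : ZMod M)) (coeffMap (algebraMap ℚ ℂ) (xgen M u)) :=
  EisGen.hasQExp_wfun (M := M) (fun _ => (u : ZMod M))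

end Analytic

end Fermat.Agent.G1
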