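/-
G1-GEN (2): invariant polynomial expressions in the generators lie in the function field of
`X_0(N)`.

* `aeval_mem_of_invariant` (generator-agnostic): if the functions `f s` on `ℍ` have the
  `q`-expansions `L s ∈ K((q))`, are meromorphic at all cusps, and the polynomial expression
  `Ψ(f)` is `Γ₀(N)`-invariant, then `Ψ(L) ∈ K·F₀(N) = laurentBaseChange K (modularFunctionFieldFull N)`;
* `aeval_xgenR_mem_of_invariant`, `aeval_xgen_mem_full` : the case of the generators `x_u` of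
  `F1 M`: a polynomial in the `x_u`, `u ∈ (ℤ/M)ˣ`, invariant under simultaneous translation of
  the indices by `(ℤ/M)ˣ`, lies in `F₀(M)`.
-/
import Mathlib
import Fermat.Agent.G1.Gen
import Fermat.Agent.ESJ.Jac.GalC
import Fermat.Agent.Lib.LaurentDescent

set_option autoImplicit false

namespace Fermat.Agent.G1

open UpperHalfPlane ModularForm CongruenceSubgroup Complex ModularCurve
open Fermat.Agent.S24.QExp
open scoped MatrixGroups Manifold Real

/-- Pointwise evaluation of a polynomial expression in functions on `ℍ`. -/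
theorem eval₂_pi_apply {σ K : Type*} [Field K] (ι : K →+* ℂ) (F : σ → ℍ → ℂ)
    (P : MvPolynomial σ K) (z : ℍ) :
    MvPolynomial.eval₂ ((Pi.constRingHom ℍ ℂ).comp ι) F P z =
      MvPolynomial.eval₂ ι (fun s => F s z) P := by
  induction P using MvPolynomial.induction_on with
  | C a => rw [MvPolynomial.eval₂_C, MvPolynomial.eval₂_C]; rfl
  | add p q hp hq => rw [MvPolynomial.eval₂_add, MvPolynomial.eval₂_add, Pi.add_apply, hp, hq]
  | mul_X p s hp =>
    rw [MvPolynomial.eval₂_mul, MvPolynomial.eval₂_X, MvPolynomial.eval₂_mul,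
      MvPolynomial.eval₂_X, Pi.mul_apply, hp]

/-- Polynomial expressions in members of a subalgebra of functions on `ℍ` stay in it. -/
theorem eval₂_mem_subalgebra {σ K : Type*} [Field K] (ι : K →+* ℂ) (S : Subalgebra ℂ (ℍ → ℂ))
    (F : σ → ℍ → ℂ) (hF : ∀ s, F s ∈ S) (P : MvPolynomial σ K) :
    MvPolynomial.eval₂ ((Pi.constRingHom ℍ ℂ).comp ι) F P ∈ S := by
  induction P using MvPolynomial.induction_on with
  | C a =>
    rw [MvPolynomial.eval₂_C]
    exact S.algebraMap_mem (ι a)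
  | add p q hp hq =>
    rw [MvPolynomial.eval₂_add]
    exact S.add_mem hp hq
  | mul_X p s hp =>
    rw [MvPolynomial.eval₂_mul, MvPolynomial.eval₂_X]
    exact S.mul_mem hp (hF s)

theorem laurentBaseChange_rat (F₀ : IntermediateField ℚ (LaurentSeries ℚ)) :
    laurentBaseChange ℚ F₀ = F₀ := by
  unfold laurentBaseChange
  have h : (⇑(coeffEmb ℚ) '' (F₀ : Set (LaurentSeries ℚ))) = (F₀ : Set (LaurentSeries ℚ)) := by
    ext x
    constructor
    · rintro ⟨y, hy, rfl⟩
      have : coeffEmb ℚ y = y := by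
        ext n
        simp
      rw [this]
      exact hy
    · intro hx
      refine ⟨x, hx, ?_⟩
      ext n
      simp
  rw [h]
  exact IntermediateField.adjoin_self ℚ F₀

/-- **Invariants lie in the function field of `X₀(N)`** (generator-agnostic form).  If the
functions `f s` have `q`-expansions `L s`, are meromorphic at all cusps, and `Ψ(f)` is
`Γ₀(N)`-invariant, then `Ψ(L) ∈ K·F₀(N)`. -/
theorem aeval_mem_of_invariant (N : ℕ) [NeZero N] (h : ℕ) [NeZero h] {σ K : Type*} [Field K]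
    [Algebra ℚ K] (ι : K →+* ℂ) (f : σ → ℍ → ℂ) (L : σ → LaurentSeries K)
    (hq : ∀ s, HasQExp 1 (f s) (coeffMap ι (L s)))
    (hc : ∀ s (g : SL(2, ℤ)), (fun z : ℍ => f s (g • z)) ∈ Fermat.Agent.S24.QLaurent.MerInf h)
    (Ψ : MvPolynomial σ K)
    (hinv : ∀ γ ∈ Gamma0 N, ∀ z : ℍ, MvPolynomial.eval₂ ι (fun s => f s (γ • z)) Ψ =
      MvPolynomial.eval₂ ι (fun s => f s z) Ψ) :
    MvPolynomial.aeval L Ψ ∈ laurentBaseChange K (modularFunctionFieldFull N) := by
  set A : ℍ → ℂ := MvPolynomial.eval₂ ((Pi.constRingHom ℍ ℂ).comp ι) f Ψ with hA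
  have hAq : HasQExp 1 A (coeffMap ι (MvPolynomial.aeval L Ψ)) :=
    HasQExp.mvPolynomial ι f L hq Ψ
  have hAg : ∀ g : SL(2, ℤ), (fun z : ℍ => A (g • z)) ∈ Fermat.Agent.S24.QLaurent.MerInf h := by
    intro g
    have h1 := eval₂_mem_subalgebra ι (Fermat.Agent.S24.QLaurent.MerInf h)
      (fun s z => f s (g • z)) (fun s => hc s g) Ψ
    have e : (fun z : ℍ => A (g • z)) =
        MvPolynomial.eval₂ ((Pi.constRingHom ℍ ℂ).comp ι) (fun s z => f s (g • z)) Ψ := by
      funext z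
      rw [hA, eval₂_pi_apply, eval₂_pi_apply]
    rw [e]
    exact h1
  have hAmd : MDiff A := by
    have h1 := hAg 1
    simp only [one_smul] at h1
    exact ((Fermat.Agent.S24.QLaurent.mem_MerInf_iff_discriminant).mp h1).1
  have hAinv : ∀ γ ∈ Gamma0 N, ∀ z : ℍ, A (γ • z) = A z := by
    intro γ hγ z
    rw [hA, eval₂_pi_apply, eval₂_pi_apply]
    exact hinv γ hγ z
  have hAc : ∀ g : SL(2, ℤ), ∃ m : ℕ, IsBoundedAtImInfty
      (Fermat.Agent.S20.Δf ^ m * Fermat.Agent.S24.trans g A) := by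
    intro g
    obtain ⟨-, -, m, hm⟩ := (Fermat.Agent.S24.QLaurent.mem_MerInf_iff_discriminant).mp (hAg g⁻¹)
    refine ⟨m, ?_⟩
    have e : Fermat.Agent.S20.Δf ^ m * Fermat.Agent.S24.trans g A =
        fun z : ℍ => ModularForm.discriminant z ^ m * A (g⁻¹ • z) := by
      funext z
      simp [Fermat.Agent.S20.Δf, Fermat.Agent.S24.trans]
    rw [e]
    exact hm
  have hB : MDiff (fun _ : ℍ => (1 : ℂ)) := mdifferentiable_const
  have hB0 : (fun _ : ℍ => (1 : ℂ)) ≠ 0 := by
    intro h0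
    have := congrFun h0 UpperHalfPlane.I
    simp at this
  have hBc : ∀ g : SL(2, ℤ), ∃ m : ℕ, IsBoundedAtImInfty
      (Fermat.Agent.S20.Δf ^ m * Fermat.Agent.S24.trans g (fun _ : ℍ => (1 : ℂ))) := by
    intro g
    refine ⟨0, ?_⟩
    have e : Fermat.Agent.S20.Δf ^ 0 * Fermat.Agent.S24.trans g (fun _ : ℍ => (1 : ℂ)) =
        fun _ : ℍ => (1 : ℂ) := by
      funext z
      simp [Fermat.Agent.S24.trans]
    rw [e]
    exact Filter.const_boundedAtFilter _ _
  obtain ⟨P, Q, hQ, hPQ⟩ := Fermat.Agent.ESJ.Jac.GalC.exists_rep_of_invariant N A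
    (fun _ => (1 : ℂ)) hAmd hB hB0 hAinv (fun _ _ _ => rfl) hAc hBc
  -- q-expansions
  have hQq := Fermat.Agent.S24C.QExp.hasQExp_ev N Q
  have hPq := Fermat.Agent.S24C.QExp.hasQExp_ev N P
  have hmul : HasQExp 1 (Fermat.Agent.S24C.ev N P)
      (coeffMap ι (MvPolynomial.aeval L Ψ) *
        coeffMap Fermat.Agent.S24C.iotaK
          ((Fermat.Agent.S24C.fm N Q : Fermat.Agent.S24C.FN N) : LaurentSeries ℂ)) :=
    (hAq.mul hQq).congr_fun' (fun τ => by
      have := hPQ τ
      simp only [Pi.mul_apply]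
      rw [this, one_mul])
  have huniq := hmul.unique hPq
  have hid : ∀ x : LaurentSeries ℂ, coeffMap Fermat.Agent.S24C.iotaK x = x := fun x => by
    rw [Fermat.Agent.S24C.iotaK_eq_id, coeffMap_id]
  rw [hid, hid] at huniq
  have hQ0 : ((Fermat.Agent.S24C.fm N Q : Fermat.Agent.S24C.FN N) : LaurentSeries ℂ) ≠ 0 := by
    intro h0
    apply hQ
    rw [Fermat.Agent.S24C.QExp.ev_eq_zero_iff]
    exact Subtype.ext h0
  have hmem : coeffMap ι (MvPolynomial.aeval L Ψ) ∈
      laurentBaseChange ℂ (modularFunctionFieldFull N) := by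
    have e : coeffMap ι (MvPolynomial.aeval L Ψ) =
        ((Fermat.Agent.S24C.fm N P : Fermat.Agent.S24C.FN N) : LaurentSeries ℂ) /
          ((Fermat.Agent.S24C.fm N Q : Fermat.Agent.S24C.FN N) : LaurentSeries ℂ) := by
      rw [eq_div_iff hQ0]
      exact huniq
    rw [e]
    exact (laurentBaseChange ℂ (modularFunctionFieldFull N)).div_mem
      (Fermat.Agent.S24C.fm N P).2 (Fermat.Agent.S24C.fm N Q).2
  exact Fermat.Agent.Lib.LaurentDescent.mem_laurentBaseChange_of_coeffMap_mem ι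
    (modularFunctionFieldFull N) _ hmem

/-- The lower right entry of an element of `Γ₀(M)` is a unit modulo `M`. -/
theorem isUnit_lowerRight_of_mem_Gamma0 {M : ℕ} (γ : SL(2, ℤ)) (hγ : γ ∈ Gamma0 M) :
    IsUnit ((γ 1 1 : ℤ) : ZMod M) := by
  have hc : ((γ 1 0 : ℤ) : ZMod M) = 0 := Gamma0_mem.mp hγ
  have hdet : (γ 0 0 : ℤ) * γ 1 1 - γ 0 1 * γ 1 0 = 1 := by
    have := γ.det_coe
    rw [Matrix.det_fin_two] at this
    exact this
  have h1 : ((γ 0 0 : ℤ) : ZMod M) * ((γ 1 1 : ℤ) : ZMod M) = 1 := by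
    have := congrArg (Int.cast : ℤ → ZMod M) hdet
    push_cast at this
    rw [hc, mul_zero, sub_zero] at this
    exact this
  exact IsUnit.of_mul_eq_one_right _ h1

section Generators

variable (M : ℕ) [NeZero M]

/-- `Γ₀(M)`-invariance of a polynomial expression in the `x_u` which is invariant under the
simultaneous translation of the indices. -/
theorem eval₂_xfun_smul {K : Type*} [Field K] (ι : K →+* ℂ) (Ψ : MvPolynomial (ZMod M)ˣ K)
    (hΨ : ∀ c : (ZMod M)ˣ, MvPolynomial.rename (c * ·) Ψ = Ψ) (γ : SL(2, ℤ))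
    (hγ : γ ∈ Gamma0 M) (z : ℍ) :
    MvPolynomial.eval₂ ι (fun u : (ZMod M)ˣ => xfun M (u : ZMod M) (γ • z)) Ψ =
      MvPolynomial.eval₂ ι (fun u : (ZMod M)ˣ => xfun M (u : ZMod M) z) Ψ := by
  obtain ⟨c, hc⟩ := isUnit_lowerRight_of_mem_Gamma0 γ hγ
  have h1 : (fun u : (ZMod M)ˣ => xfun M (u : ZMod M) (γ • z)) =
      (fun u : (ZMod M)ˣ => xfun M (u : ZMod M) z) ∘ (c⁻¹ * ·) := by
    funext u
    rw [Function.comp_apply, mul_comm]
    exact xfun_smul_unit u c γ hγ hc z
  rw [h1, ← MvPolynomial.eval₂_rename, hΨ]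

/-- **Invariants of the generators** (any coefficient field `K ⊆ ℂ`): a polynomial in the `x_u`,
`u ∈ (ℤ/M)ˣ`, invariant under the simultaneous translation of the indices by `(ℤ/M)ˣ`, lies in
`K·F₀(M)`. -/
theorem aeval_xgenR_mem_of_invariant {K : Type*} [Field K] [Algebra ℚ K] (ι : K →+* ℂ)
    (Ψ : MvPolynomial (ZMod M)ˣ K)
    (hΨ : ∀ c : (ZMod M)ˣ, MvPolynomial.rename (c * ·) Ψ = Ψ) :
    MvPolynomial.aeval (fun u : (ZMod M)ˣ => xgenR K M (u : ZMod M)) Ψ ∈
      laurentBaseChange K (modularFunctionFieldFull M) := by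
  refine aeval_mem_of_invariant M M ι (fun u : (ZMod M)ˣ => xfun M (u : ZMod M)) _ (fun u => ?_)
    (fun u g => xfun_comp_mem_MerInf (u : ZMod M) g) Ψ (eval₂_xfun_smul M ι Ψ hΨ)
  rw [coeffMap_xgenR]
  exact hasQExp_xfun (u : ZMod M)

/-- **Invariants of the generators**, rational form: a polynomial over `ℚ` in the `x_u`
invariant under the simultaneous translation of the indices lies in `F₀(M)`. -/
theorem aeval_xgen_mem_full (Ψ : MvPolynomial (ZMod M)ˣ ℚ)
    (hΨ : ∀ c : (ZMod M)ˣ, MvPolynomial.rename (c * ·) Ψ = Ψ) :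
    MvPolynomial.aeval (fun u : (ZMod M)ˣ => xgen M u) Ψ ∈ modularFunctionFieldFull M := by
  have h := aeval_xgenR_mem_of_invariant M (algebraMap ℚ ℂ) Ψ hΨ
  rw [laurentBaseChange_rat] at h
  exact h

end Generators

end Fermat.Agent.G1
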