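/-
G1-GEN (3): the generators at the Hecke level.

For `ℓ ≥ 1` the functions `z ↦ x_u(ℓ z)` (`xfunS M ℓ u`) have the `q`-expansions
`qExpand ℓ (xgen M u)` (`q ↦ q^ℓ`), are permuted by `Γ₀(M ℓ)` through the lower right entry, and
are meromorphic at all cusps.  Consequently a polynomial expression in the `x_u(z)` and the
`x_u(ℓ z)`, invariant under the simultaneous translation of the indices by `(ℤ/M)ˣ`, lies in the
function field of `X₀(M ℓ)`.

* generator-agnostic: `scalePt`, `exists_Gamma0_scale`, `comp_affPt_mem_MerInf`,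
  `scale_comp_mem_MerInf`, `hasQExp_comp_scalePt`;
* `xfunS`, `hasQExp_xfunS`, `xfunS_smul_unit`, `xfunS_comp_mem_MerInf`;
* `aeval_xgenR_hecke_mem_of_invariant`, `aeval_xgen_hecke_mem_full` (= (H3)).
-/
import Mathlib
import Fermat.Agent.G1.GenInv

set_option autoImplicit false

namespace Fermat.Agent.G1

open UpperHalfPlane ModularForm CongruenceSubgroup Complex ModularCurve
open Fermat.Agent.S24.QExp Fermat.Agent.S24
open scoped MatrixGroups Manifold Real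

/-! ### Scaling `z ↦ ℓ z` -/

/-- The point `ℓ z` of the upper half plane. -/
noncomputable def scalePt (ℓ : ℕ) [NeZero ℓ] (z : ℍ) : ℍ :=
  HNFMod.affPt ℓ 0 1 (Nat.pos_of_ne_zero (NeZero.ne ℓ)) one_pos z

@[simp] theorem coe_scalePt (ℓ : ℕ) [NeZero ℓ] (z : ℍ) : (scalePt ℓ z : ℂ) = (ℓ : ℂ) * z := by
  unfold scalePt
  exact HNFMod.coe_affPt_scale ℓ _ z

/-- **Formal = analytic under scaling**: if `f` has the `q`-expansion `L` then `z ↦ f(ℓ z)` has the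
`q`-expansion `L(q^ℓ)`. -/
theorem hasQExp_comp_scalePt {f : ℍ → ℂ} {L : LaurentSeries ℂ} (hf : HasQExp 1 f L) (ℓ : ℕ)
    [NeZero ℓ] : HasQExp 1 (fun z : ℍ => f (scalePt ℓ z)) (qExpand ℂ ℓ L) := by
  have h := hf.comp_affine ℓ 1 0
  have hz : zetaU (1 * 1) (0 : ℤ) = 1 := by
    ext
    simp [zetaU]
  rw [hz, Fermat.Agent.S28.Chain.rot_one_apply, mul_one] at h
  refine h.congr_fun' (fun z => ?_)
  have e : (((ℓ : ℂ) * (z : ℂ) + ((0 : ℤ) : ℂ)) / ((1 : ℕ) : ℂ)) = ((scalePt ℓ z : ℍ) : ℂ) := by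
    simp
  show f (ofComplex (((ℓ : ℂ) * (z : ℂ) + ((0 : ℤ) : ℂ)) / ((1 : ℕ) : ℂ))) = f (scalePt ℓ z)
  rw [e, ofComplex_apply]

/-- For `γ ∈ Γ₀(M ℓ)` there is `γ' ∈ Γ₀(M)` with the same lower right entry and
`ℓ (γ z) = γ' (ℓ z)`. -/
theorem exists_Gamma0_scale (M ℓ : ℕ) [NeZero ℓ] (γ : SL(2, ℤ)) (hγ : γ ∈ Gamma0 (M * ℓ)) :
    ∃ γ' : SL(2, ℤ), γ' ∈ Gamma0 M ∧ γ' 1 1 = γ 1 1 ∧
      ∀ z : ℍ, scalePt ℓ (γ • z) = γ' • scalePt ℓ z := by
  rw [Gamma0_mem, ZMod.intCast_zmod_eq_zero_iff_dvd] at hγ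
  obtain ⟨c', hc'⟩ : ((ℓ : ℤ) * (M : ℤ)) ∣ γ 1 0 := by
    have : ((M * ℓ : ℕ) : ℤ) = (ℓ : ℤ) * (M : ℤ) := by push_cast; ring
    rw [← this]
    exact hγ
  have hdet : γ 0 0 * γ 1 1 - γ 0 1 * γ 1 0 = 1 := by
    have := γ.det_coe
    rwa [Matrix.det_fin_two] at this
  set γ' : SL(2, ℤ) := ⟨!![γ 0 0, γ 0 1 * ℓ; (M : ℤ) * c', γ 1 1], by
    rw [Matrix.det_fin_two_of]; rw [hc'] at hdet; linear_combination hdet⟩ with hγ'
  refine ⟨γ', ?_, ?_, fun z => ?_⟩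
  · rw [Gamma0_mem]
    simp [hγ']
  · simp [hγ']
  · apply UpperHalfPlane.ext
    rw [coe_scalePt, coe_specialLinearGroup_apply, coe_specialLinearGroup_apply, coe_scalePt]
    simp only [hγ', Matrix.SpecialLinearGroup.coe_mk, Matrix.of_apply, Matrix.cons_val_zero,
      Matrix.cons_val_one, Matrix.cons_val', Matrix.cons_val_fin_one,
      Int.cast_mul, algebraMap_int_eq, Int.coe_castRingHom, Complex.ofReal_intCast,
      Int.cast_natCast, hc']
    rw [← mul_div_assoc]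
    congr 1 <;> (push_cast; ring)

/-- `MerInf` is stable under the substitution `z ↦ (a z + b) / e` (period multiplied by `e`). -/
theorem comp_affPt_mem_MerInf {h : ℕ} [NeZero h] {F : ℍ → ℂ} (hF : F ∈ QLaurent.MerInf h)
    (a b e : ℕ) (ha : 0 < a) (he : 0 < e) :
    MerInf (h * e) (fun z : ℍ => F (HNFMod.affPt a b e ha he z)) := by
  have : NeZero a := ⟨ha.ne'⟩
  have : NeZero e := ⟨he.ne'⟩
  have hq : HasQExp h F (QLaurent.Lq h ⟨F, hF⟩) := fun τ => QLaurent.hasSum_Lq ⟨F, hF⟩ τ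
  have h1 := hq.comp_affine a e (b : ℤ)
  have h2 : HasQExp (h * e) (fun z : ℍ => F (HNFMod.affPt a b e ha he z)) _ :=
    h1.congr_fun' (fun z => by
      have e1 : (((a : ℂ) * (z : ℂ) + ((b : ℤ) : ℂ)) / (e : ℂ)) =
          ((HNFMod.affPt a b e ha he z : ℍ) : ℂ) := by
        simp
      show F (ofComplex (((a : ℂ) * (z : ℂ) + ((b : ℤ) : ℂ)) / (e : ℂ))) = _
      rw [e1, ofComplex_apply])
  exact QLaurentMod.MerInf.of_hasSum h2

/-- If all `SL(2, ℤ)`-translates of `G` are meromorphic at `i∞` with period `h`, then all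
`SL(2, ℤ)`-translates of `z ↦ G(ℓ z)` are meromorphic at `i∞` with period `h ℓ`. -/
theorem scale_comp_mem_MerInf {h : ℕ} [NeZero h] (G : ℍ → ℂ)
    (hG : ∀ g : SL(2, ℤ), (fun z : ℍ => G (g • z)) ∈ QLaurent.MerInf h) (ℓ : ℕ) [NeZero ℓ]
    (g : SL(2, ℤ)) :
    (fun z : ℍ => G (scalePt ℓ (g • z))) ∈ QLaurent.MerInf (h * ℓ) := by
  have hℓ : 0 < ℓ := Nat.pos_of_ne_zero (NeZero.ne ℓ)
  obtain ⟨k, a, b, e, hae, -, -, -, hact⟩ := HNF.exists_hnf g ℓ hℓ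
  have ha : 0 < a := by
    rcases Nat.eq_zero_or_pos a with h0 | h0
    · rw [h0, zero_mul] at hae; omega
    · exact h0
  have he : 0 < e := by
    rcases Nat.eq_zero_or_pos e with h0 | h0
    · rw [h0, mul_zero] at hae; omega
    · exact h0
  have h1 := comp_affPt_mem_MerInf (hG k) a b e ha he
  have h2 := OrdInf.MerInf.mul_period h1 ha
  have e1 : h * e * a = h * ℓ := by rw [← hae]; ring
  rw [e1] at h2
  have e2 : (fun z : ℍ => G (scalePt ℓ (g • z))) =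
      fun z : ℍ => G (k • HNFMod.affPt a b e ha he z) := by
    funext z
    congr 1
    apply UpperHalfPlane.ext
    rw [hact z (HNFMod.affPt a b e ha he z) (HNFMod.coe_affPt a b e ha he z), coe_scalePt]
  rw [e2]
  exact QLaurentMod.merInf_iff_mem.mp h2

/-! ### The scaled generators -/

section Scaled

variable (M ℓ : ℕ) [NeZero M] [NeZero ℓ]

/-- The function `z ↦ x_u(ℓ z)`. -/
noncomputable def xfunS (u : ZMod M) (z : ℍ) : ℂ := xfun M u (scalePt ℓ z)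

variable {M ℓ}

/-- **Formal = analytic**: `x_u(ℓ z)` has the `q`-expansion `x_u(q^ℓ)`. -/
theorem hasQExp_xfunS (u : ZMod M) : HasQExp 1 (xfunS M ℓ u) (qExpand ℂ ℓ (xgenR ℂ M u)) :=
  hasQExp_comp_scalePt (hasQExp_xfun u) ℓ

/-- **Diamond action at the Hecke level**: for `γ ∈ Γ₀(M ℓ)` with lower right entry `c`,
`x_u(ℓ γ z) = x_{u c⁻¹}(ℓ z)`. -/
theorem xfunS_smul_unit (u c : (ZMod M)ˣ) (γ : SL(2, ℤ)) (hγ : γ ∈ Gamma0 (M * ℓ))
    (hc : (c : ZMod M) = ((γ 1 1 : ℤ) : ZMod M)) (z : ℍ) :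
    xfunS M ℓ (u : ZMod M) (γ • z) = xfunS M ℓ ((u * c⁻¹ : (ZMod M)ˣ) : ZMod M) z := by
  obtain ⟨γ', hγ', h11, hz⟩ := exists_Gamma0_scale M ℓ γ hγ
  unfold xfunS
  rw [hz z]
  exact xfun_smul_unit u c γ' hγ' (by rw [hc, h11]) _

/-- **Cusps**: every `SL(2, ℤ)`-translate of `z ↦ x_u(ℓ z)` is holomorphic, `M ℓ`-periodic and
meromorphic at `i∞`. -/
theorem xfunS_comp_mem_MerInf (u : ZMod M) (g : SL(2, ℤ)) :
    (fun z : ℍ => xfunS M ℓ u (g • z)) ∈ QLaurent.MerInf (M * ℓ) :=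
  scale_comp_mem_MerInf (xfun M u) (fun g => xfun_comp_mem_MerInf u g) ℓ g

omit [NeZero M] [NeZero ℓ] in
theorem Gamma0_mul_le (γ : SL(2, ℤ)) (hγ : γ ∈ Gamma0 (M * ℓ)) : γ ∈ Gamma0 M := by
  rw [Gamma0_mem, ZMod.intCast_zmod_eq_zero_iff_dvd] at hγ ⊢
  exact (Int.natCast_dvd_natCast.mpr (Dvd.intro ℓ rfl)).trans hγ

variable (M ℓ)

/-- **Invariants at the Hecke level** (any coefficient field `K ⊆ ℂ`): a polynomial in the
`x_u(q)` and the `x_u(q^ℓ)`, invariant under the simultaneous translation of the indices by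
`(ℤ/M)ˣ`, lies in `K·F₀(M ℓ)`. -/
theorem aeval_xgenR_hecke_mem_of_invariant {K : Type*} [Field K] [Algebra ℚ K] (ι : K →+* ℂ)
    (Ψ : MvPolynomial ((ZMod M)ˣ ⊕ (ZMod M)ˣ) K)
    (hΨ : ∀ c : (ZMod M)ˣ, MvPolynomial.rename (Sum.map (c * ·) (c * ·)) Ψ = Ψ) :
    MvPolynomial.aeval (Sum.elim (fun u : (ZMod M)ˣ => xgenR K M (u : ZMod M))
      (fun u : (ZMod M)ˣ => qExpand K ℓ (xgenR K M (u : ZMod M)))) Ψ ∈
      laurentBaseChange K (modularFunctionFieldFull (M * ℓ)) := by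
  refine aeval_mem_of_invariant (M * ℓ) (M * ℓ) ι
    (Sum.elim (fun u : (ZMod M)ˣ => xfun M (u : ZMod M))
      (fun u : (ZMod M)ˣ => xfunS M ℓ (u : ZMod M))) _ ?_ ?_ Ψ ?_
  · rintro (u | u)
    · simp only [Sum.elim_inl]
      rw [coeffMap_xgenR]
      exact hasQExp_xfun (u : ZMod M)
    · simp only [Sum.elim_inr]
      rw [coeffMap_qExpand, coeffMap_xgenR]
      exact hasQExp_xfunS (u : ZMod M)
  · rintro (u | u) g
    · simp only [Sum.elim_inl]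
      have h1 : MerInf M (fun z : ℍ => xfun M (u : ZMod M) (g • z)) :=
        QLaurentMod.merInf_iff_mem.mpr (xfun_comp_mem_MerInf (u : ZMod M) g)
      exact QLaurentMod.merInf_iff_mem.mp
        (OrdInf.MerInf.mul_period h1 (Nat.pos_of_ne_zero (NeZero.ne ℓ)))
    · simp only [Sum.elim_inr]
      exact xfunS_comp_mem_MerInf (u : ZMod M) g
  · intro γ hγ z
    have hγM : γ ∈ Gamma0 M := Gamma0_mul_le γ hγ
    obtain ⟨c, hc⟩ := isUnit_lowerRight_of_mem_Gamma0 γ hγM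
    have h1 : (fun s : (ZMod M)ˣ ⊕ (ZMod M)ˣ =>
        Sum.elim (fun u : (ZMod M)ˣ => xfun M (u : ZMod M))
          (fun u : (ZMod M)ˣ => xfunS M ℓ (u : ZMod M)) s (γ • z)) =
        (fun s : (ZMod M)ˣ ⊕ (ZMod M)ˣ =>
          Sum.elim (fun u : (ZMod M)ˣ => xfun M (u : ZMod M))
            (fun u : (ZMod M)ˣ => xfunS M ℓ (u : ZMod M)) s z) ∘
          Sum.map (c⁻¹ * ·) (c⁻¹ * ·) := by
      funext s
      rcases s with u | u
      · simp only [Sum.elim_inl, Function.comp_apply, Sum.map_inl]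
        rw [mul_comm]
        exact xfun_smul_unit u c γ hγM hc z
      · simp only [Sum.elim_inr, Function.comp_apply, Sum.map_inr]
        rw [mul_comm]
        exact xfunS_smul_unit u c γ hγ hc z
    rw [h1, ← MvPolynomial.eval₂_rename, hΨ]

/-- **(H3)**: a polynomial over `ℚ` in the `x_u(q)` and the `x_u(q^ℓ)`, invariant under the
simultaneous translation of the indices, lies in `F₀(M ℓ)`. -/
theorem aeval_xgen_hecke_mem_full (Ψ : MvPolynomial ((ZMod M)ˣ ⊕ (ZMod M)ˣ) ℚ)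
    (hΨ : ∀ c : (ZMod M)ˣ, MvPolynomial.rename (Sum.map (c * ·) (c * ·)) Ψ = Ψ) :
    MvPolynomial.aeval (Sum.elim (xgen M) (fun u : (ZMod M)ˣ => qExpand ℚ ℓ (xgen M u))) Ψ ∈
      modularFunctionFieldFull (M * ℓ) := by
  have h := aeval_xgenR_hecke_mem_of_invariant M ℓ (algebraMap ℚ ℂ) Ψ hΨ
  rw [laurentBaseChange_rat] at h
  exact h

end Scaled

end Fermat.Agent.G1
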