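/-
G1-GEN (4): the characteristic-0 inputs `H2`, `H3` of G1-INERT (`G1/V/Hyp.lean`) are theorems.
-/
import Mathlib
import Fermat.Agent.G1.GenInvHecke
import Fermat.Agent.G1.V.Hyp

set_option autoImplicit false

namespace Fermat.Agent.G1

/-- **(H2)** holds: diamond-invariant expressions in the `x_u` lie in `F0(M)`. -/
theorem h2 (M : ℕ) [NeZero M] : V.H2 M := fun Ψ hΨ => aeval_xgen_mem_full M Ψ hΨ

/-- **(H3)** holds: diamond-invariant expressions in the `x_u(q)` and the `x_u(q^ℓ)` lie in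
`F0(M ℓ)`. -/
theorem h3 (M ℓ : ℕ) [NeZero M] [NeZero ℓ] : V.H3 M ℓ :=
  fun Ψ hΨ => aeval_xgen_hecke_mem_full M ℓ Ψ hΨ

end Fermat.Agent.G1
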