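/-
G1-V / G1-INERT, the characteristic-0 input (H4) of `G1/V/Hyp.lean` is a theorem.

For `M ∣ N`, `ℓ` a prime not dividing `N`, `e ∈ (ℤ/M)ˣ` the class of `ℓ`, and ANY coefficient field
`L ⊇ ℚ`: every ring endomorphism `W` of `L·F0(N ℓ)` exchanging the two degeneracy maps sends a
diamond-invariant expression `Ψ(x_u, x_u(q^ℓ))` to `Ψ(x_u(q^ℓ), x_{u e})`.

Proof: the analytic Atkin–Lehner map of `ConjFam.exists_atkinLehner` for the level-`N` diamond
family `{J(d z) : d ∣ N} ∪ {x_u}` is defined over `ℚ` on a field containing `F0(N ℓ)`, the `x_u`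
and the `x_u(q^ℓ)`; it maps `x_u ↦ x_{u e⁻¹}(q^ℓ)`, `x_u(q^ℓ) ↦ x_u` and exchanges `j(q^d)` and
`j(q^{ℓ d})`.  On `F0(N ℓ) = ℚ(j(q^d), j(q^{ℓ d}))` it is therefore given by exchanging the
generators, and so is `W`; a representation `Ψ(x, βx) = P/Q` in these generators (it lies in
`F0(N ℓ)` by (H3)) transports the identity to `L`.
-/
import Mathlib
import Fermat.Agent.G1.ConjFam
import Fermat.Agent.G1.GenHyp

set_option autoImplicit false

open UpperHalfPlane CongruenceSubgroup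
open scoped MatrixGroups

namespace Fermat.Agent.G1.AtkinH4

open ModularCurve Fermat.Agent.S24 Fermat.Agent.S24.QExp Fermat.Agent.S28.Chain
open Fermat.Agent.G1.ConjFam

noncomputable section

/-! ### Algebra homomorphisms on polynomial expressions in the generators -/

section Alg

variable {K E E' : Type*} [Field K] [Field E] [Field E'] [Algebra K E] [Algebra K E']
  {σ : Type*}

theorem aeval_mem_adjoin (G : σ → E) (R : MvPolynomial σ K) :
    MvPolynomial.aeval G R ∈ IntermediateField.adjoin K (Set.range G) := by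
  have h : MvPolynomial.aeval G R ∈ Algebra.adjoin K (Set.range G) := by
    rw [Algebra.adjoin_range_eq_range_aeval]
    exact ⟨R, rfl⟩
  exact IntermediateField.algebra_adjoin_le_adjoin K _ h

theorem algHom_aeval (G : σ → E) (φ : IntermediateField.adjoin K (Set.range G) →ₐ[K] E')
    (G' : σ → E')
    (h : ∀ s, φ ⟨G s, IntermediateField.subset_adjoin K _ ⟨s, rfl⟩⟩ = G' s)
    (R : MvPolynomial σ K) :
    φ ⟨MvPolynomial.aeval G R, aeval_mem_adjoin G R⟩ = MvPolynomial.aeval G' R := by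
  let Gs : σ → IntermediateField.adjoin K (Set.range G) :=
    fun s => ⟨G s, IntermediateField.subset_adjoin K _ ⟨s, rfl⟩⟩
  have h1 : (⟨MvPolynomial.aeval G R, aeval_mem_adjoin G R⟩ :
      IntermediateField.adjoin K (Set.range G)) = MvPolynomial.aeval Gs R := by
    apply Subtype.ext
    have := congrArg (fun ψ => ψ R) (MvPolynomial.comp_aeval (R := K) Gs
      (IntermediateField.val (IntermediateField.adjoin K (Set.range G))))
    exact this.symm
  rw [h1]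
  have h2 := congrArg (fun ψ => ψ R) (MvPolynomial.comp_aeval (R := K) Gs φ)
  simp only [AlgHom.comp_apply] at h2
  have h3 : (fun i => φ (Gs i)) = G' := funext h
  rw [h2, h3]

end Alg

theorem coeffEmb_rat (x : LaurentSeries ℚ) : coeffEmb ℚ x = x := by
  rw [coeffEmb, Algebra.algebraMap_self]
  exact coeffMap_id x

/-! ### The level-`N` diamond family of the `x_u` -/

section Fam

variable (M N : ℕ) [NeZero M] [NeZero N]

omit [NeZero M] [NeZero N] in
theorem Gamma0_of_dvd (hMN : M ∣ N) {γ : SL(2, ℤ)} (hγ : γ ∈ Gamma0 N) : γ ∈ Gamma0 M := by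
  rw [Gamma0_mem] at hγ ⊢
  have := congrArg (ZMod.castHom hMN (ZMod M)) hγ
  rwa [map_intCast, map_zero] at this

omit [NeZero N] in
/-- The `x_u` (`u ∈ (ℤ/M)ˣ`) as a diamond family of level `N`, `M ∣ N`. -/
theorem famX (hMN : M ∣ N) :
    IsDiamondFam N (fun (d : (ZMod N)ˣ) (u : (ZMod M)ˣ) => u * ZMod.unitsMap hMN d)
      (fun u : (ZMod M)ˣ => xfun M (u : ZMod M)) (xgen M) where
  act_one := fun u => by simp
  act_mul := fun c d u => by
    rw [map_mul, mul_comm (ZMod.unitsMap hMN c), mul_assoc]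
  hasQExp := fun u => hasQExp_xfun' u
  smul := fun γ hγ d hd u z => by
    have h1 := xfun_smul (u : ZMod M) γ (Gamma0_of_dvd M N hMN hγ) z
    have h2 : (((u * ZMod.unitsMap hMN d : (ZMod M)ˣ)) : ZMod M) =
        (u : ZMod M) * ((γ 1 1 : ℤ) : ZMod M) := by
      rw [Units.val_mul]
      congr 1
      show ZMod.castHom hMN (ZMod M) (d : ZMod N) = _
      rw [hd, map_intCast]
    rw [h2]
    exact h1

/-- The formal generators `j(q^d)` (`d ∣ N`), `x_u` (`u ∈ (ℤ/M)ˣ`). -/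
def serN : Dv N ⊕ (ZMod M)ˣ → LaurentSeries ℚ :=
  Sum.elim (fun d : Dv N => haveI : NeZero d.1 := d.neZero; qExpand ℚ d.1 jq) (xgen M)

/-- The level-`N` diamond family `{J(d z) : d ∣ N} ∪ {x_u}`. -/
theorem famN (hMN : M ∣ N) :
    IsDiamondFam N (fun d => Sum.map (fun x : Dv N => x)
        (fun u : (ZMod M)ˣ => u * ZMod.unitsMap hMN d))
      (Sum.elim (fun d : Dv N => Jabd d.1 0 1) (fun u : (ZMod M)ˣ => xfun M (u : ZMod M)))
      (serN M N) :=
  (famJ N).sum (famX M N hMN)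

end Fam

/-! ### (H4) -/

section Main

variable (M N ℓ : ℕ) [NeZero M] [NeZero N] [NeZero ℓ]

/-- The images of the generators `gens K ℓ (serN M N)` under the Atkin–Lehner map. -/
def GK' (K : Type*) [Field K] [Algebra ℚ K] (e : (ZMod M)ˣ) :
    (Dv N ⊕ (ZMod M)ˣ) ⊕ (Dv N ⊕ (ZMod M)ˣ) → LaurentSeries K :=
  Sum.elim
    (Sum.elim
      (fun d : Dv N => haveI : NeZero d.1 := d.neZero;
        coeffEmb K (qExpand ℚ ℓ (qExpand ℚ d.1 jq)))
      (fun u : (ZMod M)ˣ => coeffEmb K (qExpand ℚ ℓ (xgen M (u * e⁻¹)))))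
    (fun i => coeffEmb K (serN M N i))

/-- **The Atkin–Lehner map** on `K(j(q^d), x_u, j(q^{ℓ d}), x_u(q^ℓ))`, level `N`, generators
`x_u` of level `M ∣ N`: `j(q^d) ↔ j(q^{ℓ d})`, `x_u ↦ x_{u e⁻¹}(q^ℓ)`, `x_u(q^ℓ) ↦ x_u`
(`e` = the class of `ℓ`). -/
theorem exists_atkinLehner_K {K : Type*} [Field K] [Algebra ℚ K] (ι : K →+* ℂ) (hMN : M ∣ N)
    (hcop : Nat.Coprime ℓ N) (e : (ZMod M)ˣ) (he : (e : ZMod M) = (ℓ : ZMod M)) :
    ∃ W₀ : IntermediateField.adjoin K (Set.range (gens K ℓ (serN M N))) →ₐ[K] LaurentSeries K,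
      ∀ s, W₀ ⟨gens K ℓ (serN M N) s, IntermediateField.subset_adjoin K _ ⟨s, rfl⟩⟩ =
        GK' M N ℓ K e s := by
  have heu : ZMod.unitsMap hMN (ZMod.unitOfCoprime ℓ hcop) = e := by
    apply Units.ext
    show ZMod.castHom hMN (ZMod M) ((ZMod.unitOfCoprime ℓ hcop : (ZMod N)ˣ) : ZMod N) = _
    rw [ZMod.coe_unitOfCoprime, map_natCast, he]
  obtain ⟨W₀, hW₀⟩ := exists_atkinLehner (K := K) (famN M N hMN) ι ℓ hcop
  refine ⟨W₀, fun s => ?_⟩
  rw [hW₀ s]
  rcases s with (d | u) | i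
  · rfl
  · show coeffEmb K (qExpand ℚ ℓ (xgen M
      (u * ZMod.unitsMap hMN (ZMod.unitOfCoprime ℓ hcop)⁻¹))) =
      coeffEmb K (qExpand ℚ ℓ (xgen M (u * e⁻¹)))
    rw [map_inv, heu]
  · rfl

/-- The generators `j(q^d)`, `j(q^{ℓ d})` (`d ∣ N`) of `F0(N ℓ)`. -/
def gJ : Dv N ⊕ Dv N → LaurentSeries ℚ :=
  Sum.elim (fun d => haveI : NeZero d.1 := d.neZero; qExpand ℚ d.1 jq)
    (fun d => haveI : NeZero d.1 := d.neZero; qExpand ℚ ℓ (qExpand ℚ d.1 jq))

theorem full_le_adjoin_gJ (hℓ : ℓ.Prime) :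
    modularFunctionFieldFull (N * ℓ) ≤ IntermediateField.adjoin ℚ (Set.range (gJ N ℓ)) := by
  rw [modularFunctionFieldFull, IntermediateField.adjoin_le_iff]
  rintro x ⟨d', hne, hdvd, rfl⟩
  have := hne
  by_cases hd : ℓ ∣ d'
  · obtain ⟨d, rfl⟩ := hd
    have hdN : d ∣ N := by
      rw [mul_comm N ℓ] at hdvd
      exact (Nat.mul_dvd_mul_iff_left hℓ.pos).mp hdvd
    have hd0 : NeZero d := ⟨fun h0 => NeZero.ne (ℓ * d) (by rw [h0, mul_zero])⟩
    refine IntermediateField.subset_adjoin ℚ _ ⟨Sum.inr ⟨d, hdN⟩, ?_⟩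
    show qExpand ℚ ℓ (qExpand ℚ d jq) = qExpand ℚ (ℓ * d) jq
    rw [qExpand_qExpand]
  · have hdN : d' ∣ N :=
      Nat.Coprime.dvd_of_dvd_mul_right ((Nat.Prime.coprime_iff_not_dvd hℓ).mpr hd).symm hdvd
    exact IntermediateField.subset_adjoin ℚ _ ⟨Sum.inl ⟨d', hdN⟩, rfl⟩

/-- **(H4)** of `G1/V/Hyp.lean`, for every coefficient field `L ⊇ ℚ`, with `e` the class of `ℓ`
in `(ℤ/M)ˣ`. -/
theorem h4 (hMN : M ∣ N) (hℓ : ℓ.Prime) (hℓN : ¬ ℓ ∣ N) (e : (ZMod M)ˣ)
    (he : (e : ZMod M) = (ℓ : ZMod M)) (L : Type*) [Field L] [Algebra ℚ L] :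
    V.H4 M N ℓ e L := by
  intro W hWα hWβ Ψ hΨ y hy
  have hcop : Nat.Coprime ℓ N := (Nat.Prime.coprime_iff_not_dvd hℓ).mpr hℓN
  obtain ⟨W₀, hW₀⟩ := exists_atkinLehner_K M N ℓ (K := ℚ) (algebraMap ℚ ℂ) hMN hcop e he
  -- Step A: `W₀ Y = T`
  obtain ⟨Y, hY⟩ : ∃ Y : LaurentSeries ℚ, Y =
      MvPolynomial.aeval (Sum.elim (xgen M) (fun u => qExpand ℚ ℓ (xgen M u))) Ψ := ⟨_, rfl⟩
  obtain ⟨T, hT⟩ : ∃ T : LaurentSeries ℚ, T = MvPolynomial.aeval
      (Sum.elim (fun u => qExpand ℚ ℓ (xgen M u)) (fun u => xgen M (u * e))) Ψ := ⟨_, rfl⟩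
  rw [← hY] at hy
  rw [← hT]
  let ρ : (ZMod M)ˣ ⊕ (ZMod M)ˣ → (Dv N ⊕ (ZMod M)ˣ) ⊕ (Dv N ⊕ (ZMod M)ˣ) :=
    Sum.map Sum.inr Sum.inr
  have hρ : gens ℚ ℓ (serN M N) ∘ ρ = Sum.elim (xgen M) (fun u => qExpand ℚ ℓ (xgen M u)) := by
    funext s
    rcases s with u | u
    · exact coeffEmb_rat _
    · exact coeffEmb_rat _
  have hYG : Y = MvPolynomial.aeval (gens ℚ ℓ (serN M N)) (MvPolynomial.rename ρ Ψ) := by
    rw [MvPolynomial.aeval_rename, hρ, hY]
  have hYmem : Y ∈ IntermediateField.adjoin ℚ (Set.range (gens ℚ ℓ (serN M N))) := by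
    rw [hYG]
    exact aeval_mem_adjoin _ _
  have hA : W₀ ⟨Y, hYmem⟩ = T := by
    have h1 := algHom_aeval (gens ℚ ℓ (serN M N)) W₀ (GK' M N ℓ ℚ e) hW₀ (MvPolynomial.rename ρ Ψ)
    have h2 : (⟨Y, hYmem⟩ : IntermediateField.adjoin ℚ (Set.range (gens ℚ ℓ (serN M N)))) =
        ⟨MvPolynomial.aeval (gens ℚ ℓ (serN M N)) (MvPolynomial.rename ρ Ψ), aeval_mem_adjoin _ _⟩ :=
      Subtype.ext hYG
    have h3 : (GK' M N ℓ ℚ e ∘ ρ) ∘ (Sum.map (fun u => e * u) (fun u => e * u)) =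
        Sum.elim (fun u => qExpand ℚ ℓ (xgen M u)) (fun u => xgen M (u * e)) := by
      funext s
      rcases s with u | u
      · show coeffEmb ℚ (qExpand ℚ ℓ (xgen M (e * u * e⁻¹))) = qExpand ℚ ℓ (xgen M u)
        rw [coeffEmb_rat, mul_comm e u, mul_inv_cancel_right]
      · show coeffEmb ℚ (xgen M (e * u)) = xgen M (u * e)
        rw [coeffEmb_rat, mul_comm]
    rw [h2, h1, hT, ← h3]
    calc MvPolynomial.aeval (GK' M N ℓ ℚ e) (MvPolynomial.rename ρ Ψ)
        = MvPolynomial.aeval (GK' M N ℓ ℚ e ∘ ρ) Ψ := MvPolynomial.aeval_rename _ _ _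
      _ = MvPolynomial.aeval (GK' M N ℓ ℚ e ∘ ρ)
            (MvPolynomial.rename (Sum.map (fun u => e * u) (fun u => e * u)) Ψ) := by
          rw [hΨ e]
      _ = _ := MvPolynomial.aeval_rename _ _ _
  -- Step B: a representation of `Y` in the generators of `F0(N ℓ)`
  have hY3 : Y ∈ modularFunctionFieldFull (M * ℓ) := by
    rw [hY]
    exact h3 M ℓ Ψ hΨ
  have hYfull : Y ∈ IntermediateField.adjoin ℚ (Set.range (gJ N ℓ)) :=
    full_le_adjoin_gJ N ℓ hℓ (full_degeneracy_le (Nat.mul_dvd_mul_right hMN ℓ) hY3)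
  obtain ⟨r, s, hrs⟩ := (IntermediateField.mem_adjoin_range_iff (F := ℚ) (gJ N ℓ) Y).mp hYfull
  -- `W₀` on polynomial expressions in the generators of `F0(N ℓ)`
  let κ : Dv N ⊕ Dv N → (Dv N ⊕ (ZMod M)ˣ) ⊕ (Dv N ⊕ (ZMod M)ˣ) := Sum.map Sum.inl Sum.inl
  have hκ1 : gens ℚ ℓ (serN M N) ∘ κ = gJ N ℓ := by
    funext t
    rcases t with d | d
    · exact coeffEmb_rat _
    · exact coeffEmb_rat _
  have hκ2 : GK' M N ℓ ℚ e ∘ κ = gJ N ℓ ∘ Sum.swap := by
    funext t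
    rcases t with d | d
    · exact coeffEmb_rat _
    · exact coeffEmb_rat _
  have hκ : ∀ P : MvPolynomial (Dv N ⊕ Dv N) ℚ,
      MvPolynomial.aeval (gJ N ℓ) P =
        MvPolynomial.aeval (gens ℚ ℓ (serN M N)) (MvPolynomial.rename κ P) := by
    intro P
    rw [MvPolynomial.aeval_rename, hκ1]
  have hmemJ : ∀ P : MvPolynomial (Dv N ⊕ Dv N) ℚ,
      MvPolynomial.aeval (gJ N ℓ) P ∈ IntermediateField.adjoin ℚ (Set.range (gens ℚ ℓ (serN M N))) := by
    intro P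
    rw [hκ]
    exact aeval_mem_adjoin _ _
  have hW₀J : ∀ P : MvPolynomial (Dv N ⊕ Dv N) ℚ,
      W₀ ⟨MvPolynomial.aeval (gJ N ℓ) P, hmemJ P⟩ =
        MvPolynomial.aeval (gJ N ℓ ∘ Sum.swap) P := by
    intro P
    have h1 := algHom_aeval (gens ℚ ℓ (serN M N)) W₀ (GK' M N ℓ ℚ e) hW₀ (MvPolynomial.rename κ P)
    have h2 : (⟨MvPolynomial.aeval (gJ N ℓ) P, hmemJ P⟩ :
        IntermediateField.adjoin ℚ (Set.range (gens ℚ ℓ (serN M N)))) =
        ⟨MvPolynomial.aeval (gens ℚ ℓ (serN M N)) (MvPolynomial.rename κ P), aeval_mem_adjoin _ _⟩ :=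
      Subtype.ext (hκ P)
    rw [h2, h1, MvPolynomial.aeval_rename, hκ2]
  -- the generators in `L·F0(N ℓ)`
  let jd : Dv N → laurentBaseChange L (modularFunctionFieldFull N) := fun d =>
    haveI : NeZero d.1 := d.neZero
    ⟨coeffEmb L (qExpand ℚ d.1 jq), coeffEmb_mem_laurentBaseChange L (jqd_mem_full N d.2)⟩
  let GLL : Dv N ⊕ Dv N → laurentBaseChange L (modularFunctionFieldFull (N * ℓ)) :=
    Sum.elim (fun d => heckeAlphaBar L N ℓ (jd d)) (fun d => heckeBetaBar L N ℓ (jd d))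
  have hGLLval : ∀ t, ((GLL t : laurentBaseChange L (modularFunctionFieldFull (N * ℓ))) :
      LaurentSeries L) = coeffEmb L (gJ N ℓ t) := by
    intro t
    rcases t with d | d
    · show ((heckeAlphaBar L N ℓ (jd d) : laurentBaseChange L (modularFunctionFieldFull (N * ℓ))) :
        LaurentSeries L) = _
      rw [coe_heckeAlphaBar]
      rfl
    · show ((heckeBetaBar L N ℓ (jd d) : laurentBaseChange L (modularFunctionFieldFull (N * ℓ))) :
        LaurentSeries L) = _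
      rw [coe_heckeBetaBar]
      have : NeZero d.1 := d.neZero
      exact (coeffEmb_qExpand L ℓ (qExpand ℚ d.1 jq)).symm
  have hWGLL : ∀ t, W (GLL t) = GLL (Sum.swap t) := by
    intro t
    rcases t with d | d
    · exact hWα (jd d)
    · exact hWβ (jd d)
  let c : ℚ →+* laurentBaseChange L (modularFunctionFieldFull (N * ℓ)) :=
    (algebraMap L (laurentBaseChange L (modularFunctionFieldFull (N * ℓ)))).comp (algebraMap ℚ L)
  let v : laurentBaseChange L (modularFunctionFieldFull (N * ℓ)) →+* LaurentSeries L :=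
    (laurentBaseChange L (modularFunctionFieldFull (N * ℓ))).val.toRingHom
  have hval : ∀ (g : Dv N ⊕ Dv N → LaurentSeries ℚ)
      (gL : Dv N ⊕ Dv N → laurentBaseChange L (modularFunctionFieldFull (N * ℓ)))
      (_ : ∀ t, ((gL t : laurentBaseChange L (modularFunctionFieldFull (N * ℓ))) :
        LaurentSeries L) = coeffEmb L (g t)) (P : MvPolynomial (Dv N ⊕ Dv N) ℚ),
      ((MvPolynomial.eval₂ c gL P : laurentBaseChange L (modularFunctionFieldFull (N * ℓ))) :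
        LaurentSeries L) = coeffEmb L (MvPolynomial.aeval g P) := by
    intro g gL hg P
    have h1 := MvPolynomial.eval₂_comp_left v c gL P
    have h2 := MvPolynomial.eval₂_comp_left (coeffEmb L) (algebraMap ℚ (LaurentSeries ℚ)) g P
    rw [MvPolynomial.aeval_def]
    refine h1.trans (Eq.trans ?_ h2.symm)
    have e1 : v.comp c = (coeffEmb L).comp (algebraMap ℚ (LaurentSeries ℚ)) :=
      RingHom.ext_rat _ _
    have e2 : (v ∘ gL) = (coeffEmb L ∘ g) := funext hg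
    rw [e1, e2]
  have hWev : ∀ P : MvPolynomial (Dv N ⊕ Dv N) ℚ,
      W (MvPolynomial.eval₂ c GLL P) = MvPolynomial.eval₂ c (GLL ∘ Sum.swap) P := by
    intro P
    have h1 := MvPolynomial.eval₂_comp_left W c GLL P
    have e1 : W.comp c = c := RingHom.ext_rat _ _
    have e2 : (W ∘ GLL) = (GLL ∘ Sum.swap) := funext hWGLL
    rw [h1, e1, e2]
  have hGLLswap : ∀ t,
      (((GLL ∘ Sum.swap) t : laurentBaseChange L (modularFunctionFieldFull (N * ℓ))) :
        LaurentSeries L) = coeffEmb L ((gJ N ℓ ∘ Sum.swap) t) := fun t => hGLLval (Sum.swap t)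
  -- the two cases
  obtain ⟨a, ha⟩ : ∃ a : LaurentSeries ℚ, a = MvPolynomial.aeval (gJ N ℓ) r := ⟨_, rfl⟩
  obtain ⟨b, hb⟩ : ∃ b : LaurentSeries ℚ, b = MvPolynomial.aeval (gJ N ℓ) s := ⟨_, rfl⟩
  rw [← ha, ← hb] at hrs
  have hamem : a ∈ IntermediateField.adjoin ℚ (Set.range (gens ℚ ℓ (serN M N))) := by
    rw [ha]
    exact hmemJ r
  have hbmem : b ∈ IntermediateField.adjoin ℚ (Set.range (gens ℚ ℓ (serN M N))) := by
    rw [hb]
    exact hmemJ s
  have hWa : W₀ ⟨a, hamem⟩ = MvPolynomial.aeval (gJ N ℓ ∘ Sum.swap) r := by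
    rw [← hW₀J r]
    congr 1
    exact Subtype.ext ha
  have hWb : W₀ ⟨b, hbmem⟩ = MvPolynomial.aeval (gJ N ℓ ∘ Sum.swap) s := by
    rw [← hW₀J s]
    congr 1
    exact Subtype.ext hb
  by_cases hb0 : b = 0
  · have hY0 : Y = 0 := by rw [hrs, hb0, div_zero]
    have hT0 : T = 0 := by
      rw [← hA]
      have : (⟨Y, hYmem⟩ : IntermediateField.adjoin ℚ (Set.range (gens ℚ ℓ (serN M N)))) = 0 :=
        Subtype.ext hY0
      rw [this, map_zero]
    have hy0 : y = 0 := by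
      apply Subtype.ext
      rw [hy, hY0, map_zero]
      rfl
    rw [hy0, map_zero, hT0, map_zero]
    rfl
  · have hYb : Y * b = a := by rw [hrs, div_mul_cancel₀ _ hb0]
    -- over `ℚ`
    have hTb : T * MvPolynomial.aeval (gJ N ℓ ∘ Sum.swap) s =
        MvPolynomial.aeval (gJ N ℓ ∘ Sum.swap) r := by
      have h1 : (⟨Y, hYmem⟩ : IntermediateField.adjoin ℚ (Set.range (gens ℚ ℓ (serN M N)))) * ⟨b, hbmem⟩ =
          ⟨a, hamem⟩ := Subtype.ext hYb
      have h2 := congrArg W₀ h1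
      rw [map_mul, hA, hWa, hWb] at h2
      exact h2
    have hb'0 : MvPolynomial.aeval (gJ N ℓ ∘ Sum.swap) s ≠ 0 := by
      intro h0
      have h1 : W₀ ⟨b, hbmem⟩ = 0 := by rw [hWb]; exact h0
      have h2 := (map_eq_zero W₀).mp h1
      exact hb0 (congrArg Subtype.val h2)
    -- over `L`
    have hyL : y * MvPolynomial.eval₂ c GLL s = MvPolynomial.eval₂ c GLL r := by
      apply Subtype.ext
      show (y : LaurentSeries L) * ((MvPolynomial.eval₂ c GLL s :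
        laurentBaseChange L (modularFunctionFieldFull (N * ℓ))) : LaurentSeries L) = _
      rw [hval (gJ N ℓ) GLL hGLLval, hval (gJ N ℓ) GLL hGLLval, hy, ← map_mul, ← ha, ← hb, hYb]
    have hWy := congrArg W hyL
    rw [map_mul, hWev, hWev] at hWy
    have hWy' : ((W y : laurentBaseChange L (modularFunctionFieldFull (N * ℓ))) :
          LaurentSeries L) *
        ((MvPolynomial.eval₂ c (GLL ∘ Sum.swap) s :
          laurentBaseChange L (modularFunctionFieldFull (N * ℓ))) : LaurentSeries L) =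
        ((MvPolynomial.eval₂ c (GLL ∘ Sum.swap) r :
          laurentBaseChange L (modularFunctionFieldFull (N * ℓ))) : LaurentSeries L) :=
      congrArg (fun x : laurentBaseChange L (modularFunctionFieldFull (N * ℓ)) =>
        (x : LaurentSeries L)) hWy
    rw [hval (gJ N ℓ ∘ Sum.swap) (GLL ∘ Sum.swap) hGLLswap,
      hval (gJ N ℓ ∘ Sum.swap) (GLL ∘ Sum.swap) hGLLswap, ← hTb, map_mul] at hWy'
    have hb'L : coeffEmb L (MvPolynomial.aeval (gJ N ℓ ∘ Sum.swap) s) ≠ 0 := by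
      intro h0
      exact hb'0 ((map_eq_zero (coeffEmb L)).mp h0)
    exact mul_right_cancel₀ hb'L hWy'

end Main

end

end Fermat.Agent.G1.AtkinH4
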