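/-
G1-DICT, the RELATIVE core (pure algebra: no modular forms).

`F1 / F0` a finite extension of function fields over `K`, `H` a finite group of `K`-algebra
automorphisms of `F1` with fixed field `F0`.

* `exists_smul_eq_of_restrict_eq` : `H` is transitive on the places of `F1` above a place of `F0`;
* `ramificationIndex_eq_card_stabilizer` : `e(w | v) = #Stab_H(w)` (all inertia degrees one);
* `exists_place_exact` : a raw valuation `V` on `F1` restricting to `e₀ • ord_v` on `F0`, invariant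
  under a set `T ⊆ H` with `e₀ ≤ e₁ * #T` and with values divisible by `e₁`, is EXACTLY
  `e₁ • ord_w` for a place `w` above `v`, and every place above `v` is an `H`-conjugate of `w`.
-/
import Mathlib
import Fermat.Prelude.Def_AlgebraicCurve_DivisorClassGroup
import Fermat.Prelude.Def_AlgebraicCurve_DivisorPushPull
import Fermat.Agent.S24.Counting
import Fermat.Agent.Lib.FF.ExtDict

set_option autoImplicit false

noncomputable section

namespace Fermat.Agent.G1.DictRel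

open AlgebraicCurve Fermat.Agent.S24.Counting

variable {K F0 F1 : Type*} [Field K] [Field F0] [Field F1]
  [Algebra K F0] [Algebra K F1] [Algebra F0 F1] [IsScalarTower K F0 F1]

omit [Field F0] [Algebra K F0] [Algebra F0 F1] [IsScalarTower K F0 F1] in
/-- The order function of a conjugate place. -/
theorem ord_smul_place (σ : F1 ≃ₐ[K] F1) (w : Place K F1) (f : F1) :
    (σ • w).ord f = w.ord (σ.symm f) := by
  have h := Place.ord_smul σ w (σ.symm f)
  rwa [AlgEquiv.apply_symm_apply] at h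

omit [Field F0] [Algebra K F0] [Algebra F0 F1] [IsScalarTower K F0 F1] in
theorem ord_apply_eq (σ : F1 ≃ₐ[K] F1) (w : Place K F1) (f : F1) :
    w.ord (σ f) = (σ⁻¹ • w).ord f := by
  rw [ord_smul_place]
  rfl

omit [Field F0] [Algebra K F0] [Algebra F0 F1] [IsScalarTower K F0 F1] in
/-- `ord` of a finite product. -/
theorem ord_prod_eq_sum {ι : Type*} (u : Place K F1) (s : Finset ι) (a : ι → F1)
    (ha : ∀ i ∈ s, a i ≠ 0) : u.ord (∏ i ∈ s, a i) = ∑ i ∈ s, u.ord (a i) := by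
  classical
  induction s using Finset.induction_on with
  | empty => simp [u.ord_one]
  | insert i s hi ih =>
    rw [Finset.prod_insert hi, Finset.sum_insert hi,
      u.ord_mul (ha i (Finset.mem_insert_self i s))
        (Finset.prod_ne_zero_iff.mpr fun j hj => ha j (Finset.mem_insert_of_mem hj)),
      ih fun j hj => ha j (Finset.mem_insert_of_mem hj)]

section Restrict

variable [Algebra.IsIntegral F0 F1]

/-- An automorphism fixing `F0` does not move the place below. -/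
theorem restrict_smul (σ : F1 ≃ₐ[K] F1)
    (hσ : ∀ x : F0, σ (algebraMap F0 F1 x) = algebraMap F0 F1 x) (w : Place K F1) :
    (σ • w).restrict F0 = w.restrict F0 := by
  have hsymm : ∀ x : F0, σ.symm (algebraMap F0 F1 x) = algebraMap F0 F1 x := fun x => by
    rw [AlgEquiv.symm_apply_eq, hσ]
  apply place_eq_of_le
  intro x hx
  rcases eq_or_ne x 0 with rfl | hx0
  · exact zero_mem _
  have hx0' : algebraMap F0 F1 x ≠ 0 := (map_ne_zero _).mpr hx0
  rw [Place.mem_restrict_iff, ← ord_nonneg_iff _ hx0'] at hx ⊢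
  rwa [ord_smul_place, hsymm] at hx

omit [Algebra K F0] [IsScalarTower K F0 F1] [Algebra.IsIntegral F0 F1] in
theorem ramificationIndex_smul (σ : F1 ≃ₐ[K] F1)
    (hσ : ∀ x : F0, σ (algebraMap F0 F1 x) = algebraMap F0 F1 x) (w : Place K F1) :
    (σ • w).ramificationIndex F0 = w.ramificationIndex F0 := by
  have hsymm : ∀ x : F0, σ.symm (algebraMap F0 F1 x) = algebraMap F0 F1 x := fun x => by
    rw [AlgEquiv.symm_apply_eq, hσ]
  unfold Place.ramificationIndex
  simp_rw [ord_smul_place, hsymm]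

/-- **Transitivity.**  Two places of `F1` with the same restriction to `F0` are conjugate under
`H`. -/
theorem exists_smul_eq_of_restrict_eq (H : Subgroup (F1 ≃ₐ[K] F1)) [Finite H]
    (hinv : ∀ f : F1, (∀ σ ∈ H, σ f = f) → f ∈ (algebraMap F0 F1).range)
    (w w' : Place K F1) (h : w.restrict F0 = w'.restrict F0) :
    ∃ σ ∈ H, σ • w = w' := by
  classical
  by_contra hcon
  push Not at hcon
  have : Fintype H := Fintype.ofFinite H
  set S : Finset (Place K F1) :=
    (Finset.univ.image fun σ : H => (σ : F1 ≃ₐ[K] F1) • w) ∪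
      ((Finset.univ.image fun σ : H => (σ : F1 ≃ₐ[K] F1) • w').erase w') with hS
  have hw'S : w' ∉ S := by
    intro hmem
    rcases Finset.mem_union.mp hmem with h1 | h1
    · obtain ⟨σ, -, hσ⟩ := Finset.mem_image.mp h1
      exact hcon σ σ.2 hσ
    · exact (Finset.notMem_erase _ _) h1
  obtain ⟨f, hf0, hfw', hfS⟩ := exists_ord_neg_pos w' S hw'S
  -- `g = 1 / (f + 1)` vanishes at `w'` and is a unit at all places of `S`
  have hkey : w'.ord (f + 1) = w'.ord f :=
    (isRawVal_ord w').map_add_of_lt hf0 one_ne_zero (by rw [w'.ord_one]; exact hfw')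
  have h1f : f + 1 ≠ 0 := by
    intro h0
    rw [h0, w'.ord_zero] at hkey
    omega
  set g : F1 := (f + 1)⁻¹ with hg
  have hg0 : g ≠ 0 := inv_ne_zero h1f
  have hgw' : 0 < w'.ord g := by
    rw [hg, w'.ord_inv, hkey]
    omega
  have hgS : ∀ u ∈ S, u.ord g = 0 := by
    intro u hu
    have h1 : u.ord (1 + f) = u.ord 1 :=
      (isRawVal_ord u).map_add_of_lt one_ne_zero hf0 (by rw [u.ord_one]; exact hfS u hu)
    rw [hg, u.ord_inv, add_comm, h1, u.ord_one, neg_zero]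
  -- the norm of `g`
  set N : F1 := ∏ σ : H, (σ : F1 ≃ₐ[K] F1) g with hN
  have hσg : ∀ σ : H, (σ : F1 ≃ₐ[K] F1) g ≠ 0 := fun σ => (map_ne_zero _).mpr hg0
  have hNinv : ∀ τ ∈ H, τ N = N := by
    intro τ hτ
    rw [hN, map_prod]
    exact Fintype.prod_equiv (Equiv.mulLeft (⟨τ, hτ⟩ : H)) _ _ (fun σ => rfl)
  obtain ⟨n, hn⟩ := hinv N hNinv
  have hord : ∀ u : Place K F1, u.ord N = ∑ σ : H, (((σ⁻¹ : H) : F1 ≃ₐ[K] F1) • u).ord g := by
    intro u
    rw [hN, ord_prod_eq_sum u _ _ fun σ _ => hσg σ]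
    refine Finset.sum_congr rfl fun σ _ => ?_
    rw [ord_apply_eq]
    rfl
  have hwN : w.ord N = 0 := by
    rw [hord w]
    refine Finset.sum_eq_zero fun σ _ => hgS _ ?_
    exact Finset.mem_union_left _ (Finset.mem_image.mpr ⟨σ⁻¹, Finset.mem_univ _, rfl⟩)
  have hw'N : 0 < w'.ord N := by
    rw [hord w']
    refine Finset.sum_pos' (fun σ _ => ?_) ⟨1, Finset.mem_univ _, ?_⟩
    · by_cases hσ : ((σ⁻¹ : H) : F1 ≃ₐ[K] F1) • w' = w'
      · rw [hσ]; exact hgw'.le
      · refine (hgS _ ?_).ge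
        exact Finset.mem_union_right _ (Finset.mem_erase.mpr
          ⟨hσ, Finset.mem_image.mpr ⟨σ⁻¹, Finset.mem_univ _, rfl⟩⟩)
    · simpa using hgw'
  rw [← hn, Place.ord_restrict] at hwN hw'N
  rw [← h] at hw'N
  have he := w.ramificationIndex_pos (F := F0)
  have h0 : (w.restrict F0).ord n = 0 := by
    rcases mul_eq_zero.mp hwN with h1 | h1
    · omega
    · exact h1
  rw [h0, mul_zero] at hw'N
  exact lt_irrefl _ hw'N

end Restrict

section Galois

variable [FiniteDimensional F0 F1]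

omit [Algebra K F0] [IsScalarTower K F0 F1] [FiniteDimensional F0 F1] in
/-- A group of automorphisms with fixed field `F0` is a Galois group of `F1 / F0` in Mathlib's
sense. -/
theorem isGaloisGroup_of (H : Subgroup (F1 ≃ₐ[K] F1))
    (hfix : ∀ σ ∈ H, ∀ x : F0, σ (algebraMap F0 F1 x) = algebraMap F0 F1 x)
    (hinv : ∀ f : F1, (∀ σ ∈ H, σ f = f) → f ∈ (algebraMap F0 F1).range) :
    IsGaloisGroup H F0 F1 where
  faithful := ⟨fun {σ τ} h => Subtype.ext (AlgEquiv.ext fun f => h f)⟩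
  commutes := ⟨fun σ x f => by
    show (σ : F1 ≃ₐ[K] F1) (x • f) = x • (σ : F1 ≃ₐ[K] F1) f
    rw [Algebra.smul_def, map_mul, hfix σ σ.2, Algebra.smul_def]⟩
  isInvariant := ⟨fun f hf => by
    obtain ⟨a, ha⟩ := hinv f (fun σ hσ => hf ⟨σ, hσ⟩)
    exact ⟨a, ha⟩⟩

omit [Algebra K F0] [IsScalarTower K F0 F1] [FiniteDimensional F0 F1] in
theorem card_eq_finrank_of (H : Subgroup (F1 ≃ₐ[K] F1))
    (hfix : ∀ σ ∈ H, ∀ x : F0, σ (algebraMap F0 F1 x) = algebraMap F0 F1 x)
    (hinv : ∀ f : F1, (∀ σ ∈ H, σ f = f) → f ∈ (algebraMap F0 F1).range) :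
    Nat.card H = Module.finrank F0 F1 := by
  have hG := isGaloisGroup_of H hfix hinv
  exact IsGaloisGroup.card_eq_finrank H F0 F1

variable [HasPrincipalDivisors K F1]

/-- The fibre above `w|_{F0}` is the `H`-orbit of `w`. -/
theorem orbit_eq_fiber (H : Subgroup (F1 ≃ₐ[K] F1)) [Finite H]
    (hfix : ∀ σ ∈ H, ∀ x : F0, σ (algebraMap F0 F1 x) = algebraMap F0 F1 x)
    (hinv : ∀ f : F1, (∀ σ ∈ H, σ f = f) → f ∈ (algebraMap F0 F1).range)
    (w : Place K F1) :
    MulAction.orbit H w = ↑((w.restrict F0).fiber F1) := by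
  ext u
  simp only [MulAction.mem_orbit_iff, Finset.mem_coe, Place.mem_fiber]
  constructor
  · rintro ⟨σ, rfl⟩
    exact restrict_smul (σ : F1 ≃ₐ[K] F1) (hfix σ σ.2) w
  · intro hu
    obtain ⟨σ, hσ, rfl⟩ := exists_smul_eq_of_restrict_eq H hinv w u hu.symm
    exact ⟨⟨σ, hσ⟩, rfl⟩

/-- **`e(w | v) = #Stab_H(w)`** when all inertia degrees are one. -/
theorem ramificationIndex_eq_card_stabilizer [SumRamificationInertia K F0 F1]
    (H : Subgroup (F1 ≃ₐ[K] F1)) [Finite H]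
    (hfix : ∀ σ ∈ H, ∀ x : F0, σ (algebraMap F0 F1 x) = algebraMap F0 F1 x)
    (hinv : ∀ f : F1, (∀ σ ∈ H, σ f = f) → f ∈ (algebraMap F0 F1).range)
    (hinert : ∀ w : Place K F1, w.inertiaDeg F0 = 1) (w : Place K F1) :
    w.ramificationIndex F0 = Nat.card (MulAction.stabilizer H w) := by
  classical
  have hcard : Nat.card H = Module.finrank F0 F1 := card_eq_finrank_of H hfix hinv
  have hsum := SumRamificationInertia.sum_ramificationIndex_mul_inertiaDeg
    (K := K) (F := F0) (F' := F1) (w.restrict F0)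
  have hconst : ∀ u ∈ (w.restrict F0).fiber F1,
      (u.ramificationIndex F0 : ℤ) * (u.inertiaDeg F0 : ℤ) = (w.ramificationIndex F0 : ℤ) := by
    intro u hu
    obtain ⟨σ, hσ, rfl⟩ :=
      exists_smul_eq_of_restrict_eq H hinv w u (Place.mem_fiber.mp hu).symm
    rw [hinert, ramificationIndex_smul σ (hfix σ hσ)]
    simp
  rw [Finset.sum_congr rfl hconst, Finset.sum_const, nsmul_eq_mul] at hsum
  have hidx : (MulAction.stabilizer H w).index = ((w.restrict F0).fiber F1).card := by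
    rw [MulAction.index_stabilizer, orbit_eq_fiber H hfix hinv w, Set.ncard_coe_finset]
  have hmul := Subgroup.card_mul_index (MulAction.stabilizer H w)
  rw [hidx, hcard] at hmul
  have hpos : 0 < ((w.restrict F0).fiber F1).card :=
    Finset.card_pos.mpr ⟨w, Place.restrict_mem_fiber w⟩
  have h1 : (((w.restrict F0).fiber F1).card : ℤ) * (w.ramificationIndex F0 : ℤ)
      = (Nat.card (MulAction.stabilizer H w) : ℤ) * (((w.restrict F0).fiber F1).card : ℤ) := by
    rw [hsum]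
    exact_mod_cast hmul.symm
  have h2 : ((w.restrict F0).fiber F1).card * w.ramificationIndex F0
      = ((w.restrict F0).fiber F1).card * Nat.card (MulAction.stabilizer H w) := by
    have h3 : ((w.restrict F0).fiber F1).card * w.ramificationIndex F0
        = Nat.card (MulAction.stabilizer H w) * ((w.restrict F0).fiber F1).card := by
      exact_mod_cast h1
    rw [h3, mul_comm]
  exact Nat.eq_of_mul_eq_mul_left hpos h2

/-- **Relative exact-index theorem.**  Let `V` be a raw valuation on `F1` whose restriction to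
`F0` is `e₀ • ord_v`, which is invariant under a set `T ⊆ H` of automorphisms with
`e₀ ≤ e₁ * #T`, and all of whose values are divisible by `e₁`.  Then `V = e₁ • ord_w` for a place
`w` of `F1` above `v` with `e(w | v) * e₁ = e₀`, and every place `w'` above `v` satisfies
`e₁ • ord_{w'} = V ∘ σ` for some `σ ∈ H`. -/
theorem exists_place_exact [SumRamificationInertia K F0 F1]
    (H : Subgroup (F1 ≃ₐ[K] F1)) [Finite H]
    (hfix : ∀ σ ∈ H, ∀ x : F0, σ (algebraMap F0 F1 x) = algebraMap F0 F1 x)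
    (hinv : ∀ f : F1, (∀ σ ∈ H, σ f = f) → f ∈ (algebraMap F0 F1).range)
    (hinert : ∀ w : Place K F1, w.inertiaDeg F0 = 1)
    {V : F1 → ℤ} (hV : IsRawVal K V) (v : Place K F0) {e₀ e₁ : ℕ} (he₀ : 0 < e₀)
    (hres : ∀ x : F0, x ≠ 0 → V (algebraMap F0 F1 x) = e₀ * v.ord x)
    (T : Set (F1 ≃ₐ[K] F1)) (hTH : T ⊆ H)
    (hTV : ∀ σ ∈ T, ∀ f : F1, f ≠ 0 → V (σ f) = V f)
    (hcard : e₀ ≤ e₁ * T.ncard)
    (hdvd : ∀ f : F1, f ≠ 0 → (e₁ : ℤ) ∣ V f) :
    ∃ w : Place K F1, w.restrict F0 = v ∧ (∀ f : F1, f ≠ 0 → V f = e₁ * w.ord f) ∧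
      w.ramificationIndex F0 * e₁ = e₀ ∧
      ∀ w' : Place K F1, w'.restrict F0 = v →
        ∃ σ ∈ H, ∀ f : F1, f ≠ 0 → V (σ f) = e₁ * w'.ord f := by
  classical
  obtain ⟨π₀, hπ₀⟩ := IsDiscreteValuationRing.exists_irreducible v.toValuationSubring
  have hπ₀0 : (π₀ : F0) ≠ 0 := by
    simpa [ne_eq, ZeroMemClass.coe_eq_zero] using hπ₀.ne_zero
  have hπ₀ord : v.ord (π₀ : F0) = 1 := v.ord_coe_irreducible hπ₀
  have hπ₀0' : algebraMap F0 F1 (π₀ : F0) ≠ 0 := (map_ne_zero _).mpr hπ₀0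
  have he₀' : (0 : ℤ) < (e₀ : ℤ) := by exact_mod_cast he₀
  have hnt : ∃ f : F1, f ≠ 0 ∧ V f ≠ 0 := by
    refine ⟨algebraMap F0 F1 π₀, hπ₀0', ?_⟩
    rw [hres _ hπ₀0, hπ₀ord]
    omega
  obtain ⟨m, hm, ⟨π, hπ0, -, hπV⟩, hVm⟩ := hV.exists_mul_ord hnt
  set w : Place K F1 := hV.place hnt with hw
  have hwv : w.restrict F0 = v := by
    apply place_eq_of_le
    intro x hx
    rcases eq_or_ne x 0 with rfl | hx0
    · exact zero_mem _
    have hx0' : algebraMap F0 F1 x ≠ 0 := (map_ne_zero _).mpr hx0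
    rw [Place.mem_restrict_iff, ← ord_nonneg_iff _ hx0'] at hx
    rw [← ord_nonneg_iff _ hx0]
    have h1 := hVm _ hx0'
    rw [hres x hx0] at h1
    have h2 : 0 ≤ (e₀ : ℤ) * v.ord x := by
      rw [h1]
      exact mul_nonneg hm.le hx
    exact nonneg_of_mul_nonneg_right h2 he₀'
  have hem : m * (w.ramificationIndex F0 : ℤ) = e₀ := by
    have h1 := hVm _ hπ₀0'
    rw [hres _ hπ₀0, hπ₀ord, Place.ord_restrict, hwv, hπ₀ord] at h1
    linarith
  have hdm : (e₁ : ℤ) ∣ m := hπV ▸ hdvd π hπ0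
  have hTstab : ∀ σ ∈ T, σ • w = w := by
    intro σ hσ
    apply place_eq_of_le
    intro f hf
    rcases eq_or_ne f 0 with rfl | hf0
    · exact zero_mem _
    rw [← ord_nonneg_iff _ hf0] at hf ⊢
    rw [ord_smul_place] at hf
    have hf0' : σ.symm f ≠ 0 := (map_ne_zero _).mpr hf0
    have h1 := hTV σ hσ (σ.symm f) hf0'
    rw [AlgEquiv.apply_symm_apply, hVm f hf0, hVm _ hf0'] at h1
    have h2 := mul_left_cancel₀ hm.ne' h1
    omega
  have hTle : T.ncard ≤ Nat.card (MulAction.stabilizer H w) := by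
    have hsub : T ⊆ Set.range
        (fun σ : MulAction.stabilizer H w => ((σ : H) : F1 ≃ₐ[K] F1)) := by
      intro σ hσ
      exact ⟨⟨⟨σ, hTH hσ⟩, hTstab σ hσ⟩, rfl⟩
    calc T.ncard ≤ (Set.range
          (fun σ : MulAction.stabilizer H w => ((σ : H) : F1 ≃ₐ[K] F1))).ncard :=
          Set.ncard_le_ncard hsub (Set.finite_range _)
      _ = Nat.card (MulAction.stabilizer H w) := by
          rw [← Set.image_univ, Set.ncard_image_of_injective _
            (fun a b h => Subtype.ext (Subtype.ext h)), Set.ncard_univ]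
  have hram := ramificationIndex_eq_card_stabilizer H hfix hinv hinert w
  have hepos := w.ramificationIndex_pos (F := F0)
  have hm1 : m = e₁ := by
    obtain ⟨k, hk⟩ := hdm
    have hE : (0 : ℤ) < (w.ramificationIndex F0 : ℤ) := by exact_mod_cast hepos
    have ht : (T.ncard : ℤ) ≤ (w.ramificationIndex F0 : ℤ) := by
      rw [hram]
      exact_mod_cast hTle
    have hc : (e₀ : ℤ) ≤ (e₁ : ℤ) * (T.ncard : ℤ) := by exact_mod_cast hcard
    have he1 : (0 : ℤ) < (e₁ : ℤ) := by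
      by_contra hcon
      have : (e₁ : ℤ) = 0 := by omega
      rw [this, zero_mul] at hc
      omega
    have hk0 : 0 < k := by
      rw [hk] at hm
      exact (mul_pos_iff_of_pos_left he1).mp hm
    have hk1 : k ≤ 1 := by
      by_contra hcon
      have hk2 : 2 ≤ k := by omega
      have h3 : (e₁ : ℤ) * k * (w.ramificationIndex F0 : ℤ)
          ≤ (e₁ : ℤ) * (w.ramificationIndex F0 : ℤ) := by
        rw [← hk, hem]
        exact hc.trans (mul_le_mul_of_nonneg_left ht he1.le)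
      nlinarith [mul_pos he1 hE]
    have : k = 1 := by omega
    rw [hk, this, mul_one]
  refine ⟨w, hwv, fun f hf => by rw [hVm f hf, hm1], ?_, ?_⟩
  · have h1 : ((w.ramificationIndex F0 * e₁ : ℕ) : ℤ) = (e₀ : ℤ) := by
      push_cast
      rw [← hem, hm1]
      ring
    exact_mod_cast h1
  · intro w' hw'
    obtain ⟨τ, hτ, rfl⟩ := exists_smul_eq_of_restrict_eq H hinv w w' (hwv.trans hw'.symm)
    refine ⟨τ⁻¹, H.inv_mem hτ, fun f hf => ?_⟩
    rw [hVm _ ((map_ne_zero _).mpr hf), hm1, ord_smul_place]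
    rfl

/-- The automorphisms preserving a raw valuation form a subgroup. -/
def valStab (V : F1 → ℤ) : Subgroup (F1 ≃ₐ[K] F1) where
  carrier := {σ | ∀ f : F1, f ≠ 0 → V (σ f) = V f}
  one_mem' := fun _ _ => rfl
  mul_mem' := by
    intro σ τ hσ hτ f hf
    show V (σ (τ f)) = V f
    rw [hσ _ ((map_ne_zero _).mpr hf), hτ f hf]
  inv_mem' := by
    intro σ hσ f hf
    show V (σ.symm f) = V f
    have h := hσ (σ.symm f) ((map_ne_zero _).mpr hf)
    rw [AlgEquiv.apply_symm_apply] at h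
    exact h.symm

omit [Field F0] [Algebra K F0] [Algebra F0 F1] [IsScalarTower K F0 F1] [FiniteDimensional F0 F1]
  [HasPrincipalDivisors K F1] in
theorem mem_valStab {V : F1 → ℤ} {σ : F1 ≃ₐ[K] F1} :
    σ ∈ valStab (K := K) V ↔ ∀ f : F1, f ≠ 0 → V (σ f) = V f := Iff.rfl

/-- **Relative exact-index theorem, cyclic stabiliser form.**  As `exists_place_exact`, with the
invariance of `V` under ONE automorphism `σ₀ ∈ H` of order `k`, `e₀ ≤ e₁ * k`. -/
theorem exists_place_exact_cyclic [SumRamificationInertia K F0 F1]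
    (H : Subgroup (F1 ≃ₐ[K] F1)) [Finite H]
    (hfix : ∀ σ ∈ H, ∀ x : F0, σ (algebraMap F0 F1 x) = algebraMap F0 F1 x)
    (hinv : ∀ f : F1, (∀ σ ∈ H, σ f = f) → f ∈ (algebraMap F0 F1).range)
    (hinert : ∀ w : Place K F1, w.inertiaDeg F0 = 1)
    {V : F1 → ℤ} (hV : IsRawVal K V) (v : Place K F0) {e₀ e₁ : ℕ} (he₀ : 0 < e₀)
    (hres : ∀ x : F0, x ≠ 0 → V (algebraMap F0 F1 x) = e₀ * v.ord x)
    (σ₀ : F1 ≃ₐ[K] F1) (hσ₀H : σ₀ ∈ H) (hσ₀V : ∀ f : F1, f ≠ 0 → V (σ₀ f) = V f)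
    (hcard : e₀ ≤ e₁ * orderOf σ₀)
    (hdvd : ∀ f : F1, f ≠ 0 → (e₁ : ℤ) ∣ V f) :
    ∃ w : Place K F1, w.restrict F0 = v ∧ (∀ f : F1, f ≠ 0 → V f = e₁ * w.ord f) ∧
      w.ramificationIndex F0 * e₁ = e₀ ∧
      ∀ w' : Place K F1, w'.restrict F0 = v →
        ∃ σ ∈ H, ∀ f : F1, f ≠ 0 → V (σ f) = e₁ * w'.ord f := by
  refine exists_place_exact H hfix hinv hinert hV v he₀ hres
    (Subgroup.zpowers σ₀ : Set (F1 ≃ₐ[K] F1)) ?_ ?_ ?_ hdvd
  · exact (Subgroup.zpowers_le.mpr hσ₀H)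
  · intro σ hσ
    have h1 : Subgroup.zpowers σ₀ ≤ valStab (K := K) V := Subgroup.zpowers_le.mpr hσ₀V
    exact h1 hσ
  · have h1 : (Subgroup.zpowers σ₀ : Set (F1 ≃ₐ[K] F1)).ncard = orderOf σ₀ := by
      rw [← Nat.card_zpowers]
      rfl
    rw [h1]
    exact hcard

/-- **Relative exact-index theorem, unramified form** (`e₁ = e₀`, no invariance needed): a raw
valuation on `F1` restricting to `e₀ • ord_v` on `F0`, all of whose values are divisible by `e₀`,
is `e₀ • ord_w` for a place `w` above `v`, unramified over `v`. -/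
theorem exists_place_exact_unram [SumRamificationInertia K F0 F1]
    (H : Subgroup (F1 ≃ₐ[K] F1)) [Finite H]
    (hfix : ∀ σ ∈ H, ∀ x : F0, σ (algebraMap F0 F1 x) = algebraMap F0 F1 x)
    (hinv : ∀ f : F1, (∀ σ ∈ H, σ f = f) → f ∈ (algebraMap F0 F1).range)
    (hinert : ∀ w : Place K F1, w.inertiaDeg F0 = 1)
    {V : F1 → ℤ} (hV : IsRawVal K V) (v : Place K F0) {e₀ : ℕ} (he₀ : 0 < e₀)
    (hres : ∀ x : F0, x ≠ 0 → V (algebraMap F0 F1 x) = e₀ * v.ord x)
    (hdvd : ∀ f : F1, f ≠ 0 → (e₀ : ℤ) ∣ V f) :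
    ∃ w : Place K F1, w.restrict F0 = v ∧ (∀ f : F1, f ≠ 0 → V f = e₀ * w.ord f) ∧
      w.ramificationIndex F0 = 1 ∧
      ∀ w' : Place K F1, w'.restrict F0 = v →
        ∃ σ ∈ H, ∀ f : F1, f ≠ 0 → V (σ f) = e₀ * w'.ord f := by
  obtain ⟨w, h1, h2, h3, h4⟩ := exists_place_exact_cyclic H hfix hinv hinert hV v he₀ hres
    1 H.one_mem (fun _ _ => rfl) (by simp) hdvd
  refine ⟨w, h1, h2, ?_, h4⟩
  exact Nat.eq_of_mul_eq_mul_right he₀ (by rw [h3, one_mul])

section Concrete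

variable [IsAlgClosed K] [CharZero K]

/-- `exists_place_exact_cyclic` over an algebraically closed constant field of characteristic
zero (all places of degree one): no `SumRamificationInertia` hypothesis. -/
theorem exists_place_exact_cyclic'
    (hdeg : ∀ v : Place K F0, v.deg = 1) (hdeg' : ∀ w : Place K F1, w.deg = 1)
    (H : Subgroup (F1 ≃ₐ[K] F1)) [Finite H]
    (hfix : ∀ σ ∈ H, ∀ x : F0, σ (algebraMap F0 F1 x) = algebraMap F0 F1 x)
    (hinv : ∀ f : F1, (∀ σ ∈ H, σ f = f) → f ∈ (algebraMap F0 F1).range)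
    {V : F1 → ℤ} (hV : IsRawVal K V) (v : Place K F0) {e₀ e₁ : ℕ} (he₀ : 0 < e₀)
    (hres : ∀ x : F0, x ≠ 0 → V (algebraMap F0 F1 x) = e₀ * v.ord x)
    (σ₀ : F1 ≃ₐ[K] F1) (hσ₀H : σ₀ ∈ H) (hσ₀V : ∀ f : F1, f ≠ 0 → V (σ₀ f) = V f)
    (hcard : e₀ ≤ e₁ * orderOf σ₀)
    (hdvd : ∀ f : F1, f ≠ 0 → (e₁ : ℤ) ∣ V f) :
    ∃ w : Place K F1, w.restrict F0 = v ∧ (∀ f : F1, f ≠ 0 → V f = e₁ * w.ord f) ∧
      w.ramificationIndex F0 * e₁ = e₀ ∧
      ∀ w' : Place K F1, w'.restrict F0 = v →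
        ∃ σ ∈ H, ∀ f : F1, f ≠ 0 → V (σ f) = e₁ * w'.ord f := by
  have := Fermat.Agent.Lib.FF.ExtDict.sumRamificationInertia (K := K) (F := F0) (F' := F1)
    hdeg hdeg'
  exact exists_place_exact_cyclic H hfix hinv
    (Fermat.Agent.Lib.FF.ExtDict.inertiaDeg_eq_one hdeg') hV v he₀ hres σ₀ hσ₀H hσ₀V hcard hdvd

/-- Transitivity and `e = #Stab` in the concrete setting, packaged: the ramification index of
`w` over `F0` is the number of `σ ∈ H` fixing `w`. -/
theorem ramificationIndex_eq_card_stabilizer'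
    (hdeg : ∀ v : Place K F0, v.deg = 1) (hdeg' : ∀ w : Place K F1, w.deg = 1)
    (H : Subgroup (F1 ≃ₐ[K] F1)) [Finite H]
    (hfix : ∀ σ ∈ H, ∀ x : F0, σ (algebraMap F0 F1 x) = algebraMap F0 F1 x)
    (hinv : ∀ f : F1, (∀ σ ∈ H, σ f = f) → f ∈ (algebraMap F0 F1).range) (w : Place K F1) :
    w.ramificationIndex F0 = Nat.card (MulAction.stabilizer H w) := by
  have := Fermat.Agent.Lib.FF.ExtDict.sumRamificationInertia (K := K) (F := F0) (F' := F1)
    hdeg hdeg'
  exact ramificationIndex_eq_card_stabilizer H hfix hinv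
    (Fermat.Agent.Lib.FF.ExtDict.inertiaDeg_eq_one hdeg') w

/-- **Hom form of the relative exact-index theorem** (the shape consumed by the `Γ₁(M)`
dictionary): `δ : C →* Aut_K(F1)` with `C` finite, fixed field `F0`. -/
theorem exists_place_exact_hom' {C : Type*} [Group C] [Finite C] (δ : C →* (F1 ≃ₐ[K] F1))
    (hdeg : ∀ v : Place K F0, v.deg = 1) (hdeg' : ∀ w : Place K F1, w.deg = 1)
    (hfix : ∀ (c : C) (x : F0), δ c (algebraMap F0 F1 x) = algebraMap F0 F1 x)
    (hinv : ∀ f : F1, (∀ c : C, δ c f = f) → f ∈ (algebraMap F0 F1).range)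
    {V : F1 → ℤ} (hV : IsRawVal K V) (v : Place K F0) {e₀ e₁ : ℕ} (he₀ : 0 < e₀)
    (hres : ∀ x : F0, x ≠ 0 → V (algebraMap F0 F1 x) = e₀ * v.ord x)
    (c₀ : C) (hc₀V : ∀ f : F1, f ≠ 0 → V (δ c₀ f) = V f)
    (hcard : e₀ ≤ e₁ * orderOf (δ c₀))
    (hdvd : ∀ f : F1, f ≠ 0 → (e₁ : ℤ) ∣ V f) :
    ∃ w : Place K F1, w.restrict F0 = v ∧ (∀ f : F1, f ≠ 0 → V f = e₁ * w.ord f) ∧
      w.ramificationIndex F0 * e₁ = e₀ ∧
      ∀ w' : Place K F1, w'.restrict F0 = v →
        ∃ c : C, ∀ f : F1, f ≠ 0 → V (δ c f) = e₁ * w'.ord f := by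
  have hfin : Finite δ.range := Finite.of_surjective δ.rangeRestrict δ.rangeRestrict_surjective
  obtain ⟨w, h1, h2, h3, h4⟩ := exists_place_exact_cyclic' hdeg hdeg' δ.range
    (by rintro σ ⟨c, rfl⟩ x; exact hfix c x)
    (fun f hf => hinv f fun c => hf (δ c) ⟨c, rfl⟩)
    hV v he₀ hres (δ c₀) ⟨c₀, rfl⟩ hc₀V hcard hdvd
  refine ⟨w, h1, h2, h3, fun w' hw' => ?_⟩
  obtain ⟨σ, ⟨c, rfl⟩, hσ⟩ := h4 w' hw'
  exact ⟨c, hσ⟩

omit [HasPrincipalDivisors K F1] [IsAlgClosed K] [CharZero K] in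
/-- Transitivity in hom form: two places of `F1` above the same place of `F0` differ by some
`δ c`. -/
theorem exists_ord_eq_of_restrict_eq_hom {C : Type*} [Group C] [Finite C]
    (δ : C →* (F1 ≃ₐ[K] F1))
    (hinv : ∀ f : F1, (∀ c : C, δ c f = f) → f ∈ (algebraMap F0 F1).range)
    (w w' : Place K F1) (h : w.restrict F0 = w'.restrict F0) :
    ∃ c : C, ∀ f : F1, w'.ord f = w.ord (δ c f) := by
  have hfin : Finite δ.range := Finite.of_surjective δ.rangeRestrict δ.rangeRestrict_surjective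
  obtain ⟨σ, ⟨c, rfl⟩, rfl⟩ := exists_smul_eq_of_restrict_eq δ.range
    (fun f hf => hinv f fun c => hf (δ c) ⟨c, rfl⟩) w w' h
  refine ⟨c⁻¹, fun f => ?_⟩
  rw [ord_smul_place, map_inv]
  rfl

end Concrete

end Galois

end Fermat.Agent.G1.DictRel
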