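/-
G1 (BR): the branch hypothesis of the discriminant count for an EXTENSION `F₁` of the trunk field
`F_N = ℚ̄·F₀(N)` (consumer: `Lib/Red/DiscTower.lift_x_ext`, `lift_inv_ext`; `F₁ = ℚ̄·F1a(M, a)`,
`N = M·a`).

The extension enters only through
* a finite group `H` of `ℚ̄`-automorphisms of `F₁` with fixed field `F_N`  (G1-GAL), and
* for every `τ ∈ ℍ` a raw valuation of `F₁` extending the point valuation `valPt N τ` of `F_N`
  (the order at `τ` of the meromorphic avatar; G1-GAL (a)).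
No exact-index statement, no torsion-freeness, no cusps are needed.

* `exists_mul_ord_eq` (abstract): a raw valuation `V` of `F₁` extending `e₀ • ord_v` computes
  EVERY place `P` above `v` on `F₀`: `m * P.ord (y) = V y` for `y ∈ F₀`, some `m > 0`;
* `valPt_JN_sub` : `valPt N τ (J_N - c) = ellOrder (N τ)` if `j(N τ) = c`, `0` otherwise;
* `ord_JN_sub_generic_ext`, `ord_JN_sub_1728_ext`, `ord_JN_sub_zero_ext` : the branch data of
  `J_N = J(q^N)` on `F₁`;
* `hbr_ofJ_ext`, `hbr_ofJ_inv_ext`, `hbr_ofHaupt2_ext`, `hbr_ofHaupt2_inv_ext`,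
  `hbr_ofHaupt3_ext`, `hbr_ofHaupt3_inv_ext` : (BR) in the shape of `DiscTower`.
-/
import Mathlib
import Fermat.Agent.G1.DictRel
import Fermat.Agent.S24.HauptBranch
import Fermat.Agent.S24.Ramif
import Fermat.Agent.S24.ValTop
import Fermat.Agent.S24.CuspTop
import Fermat.Agent.S24.HNFMod
import Fermat.Agent.Lib.Red.BranchH

set_option autoImplicit false

noncomputable section

namespace Fermat.Agent.G1.BranchRel

open AlgebraicCurve UpperHalfPlane Fermat.Agent.S24 Fermat.Agent.S24.Counting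
open Fermat.Agent.G1.DictRel
open scoped MatrixGroups Topology

/-! ### Abstract part -/

section Abstract

variable {K F0 F1 : Type*} [Field K] [Field F0] [Field F1]
  [Algebra K F0] [Algebra K F1] [Algebra F0 F1] [IsScalarTower K F0 F1]
  [Algebra.IsIntegral F0 F1]

/-- A raw valuation of `F1` extending a positive multiple of `ord_v` has its place above `v`. -/
theorem restrict_place_eq {V : F1 → ℤ} (hV : IsRawVal K V) (v : Place K F0) {e₀ : ℕ}
    (he₀ : 0 < e₀) (hres : ∀ x : F0, x ≠ 0 → V (algebraMap F0 F1 x) = e₀ * v.ord x)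
    (hnt : ∃ f : F1, f ≠ 0 ∧ V f ≠ 0) : (hV.place hnt).restrict F0 = v := by
  obtain ⟨m, hm, -, hVm⟩ := hV.exists_mul_ord hnt
  have he₀' : (0 : ℤ) < (e₀ : ℤ) := by exact_mod_cast he₀
  apply Counting.place_eq_of_le
  intro x hx
  rcases eq_or_ne x 0 with rfl | hx0
  · exact zero_mem _
  have hx0' : algebraMap F0 F1 x ≠ 0 := (map_ne_zero _).mpr hx0
  rw [Place.mem_restrict_iff, ← ord_nonneg_iff _ hx0'] at hx
  rw [← ord_nonneg_iff _ hx0]
  have h1 := hVm _ hx0'
  rw [hres x hx0] at h1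
  have h2 : 0 ≤ (e₀ : ℤ) * v.ord x := by
    rw [h1]
    exact mul_nonneg hm.le hx
  exact nonneg_of_mul_nonneg_right h2 he₀'

/-- **A raw valuation above `v` computes every place above `v` on the base field.**  `H` a finite
group of automorphisms of `F1` with fixed field `F0`; `V` a raw valuation of `F1` with
`V = e₀ • ord_v` on `F0`.  Then for every place `P` of `F1` above `v` there is `m > 0` with
`m * P.ord y = V y` for all `y ∈ F0`. -/
theorem exists_mul_ord_eq (H : Subgroup (F1 ≃ₐ[K] F1)) [Finite H]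
    (hfix : ∀ σ ∈ H, ∀ x : F0, σ (algebraMap F0 F1 x) = algebraMap F0 F1 x)
    (hinv : ∀ f : F1, (∀ σ ∈ H, σ f = f) → f ∈ (algebraMap F0 F1).range)
    {V : F1 → ℤ} (hV : IsRawVal K V) (v : Place K F0) {e₀ : ℕ} (he₀ : 0 < e₀)
    (hres : ∀ x : F0, x ≠ 0 → V (algebraMap F0 F1 x) = e₀ * v.ord x)
    (P : Place K F1) (hP : P.restrict F0 = v) :
    ∃ m : ℤ, 0 < m ∧ ∀ y : F0, y ≠ 0 →
      m * P.ord (algebraMap F0 F1 y) = V (algebraMap F0 F1 y) := by
  obtain ⟨π₀, hπ₀⟩ := IsDiscreteValuationRing.exists_irreducible v.toValuationSubring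
  have hπ₀0 : (π₀ : F0) ≠ 0 := by
    simpa [ne_eq, ZeroMemClass.coe_eq_zero] using hπ₀.ne_zero
  have hπ₀ord : v.ord (π₀ : F0) = 1 := v.ord_coe_irreducible hπ₀
  have hnt : ∃ f : F1, f ≠ 0 ∧ V f ≠ 0 := by
    refine ⟨algebraMap F0 F1 π₀, (map_ne_zero _).mpr hπ₀0, ?_⟩
    rw [hres _ hπ₀0, hπ₀ord]
    have : (0 : ℤ) < (e₀ : ℤ) := by exact_mod_cast he₀
    omega
  obtain ⟨m, hm, -, hVm⟩ := hV.exists_mul_ord hnt
  have hwv := restrict_place_eq hV v he₀ hres hnt
  obtain ⟨σ, hσ, rfl⟩ :=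
    exists_smul_eq_of_restrict_eq H hinv (hV.place hnt) P (hwv.trans hP.symm)
  refine ⟨m, hm, fun y hy => ?_⟩
  have hsymm : σ.symm (algebraMap F0 F1 y) = algebraMap F0 F1 y := by
    rw [AlgEquiv.symm_apply_eq, hfix σ hσ]
  rw [ord_smul_place, hsymm, hVm _ ((map_ne_zero _).mpr hy)]

end Abstract

/-! ### The point and cusp valuations of `J_N - c` on the trunk field -/

section Trunk

variable (N : ℕ) [NeZero N]

/-- The index `N ∣ N` of the generator `J_N = J(q^N)`. -/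
abbrev dN : Dv N := ⟨N, dvd_rfl⟩

theorem N_pos : 0 < N := Nat.pos_of_ne_zero (NeZero.ne N)

/-- The point `N τ`. -/
abbrev scalePt (τ : ℍ) : ℍ := HNFMod.affPt N 0 1 (N_pos N) one_pos τ

/-- Order under the scaling `z ↦ d z`. -/
theorem ordAt_comp_scale (G : ℍ → ℂ) (d : ℕ) (hd : 0 < d) (τ : ℍ) :
    ordAt (fun z : ℍ => G (HNFMod.affPt d 0 1 hd one_pos z)) τ =
      ordAt G (HNFMod.affPt d 0 1 hd one_pos τ) := by
  have hd' : (0 : ℝ) < d := by exact_mod_cast hd
  have hev : ((fun z : ℍ => G (HNFMod.affPt d 0 1 hd one_pos z)) ∘ ofComplex) =ᶠ[𝓝 (τ : ℂ)]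
      (G ∘ ofComplex) ∘ (fun w : ℂ => (d : ℂ) * w) := by
    filter_upwards [(isOpen_lt continuous_const Complex.continuous_im).mem_nhds τ.im_pos]
      with w hw
    have hw' : 0 < w.im := hw
    have him : 0 < ((d : ℂ) * w).im := by
      rw [Complex.mul_im]
      simp only [Complex.natCast_re, Complex.natCast_im, zero_mul, add_zero]
      positivity
    simp only [Function.comp_apply]
    rw [ofComplex_apply_of_im_pos hw', ofComplex_apply_of_im_pos him]
    congr 1
    apply UpperHalfPlane.ext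
    rw [HNFMod.coe_affPt_scale]
  have hderiv : deriv (fun w : ℂ => (d : ℂ) * w) (τ : ℂ) ≠ 0 := by
    have h1 : HasDerivAt (fun w : ℂ => (d : ℂ) * w) ((d : ℂ) * 1) (τ : ℂ) :=
      (hasDerivAt_id (τ : ℂ)).const_mul (d : ℂ)
    rw [h1.deriv, mul_one]
    exact_mod_cast hd.ne'
  have han : AnalyticAt ℂ (fun w : ℂ => (d : ℂ) * w) (τ : ℂ) := by fun_prop
  unfold ordAt
  rw [analyticOrderAt_congr hev, analyticOrderAt_comp_of_deriv_ne_zero han hderiv,
    HNFMod.coe_affPt_scale]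

theorem ev_X_dN_sub_C (c : KQ) :
    ev N (MvPolynomial.X (dN N) - MvPolynomial.C c) =
      fun z => Jfun (scalePt N z) - iotaK c := by
  rw [map_sub, CuspTop.ev_X]
  funext z
  rw [Pi.sub_apply, HNFMod.Jabd_eq N 0 1 (N_pos N) one_pos]
  simp [ev]

theorem fm_X_dN_sub_C (c : KQ) :
    fm N (MvPolynomial.X (dN N) - MvPolynomial.C c) =
      jFormal N (dN N) - algebraMap KQ (FN N) c := by
  simp [fm]

theorem isRep_JN_sub (c : KQ) :
    IsRep N (jFormal N (dN N) - algebraMap KQ (FN N) c)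
      (MvPolynomial.X (dN N) - MvPolynomial.C c) 1 := by
  refine ⟨?_, ?_⟩
  · rw [map_one]
    exact one_ne_zero
  · rw [map_one, div_one, fm_X_dN_sub_C]

theorem JN_sub_ne_zero (c : KQ) : jFormal N (dN N) - algebraMap KQ (FN N) c ≠ 0 := by
  intro h
  apply transcendental_JN N
  rw [sub_eq_zero.mp h]
  exact isAlgebraic_algebraMap c

theorem JN_ne_zero : jFormal N (dN N) ≠ 0 := by
  intro h
  apply transcendental_JN N
  rw [h]
  exact isAlgebraic_zero

/-- **Point valuation of `J_N - c`**: the ramification index of `j` at `N τ` if `j(N τ) = c`,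
and `0` otherwise. -/
theorem valPt_JN_sub (τ : ℍ) (c : KQ) :
    valPt N τ (jFormal N (dN N) - algebraMap KQ (FN N) c) =
      if Jfun (scalePt N τ) = iotaK c then (JOrd.ellOrder (scalePt N τ) : ℤ) else 0 := by
  rw [valPt_eq N τ _ (JN_sub_ne_zero N c) _ _ (isRep_JN_sub N c), ev_X_dN_sub_C, map_one,
    JPt.ordAt_one, sub_zero, ordAt_comp_scale (fun z => Jfun z - iotaK c) N (N_pos N) τ,
    JPt.ordAt_Jfun_sub]

theorem valPt_JN_sub_generic (τ : ℍ) (c : KQ) (h0 : c ≠ 0) (h1 : c ≠ 1728) :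
    valPt N τ (jFormal N (dN N) - algebraMap KQ (FN N) c) = 0 ∨
      valPt N τ (jFormal N (dN N) - algebraMap KQ (FN N) c) = 1 := by
  have hc0 : iotaK c ≠ 0 := fun h' => h0 (by
    rw [← map_zero iotaK] at h'
    exact iotaK.injective h')
  have hc1 : iotaK c ≠ 1728 := fun h' => h1 (by
    rw [← map_ofNat iotaK 1728] at h'
    exact iotaK.injective h')
  rw [valPt_JN_sub]
  split_ifs with h
  · right
    rw [JPt.ellOrder_of_generic _ (h ▸ hc0) (h ▸ hc1)]
    rfl
  · left; rfl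

theorem valPt_JN_sub_1728 (τ : ℍ) :
    valPt N τ (jFormal N (dN N) - algebraMap KQ (FN N) 1728) = 0 ∨
      valPt N τ (jFormal N (dN N) - algebraMap KQ (FN N) 1728) = 2 := by
  have e : iotaK 1728 = (1728 : ℂ) := map_ofNat iotaK 1728
  rw [valPt_JN_sub]
  split_ifs with h
  · right
    rw [JPt.ellOrder_of_eq_1728 _ (h.trans e)]
    rfl
  · left; rfl

theorem valPt_JN_sub_zero (τ : ℍ) :
    valPt N τ (jFormal N (dN N) - algebraMap KQ (FN N) 0) = 0 ∨
      valPt N τ (jFormal N (dN N) - algebraMap KQ (FN N) 0) = 3 := by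
  have e : iotaK 0 = (0 : ℂ) := map_zero _
  rw [valPt_JN_sub]
  split_ifs with h
  · right
    rw [JPt.ellOrder_of_eq_zero _ (h.trans e)]
    rfl
  · left; rfl

/-- `J_N` has a pole at every cusp. -/
theorem valCusp_JN_inv_pos (g : SL(2, ℤ)) : 0 < valCusp N g (jFormal N (dN N))⁻¹ := by
  have hN : 0 < N := N_pos N
  have hj := JN_ne_zero N
  have hrep : IsRep N (jFormal N (dN N))⁻¹ 1 (MvPolynomial.X (dN N)) := by
    refine ⟨?_, ?_⟩
    · rw [CuspTop.fm_X]
      exact hj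
    · rw [map_one, one_div, CuspTop.fm_X]
  rw [CuspTop.valCusp_eq N hrep (inv_ne_zero hj) g, map_one, CuspTop.ev_X]
  have h1 : trans g (1 : ℍ → ℂ) = fun _ => (1 : ℂ) := rfl
  obtain ⟨a, b, e, hae, -, ha, he, -, htr⟩ := HNFMod.trans_Jabd g N hN
  have hdvd : e ∣ N := ⟨a, by rw [← hae, mul_comm]⟩
  rw [h1, htr, CuspTop.ordInf_const N hN 1 one_ne_zero, CuspTop.ordInf_Jabd N a b e hN ha he hdvd]
  have h2 : 0 < a * (N / e) := Nat.mul_pos ha (Nat.div_pos (Nat.le_of_dvd hN hdvd) he)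
  have h3 : (0 : ℤ) < ((a * (N / e) : ℕ) : ℤ) := by exact_mod_cast h2
  omega

/-- A zero of `J_N - c` is a point place: its order function is a point valuation divided by
its elliptic index. -/
theorem exists_valPt_of_ord_JN_sub_pos (c : KQ) (v : Place KQ (FN N))
    (hv : 0 < v.ord (jFormal N (dN N) - algebraMap KQ (FN N) c)) :
    ∃ (τ : ℍ) (e : ℕ), 0 < e ∧ ∀ f : FN N, f ≠ 0 → valPt N τ f = e * v.ord f := by
  rcases Ramif.exists_pt_or_cusp N v with ⟨τ, -, e, -, hell, -, hval⟩ | ⟨g, e, w, hw, hew, -, -, hval⟩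
  · exact ⟨τ, e, hell.pos, hval⟩
  · exfalso
    have hj := JN_ne_zero N
    have h1 := hval _ (inv_ne_zero hj)
    have h2 := valCusp_JN_inv_pos N g
    rw [h1, Place.ord_inv] at h2
    have he : (0 : ℤ) ≤ (e : ℤ) := Int.natCast_nonneg e
    have hneg : v.ord (jFormal N (dN N)) < 0 := by
      by_contra hcon
      have : (e : ℤ) * -v.ord (jFormal N (dN N)) ≤ 0 :=
        mul_nonpos_of_nonneg_of_nonpos he (by omega)
      omega
    -- but `J_N = (J_N - c) + c` is integral at `v`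
    have hmem : jFormal N (dN N) ∈ v.toValuationSubring := by
      have h3 : jFormal N (dN N) - algebraMap KQ (FN N) c ∈ v.toValuationSubring :=
        (ord_nonneg_iff v (JN_sub_ne_zero N c)).mp hv.le
      have h4 := v.toValuationSubring.add_mem _ _ h3 (v.algebraMap_mem' c)
      rwa [sub_add_cancel] at h4
    have := (ord_nonneg_iff v hj).mpr hmem
    omega

end Trunk

/-! ### The general unramifiedness criterion over any function field over `ℚ̄` -/

section Criterion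

open Polynomial

variable {F : Type*} [Field F] [Algebra KQ F]

/-- **Unramifiedness criterion** (`S24/HauptBranch.ord_sub_eq_one_of_rel_aux` for an arbitrary
function field `F / ℚ̄`).  `J ∈ F` has the branch behaviour of `j`; `x ∈ F` with
`J * Q(x) = P(x)`. -/
theorem ord_sub_eq_one_of_rel_gen {J : F}
    (hgen : ∀ c' : KQ, c' ≠ 0 → c' ≠ 1728 → ∀ v : Place KQ F,
      0 < v.ord (J - algebraMap KQ F c') → v.ord (J - algebraMap KQ F c') = 1)
    (h1728 : ∀ v : Place KQ F, 0 < v.ord (J - algebraMap KQ F 1728) →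
      v.ord (J - algebraMap KQ F 1728) = 1 ∨ v.ord (J - algebraMap KQ F 1728) = 2)
    (hzero : ∀ v : Place KQ F, 0 < v.ord (J - algebraMap KQ F 0) →
      v.ord (J - algebraMap KQ F 0) = 1 ∨ v.ord (J - algebraMap KQ F 0) = 3)
    {x : F} {P Q : KQ[X]}
    (hrel : J * aeval x Q = aeval x P) {c : KQ} (hQ : Q.eval c ≠ 0)
    (hne : P - C (P.eval c / Q.eval c) * Q ≠ 0)
    (hmult : (P.eval c / Q.eval c ≠ 0 ∧ P.eval c / Q.eval c ≠ 1728) ∨
      2 ≤ rootMultiplicity c (P - C (P.eval c / Q.eval c) * Q))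
    (v : Place KQ F) (hv : 0 < v.ord (x - algebraMap KQ F c)) :
    v.ord (x - algebraMap KQ F c) = 1 := by
  have key := HauptBranch.ord_sub_eq_mul v hrel hQ hne hv
  set c' : KQ := P.eval c / Q.eval c with hc'
  set m : ℕ := rootMultiplicity c (P - C c' * Q) with hm
  have hmpos : 0 < m := by
    rw [hm, rootMultiplicity_pos hne, IsRoot.def, eval_sub, eval_mul, eval_C, hc',
      div_mul_cancel₀ _ hQ, sub_self]
  have hpos : 0 < v.ord (J - algebraMap KQ F c') := by
    rw [key]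
    positivity
  by_cases h0 : c' = 0
  · rcases hmult with ⟨h, -⟩ | h2
    · exact absurd h0 h
    · have h3 := hzero v (by rw [← h0]; exact hpos)
      rw [← h0, key] at h3
      have hm2 : (2 : ℤ) ≤ (m : ℤ) := by exact_mod_cast h2
      rcases h3 with h3 | h3 <;> nlinarith
  by_cases h1 : c' = 1728
  · rcases hmult with ⟨-, h⟩ | h2
    · exact absurd h1 h
    · have h3 := h1728 v (by rw [← h1]; exact hpos)
      rw [← h1, key] at h3
      have hm2 : (2 : ℤ) ≤ (m : ℤ) := by exact_mod_cast h2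
      rcases h3 with h3 | h3 <;> nlinarith
  · have h3 := hgen c' h0 h1 v hpos
    rw [key] at h3
    have hm1 : (1 : ℤ) ≤ (m : ℤ) := by exact_mod_cast hmpos
    nlinarith

/-- **Level 2** over any function field: if `J * x ^ 2 = (x + 256) ^ 3`, then `x - c` has only
simple zeros for `c ∉ {0, -64}`. -/
theorem ord_sub_eq_one_two_gen {J x : F}
    (hgen : ∀ c' : KQ, c' ≠ 0 → c' ≠ 1728 → ∀ v : Place KQ F,
      0 < v.ord (J - algebraMap KQ F c') → v.ord (J - algebraMap KQ F c') = 1)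
    (h1728 : ∀ v : Place KQ F, 0 < v.ord (J - algebraMap KQ F 1728) →
      v.ord (J - algebraMap KQ F 1728) = 1 ∨ v.ord (J - algebraMap KQ F 1728) = 2)
    (hzero : ∀ v : Place KQ F, 0 < v.ord (J - algebraMap KQ F 0) →
      v.ord (J - algebraMap KQ F 0) = 1 ∨ v.ord (J - algebraMap KQ F 0) = 3)
    (hrel : J * x ^ 2 = (x + 256) ^ 3) (c : KQ) (hc0 : c ≠ 0) (hc1 : c ≠ -64)
    (v : Place KQ F) (hv : 0 < v.ord (x - algebraMap KQ F c)) :
    v.ord (x - algebraMap KQ F c) = 1 := by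
  have hrel' : J * aeval x (X ^ 2 : KQ[X]) = aeval x ((X + 256) ^ 3 : KQ[X]) := by
    simp only [map_pow, map_add, aeval_X, map_ofNat]
    exact hrel
  have hQ : (X ^ 2 : KQ[X]).eval c ≠ 0 := by
    simp only [eval_pow, eval_X]
    exact pow_ne_zero 2 hc0
  have hP : ((X + 256) ^ 3 : KQ[X]).eval c = (c + 256) ^ 3 := by
    simp only [eval_pow, eval_add, eval_X, eval_ofNat]
  have hQ' : (X ^ 2 : KQ[X]).eval c = c ^ 2 := by simp only [eval_pow, eval_X]
  refine ord_sub_eq_one_of_rel_gen hgen h1728 hzero hrel' hQ ?_ ?_ v hv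
  · rw [hP, hQ']
    exact HauptBranch.hne_two _
  · rw [hP, hQ']
    exact HauptBranch.hmult_two hc0 hc1

/-- **Level 3** over any function field: if `J * x ^ 3 = (x + 27) * (x + 243) ^ 3`, then `x - c`
has only simple zeros for `c ∉ {0, -27}`. -/
theorem ord_sub_eq_one_three_gen {J x : F}
    (hgen : ∀ c' : KQ, c' ≠ 0 → c' ≠ 1728 → ∀ v : Place KQ F,
      0 < v.ord (J - algebraMap KQ F c') → v.ord (J - algebraMap KQ F c') = 1)
    (h1728 : ∀ v : Place KQ F, 0 < v.ord (J - algebraMap KQ F 1728) →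
      v.ord (J - algebraMap KQ F 1728) = 1 ∨ v.ord (J - algebraMap KQ F 1728) = 2)
    (hzero : ∀ v : Place KQ F, 0 < v.ord (J - algebraMap KQ F 0) →
      v.ord (J - algebraMap KQ F 0) = 1 ∨ v.ord (J - algebraMap KQ F 0) = 3)
    (hrel : J * x ^ 3 = (x + 27) * (x + 243) ^ 3) (c : KQ) (hc0 : c ≠ 0) (hc1 : c ≠ -27)
    (v : Place KQ F) (hv : 0 < v.ord (x - algebraMap KQ F c)) :
    v.ord (x - algebraMap KQ F c) = 1 := by
  have hrel' : J * aeval x (X ^ 3 : KQ[X]) = aeval x ((X + 27) * (X + 243) ^ 3 : KQ[X]) := by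
    simp only [map_pow, map_add, map_mul, aeval_X, map_ofNat]
    exact hrel
  have hQ : (X ^ 3 : KQ[X]).eval c ≠ 0 := by
    simp only [eval_pow, eval_X]
    exact pow_ne_zero 3 hc0
  have hP : ((X + 27) * (X + 243) ^ 3 : KQ[X]).eval c = (c + 27) * (c + 243) ^ 3 := by
    simp only [eval_pow, eval_add, eval_mul, eval_X, eval_ofNat]
  have hQ' : (X ^ 3 : KQ[X]).eval c = c ^ 3 := by simp only [eval_pow, eval_X]
  refine ord_sub_eq_one_of_rel_gen hgen h1728 hzero hrel' hQ ?_ ?_ v hv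
  · rw [hP, hQ']
    exact HauptBranch.hne_three _
  · rw [hP, hQ']
    exact HauptBranch.hmult_three hc0 hc1

end Criterion

/-! ### Branch data of `J_N` on an extension of the trunk field -/

section Ext

variable (N : ℕ) [NeZero N]
variable {F₁ : Type*} [Field F₁] [Algebra KQ F₁] [Algebra (FN N) F₁] [IsScalarTower KQ (FN N) F₁]
  [Algebra.IsIntegral (FN N) F₁]

/-- **The extension hypothesis** (what G1-GAL delivers for `F₁ = ℚ̄·F1a(M, a)`, `N = M·a`): a
finite group of automorphisms with fixed field `F_N`, and for every `τ` a raw valuation extending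
the point valuation `valPt N τ`. -/
structure ExtData (F₁ : Type*) [Field F₁] [Algebra KQ F₁] [Algebra (FN N) F₁] : Prop where
  exists_group : ∃ H : Subgroup (F₁ ≃ₐ[KQ] F₁), Finite H ∧
    (∀ σ ∈ H, ∀ x : FN N, σ (algebraMap (FN N) F₁ x) = algebraMap (FN N) F₁ x) ∧
    (∀ f : F₁, (∀ σ ∈ H, σ f = f) → f ∈ (algebraMap (FN N) F₁).range)
  exists_val : ∀ τ : ℍ, ∃ V : F₁ → ℤ, IsRawVal KQ V ∧
    ∀ x : FN N, x ≠ 0 → V (algebraMap (FN N) F₁ x) = valPt N τ x

variable {N}

/-- The order of `J_N - c` at a place of `F₁` divides a point valuation of `J_N - c`. -/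
theorem exists_mul_ord_JN_sub (hE : ExtData N F₁) (c : KQ) (P : Place KQ F₁)
    (hP : 0 < P.ord (algebraMap (FN N) F₁ (jFormal N (dN N) - algebraMap KQ (FN N) c))) :
    ∃ (m : ℤ) (τ : ℍ), 0 < m ∧
      m * P.ord (algebraMap (FN N) F₁ (jFormal N (dN N) - algebraMap KQ (FN N) c)) =
        valPt N τ (jFormal N (dN N) - algebraMap KQ (FN N) c) := by
  obtain ⟨H, hfin, hfix, hinv⟩ := hE.exists_group
  have hv : 0 < (P.restrict (FN N)).ord (jFormal N (dN N) - algebraMap KQ (FN N) c) := by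
    rw [Place.ord_restrict] at hP
    have he : (0 : ℤ) < (P.ramificationIndex (FN N) : ℤ) := by
      exact_mod_cast P.ramificationIndex_pos (F := FN N)
    exact (mul_pos_iff_of_pos_left he).mp hP
  obtain ⟨τ, e, he, hval⟩ := exists_valPt_of_ord_JN_sub_pos N c _ hv
  obtain ⟨V, hVraw, hVres⟩ := hE.exists_val τ
  obtain ⟨m, hm, hmul⟩ := exists_mul_ord_eq H hfix hinv hVraw (P.restrict (FN N)) he
    (fun x hx => (hVres x hx).trans (hval x hx)) P rfl
  exact ⟨m, τ, hm, (hmul _ (JN_sub_ne_zero N c)).trans (hVres _ (JN_sub_ne_zero N c))⟩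

/-- `F₁ / ℚ̄(J_N)` is unramified over every `c ∉ {0, 1728}`. -/
theorem ord_JN_sub_generic_ext (hE : ExtData N F₁) (c : KQ) (hc0 : c ≠ 0) (hc1 : c ≠ 1728)
    (P : Place KQ F₁)
    (hP : 0 < P.ord (algebraMap (FN N) F₁ (jFormal N (dN N)) - algebraMap KQ F₁ c)) :
    P.ord (algebraMap (FN N) F₁ (jFormal N (dN N)) - algebraMap KQ F₁ c) = 1 := by
  have e1 : algebraMap (FN N) F₁ (jFormal N (dN N)) - algebraMap KQ F₁ c =
      algebraMap (FN N) F₁ (jFormal N (dN N) - algebraMap KQ (FN N) c) := by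
    rw [map_sub, ← IsScalarTower.algebraMap_apply]
  rw [e1] at hP ⊢
  obtain ⟨m, τ, hm, hmul⟩ := exists_mul_ord_JN_sub hE c P hP
  rcases valPt_JN_sub_generic N τ c hc0 hc1 with h | h
  · rw [h] at hmul
    have := mul_pos hm hP
    omega
  · rw [h] at hmul
    nlinarith

/-- Over `J_N = 1728` the ramification indices of `F₁` are `1` or `2`. -/
theorem ord_JN_sub_1728_ext (hE : ExtData N F₁) (P : Place KQ F₁)
    (hP : 0 < P.ord (algebraMap (FN N) F₁ (jFormal N (dN N)) - algebraMap KQ F₁ 1728)) :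
    P.ord (algebraMap (FN N) F₁ (jFormal N (dN N)) - algebraMap KQ F₁ 1728) = 1 ∨
      P.ord (algebraMap (FN N) F₁ (jFormal N (dN N)) - algebraMap KQ F₁ 1728) = 2 := by
  have e1 : algebraMap (FN N) F₁ (jFormal N (dN N)) - algebraMap KQ F₁ 1728 =
      algebraMap (FN N) F₁ (jFormal N (dN N) - algebraMap KQ (FN N) 1728) := by
    rw [map_sub, ← IsScalarTower.algebraMap_apply]
  rw [e1] at hP ⊢
  obtain ⟨m, τ, hm, hmul⟩ := exists_mul_ord_JN_sub hE 1728 P hP
  rcases valPt_JN_sub_1728 N τ with h | h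
  · rw [h] at hmul
    have := mul_pos hm hP
    omega
  · rw [h] at hmul
    have h1 : P.ord (algebraMap (FN N) F₁ (jFormal N (dN N) - algebraMap KQ (FN N) 1728)) ≤ 2 := by
      nlinarith
    omega

/-- Over `J_N = 0` the ramification indices of `F₁` are `1` or `3`. -/
theorem ord_JN_sub_zero_ext (hE : ExtData N F₁) (P : Place KQ F₁)
    (hP : 0 < P.ord (algebraMap (FN N) F₁ (jFormal N (dN N)) - algebraMap KQ F₁ 0)) :
    P.ord (algebraMap (FN N) F₁ (jFormal N (dN N)) - algebraMap KQ F₁ 0) = 1 ∨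
      P.ord (algebraMap (FN N) F₁ (jFormal N (dN N)) - algebraMap KQ F₁ 0) = 3 := by
  have e1 : algebraMap (FN N) F₁ (jFormal N (dN N)) - algebraMap KQ F₁ 0 =
      algebraMap (FN N) F₁ (jFormal N (dN N) - algebraMap KQ (FN N) 0) := by
    rw [map_sub, ← IsScalarTower.algebraMap_apply]
  rw [e1] at hP ⊢
  obtain ⟨m, τ, hm, hmul⟩ := exists_mul_ord_JN_sub hE 0 P hP
  rcases valPt_JN_sub_zero N τ with h | h
  · rw [h] at hmul
    have := mul_pos hm hP
    omega
  · rw [h] at hmul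
    have h1 : P.ord (algebraMap (FN N) F₁ (jFormal N (dN N) - algebraMap KQ (FN N) 0)) ≤ 3 := by
      nlinarith
    have h2 : P.ord (algebraMap (FN N) F₁ (jFormal N (dN N) - algebraMap KQ (FN N) 0)) ≠ 2 := by
      intro h2
      rw [h2] at hmul
      omega
    omega

end Ext

/-! ### (BR) in the shape of `Lib/Red/DiscTower` -/

section Final

open ModularCurve Fermat.Agent.Lib.Red Fermat.Agent.Lib.Red.BaseFn
  Fermat.Agent.Lib.Red.HauptPlaces Fermat.Agent.Lib.Red.BranchH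

variable {A : ValuationSubring KQ} {k : Type} [Field k] {π : A →+* k}

section J

variable (N : ℕ) [NeZero N]
variable {F₁ : Type*} [Field F₁] [Algebra KQ F₁]
  [Algebra ↥(laurentBaseChange KQ (modularFunctionFieldFull N)) F₁]
  [IsScalarTower KQ ↥(laurentBaseChange KQ (modularFunctionFieldFull N)) F₁]
  [Algebra.IsIntegral ↥(laurentBaseChange KQ (modularFunctionFieldFull N)) F₁]

/-- the generic branch statement for the image of `x = J(q^N)` in `F₁` -/
theorem ord_xL_sub_generic_ext (hE : ExtData N F₁) (c : KQ) (hc0 : c ≠ 0) (hc1 : c ≠ 1728)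
    (P : Place KQ F₁)
    (hP : 0 < P.ord (algebraMap ↥(laurentBaseChange KQ (modularFunctionFieldFull N)) F₁
      (xL KQ N) - algebraMap KQ F₁ c)) :
    P.ord (algebraMap ↥(laurentBaseChange KQ (modularFunctionFieldFull N)) F₁
      (xL KQ N) - algebraMap KQ F₁ c) = 1 := by
  rw [BranchInst.xL_eq_jFormal] at hP ⊢
  exact ord_JN_sub_generic_ext hE c hc0 hc1 P hP

/-- **(BR) for the base function `J(q^N)` on `F₁`, chart `x`** (`1728 ≠ 0` in `k`). -/
theorem hbr_ofJ_ext (hsurj : Function.Surjective π) (h : (1728 : k) ≠ 0)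
    (hE : ExtData N F₁) (γ : k) :
    ∃ c₀ : A, π c₀ = γ ∧ ∀ c : A, π c = γ → c ≠ c₀ →
      ∀ P : Place KQ F₁,
        0 < P.ord (algebraMap ↥(laurentBaseChange KQ (modularFunctionFieldFull N)) F₁
          (Data.ofJ A π N).x - algebraMap KQ F₁ (c : KQ)) →
        P.ord (algebraMap ↥(laurentBaseChange KQ (modularFunctionFieldFull N)) F₁
          (Data.ofJ A π N).x - algebraMap KQ F₁ (c : KQ)) = 1 := by
  rw [Data.ofJ_x]
  exact hbr_pair hsurj _ (1728 : A) (by rw [map_ofNat]; exact h)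
    (fun c hc0 hc1 P hP => ord_xL_sub_generic_ext N hE c hc0 hc1 P hP) γ

/-- **(BR) for the base function `J(q^N)` on `F₁`, chart `x⁻¹`**. -/
theorem hbr_ofJ_inv_ext (hsurj : Function.Surjective π) (h : (1728 : k) ≠ 0)
    (hE : ExtData N F₁) (γ : k) :
    ∃ c₀ : A, π c₀ = γ ∧ ∀ c : A, π c = γ → c ≠ c₀ →
      ∀ P : Place KQ F₁,
        0 < P.ord ((algebraMap ↥(laurentBaseChange KQ (modularFunctionFieldFull N)) F₁
          (Data.ofJ A π N).x)⁻¹ - algebraMap KQ F₁ (c : KQ)) →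
        P.ord ((algebraMap ↥(laurentBaseChange KQ (modularFunctionFieldFull N)) F₁
          (Data.ofJ A π N).x)⁻¹ - algebraMap KQ F₁ (c : KQ)) = 1 := by
  rw [Data.ofJ_x]
  have hx : xL KQ N ≠ 0 := fun h0 =>
    (Fermat.Agent.Lib.Red.transcendental_xL (L := KQ) N) (h0 ▸ isAlgebraic_zero)
  exact hbr_pair_inv hsurj ((_root_.map_ne_zero _).mpr hx) (1728 : A)
    (by rw [map_ofNat]; exact h)
    (fun c hc0 hc1 P hP => ord_xL_sub_generic_ext N hE c hc0 hc1 P hP) γ

end J

section Haupt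

variable (M m : ℕ) [NeZero M] [NeZero m]
variable {F₁ : Type*} [Field F₁] [Algebra KQ F₁]
  [Algebra ↥(laurentBaseChange KQ (modularFunctionFieldFull M)) F₁]
  [IsScalarTower KQ ↥(laurentBaseChange KQ (modularFunctionFieldFull M)) F₁]
  [Algebra.IsIntegral ↥(laurentBaseChange KQ (modularFunctionFieldFull M)) F₁]

/-- the generic branch statement for the image of `x₂` in `F₁` -/
theorem ord_x2_sub_eq_one_ext (hM : M = m * 2) (hE : ExtData M F₁) (c : KQ) (hc0 : c ≠ 0)
    (hc1 : c ≠ -64) (P : Place KQ F₁)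
    (hP : 0 < P.ord (algebraMap ↥(laurentBaseChange KQ (modularFunctionFieldFull M)) F₁
      (x2 M m hM) - algebraMap KQ F₁ c)) :
    P.ord (algebraMap ↥(laurentBaseChange KQ (modularFunctionFieldFull M)) F₁
      (x2 M m hM) - algebraMap KQ F₁ c) = 1 := by
  have hrel : algebraMap (FN M) F₁ (jFormal M (dN M)) * algebraMap (FN M) F₁ (x2 M m hM) ^ 2 =
      (algebraMap (FN M) F₁ (x2 M m hM) + 256) ^ 3 := by
    have h := congrArg (algebraMap (FN M) F₁) (x2_rel M m hM)
    simpa only [map_mul, map_pow, map_add, map_ofNat] using h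
  exact ord_sub_eq_one_two_gen (fun c' h0 h1 v hv => ord_JN_sub_generic_ext hE c' h0 h1 v hv)
    (ord_JN_sub_1728_ext hE) (ord_JN_sub_zero_ext hE) hrel c hc0 hc1 P hP

/-- the generic branch statement for the image of `x₃` in `F₁` -/
theorem ord_x3_sub_eq_one_ext (hM : M = m * 3) (hE : ExtData M F₁) (c : KQ) (hc0 : c ≠ 0)
    (hc1 : c ≠ -27) (P : Place KQ F₁)
    (hP : 0 < P.ord (algebraMap ↥(laurentBaseChange KQ (modularFunctionFieldFull M)) F₁
      (x3 M m hM) - algebraMap KQ F₁ c)) :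
    P.ord (algebraMap ↥(laurentBaseChange KQ (modularFunctionFieldFull M)) F₁
      (x3 M m hM) - algebraMap KQ F₁ c) = 1 := by
  have hrel : algebraMap (FN M) F₁ (jFormal M (dN M)) * algebraMap (FN M) F₁ (x3 M m hM) ^ 3 =
      (algebraMap (FN M) F₁ (x3 M m hM) + 27) * (algebraMap (FN M) F₁ (x3 M m hM) + 243) ^ 3 := by
    have h := congrArg (algebraMap (FN M) F₁) (x3_rel M m hM)
    simpa only [map_mul, map_pow, map_add, map_ofNat] using h
  exact ord_sub_eq_one_three_gen (fun c' h0 h1 v hv => ord_JN_sub_generic_ext hE c' h0 h1 v hv)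
    (ord_JN_sub_1728_ext hE) (ord_JN_sub_zero_ext hE) hrel c hc0 hc1 P hP

/-- **(BR) for the Hauptmodul `x₂` on `F₁`, chart `x`** (level `M = m * 2`, `2 ≠ 0` in `k`). -/
theorem hbr_ofHaupt2_ext (hM : M = m * 2) (hsurj : Function.Surjective π) (h2 : (2 : k) ≠ 0)
    (hE : ExtData M F₁) (γ : k) :
    ∃ c₀ : A, π c₀ = γ ∧ ∀ c : A, π c = γ → c ≠ c₀ →
      ∀ P : Place KQ F₁,
        0 < P.ord (algebraMap ↥(laurentBaseChange KQ (modularFunctionFieldFull M)) F₁
          (ofHaupt2 A π M m hM h2).x - algebraMap KQ F₁ (c : KQ)) →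
        P.ord (algebraMap ↥(laurentBaseChange KQ (modularFunctionFieldFull M)) F₁
          (ofHaupt2 A π M m hM h2).x - algebraMap KQ F₁ (c : KQ)) = 1 := by
  rw [ofHaupt2_x_eq]
  exact hbr_pair hsurj _ (-64 : A) (map_neg_64_ne_zero h2)
    (fun c hc0 hc1 P hP => ord_x2_sub_eq_one_ext M m hM hE c hc0 hc1 P hP) γ

/-- **(BR) for the Hauptmodul `x₂` on `F₁`, chart `x⁻¹`**. -/
theorem hbr_ofHaupt2_inv_ext (hM : M = m * 2) (hsurj : Function.Surjective π)
    (h2 : (2 : k) ≠ 0) (hE : ExtData M F₁) (γ : k) :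
    ∃ c₀ : A, π c₀ = γ ∧ ∀ c : A, π c = γ → c ≠ c₀ →
      ∀ P : Place KQ F₁,
        0 < P.ord ((algebraMap ↥(laurentBaseChange KQ (modularFunctionFieldFull M)) F₁
          (ofHaupt2 A π M m hM h2).x)⁻¹ - algebraMap KQ F₁ (c : KQ)) →
        P.ord ((algebraMap ↥(laurentBaseChange KQ (modularFunctionFieldFull M)) F₁
          (ofHaupt2 A π M m hM h2).x)⁻¹ - algebraMap KQ F₁ (c : KQ)) = 1 := by
  rw [ofHaupt2_x_eq]
  have hx : x2 M m hM ≠ 0 := fun h0 => (transcendental_x2 M m hM) (h0 ▸ isAlgebraic_zero)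
  exact hbr_pair_inv hsurj ((_root_.map_ne_zero _).mpr hx) (-64 : A) (map_neg_64_ne_zero h2)
    (fun c hc0 hc1 P hP => ord_x2_sub_eq_one_ext M m hM hE c hc0 hc1 P hP) γ

/-- **(BR) for the Hauptmodul `x₃` on `F₁`, chart `x`** (level `M = m * 3`, `3 ≠ 0` in `k`). -/
theorem hbr_ofHaupt3_ext (hM : M = m * 3) (hsurj : Function.Surjective π) (h3 : (3 : k) ≠ 0)
    (hE : ExtData M F₁) (γ : k) :
    ∃ c₀ : A, π c₀ = γ ∧ ∀ c : A, π c = γ → c ≠ c₀ →
      ∀ P : Place KQ F₁,
        0 < P.ord (algebraMap ↥(laurentBaseChange KQ (modularFunctionFieldFull M)) F₁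
          (ofHaupt3 A π M m hM h3).x - algebraMap KQ F₁ (c : KQ)) →
        P.ord (algebraMap ↥(laurentBaseChange KQ (modularFunctionFieldFull M)) F₁
          (ofHaupt3 A π M m hM h3).x - algebraMap KQ F₁ (c : KQ)) = 1 := by
  rw [ofHaupt3_x_eq]
  exact hbr_pair hsurj _ (-27 : A) (map_neg_27_ne_zero h3)
    (fun c hc0 hc1 P hP => ord_x3_sub_eq_one_ext M m hM hE c hc0 hc1 P hP) γ

/-- **(BR) for the Hauptmodul `x₃` on `F₁`, chart `x⁻¹`**. -/
theorem hbr_ofHaupt3_inv_ext (hM : M = m * 3) (hsurj : Function.Surjective π)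
    (h3 : (3 : k) ≠ 0) (hE : ExtData M F₁) (γ : k) :
    ∃ c₀ : A, π c₀ = γ ∧ ∀ c : A, π c = γ → c ≠ c₀ →
      ∀ P : Place KQ F₁,
        0 < P.ord ((algebraMap ↥(laurentBaseChange KQ (modularFunctionFieldFull M)) F₁
          (ofHaupt3 A π M m hM h3).x)⁻¹ - algebraMap KQ F₁ (c : KQ)) →
        P.ord ((algebraMap ↥(laurentBaseChange KQ (modularFunctionFieldFull M)) F₁
          (ofHaupt3 A π M m hM h3).x)⁻¹ - algebraMap KQ F₁ (c : KQ)) = 1 := by
  rw [ofHaupt3_x_eq]
  have hx : x3 M m hM ≠ 0 := fun h0 => (transcendental_x3 M m hM) (h0 ▸ isAlgebraic_zero)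
  exact hbr_pair_inv hsurj ((_root_.map_ne_zero _).mpr hx) (-27 : A) (map_neg_27_ne_zero h3)
    (fun c hc0 hc1 P hP => ord_x3_sub_eq_one_ext M m hM hE c hc0 hc1 P hP) γ

end Haupt

end Final

end Fermat.Agent.G1.BranchRel
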