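import Mathlib
import Fermat.Agent.G1.Dict.Defs
import Fermat.Agent.ESJ.Dict.Bc
import Fermat.Agent.S24.PtInv
import Fermat.Agent.ESJ.Jac.GalCore

/-!
# G1 / GAL: the formal ↔ analytic bridge for `F1a M a` and the diamond automorphisms

`F1a M a = F1 M ⊔ F0(M·a)` is the function field of `Γ₁(M) ∩ Γ₀(M·a)` (μ-model); its generators
are `j(q^d)` (`d ∣ M·a`) and `x_u` (`u ∈ (ℤ/M)ˣ`).  On the definitions of `G1/Dict/Defs.lean`
(`fm1K`, `ev1K`, `IsRep1K`, `valPt1K`, `mer1K`) this file proves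

* (B2) the `q`-expansion bridge `hasQExp_ev1K`, `ev1K_eq_zero_iff`, `mdiff_ev1K`, existence of
  representatives `exists_isRep1K`, and independence of the representative for `valPt1K`, `mer1K`;
* (B3) the twist: for `γ ∈ Γ₀(M·a)` with lower right entry `c` modulo `M`,
  `ev1K ι M a P (γ • z) = ev1K ι M a (tw K M a c P) z`;
* (B4) the diamond automorphisms `diaK ι M a c` of `F1aK K M a` over `K`;
* (B5) `mer1K ι M a (diaK ι M a c f) = mer1K ι M a f ∘ γ` off a discrete set.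
-/

set_option autoImplicit false
set_option linter.unusedSectionVars false

open UpperHalfPlane ModularForm CongruenceSubgroup Filter
open scoped MatrixGroups Manifold Topology

noncomputable section

namespace Fermat.Agent.G1.Gal

open ModularCurve Fermat.Agent.S24 Fermat.Agent.ESJ.Jac Fermat.Agent.ESJ.Dict
open Fermat.Agent.G1.Dict

/-! ## (B2) the bridge -/

section Bridge

variable {K : Type} [Field K] [Algebra ℚ K] (ι : K →+* ℂ) (M a : ℕ) [NeZero M] [NeZero a]

/-- The formal generators of `F1a M a` as Laurent series with coefficients in `K`. -/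
def gen1L (K : Type) [Field K] [Algebra ℚ K] (M a : ℕ) [NeZero M] [NeZero a] (s : Ix M a) :
    LaurentSeries K :=
  (gen1K K M a s : LaurentSeries K)

omit ι in
theorem gen1L_inl (d : Dv (M * a)) :
    haveI : NeZero d.1 := d.neZero
    gen1L K M a (Sum.inl d) = coeffEmb K (qExpand ℚ d.1 jq) := rfl

omit ι in
theorem gen1L_inr (u : (ZMod M)ˣ) : gen1L K M a (Sum.inr u) = xgenR K M (u : ZMod M) := by
  show coeffEmb K (xgen M u) = _
  exact coeffEmb_xgen M K u

omit ι in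
theorem coe_fm1K (P : MvPolynomial (Ix M a) K) :
    ((fm1K K M a P : F1aK K M a) : LaurentSeries K) = MvPolynomial.aeval (gen1L K M a) P := by
  have h := AlgHom.congr_fun
    (MvPolynomial.comp_aeval (gen1K K M a) (laurentBaseChange K (F1a M a)).val) P
  exact h

omit [NeZero a] in
theorem gen1Fun_inl (d : Dv (M * a)) : gen1Fun M a (Sum.inl d) = Jabd d.1 0 1 := rfl

omit [NeZero a] in
theorem gen1Fun_inr (u : (ZMod M)ˣ) : gen1Fun M a (Sum.inr u) = xfun M (u : ZMod M) := rfl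

/-- Each analytic generator has the formal generator as `q`-expansion. -/
theorem hasQExp_gen1Fun (s : Ix M a) :
    QExp.HasQExp 1 (gen1Fun M a s) (coeffMap ι (gen1L K M a s)) := by
  rcases s with d | u
  · have : NeZero d.1 := d.neZero
    have e : coeffMap ι (gen1L K M a (Sum.inl d)) = qExpand ℂ d.1 (coeffMap (algebraMap ℚ ℂ) jq) := by
      rw [gen1L_inl, coeffEmb, coeffMap_coeffMap, coeffMap_qExpand]
      congr 1
      exact coeffMap_congr (RingHom.ext_rat _ _) _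
    rw [e]
    exact QExp.hasQExp_Jabd_scale d.1
  · rw [gen1L_inr, coeffMap_xgenR]
    exact hasQExp_xfun (u : ZMod M)

/-- The analytic evaluation `ev1K ι M a P` has the formal evaluation `fm1K K M a P` as
`q`-expansion. -/
theorem hasQExp_ev1K (P : MvPolynomial (Ix M a) K) :
    QExp.HasQExp 1 (ev1K ι M a P)
      (coeffMap ι ((fm1K K M a P : F1aK K M a) : LaurentSeries K)) := by
  rw [coe_fm1K]
  exact QExp.HasQExp.mvPolynomial ι (gen1Fun M a) _ (hasQExp_gen1Fun ι M a) P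

/-- **Bridge (q-expansion principle)** for `F1a M a` over `(K, ι)`. -/
theorem ev1K_eq_zero_iff (P : MvPolynomial (Ix M a) K) :
    ev1K ι M a P = 0 ↔ fm1K K M a P = 0 := by
  have key := (hasQExp_ev1K ι M a P).eq_zero_iff
  constructor
  · intro h0
    have := key.mp (fun τ => by rw [h0]; rfl)
    have h2 : ((fm1K K M a P : F1aK K M a) : LaurentSeries K) = 0 :=
      QExp.coeffMap_injective' ι (by rw [this, map_zero])
    exact Subtype.ext h2
  · intro h0
    funext τ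
    exact key.mpr (by rw [h0]; simp) τ

theorem ev1K_ne_zero_iff (P : MvPolynomial (Ix M a) K) :
    ev1K ι M a P ≠ 0 ↔ fm1K K M a P ≠ 0 :=
  (ev1K_eq_zero_iff ι M a P).not

/-- The bridge in the literal shape of the field `IsDict1.fm1K_eq_zero_iff`. -/
theorem fm1K_eq_zero_iff (P : MvPolynomial (Ix M a) K) :
    fm1K K M a P = 0 ↔ ev1K ι M a P = 0 :=
  (ev1K_eq_zero_iff ι M a P).symm

/-- `ev1K ι M a P` is holomorphic on `ℍ`. -/
theorem mdiff_ev1K (P : MvPolynomial (Ix M a) K) : MDiff (ev1K ι M a P) :=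
  (QLaurent.mem_MerInf_of_hasSum (h := 1) (hasQExp_ev1K ι M a P)).1

omit [NeZero a] [Algebra ℚ K] in
theorem ev1K_C (c : K) : ev1K ι M a (MvPolynomial.C c) = fun _ => ι c := by
  funext z
  simp [ev1K]

omit [NeZero a] [Algebra ℚ K] in
theorem ev1K_X (s : Ix M a) : ev1K ι M a (MvPolynomial.X s) = gen1Fun M a s := by
  simp [ev1K]

omit [NeZero a] [Algebra ℚ K] in
theorem ev1K_X_inl (d : Dv (M * a)) :
    ev1K ι M a (MvPolynomial.X (Sum.inl d)) = Jabd d.1 0 1 := by
  rw [ev1K_X, gen1Fun_inl]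

omit [NeZero a] [Algebra ℚ K] in
theorem ev1K_X_inr (u : (ZMod M)ˣ) :
    ev1K ι M a (MvPolynomial.X (Sum.inr u)) = xfun M (u : ZMod M) := by
  rw [ev1K_X, gen1Fun_inr]

omit [NeZero a] [Algebra ℚ K] in
/-- `ev1K` of a polynomial is `ev1K id` of the polynomial with coefficients mapped to `ℂ`. -/
theorem ev1K_map (P : MvPolynomial (Ix M a) K) :
    ev1K (RingHom.id ℂ) M a (MvPolynomial.map ι P) = ev1K ι M a P := by
  induction P using MvPolynomial.induction_on with
  | C c =>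
    rw [MvPolynomial.map_C, ev1K_C, ev1K_C]
    rfl
  | add p q hp hq =>
    rw [map_add, map_add, map_add, hp, hq]
  | mul_X p i hp =>
    rw [map_mul, map_mul, map_mul, hp, MvPolynomial.map_X, ev1K_X, ev1K_X]

end Bridge

/-! ### Representatives -/

section Reps

variable {K : Type} [Field K] [Algebra ℚ K] (ι : K →+* ℂ) (M a : ℕ) [NeZero M] [NeZero a]

omit ι in
/-- `K·F₀ ≤ E` as soon as `F₀` is generated over `ℚ` by a set which `coeffEmb K` maps into `E`. -/
theorem laurentBaseChange_le_of_gens {F₀ : IntermediateField ℚ (LaurentSeries ℚ)}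
    {S₀ : Set (LaurentSeries ℚ)} (h₀ : F₀ ≤ IntermediateField.adjoin ℚ S₀)
    (E : IntermediateField K (LaurentSeries K)) (hS : ∀ x ∈ S₀, coeffEmb K x ∈ E) :
    laurentBaseChange K F₀ ≤ E := by
  rw [laurentBaseChange, IntermediateField.adjoin_le_iff]
  rintro _ ⟨x, hx, rfl⟩
  let T : Subfield (LaurentSeries ℚ) := Subfield.comap (coeffEmb K) E.toSubfield
  have hT : (IntermediateField.adjoin ℚ S₀).toSubfield ≤ T := by
    rw [IntermediateField.adjoin_toSubfield, Subfield.closure_le]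
    rintro y (⟨c, rfl⟩ | hy)
    · show coeffEmb K (algebraMap ℚ (LaurentSeries ℚ) c) ∈ E.toSubfield
      rw [eq_ratCast, map_ratCast]
      exact SubfieldClass.ratCast_mem _ c
    · exact hS y hy
  exact hT (h₀ hx)

omit ι in
/-- `F1a M a` is generated by the `j(q^d)`, `d ∣ M·a`, and the `x_u`. -/
theorem F1a_le_adjoin :
    F1a M a ≤ IntermediateField.adjoin ℚ (divisorExpansions (M * a) ∪ Set.range (xgen M)) := by
  unfold F1a
  refine sup_le ?_ ?_
  · unfold F1
    rw [IntermediateField.adjoin_le_iff]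
    rintro y (hy | hy)
    · have h1 : modularFunctionFieldFull M ≤
          IntermediateField.adjoin ℚ (divisorExpansions (M * a) ∪ Set.range (xgen M)) := by
        unfold modularFunctionFieldFull
        apply IntermediateField.adjoin.mono
        rintro x ⟨d, hd, hdvd, rfl⟩
        exact Or.inl ⟨d, hd, Dvd.dvd.mul_right hdvd a, rfl⟩
      exact h1 hy
    · exact IntermediateField.subset_adjoin ℚ _ (Or.inr hy)
  · unfold modularFunctionFieldFull
    exact IntermediateField.adjoin.mono ℚ _ _ Set.subset_union_left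

omit ι in
theorem laurentBaseChange_le_adjoin_gen1L :
    (laurentBaseChange K (F1a M a) : IntermediateField K (LaurentSeries K)) ≤
      IntermediateField.adjoin K (Set.range (gen1L K M a)) := by
  refine laurentBaseChange_le_of_gens (F1a_le_adjoin M a) _ ?_
  rintro x (⟨d, hd, hdvd, rfl⟩ | ⟨u, rfl⟩)
  · exact IntermediateField.subset_adjoin K _ ⟨Sum.inl ⟨d, hdvd⟩, rfl⟩
  · refine IntermediateField.subset_adjoin K _ ⟨Sum.inr u, ?_⟩
    rw [gen1L_inr]
    exact (coeffEmb_xgen M K u).symm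

omit ι in
/-- **Representatives**: every element of `K·F1a M a` is `fm1K P / fm1K Q`. -/
theorem exists_isRep1K (f : F1aK K M a) : ∃ P Q, IsRep1K M a f P Q := by
  have hf := laurentBaseChange_le_adjoin_gen1L M a f.2
  rw [IntermediateField.mem_adjoin_range_iff] at hf
  obtain ⟨r, s, hrs⟩ := hf
  by_cases hs : MvPolynomial.aeval (gen1L K M a) s = 0
  · refine ⟨0, 1, by simp, ?_⟩
    apply Subtype.ext
    rw [hrs, hs, div_zero]
    simp
  · refine ⟨r, s, ?_, ?_⟩
    · intro h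
      apply hs
      rw [← coe_fm1K, h]
      rfl
    · apply Subtype.ext
      rw [hrs, IntermediateField.coe_div, coe_fm1K, coe_fm1K]

omit ι in
theorem fm1K_ne_zero_of_isRep1K {f : F1aK K M a} {P Q : MvPolynomial (Ix M a) K}
    (h : IsRep1K M a f P Q) (hf : f ≠ 0) : fm1K K M a P ≠ 0 := by
  intro h0
  apply hf
  rw [h.2, h0, zero_div]

omit ι in
theorem fm1K_cross_eq_zero {f : F1aK K M a} {P Q P' Q' : MvPolynomial (Ix M a) K}
    (h : IsRep1K M a f P Q) (h' : IsRep1K M a f P' Q') :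
    fm1K K M a (P * Q' - P' * Q) = 0 := by
  obtain ⟨hQ, hfPQ⟩ := h
  obtain ⟨hQ', hfPQ'⟩ := h'
  have hcross : fm1K K M a P * fm1K K M a Q' = fm1K K M a P' * fm1K K M a Q := by
    have := hfPQ.symm.trans hfPQ'
    rw [div_eq_div_iff hQ hQ'] at this
    exact this
  rw [map_sub, map_mul, map_mul, hcross, sub_self]

/-- Two representatives of the same element give proportional pairs of functions. -/
theorem ev1K_mul_eq_of_isRep1K {f : F1aK K M a} {P Q P' Q' : MvPolynomial (Ix M a) K}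
    (h : IsRep1K M a f P Q) (h' : IsRep1K M a f P' Q') :
    ev1K ι M a P * ev1K ι M a Q' = ev1K ι M a P' * ev1K ι M a Q := by
  have h1 := (ev1K_eq_zero_iff ι M a _).2 (fm1K_cross_eq_zero M a h h')
  rw [map_sub, map_mul, map_mul, sub_eq_zero] at h1
  exact h1

/-- Independence of the representative (points). -/
theorem ordAt_sub_eq_of_isRep1K (τ : ℍ) {f : F1aK K M a} (hf : f ≠ 0)
    {P Q P' Q' : MvPolynomial (Ix M a) K} (h : IsRep1K M a f P Q) (h' : IsRep1K M a f P' Q') :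
    ordAt (ev1K ι M a P) τ - ordAt (ev1K ι M a Q) τ
      = ordAt (ev1K ι M a P') τ - ordAt (ev1K ι M a Q') τ := by
  have hev := ev1K_mul_eq_of_isRep1K ι M a h h'
  have e1 := ValPt.ordAt_mul (mdiff_ev1K ι M a P) (mdiff_ev1K ι M a Q')
    ((ev1K_ne_zero_iff ι M a P).2 (fm1K_ne_zero_of_isRep1K M a h hf))
    ((ev1K_ne_zero_iff ι M a Q').2 h'.1) τ
  have e2 := ValPt.ordAt_mul (mdiff_ev1K ι M a P') (mdiff_ev1K ι M a Q)
    ((ev1K_ne_zero_iff ι M a P').2 (fm1K_ne_zero_of_isRep1K M a h' hf))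
    ((ev1K_ne_zero_iff ι M a Q).2 h.1) τ
  rw [hev] at e1
  linarith

/-- **The point valuation can be computed on any representative** (for `f ≠ 0`). -/
theorem valPt1K_eq_of_isRep1K (τ : ℍ) {f : F1aK K M a} (hf : f ≠ 0)
    {P Q : MvPolynomial (Ix M a) K} (h : IsRep1K M a f P Q) :
    valPt1K ι M a τ f = ordAt (ev1K ι M a P) τ - ordAt (ev1K ι M a Q) τ := by
  have hex : ∃ P Q, IsRep1K M a f P Q := ⟨P, Q, h⟩
  unfold valPt1K
  rw [dif_pos hex]
  exact ordAt_sub_eq_of_isRep1K ι M a τ hf hex.choose_spec.choose_spec h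

/-- `mer1K` is the quotient of the chosen representative, everywhere. -/
theorem mer1K_eq_chosen (f : F1aK K M a) :
    ∃ P Q, IsRep1K M a f P Q ∧ mer1K ι M a f =
      fun z => ev1K ι M a P (ofComplex z) / ev1K ι M a Q (ofComplex z) := by
  have hex : ∃ P Q, IsRep1K M a f P Q := exists_isRep1K M a f
  refine ⟨hex.choose, hex.choose_spec.choose, hex.choose_spec.choose_spec, ?_⟩
  unfold mer1K
  rw [dif_pos hex]

/-- **`mer1K` can be computed on any representative**, off a discrete set. -/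
theorem mer1K_eventuallyEq_of_isRep1K {f : F1aK K M a} {P Q : MvPolynomial (Ix M a) K}
    (h : IsRep1K M a f P Q) :
    mer1K ι M a f =ᶠ[Filter.codiscreteWithin U]
      fun z => ev1K ι M a P (ofComplex z) / ev1K ι M a Q (ofComplex z) := by
  obtain ⟨P₀, Q₀, h₀, hmer⟩ := mer1K_eq_chosen ι M a f
  have hcross := ev1K_mul_eq_of_isRep1K ι M a h₀ h
  have hQ := Bc.eventually_codiscreteWithin_ne_zero (mdiff_ev1K ι M a Q)
    ((ev1K_ne_zero_iff ι M a Q).2 h.1)
  have hQ₀ := Bc.eventually_codiscreteWithin_ne_zero (mdiff_ev1K ι M a Q₀)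
    ((ev1K_ne_zero_iff ι M a Q₀).2 h₀.1)
  filter_upwards [hQ, hQ₀] with z hz hz₀
  rw [hmer]
  show ev1K ι M a P₀ (ofComplex z) / ev1K ι M a Q₀ (ofComplex z)
    = ev1K ι M a P (ofComplex z) / ev1K ι M a Q (ofComplex z)
  rw [div_eq_div_iff hz₀ hz]
  exact congrFun hcross (ofComplex z)

end Reps

/-! ## (B3) the twist by `(ℤ/M)ˣ` -/

section Twist

variable {K : Type} [Field K] [Algebra ℚ K] (ι : K →+* ℂ) (M a : ℕ) [NeZero M] [NeZero a]

/-- Index twist: `d ↦ d`, `u ↦ u c⁻¹`. -/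
def twIdx (M a : ℕ) (c : (ZMod M)ˣ) : Ix M a → Ix M a := Sum.map id (fun u => u * c⁻¹)

/-- The twist of polynomials in the generators: `X_d ↦ X_d`, `X_u ↦ X_{u c⁻¹}`. -/
def tw (K : Type) [Field K] (M a : ℕ) (c : (ZMod M)ˣ) :
    MvPolynomial (Ix M a) K →ₐ[K] MvPolynomial (Ix M a) K :=
  MvPolynomial.rename (twIdx M a c)

omit [NeZero M] [NeZero a] in
@[simp] theorem twIdx_inl (c : (ZMod M)ˣ) (d : Dv (M * a)) :
    twIdx M a c (Sum.inl d) = Sum.inl d := rfl

omit [NeZero M] [NeZero a] in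
@[simp] theorem twIdx_inr (c u : (ZMod M)ˣ) :
    twIdx M a c (Sum.inr u) = Sum.inr (u * c⁻¹) := rfl

omit [NeZero M] [NeZero a] in
theorem twIdx_one : twIdx M a 1 = id := by
  funext s
  rcases s with d | u
  · rfl
  · simp

omit [NeZero M] [NeZero a] in
theorem twIdx_mul (c c' : (ZMod M)ˣ) : twIdx M a (c * c') = twIdx M a c ∘ twIdx M a c' := by
  funext s
  rcases s with d | u
  · rfl
  · simp [mul_inv_rev, mul_assoc]

omit [NeZero M] [NeZero a] [Algebra ℚ K] in
@[simp] theorem tw_C (c : (ZMod M)ˣ) (k : K) :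
    tw K M a c (MvPolynomial.C k) = MvPolynomial.C k := by
  simp [tw]

omit [NeZero M] [NeZero a] [Algebra ℚ K] in
@[simp] theorem tw_X (c : (ZMod M)ˣ) (s : Ix M a) :
    tw K M a c (MvPolynomial.X s) = MvPolynomial.X (twIdx M a c s) := by
  simp [tw]

omit [NeZero M] [NeZero a] [Algebra ℚ K] in
theorem tw_one (P : MvPolynomial (Ix M a) K) : tw K M a 1 P = P := by
  rw [tw, twIdx_one, MvPolynomial.rename_id_apply]

omit [NeZero M] [NeZero a] [Algebra ℚ K] in
theorem tw_mul (c c' : (ZMod M)ˣ) (P : MvPolynomial (Ix M a) K) :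
    tw K M a (c * c') P = tw K M a c (tw K M a c' P) := by
  rw [tw, tw, tw, twIdx_mul, MvPolynomial.rename_rename]

omit [NeZero M] [NeZero a] [Algebra ℚ K] in
theorem tw_inv_tw (c : (ZMod M)ˣ) (P : MvPolynomial (Ix M a) K) :
    tw K M a c⁻¹ (tw K M a c P) = P := by
  rw [← tw_mul, inv_mul_cancel, tw_one]

omit [NeZero M] [NeZero a] [Algebra ℚ K] in
theorem tw_tw_inv (c : (ZMod M)ˣ) (P : MvPolynomial (Ix M a) K) :
    tw K M a c (tw K M a c⁻¹ P) = P := by
  rw [← tw_mul, mul_inv_cancel, tw_one]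

omit [NeZero M] [NeZero a] [Algebra ℚ K] in
/-- The twist commutes with maps of the coefficients. -/
theorem tw_map {L : Type} [Field L] (f : K →+* L) (c : (ZMod M)ˣ)
    (P : MvPolynomial (Ix M a) K) :
    MvPolynomial.map f (tw K M a c P) = tw L M a c (MvPolynomial.map f P) := by
  rw [tw, tw]
  exact MvPolynomial.map_rename f (twIdx M a c) P

omit [NeZero M] [NeZero a] in
theorem Gamma0_mul_le : Gamma0 (M * a) ≤ Gamma0 M := by
  intro γ hγ
  rw [Gamma0_mem] at hγ ⊢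
  rw [ZMod.intCast_zmod_eq_zero_iff_dvd] at hγ ⊢
  exact dvd_trans (by push_cast; exact Dvd.intro _ rfl) hγ

/-- The analytic generators under `γ ∈ Γ₀(M·a)` with lower right entry `≡ c` modulo `M`. -/
theorem gen1Fun_smul (c : (ZMod M)ˣ) (γ : SL(2, ℤ)) (hγ : γ ∈ Gamma0 (M * a))
    (hc : (c : ZMod M) = ((γ 1 1 : ℤ) : ZMod M)) (s : Ix M a) (z : ℍ) :
    gen1Fun M a s (γ • z) = gen1Fun M a (twIdx M a c s) z := by
  rcases s with d | u
  · rw [twIdx_inl, gen1Fun_inl]
    exact PtInv.Jabd_smul_Gamma0 (M * a) d γ hγ z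
  · rw [twIdx_inr, gen1Fun_inr, gen1Fun_inr]
    exact xfun_smul_unit u c γ (Gamma0_mul_le M a hγ) hc z

/-- **(B3)** `ev1K P ∘ γ = ev1K (tw c P)` for `γ ∈ Γ₀(M·a)` with lower right entry `≡ c` mod `M`. -/
theorem ev1K_smul (c : (ZMod M)ˣ) (γ : SL(2, ℤ)) (hγ : γ ∈ Gamma0 (M * a))
    (hc : (c : ZMod M) = ((γ 1 1 : ℤ) : ZMod M)) (P : MvPolynomial (Ix M a) K) (z : ℍ) :
    ev1K ι M a P (γ • z) = ev1K ι M a (tw K M a c P) z := by
  induction P using MvPolynomial.induction_on with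
  | C k =>
    rw [tw_C, ev1K_C]
  | add p q hp hq =>
    rw [map_add, map_add, map_add, Pi.add_apply, Pi.add_apply, hp, hq]
  | mul_X p s hp =>
    rw [map_mul, map_mul, map_mul, Pi.mul_apply, Pi.mul_apply, hp, tw_X, ev1K_X, ev1K_X,
      gen1Fun_smul M a c γ hγ hc s z]

/-- Every unit modulo `M` is the lower right entry of an element of `Γ₀(M·a)`. -/
theorem exists_mem_Gamma0_lowerRight (c : (ZMod M)ˣ) :
    ∃ γ : SL(2, ℤ), γ ∈ Gamma0 (M * a) ∧ (c : ZMod M) = ((γ 1 1 : ℤ) : ZMod M) := by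
  obtain ⟨d, hd⟩ := ZMod.unitsMap_surjective (Dvd.intro a rfl : M ∣ M * a) c
  have hcop : Nat.Coprime (d : ZMod (M * a)).val (M * a) := ZMod.val_coe_unit_coprime d
  have hcop' : IsCoprime ((d : ZMod (M * a)).val : ℤ) ((M * a : ℕ) : ℤ) :=
    Nat.isCoprime_iff_coprime.mpr hcop
  obtain ⟨x, y, hxy⟩ := hcop'
  have hdet : (!![x, -y; ((M * a : ℕ) : ℤ), ((d : ZMod (M * a)).val : ℤ)] :
      Matrix (Fin 2) (Fin 2) ℤ).det = 1 := by
    rw [Matrix.det_fin_two_of]
    linarith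
  let γ : SL(2, ℤ) := ⟨!![x, -y; ((M * a : ℕ) : ℤ), ((d : ZMod (M * a)).val : ℤ)], hdet⟩
  refine ⟨γ, ?_, ?_⟩
  · rw [Gamma0_mem]
    show ((((M * a : ℕ) : ℤ) : ℤ) : ZMod (M * a)) = 0
    rw [Int.cast_natCast]
    exact ZMod.natCast_self (M * a)
  · show (c : ZMod M) = ((((d : ZMod (M * a)).val : ℤ) : ℤ) : ZMod M)
    rw [← hd, ZMod.unitsMap_def, Units.coe_map, Int.cast_natCast, ZMod.natCast_val]
    rfl

end Twist

/-! ## (B4) the diamond automorphisms -/

section Diamond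

variable {K : Type} [Field K] [Algebra ℚ K] (ι : K →+* ℂ) (M a : ℕ) [NeZero M] [NeZero a]

include ι

/-- **Kernel invariance**: the relations between the generators are stable under the twist. -/
theorem fm1K_tw_eq_zero_iff (c : (ZMod M)ˣ) (P : MvPolynomial (Ix M a) K) :
    fm1K K M a (tw K M a c P) = 0 ↔ fm1K K M a P = 0 := by
  obtain ⟨γ, hγ, hc⟩ := exists_mem_Gamma0_lowerRight M a c
  rw [← ev1K_eq_zero_iff ι, ← ev1K_eq_zero_iff ι]
  constructor
  · intro h
    funext z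
    have h1 := ev1K_smul ι M a c γ hγ hc P (γ⁻¹ • z)
    rw [smul_inv_smul] at h1
    rw [h1, h]
    rfl
  · intro h
    funext z
    rw [← ev1K_smul ι M a c γ hγ hc P z, h]
    rfl

omit ι in
theorem isRep1K_one : IsRep1K M a (1 : F1aK K M a) 1 1 :=
  ⟨by rw [map_one]; exact one_ne_zero, by rw [map_one, div_one]⟩

omit ι in
theorem isRep1K_zero : IsRep1K M a (0 : F1aK K M a) 0 1 :=
  ⟨by rw [map_one]; exact one_ne_zero, by rw [map_zero, zero_div]⟩

omit ι in
theorem isRep1K_fm1K (P : MvPolynomial (Ix M a) K) : IsRep1K M a (fm1K K M a P) P 1 :=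
  ⟨by rw [map_one]; exact one_ne_zero, by rw [map_one, div_one]⟩

omit ι in
theorem isRep1K_algebraMap (k : K) :
    IsRep1K M a (algebraMap K (F1aK K M a) k) (MvPolynomial.C k) 1 := by
  have h := isRep1K_fm1K M a (MvPolynomial.C k : MvPolynomial (Ix M a) K)
  have e : fm1K K M a (MvPolynomial.C k) = algebraMap K (F1aK K M a) k := by
    rw [← MvPolynomial.algebraMap_eq]
    exact (fm1K K M a).commutes k
  rwa [e] at h

omit ι in
theorem isRep1K_mul {f g : F1aK K M a} {P Q P' Q' : MvPolynomial (Ix M a) K}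
    (h : IsRep1K M a f P Q) (h' : IsRep1K M a g P' Q') :
    IsRep1K M a (f * g) (P * P') (Q * Q') := by
  refine ⟨?_, ?_⟩
  · rw [map_mul]
    exact mul_ne_zero h.1 h'.1
  · rw [map_mul, map_mul, h.2, h'.2, div_mul_div_comm]

omit ι in
theorem isRep1K_add {f g : F1aK K M a} {P Q P' Q' : MvPolynomial (Ix M a) K}
    (h : IsRep1K M a f P Q) (h' : IsRep1K M a g P' Q') :
    IsRep1K M a (f + g) (P * Q' + Q * P') (Q * Q') := by
  refine ⟨?_, ?_⟩
  · rw [map_mul]
    exact mul_ne_zero h.1 h'.1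
  · rw [map_add, map_mul, map_mul, map_mul, h.2, h'.2, div_add_div _ _ h.1 h'.1]

/-- The twisted pair represents a unique element. -/
theorem isRep1K_tw_unique (c : (ZMod M)ˣ) {f : F1aK K M a}
    {P Q P' Q' : MvPolynomial (Ix M a) K} (h : IsRep1K M a f P Q) (h' : IsRep1K M a f P' Q') :
    fm1K K M a (tw K M a c P) / fm1K K M a (tw K M a c Q)
      = fm1K K M a (tw K M a c P') / fm1K K M a (tw K M a c Q') := by
  have hQ : fm1K K M a (tw K M a c Q) ≠ 0 := fun h0 =>
    h.1 ((fm1K_tw_eq_zero_iff ι M a c Q).mp h0)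
  have hQ' : fm1K K M a (tw K M a c Q') ≠ 0 := fun h0 =>
    h'.1 ((fm1K_tw_eq_zero_iff ι M a c Q').mp h0)
  rw [div_eq_div_iff hQ hQ']
  have h0 := (fm1K_tw_eq_zero_iff ι M a c _).mpr (fm1K_cross_eq_zero M a h h')
  rw [map_sub, map_mul, map_mul, map_sub, map_mul, map_mul, sub_eq_zero] at h0
  exact h0

/-- The diamond `δ_c` as a function: twist a (chosen) representative. -/
def diaFun (K : Type) [Field K] [Algebra ℚ K] (M a : ℕ) [NeZero M] [NeZero a] (c : (ZMod M)ˣ)
    (f : F1aK K M a) : F1aK K M a :=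
  open scoped Classical in
  if h : ∃ P Q, IsRep1K M a f P Q then
    fm1K K M a (tw K M a c h.choose) / fm1K K M a (tw K M a c h.choose_spec.choose)
  else 0

/-- `δ_c` can be computed on any representative. -/
theorem diaFun_eq_of_isRep1K (c : (ZMod M)ˣ) {f : F1aK K M a}
    {P Q : MvPolynomial (Ix M a) K} (h : IsRep1K M a f P Q) :
    diaFun K M a c f = fm1K K M a (tw K M a c P) / fm1K K M a (tw K M a c Q) := by
  have hex : ∃ P Q, IsRep1K M a f P Q := ⟨P, Q, h⟩
  unfold diaFun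
  rw [dif_pos hex]
  exact isRep1K_tw_unique ι M a c hex.choose_spec.choose_spec h

/-- The twisted pair represents `δ_c f`. -/
theorem isRep1K_diaFun (c : (ZMod M)ˣ) {f : F1aK K M a}
    {P Q : MvPolynomial (Ix M a) K} (h : IsRep1K M a f P Q) :
    IsRep1K M a (diaFun K M a c f) (tw K M a c P) (tw K M a c Q) :=
  ⟨fun h0 => h.1 ((fm1K_tw_eq_zero_iff ι M a c Q).mp h0), diaFun_eq_of_isRep1K ι M a c h⟩

theorem diaFun_fm1K (c : (ZMod M)ˣ) (P : MvPolynomial (Ix M a) K) :
    diaFun K M a c (fm1K K M a P) = fm1K K M a (tw K M a c P) := by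
  rw [diaFun_eq_of_isRep1K ι M a c (isRep1K_fm1K M a P), map_one, map_one, div_one]

theorem diaFun_one (c : (ZMod M)ˣ) : diaFun K M a c (1 : F1aK K M a) = 1 := by
  rw [diaFun_eq_of_isRep1K ι M a c (isRep1K_one M a), map_one, map_one, div_one]

theorem diaFun_zero (c : (ZMod M)ˣ) : diaFun K M a c (0 : F1aK K M a) = 0 := by
  rw [diaFun_eq_of_isRep1K ι M a c (isRep1K_zero M a), map_zero, map_zero, zero_div]

theorem diaFun_algebraMap (c : (ZMod M)ˣ) (k : K) :
    diaFun K M a c (algebraMap K (F1aK K M a) k) = algebraMap K (F1aK K M a) k := by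
  rw [diaFun_eq_of_isRep1K ι M a c (isRep1K_algebraMap M a k), tw_C, map_one, map_one, div_one]
  rw [← MvPolynomial.algebraMap_eq]
  exact (fm1K K M a).commutes k

theorem diaFun_mul (c : (ZMod M)ˣ) (f g : F1aK K M a) :
    diaFun K M a c (f * g) = diaFun K M a c f * diaFun K M a c g := by
  obtain ⟨P, Q, h⟩ := exists_isRep1K M a f
  obtain ⟨P', Q', h'⟩ := exists_isRep1K M a g
  rw [diaFun_eq_of_isRep1K ι M a c (isRep1K_mul M a h h'), diaFun_eq_of_isRep1K ι M a c h,
    diaFun_eq_of_isRep1K ι M a c h', map_mul, map_mul, map_mul, map_mul, div_mul_div_comm]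

theorem diaFun_add (c : (ZMod M)ˣ) (f g : F1aK K M a) :
    diaFun K M a c (f + g) = diaFun K M a c f + diaFun K M a c g := by
  obtain ⟨P, Q, h⟩ := exists_isRep1K M a f
  obtain ⟨P', Q', h'⟩ := exists_isRep1K M a g
  have hQ : fm1K K M a (tw K M a c Q) ≠ 0 := fun h0 =>
    h.1 ((fm1K_tw_eq_zero_iff ι M a c Q).mp h0)
  have hQ' : fm1K K M a (tw K M a c Q') ≠ 0 := fun h0 =>
    h'.1 ((fm1K_tw_eq_zero_iff ι M a c Q').mp h0)
  rw [diaFun_eq_of_isRep1K ι M a c (isRep1K_add M a h h'), diaFun_eq_of_isRep1K ι M a c h,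
    diaFun_eq_of_isRep1K ι M a c h', map_add, map_mul, map_mul, map_mul, map_add, map_mul,
    map_mul, map_mul, div_add_div _ _ hQ hQ']

theorem diaFun_diaFun (c c' : (ZMod M)ˣ) (f : F1aK K M a) :
    diaFun K M a c (diaFun K M a c' f) = diaFun K M a (c * c') f := by
  obtain ⟨P, Q, h⟩ := exists_isRep1K M a f
  rw [diaFun_eq_of_isRep1K ι M a c (isRep1K_diaFun ι M a c' h),
    diaFun_eq_of_isRep1K ι M a (c * c') h, tw_mul, tw_mul]

theorem diaFun_one_left (f : F1aK K M a) : diaFun K M a 1 f = f := by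
  obtain ⟨P, Q, h⟩ := exists_isRep1K M a f
  rw [diaFun_eq_of_isRep1K ι M a 1 h, tw_one, tw_one]
  exact h.2.symm

/-- The diamond `δ_c` as a `K`-algebra homomorphism. -/
def diaHom (c : (ZMod M)ˣ) : F1aK K M a →ₐ[K] F1aK K M a where
  toFun := diaFun K M a c
  map_one' := diaFun_one ι M a c
  map_mul' := diaFun_mul ι M a c
  map_zero' := diaFun_zero ι M a c
  map_add' := diaFun_add ι M a c
  commutes' := diaFun_algebraMap ι M a c

/-- **(B4)** The diamond automorphisms: `δ_c x_u = x_{u c⁻¹}`, `δ_c j(q^d) = j(q^d)`, as a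
homomorphism `(ℤ/M)ˣ → Aut_K (K·F1a M a)`. -/
def diaK : (ZMod M)ˣ →* (F1aK K M a ≃ₐ[K] F1aK K M a) where
  toFun c := AlgEquiv.ofAlgHom (diaHom ι M a c) (diaHom ι M a c⁻¹)
    (AlgHom.ext fun f => by
      show diaFun K M a c (diaFun K M a c⁻¹ f) = f
      rw [diaFun_diaFun ι, mul_inv_cancel, diaFun_one_left ι])
    (AlgHom.ext fun f => by
      show diaFun K M a c⁻¹ (diaFun K M a c f) = f
      rw [diaFun_diaFun ι, inv_mul_cancel, diaFun_one_left ι])
  map_one' := AlgEquiv.ext fun f => diaFun_one_left ι M a f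
  map_mul' c c' := AlgEquiv.ext fun f => (diaFun_diaFun ι M a c c' f).symm

theorem diaK_apply (c : (ZMod M)ˣ) (f : F1aK K M a) : diaK ι M a c f = diaFun K M a c f := rfl

/-- `δ_c` on polynomial expressions in the generators. -/
theorem diaK_fm1K (c : (ZMod M)ˣ) (P : MvPolynomial (Ix M a) K) :
    diaK ι M a c (fm1K K M a P) = fm1K K M a (tw K M a c P) :=
  diaFun_fm1K ι M a c P

/-- `δ_c` on representatives. -/
theorem isRep1K_diaK (c : (ZMod M)ˣ) {f : F1aK K M a} {P Q : MvPolynomial (Ix M a) K}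
    (h : IsRep1K M a f P Q) : IsRep1K M a (diaK ι M a c f) (tw K M a c P) (tw K M a c Q) :=
  isRep1K_diaFun ι M a c h

theorem diaK_gen_inl (c : (ZMod M)ˣ) (d : Dv (M * a)) :
    diaK ι M a c (gen1K K M a (Sum.inl d)) = gen1K K M a (Sum.inl d) := by
  have h := diaK_fm1K ι M a c (MvPolynomial.X (Sum.inl d))
  rwa [tw_X, twIdx_inl, fm1K, MvPolynomial.aeval_X] at h

theorem diaK_gen_inr (c u : (ZMod M)ˣ) :
    diaK ι M a c (gen1K K M a (Sum.inr u)) = gen1K K M a (Sum.inr (u * c⁻¹)) := by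
  have h := diaK_fm1K ι M a c (MvPolynomial.X (Sum.inr u))
  rwa [tw_X, twIdx_inr, fm1K, MvPolynomial.aeval_X, MvPolynomial.aeval_X] at h

/-- On Laurent series: `δ_c x_u = x_{u c⁻¹}`. -/
theorem coe_diaK_xgenR (c u : (ZMod M)ˣ) (x : F1aK K M a)
    (hx : (x : LaurentSeries K) = xgenR K M (u : ZMod M)) :
    ((diaK ι M a c x : F1aK K M a) : LaurentSeries K)
      = xgenR K M ((u * c⁻¹ : (ZMod M)ˣ) : ZMod M) := by
  have e : x = gen1K K M a (Sum.inr u) := Subtype.ext (by rw [hx]; exact (gen1L_inr M a u).symm)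
  rw [e, diaK_gen_inr]
  exact gen1L_inr M a (u * c⁻¹)

end Diamond

/-! ## Invariance under `Γ₁(M) ∩ Γ₀(M·a)`, the base field, and `δ_{-1}` -/

section Invariance

variable {K : Type} [Field K] [Algebra ℚ K] (ι : K →+* ℂ) (M a : ℕ) [NeZero M] [NeZero a]

/-- `ev1K ι M a P` is invariant under `Γ₁(M) ∩ Γ₀(M·a)` (field `IsDict1.ev1K_smul`). -/
theorem ev1K_smul_Gam1a (P : MvPolynomial (Ix M a) K) (γ : SL(2, ℤ)) (hγ : γ ∈ Gam1a M a)
    (z : ℍ) : ev1K ι M a P (γ • z) = ev1K ι M a P z := by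
  have h1 : ((γ 1 1 : ℤ) : ZMod M) = 1 := ((Gamma1_mem M γ).mp hγ.1).2.1
  rw [ev1K_smul ι M a 1 γ hγ.2 (by rw [Units.val_one, h1]) P z, tw_one]

/-- `mer1K ι M a f` is invariant under `Γ₁(M) ∩ Γ₀(M·a)` on `U` (field `IsDict1.mer1K_mob`). -/
theorem mer1K_mob (f : F1aK K M a) (γ : SL(2, ℤ)) (hγ : γ ∈ Gam1a M a) {z : ℂ} (hz : z ∈ U) :
    mer1K ι M a f (mob γ z) = mer1K ι M a f z := by
  obtain ⟨P₀, Q₀, -, hmer⟩ := mer1K_eq_chosen ι M a f
  rw [hmer]
  show ev1K ι M a P₀ (ofComplex (mob γ z)) / ev1K ι M a Q₀ (ofComplex (mob γ z))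
    = ev1K ι M a P₀ (ofComplex z) / ev1K ι M a Q₀ (ofComplex z)
  rw [GalCore.ofComplex_mob γ hz, ev1K_smul_Gam1a ι M a P₀ γ hγ, ev1K_smul_Gam1a ι M a Q₀ γ hγ]

omit ι in
/-- Polynomials in the `j(q^d)` only: `fm1K` restricts to the trunk's `fmK` at level `M·a`. -/
theorem coe_fm1K_rename_inl (P : MvPolynomial (Dv (M * a)) K) :
    ((fm1K K M a (MvPolynomial.rename Sum.inl P) : F1aK K M a) : LaurentSeries K)
      = ((fmK K (M * a) P : FNK K (M * a)) : LaurentSeries K) := by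
  rw [coe_fm1K, Bc.coe_fmK, MvPolynomial.aeval_rename]
  rfl

omit ι in
theorem fm1K_rename_inl (P : MvPolynomial (Dv (M * a)) K) :
    fm1K K M a (MvPolynomial.rename Sum.inl P)
      = algebraMap (FNK K (M * a)) (F1aK K M a) (fmK K (M * a) P) :=
  Subtype.ext (by rw [coe_fm1K_rename_inl, coe_algebraMap_F0])

omit [NeZero M] [NeZero a] [Algebra ℚ K] in
theorem tw_rename_inl (c : (ZMod M)ˣ) (P : MvPolynomial (Dv (M * a)) K) :
    tw K M a c (MvPolynomial.rename Sum.inl P) = MvPolynomial.rename Sum.inl P := by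
  rw [tw, MvPolynomial.rename_rename]
  rfl

omit [NeZero a] [Algebra ℚ K] in
/-- Analytic side: polynomials in the `J(d z)` only. -/
theorem ev1K_rename_inl (P : MvPolynomial (Dv (M * a)) K) :
    ev1K ι M a (MvPolynomial.rename Sum.inl P) = evK ι (M * a) P := by
  induction P using MvPolynomial.induction_on with
  | C k =>
    rw [MvPolynomial.rename_C, ev1K_C, Bc.evK_C]
  | add p q hp hq =>
    rw [map_add, map_add, map_add, hp, hq]
  | mul_X p d hp =>
    rw [map_mul, map_mul, map_mul, hp, MvPolynomial.rename_X, ev1K_X_inl, Bc.evK_X]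

/-- **The diamonds fix `K·F0(M·a)` pointwise.** -/
theorem diaK_algebraMap_F0 (c : (ZMod M)ˣ) (x : FNK K (M * a)) :
    diaK ι M a c (algebraMap (FNK K (M * a)) (F1aK K M a) x)
      = algebraMap (FNK K (M * a)) (F1aK K M a) x := by
  obtain ⟨P, Q, -, hx⟩ := Bc.exists_isRepK (M * a) x
  rw [hx, map_div₀, map_div₀, ← fm1K_rename_inl, ← fm1K_rename_inl, diaK_fm1K, diaK_fm1K,
    tw_rename_inl, tw_rename_inl]

/-- The diamonds fix `K·F0(M·a)` pointwise, on Laurent series. -/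
theorem diaK_eq_self_of_mem_base (c : (ZMod M)ˣ) (f : F1aK K M a)
    (hf : (f : LaurentSeries K) ∈ laurentBaseChange K (modularFunctionFieldFull (M * a))) :
    diaK ι M a c f = f := by
  have e : f = algebraMap (FNK K (M * a)) (F1aK K M a) ⟨f, hf⟩ :=
    Subtype.ext (by rw [coe_algebraMap_F0])
  rw [e]
  exact diaK_algebraMap_F0 ι M a c _

omit ι in
/-- `x_{-u} = x_u`: the twist by `-1` does not change the formal evaluation. -/
theorem fm1K_tw_neg_one (P : MvPolynomial (Ix M a) K) :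
    fm1K K M a (tw K M a (-1) P) = fm1K K M a P := by
  induction P using MvPolynomial.induction_on with
  | C k => rw [tw_C]
  | add p q hp hq => rw [map_add, map_add, map_add, hp, hq]
  | mul_X p s hp =>
    rw [map_mul, map_mul, map_mul, hp, tw_X]
    congr 1
    rcases s with d | u
    · rfl
    · rw [twIdx_inr]
      apply Subtype.ext
      rw [coe_fm1K, coe_fm1K, MvPolynomial.aeval_X, MvPolynomial.aeval_X, gen1L_inr, gen1L_inr]
      have e : ((u * (-1)⁻¹ : (ZMod M)ˣ) : ZMod M) = -(u : ZMod M) := by simp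
      rw [e, xgenR_neg]

/-- `δ_{-1} = id`. -/
theorem diaK_neg_one : diaK ι M a (-1) = 1 := by
  apply AlgEquiv.ext
  intro f
  obtain ⟨P, Q, h⟩ := exists_isRep1K M a f
  rw [AlgEquiv.one_apply, diaK_apply, diaFun_eq_of_isRep1K ι M a (-1) h, fm1K_tw_neg_one,
    fm1K_tw_neg_one]
  exact h.2.symm

theorem diaK_neg (c : (ZMod M)ˣ) : diaK ι M a (-c) = diaK ι M a c := by
  have e : -c = -1 * c := by rw [neg_one_mul]
  rw [e, map_mul, diaK_neg_one, one_mul]

end Invariance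

/-! ## (B5) the analytic meaning of the diamonds -/

section Analytic

variable {K : Type} [Field K] [Algebra ℚ K] (ι : K →+* ℂ) (M a : ℕ) [NeZero M] [NeZero a]

/-- **(B5)** `mer1K (δ_c f) = mer1K f ∘ γ` off a discrete subset of `U`, for `γ ∈ Γ₀(M·a)` with
lower right entry `≡ c` modulo `M`. -/
theorem mer1K_diaK (c : (ZMod M)ˣ) (γ : SL(2, ℤ)) (hγ : γ ∈ Gamma0 (M * a))
    (hc : (c : ZMod M) = ((γ 1 1 : ℤ) : ZMod M)) (f : F1aK K M a) :
    mer1K ι M a (diaK ι M a c f) =ᶠ[codiscreteWithin U] fun z => mer1K ι M a f (mob γ z) := by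
  obtain ⟨P₀, Q₀, h₀, hmer⟩ := mer1K_eq_chosen ι M a f
  filter_upwards [mer1K_eventuallyEq_of_isRep1K ι M a (isRep1K_diaK ι M a c h₀),
    self_mem_codiscreteWithin U] with z hz hzU
  rw [hz, hmer]
  show _ = ev1K ι M a P₀ (ofComplex (mob γ z)) / ev1K ι M a Q₀ (ofComplex (mob γ z))
  rw [GalCore.ofComplex_mob γ hzU, ev1K_smul ι M a c γ hγ hc, ev1K_smul ι M a c γ hγ hc]

/-- Realisation of every `γ ∈ Γ₀(M·a)` by a diamond (the `hδ` of the relative dictionary). -/
theorem exists_diaK_of_mem_Gamma0 (γ : SL(2, ℤ)) (hγ : γ ∈ Gamma0 (M * a)) :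
    ∃ c : (ZMod M)ˣ, (c : ZMod M) = ((γ 1 1 : ℤ) : ZMod M) ∧ ∀ f : F1aK K M a,
      mer1K ι M a (diaK ι M a c f) =ᶠ[codiscreteWithin U] fun z => mer1K ι M a f (mob γ z) := by
  have hγM : γ ∈ Gamma0 M := Gamma0_mul_le M a hγ
  have hdet : (γ 0 0 : ℤ) * γ 1 1 - γ 0 1 * γ 1 0 = 1 := by
    have h := γ.det_coe
    rw [Matrix.det_fin_two] at h
    exact h
  have h10 : ((γ 1 0 : ℤ) : ZMod M) = 0 := (Gamma0_mem).mp hγM
  have hunit : ((γ 0 0 : ℤ) : ZMod M) * ((γ 1 1 : ℤ) : ZMod M) = 1 := by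
    have h := congrArg (fun x : ℤ => (x : ZMod M)) hdet
    simp only [Int.cast_sub, Int.cast_mul, Int.cast_one, h10, mul_zero, sub_zero] at h
    exact h
  let c : (ZMod M)ˣ := ⟨((γ 1 1 : ℤ) : ZMod M), ((γ 0 0 : ℤ) : ZMod M),
    by rw [mul_comm]; exact hunit, hunit⟩
  exact ⟨c, rfl, fun f => mer1K_diaK ι M a c γ hγ rfl f⟩

/-- Orders at points under the twist. -/
theorem ordAt_ev1K_tw (c : (ZMod M)ˣ) (γ : SL(2, ℤ)) (hγ : γ ∈ Gamma0 (M * a))
    (hc : (c : ZMod M) = ((γ 1 1 : ℤ) : ZMod M)) (P : MvPolynomial (Ix M a) K) (τ : ℍ) :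
    ordAt (ev1K ι M a (tw K M a c P)) τ = ordAt (ev1K ι M a P) (γ • τ) := by
  rw [PtInv.ordAt_eq_cast, PtInv.ordAt_eq_cast, ← OrdH.ordAt_comp_smul (ev1K ι M a P) γ τ]
  congr 2
  funext z
  exact (ev1K_smul ι M a c γ hγ hc P z).symm

/-- **Point valuations under the diamonds**: `ord_τ (δ_c f) = ord_{γ τ} f`. -/
theorem valPt1K_diaK (c : (ZMod M)ˣ) (γ : SL(2, ℤ)) (hγ : γ ∈ Gamma0 (M * a))
    (hc : (c : ZMod M) = ((γ 1 1 : ℤ) : ZMod M)) (τ : ℍ) {f : F1aK K M a} (hf : f ≠ 0) :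
    valPt1K ι M a τ (diaK ι M a c f) = valPt1K ι M a (γ • τ) f := by
  obtain ⟨P, Q, h⟩ := exists_isRep1K M a f
  have hf' : diaK ι M a c f ≠ 0 := fun h0 =>
    hf ((diaK ι M a c).injective (h0.trans (map_zero _).symm))
  rw [valPt1K_eq_of_isRep1K ι M a τ hf' (isRep1K_diaK ι M a c h),
    valPt1K_eq_of_isRep1K ι M a (γ • τ) hf h, ordAt_ev1K_tw ι M a c γ hγ hc,
    ordAt_ev1K_tw ι M a c γ hγ hc]

/-- Cusp translates under the twist: `(ev (tw c P)) ∘ g⁻¹ = (ev P) ∘ (g γ⁻¹)⁻¹`. -/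
theorem trans_ev1K_tw (c : (ZMod M)ˣ) (γ : SL(2, ℤ)) (hγ : γ ∈ Gamma0 (M * a))
    (hc : (c : ZMod M) = ((γ 1 1 : ℤ) : ZMod M)) (g : SL(2, ℤ)) (P : MvPolynomial (Ix M a) K) :
    trans g (ev1K ι M a (tw K M a c P)) = trans (g * γ⁻¹) (ev1K ι M a P) := by
  funext z
  show ev1K ι M a (tw K M a c P) (g⁻¹ • z) = ev1K ι M a P ((g * γ⁻¹)⁻¹ • z)
  rw [mul_inv_rev, inv_inv, mul_smul, ev1K_smul ι M a c γ hγ hc]

end Analytic

/-! ## Coefficient maps (base change `K → L`, Galois action on the coefficients) -/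

section Coeff

variable {K : Type} [Field K] [Algebra ℚ K] (ι : K →+* ℂ) (M a : ℕ) [NeZero M] [NeZero a]
  {L : Type} [Field L] [Algebra ℚ L]

omit ι in
theorem coeffMap_gen1L (φ : K →+* L) (s : Ix M a) :
    coeffMap φ (gen1L K M a s) = gen1L L M a s :=
  Bc.coeffMap_coeffEmb_of_ringHom φ _

omit ι in
/-- Coefficientwise application of `φ : K →+* L` to a polynomial expression in the generators. -/
theorem coeffMap_fm1K (φ : K →+* L) (P : MvPolynomial (Ix M a) K) :
    coeffMap φ ((fm1K K M a P : F1aK K M a) : LaurentSeries K)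
      = ((fm1K L M a (MvPolynomial.map φ P) : F1aK L M a) : LaurentSeries L) := by
  rw [coe_fm1K, coe_fm1K]
  induction P using MvPolynomial.induction_on with
  | C c =>
    rw [MvPolynomial.map_C, MvPolynomial.aeval_C, MvPolynomial.aeval_C,
      Bc.coeffMap_algebraMap_of_ringHom]
  | add p q hp hq =>
    rw [map_add, map_add, map_add, map_add, hp, hq]
  | mul_X p i hp =>
    rw [map_mul, map_mul, map_mul, map_mul, hp, MvPolynomial.map_X, MvPolynomial.aeval_X,
      MvPolynomial.aeval_X, coeffMap_gen1L]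

omit ι in
/-- Base change of representatives. -/
theorem isRep1K_of_coeffMap (φ : K →+* L) {f : F1aK K M a} {g : F1aK L M a}
    (hg : (g : LaurentSeries L) = coeffMap φ (f : LaurentSeries K))
    {P Q : MvPolynomial (Ix M a) K} (h : IsRep1K M a f P Q) :
    IsRep1K M a g (MvPolynomial.map φ P) (MvPolynomial.map φ Q) := by
  refine ⟨?_, ?_⟩
  · intro h0
    apply h.1
    apply Subtype.ext
    apply (coeffMap φ).injective
    rw [coeffMap_fm1K, h0]
    simp
  · apply Subtype.ext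
    rw [hg, h.2, IntermediateField.coe_div, IntermediateField.coe_div, map_div₀, coeffMap_fm1K,
      coeffMap_fm1K]

/-- **The diamonds commute with coefficient maps** (base change `K → L`; for `K = L = ℚ̄` and
`φ ∈ Gal(ℚ̄/ℚ)` this is the commutation with the arithmetic Galois action). -/
theorem coeffMap_diaK (ιL : L →+* ℂ) (φ : K →+* L) (c : (ZMod M)ˣ) {f : F1aK K M a}
    {g : F1aK L M a} (hg : (g : LaurentSeries L) = coeffMap φ (f : LaurentSeries K)) :
    ((diaK ιL M a c g : F1aK L M a) : LaurentSeries L)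
      = coeffMap φ ((diaK ι M a c f : F1aK K M a) : LaurentSeries K) := by
  obtain ⟨P, Q, h⟩ := exists_isRep1K M a f
  have h' := isRep1K_of_coeffMap M a φ hg h
  rw [diaK_apply, diaK_apply, diaFun_eq_of_isRep1K ιL M a c h', diaFun_eq_of_isRep1K ι M a c h,
    IntermediateField.coe_div, IntermediateField.coe_div, map_div₀, coeffMap_fm1K, coeffMap_fm1K,
    tw_map, tw_map]

end Coeff

end Fermat.Agent.G1.Gal
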