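import Mathlib
import Fermat.Agent.G1.Gen
import Fermat.Agent.ESJ.Jac.Invariant
import Fermat.Agent.DS.Hecke1.Coset

/-!
# G1-GAL, definitions: polynomial representatives for the function field of `X_1(M)`

`K` a field with `ι : K →+* ℂ` (`K = ℚ`, `ℚ̄`, `ℂ`), `F1K K M := K·F1(M) ⊆ K((q))`
(`laurentBaseChange K (F1 M)`).  Generators are indexed by `Gv M = Dv M ⊕ (ZMod M)ˣ`:
`inl d ↦ j(q^d)` (`d ∣ M`), `inr u ↦ x_u` (helper82's `xgen M u`, `G1/Gen.lean`).

* `genQ`, `genK`, `fm1 K M : MvPolynomial (Gv M) K →ₐ[K] F1K K M` : formal evaluation;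
* `genFun`, `ev1 ι M : MvPolynomial (Gv M) K →+* (ℍ → ℂ)` : analytic evaluation
  (`inl d ↦ J(d z)`, `inr u ↦ xfun M u`);
* `hasQExp_ev1` : formal = analytic; `fm1_eq_zero_iff : fm1 K M P = 0 ↔ ev1 ι M P = 0`;
* `exists_isRep1` : every element of `F1K K M` is `fm1 P / fm1 Q`;
* `ren K M u` : the diamond substitution `X_w ↦ X_{w u}` (identity on the `j`-variables);
  `ev1_smul` : `ev1 P (γ • z) = ev1 (ren u⁻¹ P) z` for `γ ∈ Γ₀(M)` with lower right entry `u`;
  `ev1_smul_Gamma1`; `fm1_ren_eq_zero_iff` : the substitution preserves the relations.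
-/

set_option autoImplicit false
set_option linter.unusedSectionVars false

open UpperHalfPlane ModularForm CongruenceSubgroup ModularCurve
open scoped MatrixGroups Manifold

noncomputable section

namespace Fermat.Agent.G1

open Fermat.Agent.S24 Fermat.Agent.S24.QExp Fermat.Agent.ESJ.Jac

/-- Index type of the generators of `F1 M`: the divisors `d ∣ M` (for `j(q^d)`) and the units
`u` (for `x_u`). -/
abbrev Gv (M : ℕ) : Type := Dv M ⊕ (ZMod M)ˣ

section Formal

variable (K : Type) [Field K] [Algebra ℚ K] (M : ℕ) [NeZero M]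

/-- `K·F1(M) ⊆ K((q))`, the function field of `X_1(M)` over `K`. -/
abbrev F1K : Type := ↥(laurentBaseChange K (F1 M))

/-- The formal generators over `ℚ`. -/
def genQ : Gv M → LaurentSeries ℚ
  | Sum.inl d => haveI : NeZero d.1 := d.neZero; qExpand ℚ d.1 jq
  | Sum.inr u => xgen M u

theorem genQ_inl (d : Dv M) :
    genQ M (Sum.inl d) = (haveI : NeZero d.1 := d.neZero; qExpand ℚ d.1 jq) := rfl

theorem genQ_inr (u : (ZMod M)ˣ) : genQ M (Sum.inr u) = xgen M u := rfl

theorem genQ_mem_F1 (g : Gv M) : genQ M g ∈ F1 M := by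
  rcases g with d | u
  · have : NeZero d.1 := d.neZero
    exact full_le_F1 M (jqd_mem_full M d.2)
  · exact xgen_mem_F1 M u

/-- The formal generators in `K·F1(M)`. -/
def genK (g : Gv M) : F1K K M :=
  ⟨coeffEmb K (genQ M g), coeffEmb_mem_laurentBaseChange K (genQ_mem_F1 M g)⟩

theorem coe_genK (g : Gv M) : ((genK K M g : F1K K M) : LaurentSeries K) = coeffEmb K (genQ M g) :=
  rfl

/-- Formal evaluation of a polynomial in the generators. -/
def fm1 : MvPolynomial (Gv M) K →ₐ[K] F1K K M := MvPolynomial.aeval (genK K M)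

theorem fm1_X (g : Gv M) : fm1 K M (MvPolynomial.X g) = genK K M g := by
  simp [fm1]

theorem fm1_C (c : K) : fm1 K M (MvPolynomial.C c) = algebraMap K (F1K K M) c := by
  simp [fm1]

theorem coe_fm1 (P : MvPolynomial (Gv M) K) :
    ((fm1 K M P : F1K K M) : LaurentSeries K)
      = MvPolynomial.aeval (fun g : Gv M => coeffEmb K (genQ M g)) P := by
  have := MvPolynomial.comp_aeval (R := K) (genK K M)
    (IntermediateField.val (laurentBaseChange K (F1 M)))
  exact congrArg (fun φ => φ P) this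

/-- `f = fm1 P / fm1 Q`. -/
def IsRep1 (f : F1K K M) (P Q : MvPolynomial (Gv M) K) : Prop :=
  fm1 K M Q ≠ 0 ∧ f = fm1 K M P / fm1 K M Q

theorem laurentBaseChange_F1_le :
    (laurentBaseChange K (F1 M) : IntermediateField K (LaurentSeries K)) ≤
      IntermediateField.adjoin K (Set.range fun g : Gv M => coeffEmb K (genQ M g)) := by
  rw [laurentBaseChange, IntermediateField.adjoin_le_iff]
  rintro _ ⟨x, hx, rfl⟩
  set F' := IntermediateField.adjoin K (Set.range fun g : Gv M => coeffEmb K (genQ M g)) with hF'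
  let T : Subfield (LaurentSeries ℚ) := Subfield.comap (coeffEmb K) F'.toSubfield
  have hgen : ∀ g : Gv M, genQ M g ∈ T := fun g =>
    show coeffEmb K (genQ M g) ∈ F' from IntermediateField.subset_adjoin K _ ⟨g, rfl⟩
  have hrat : ∀ c : ℚ, algebraMap ℚ (LaurentSeries ℚ) c ∈ T := fun c => by
    show coeffEmb K (algebraMap ℚ (LaurentSeries ℚ) c) ∈ F'.toSubfield
    rw [eq_ratCast, map_ratCast]
    exact SubfieldClass.ratCast_mem _ c
  have hfull : (modularFunctionFieldFull M).toSubfield ≤ T := by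
    rw [modularFunctionFieldFull, IntermediateField.adjoin_toSubfield, Subfield.closure_le]
    rintro y (⟨c, rfl⟩ | ⟨d, hd, hdM, rfl⟩)
    · exact hrat c
    · exact hgen (Sum.inl ⟨d, hdM⟩)
  have hT : (F1 M).toSubfield ≤ T := by
    rw [F1, IntermediateField.adjoin_toSubfield, Subfield.closure_le]
    rintro y (⟨c, rfl⟩ | hy | ⟨u, rfl⟩)
    · exact hrat c
    · exact hfull hy
    · exact hgen (Sum.inr u)
  exact hT hx

/-- Every element of `K·F1(M)` is a quotient of polynomial expressions in the generators. -/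
theorem exists_isRep1 (f : F1K K M) : ∃ P Q, IsRep1 K M f P Q := by
  have hf := laurentBaseChange_F1_le K M f.2
  rw [IntermediateField.mem_adjoin_range_iff] at hf
  obtain ⟨r, s, hrs⟩ := hf
  by_cases hs : MvPolynomial.aeval (fun g : Gv M => coeffEmb K (genQ M g)) s = 0
  · refine ⟨0, 1, by simp, ?_⟩
    apply Subtype.ext
    rw [hrs, hs, div_zero]
    simp
  · refine ⟨r, s, ?_, ?_⟩
    · intro h
      apply hs
      rw [← coe_fm1, h]
      rfl
    · apply Subtype.ext
      rw [hrs, IntermediateField.coe_div, coe_fm1, coe_fm1]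

end Formal

section Analytic

variable (M : ℕ) [NeZero M]

/-- The analytic generators: `J(d z)` and `x_u`. -/
def genFun : Gv M → ℍ → ℂ
  | Sum.inl d => Jabd d.1 0 1
  | Sum.inr u => xfun M (u : ZMod M)

theorem genFun_inl (d : Dv M) : genFun M (Sum.inl d) = Jabd d.1 0 1 := rfl

theorem genFun_inr (u : (ZMod M)ˣ) : genFun M (Sum.inr u) = xfun M (u : ZMod M) := rfl

/-- Formal = analytic for the generators. -/
theorem hasQExp_genFun (g : Gv M) :
    HasQExp 1 (genFun M g) (coeffMap (algebraMap ℚ ℂ) (genQ M g)) := by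
  rcases g with d | u
  · have : NeZero d.1 := d.neZero
    rw [genFun_inl, genQ_inl, coeffMap_qExpand]
    exact hasQExp_Jabd_scale d.1
  · exact hasQExp_xfun' u

theorem mdiff_genFun (g : Gv M) : MDiff (genFun M g) := by
  rcases g with d | u
  · exact (Inv.Jabd_mem_R0 M d).1
  · exact mdiff_xfun _

theorem genFun_mem_R0 (g : Gv M) : genFun M g ∈ Inv.R0 := by
  rcases g with d | u
  · exact Inv.Jabd_mem_R0 M d
  · exact ⟨mdiff_xfun _, fun g => xfun_cusp _ g⟩

variable {K : Type} [Field K] [Algebra ℚ K] (ι : K →+* ℂ)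

/-- Analytic evaluation of a polynomial in the generators, coefficients through `ι`. -/
def ev1 : MvPolynomial (Gv M) K →+* (ℍ → ℂ) :=
  MvPolynomial.eval₂Hom ((Pi.constRingHom ℍ ℂ).comp ι) (genFun M)

theorem ev1_X (g : Gv M) : ev1 M ι (MvPolynomial.X g) = genFun M g := by
  simp [ev1]

theorem ev1_C (c : K) : ev1 M ι (MvPolynomial.C c) = fun _ => ι c := by
  funext z
  simp [ev1]

theorem ev1_mem_R0 (P : MvPolynomial (Gv M) K) : ev1 M ι P ∈ Inv.R0 := by
  induction P using MvPolynomial.induction_on with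
  | C c =>
    rw [ev1_C]
    exact Inv.const_mem_R0 _
  | add p q hp hq =>
    rw [map_add]
    exact Inv.R0.add_mem hp hq
  | mul_X p i hp =>
    rw [map_mul, ev1_X]
    exact Inv.R0.mul_mem hp (genFun_mem_R0 M i)

theorem mdiff_ev1 (P : MvPolynomial (Gv M) K) : MDiff (ev1 M ι P) := (ev1_mem_R0 M ι P).1

theorem coeffMap_coeffEmb_eq (x : LaurentSeries ℚ) :
    coeffMap ι (coeffEmb K x) = coeffMap (algebraMap ℚ ℂ) x := by
  rw [coeffEmb, coeffMap_coeffMap]
  exact coeffMap_congr (RingHom.ext_rat _ _) _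

/-- **Formal = analytic**: `ev1 P` has the `q`-expansion `fm1 P`. -/
theorem hasQExp_ev1 (P : MvPolynomial (Gv M) K) :
    HasQExp 1 (ev1 M ι P) (coeffMap ι ((fm1 K M P : F1K K M) : LaurentSeries K)) := by
  rw [coe_fm1]
  refine HasQExp.mvPolynomial ι (genFun M) _ (fun g => ?_) P
  rw [coeffMap_coeffEmb_eq]
  exact hasQExp_genFun M g

/-- **`q`-expansion principle**: a polynomial in the generators vanishes in the function field
iff it vanishes as a function on `ℍ`. -/
theorem fm1_eq_zero_iff (P : MvPolynomial (Gv M) K) : fm1 K M P = 0 ↔ ev1 M ι P = 0 := by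
  have key := (hasQExp_ev1 M ι P).eq_zero_iff
  constructor
  · intro h0
    funext τ
    exact key.mpr (by rw [h0]; simp) τ
  · intro h0
    have := key.mp (fun τ => by rw [h0]; rfl)
    have h2 : ((fm1 K M P : F1K K M) : LaurentSeries K) = 0 :=
      coeffMap_injective' ι (by rw [this, map_zero])
    exact Subtype.ext h2

theorem ev1_ne_zero_iff (P : MvPolynomial (Gv M) K) : ev1 M ι P ≠ 0 ↔ fm1 K M P ≠ 0 :=
  (fm1_eq_zero_iff M ι P).not.symm

end Analytic

/-! ### The diamond substitution -/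

section Diamond

variable (K : Type) [Field K] [Algebra ℚ K] (M : ℕ) [NeZero M]

/-- The permutation of the generators: `x_w ↦ x_{w u}`, identity on the `j(q^d)`. -/
def gvMul (u : (ZMod M)ˣ) : Gv M ≃ Gv M := Equiv.sumCongr (Equiv.refl _) (Equiv.mulRight u)

@[simp] theorem gvMul_inl (u : (ZMod M)ˣ) (d : Dv M) : gvMul M u (Sum.inl d) = Sum.inl d := rfl

@[simp] theorem gvMul_inr (u w : (ZMod M)ˣ) : gvMul M u (Sum.inr w) = Sum.inr (w * u) := rfl

/-- The diamond substitution on polynomials in the generators. -/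
def ren (u : (ZMod M)ˣ) : MvPolynomial (Gv M) K ≃ₐ[K] MvPolynomial (Gv M) K :=
  MvPolynomial.renameEquiv K (gvMul M u)

theorem ren_apply (u : (ZMod M)ˣ) (P : MvPolynomial (Gv M) K) :
    ren K M u P = MvPolynomial.rename (gvMul M u) P := rfl

@[simp] theorem ren_X (u : (ZMod M)ˣ) (g : Gv M) :
    ren K M u (MvPolynomial.X g) = MvPolynomial.X (gvMul M u g) := by
  rw [ren_apply, MvPolynomial.rename_X]

@[simp] theorem ren_C (u : (ZMod M)ˣ) (c : K) :
    ren K M u (MvPolynomial.C c) = MvPolynomial.C c := by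
  rw [ren_apply, MvPolynomial.rename_C]

theorem ren_one (P : MvPolynomial (Gv M) K) : ren K M 1 P = P := by
  have h : (gvMul M (1 : (ZMod M)ˣ) : Gv M → Gv M) = id := by
    funext g
    rcases g with d | w
    · rfl
    · simp
  rw [ren_apply, h, MvPolynomial.rename_id_apply]

theorem ren_ren (u v : (ZMod M)ˣ) (P : MvPolynomial (Gv M) K) :
    ren K M v (ren K M u P) = ren K M (u * v) P := by
  have h : (gvMul M v : Gv M → Gv M) ∘ (gvMul M u) = gvMul M (u * v) := by
    funext g
    rcases g with d | w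
    · rfl
    · simp [mul_assoc]
  rw [ren_apply, ren_apply, MvPolynomial.rename_rename, h, ren_apply]

variable {K}
variable (ι : K →+* ℂ)

/-- **Diamond law** for the analytic evaluation: for `γ ∈ Γ₀(M)` with lower right entry `u`,
`ev1 P (γ • z) = ev1 (ren u⁻¹ P) z`. -/
theorem ev1_smul (P : MvPolynomial (Gv M) K) (γ : SL(2, ℤ)) (hγ : γ ∈ Gamma0 M)
    (u : (ZMod M)ˣ) (hu : (u : ZMod M) = ((γ 1 1 : ℤ) : ZMod M)) (z : ℍ) :
    ev1 M ι P (γ • z) = ev1 M ι (ren K M u⁻¹ P) z := by
  induction P using MvPolynomial.induction_on with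
  | C c => rw [ren_C, ev1_C]
  | add p q hp hq => simp only [map_add, Pi.add_apply, hp, hq]
  | mul_X p g hp =>
    simp only [map_mul, Pi.mul_apply, hp, ren_X, ev1_X]
    congr 1
    rcases g with d | w
    · rw [gvMul_inl, genFun_inl]
      exact HNFMod.Jabd_smul_of_mem_Gamma0 M d γ hγ z
    · rw [gvMul_inr, genFun_inr, genFun_inr]
      exact xfun_smul_unit w u γ hγ hu z

/-- The analytic evaluation is `Γ₁(M)`-invariant. -/
theorem ev1_smul_Gamma1 (P : MvPolynomial (Gv M) K) (γ : SL(2, ℤ)) (hγ : γ ∈ Gamma1 M)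
    (z : ℍ) : ev1 M ι P (γ • z) = ev1 M ι P z := by
  have h1 : ((1 : (ZMod M)ˣ) : ZMod M) = ((γ 1 1 : ℤ) : ZMod M) := by
    rw [Units.val_one]
    exact (((Gamma1_mem M γ).mp hγ).2.1).symm
  rw [ev1_smul M ι P γ (Gamma1_in_Gamma0 M hγ) 1 h1 z, inv_one, ren_one]

include ι in
/-- **Transfer**: the diamond substitution preserves the relations between the generators. -/
theorem fm1_ren_eq_zero_iff (u : (ZMod M)ˣ) (P : MvPolynomial (Gv M) K) :
    fm1 K M (ren K M u P) = 0 ↔ fm1 K M P = 0 := by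
  have key : ∀ (v : (ZMod M)ˣ) (Q : MvPolynomial (Gv M) K),
      fm1 K M Q = 0 → fm1 K M (ren K M v Q) = 0 := by
    intro v Q hQ
    rw [fm1_eq_zero_iff M ι] at hQ ⊢
    funext z
    have hrep := Fermat.Agent.DS.Hecke1.lr_rep (N := M) v⁻¹
    have h := ev1_smul M ι Q (Fermat.Agent.DS.Hecke1.rep M v⁻¹)
      (Fermat.Agent.DS.Hecke1.rep_mem v⁻¹) v⁻¹ hrep.symm z
    rw [inv_inv] at h
    rw [← h, hQ]
    rfl
  refine ⟨fun h => ?_, key u P⟩
  have h2 := key u⁻¹ _ h
  rwa [ren_ren, mul_inv_cancel, ren_one] at h2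

end Diamond

end Fermat.Agent.G1
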