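/-
G1-GEN (5): the generators `x_u` as diamond families (`ConjFam.IsDiamondFam`), at level `M` and at
every level `M a` (the group `(ℤ/M a)ˣ` acting through its reduction modulo `M`).
-/
import Mathlib
import Fermat.Agent.G1.GenInvHecke
import Fermat.Agent.G1.ConjFam

set_option autoImplicit false

namespace Fermat.Agent.G1

open UpperHalfPlane ModularForm CongruenceSubgroup Complex ModularCurve
open scoped MatrixGroups

/-- The generators `x_u`, `u ∈ (ℤ/M)ˣ`, form a diamond family of level `M` with
`act d u = u d`. -/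
theorem famX (M : ℕ) [NeZero M] :
    ConjFam.IsDiamondFam M (fun (d : (ZMod M)ˣ) (u : (ZMod M)ˣ) => u * d)
      (fun u : (ZMod M)ˣ => xfun M (u : ZMod M)) (xgen M) where
  act_one := fun u => mul_one u
  act_mul := fun c d u => by
    show u * (c * d) = u * d * c
    rw [mul_comm c d, mul_assoc]
  hasQExp := fun u => hasQExp_xfun' u
  smul := fun γ hγ d hd u z => by
    have h := xfun_smul (u : ZMod M) γ hγ z
    rw [← hd, ← Units.val_mul] at h
    exact h

/-- The generators `x_u`, `u ∈ (ℤ/M)ˣ`, as a diamond family of level `M a`: `(ℤ/M a)ˣ` acts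
through its reduction modulo `M`. -/
theorem famXa (M a : ℕ) [NeZero M] :
    ConjFam.IsDiamondFam (M * a)
      (fun (d : (ZMod (M * a))ˣ) (u : (ZMod M)ˣ) => u * ZMod.unitsMap (Dvd.intro a rfl) d)
      (fun u : (ZMod M)ˣ => xfun M (u : ZMod M)) (xgen M) where
  act_one := fun u => by simp
  act_mul := fun c d u => by
    show u * ZMod.unitsMap (Dvd.intro a rfl) (c * d) =
      u * ZMod.unitsMap (Dvd.intro a rfl) d * ZMod.unitsMap (Dvd.intro a rfl) c
    rw [map_mul, mul_comm (ZMod.unitsMap (Dvd.intro a rfl) c), mul_assoc]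
  hasQExp := fun u => hasQExp_xfun' u
  smul := fun γ hγ d hd u z => by
    have hγM : γ ∈ Gamma0 M := Gamma0_mul_le γ hγ
    have h := xfun_smul (u : ZMod M) γ hγM z
    have e : ((ZMod.unitsMap (Dvd.intro a rfl : M ∣ M * a) d : (ZMod M)ˣ) : ZMod M) =
        ((γ 1 1 : ℤ) : ZMod M) := by
      rw [ZMod.unitsMap_val, hd]
      exact ZMod.cast_intCast (Dvd.intro a rfl) _
    rw [← e, ← Units.val_mul] at h
    exact h

end Fermat.Agent.G1
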