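/-
G1 / CONG (C3): the conjugate embeddings of the Hecke correspondence of `X_1(M)` at a prime
`ℓ ∤ M`, in the literal `hconj` shape of `Cong/NormAbs.qExpand_norm_of_conj`.

`K` a field with `ι : K →+* ℂ`, `F = K·F1(M)` (or `K·F1a(M, 1)`, the same subfield of `K((q))`),
`F' = K·F1a(M, ℓ)`, `α, β : F → F'` with `α x = x` and `β x = x(q^ℓ)` as `q`-series, and `δ` a ring
endomorphism of `F` fixing the constants and the `j(q^d)` (`d ∣ M`) with `δ x_u = x_{u e}`
(`e` = the class of `ℓ` in `(ℤ/M)ˣ`).  Then for every `ℓ`-th root of unity `w` of `K` there is a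
ring homomorphism `τ : F' → K((t))` with

  `τ (α x) = x(t^ℓ)`   and   `τ (β x) = (δ x)(w t)`.

* `famG` : the generators `genQ M` of `F1 M` as a diamond family (`act e = gvMul M e`);
* `F1aK_le_adjoin` : `K·F1a(M, ℓ) ⊆ K(genQ, V_ℓ genQ)`;
* `exists_conj_F1a` : the `K`-embedding `τ` of `K·F1a(M, ℓ)` on the generators;
* `ringHom_ext_F1K` : ring homomorphisms out of `K·F1(M)` are determined by the constants and
  the generators;
* `hconj0`, `hconj` : the statement above (`hconj`: for any `F = K·F1(M)`, `F' = K·F1a(M, ℓ)`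
  given as equations), `δ` described on the underlying series;
* `hconj_F1K` (`δ` on helper66's `genK`, `gvMul`), `hconj_F1aK` (`δ` on helper9's `gen1K K M 1`) :
  the two literal instances.
-/
import Mathlib
import Fermat.Agent.G1.GenFam
import Fermat.Agent.G1.GalDefs
import Fermat.Agent.G1.Dict.Defs

set_option autoImplicit false

open UpperHalfPlane CongruenceSubgroup
open scoped MatrixGroups

namespace Fermat.Agent.G1.ConjF1

open ModularCurve Fermat.Agent.S24 Fermat.Agent.S24.QExp Fermat.Agent.S28.Chain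
open Fermat.Agent.G1.ConjFam

noncomputable section

section Fam

variable (M : ℕ) [NeZero M]

/-- The generators `j(q^d)` (`d ∣ M`), `x_u` of `F1 M` form a diamond family of level `M`, the
unit `e` acting by `gvMul M e` (`x_u ↦ x_{u e}`). -/
theorem famG :
    IsDiamondFam M (fun e : (ZMod M)ˣ => (gvMul M e : Gv M → Gv M)) (genFun M) (genQ M) := by
  have h := (famJ M).sum (G1.famX M)
  have e1 : genFun M = Sum.elim (fun d : Dv M => Jabd d.1 0 1)
      (fun u : (ZMod M)ˣ => xfun M (u : ZMod M)) := by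
    funext g
    rcases g with d | u <;> rfl
  have e2 : genQ M = Sum.elim (fun d : Dv M => have : NeZero d.1 := d.neZero; qExpand ℚ d.1 jq)
      (xgen M) := by
    funext g
    rcases g with d | u <;> rfl
  have e3 : (fun e : (ZMod M)ˣ => (gvMul M e : Gv M → Gv M)) =
      fun d => Sum.map (fun x : Dv M => x) (fun u : (ZMod M)ˣ => u * d) := by
    funext e g
    rcases g with d | u <;> rfl
  rw [e1, e2, e3]
  exact h

end Fam

section Main

variable (K : Type) [Field K] [Algebra ℚ K] (M : ℕ) [NeZero M] (ℓ : ℕ) [NeZero ℓ]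

/-- `K·F1a(M, ℓ) ⊆ K(j(q^d), x_u, j(q^{ℓ d}), x_u(q^ℓ))` for a prime `ℓ`. -/
theorem F1aK_le_adjoin (hℓ : ℓ.Prime) :
    laurentBaseChange K (F1a M ℓ) ≤
      IntermediateField.adjoin K (Set.range (gens K ℓ (genQ M))) := by
  rw [laurentBaseChange, IntermediateField.adjoin_le_iff]
  rintro _ ⟨x, hx, rfl⟩
  obtain ⟨F', hF'⟩ : ∃ F' : IntermediateField K (LaurentSeries K),
      F' = IntermediateField.adjoin K (Set.range (gens K ℓ (genQ M))) := ⟨_, rfl⟩
  rw [← hF']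
  let T : Subfield (LaurentSeries ℚ) := Subfield.comap (coeffEmb K) F'.toSubfield
  have hrat : ∀ c : ℚ, algebraMap ℚ (LaurentSeries ℚ) c ∈ T := fun c => by
    show coeffEmb K (algebraMap ℚ (LaurentSeries ℚ) c) ∈ F'.toSubfield
    rw [eq_ratCast, map_ratCast]
    exact SubfieldClass.ratCast_mem _ c
  let T' : IntermediateField ℚ (LaurentSeries ℚ) := Subfield.toIntermediateField T hrat
  have hg0 : ∀ g : Gv M, genQ M g ∈ T' := fun g => by
    show coeffEmb K (genQ M g) ∈ F'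
    rw [hF']
    exact IntermediateField.subset_adjoin K _ ⟨Sum.inl g, rfl⟩
  have hg1 : ∀ g : Gv M, qExpand ℚ ℓ (genQ M g) ∈ T' := fun g => by
    show coeffEmb K (qExpand ℚ ℓ (genQ M g)) ∈ F'
    rw [hF']
    exact IntermediateField.subset_adjoin K _ ⟨Sum.inr g, rfl⟩
  have hfull : modularFunctionFieldFull M ≤ T' := by
    rw [modularFunctionFieldFull, IntermediateField.adjoin_le_iff]
    rintro y ⟨d, hd, hdM, rfl⟩
    exact hg0 (Sum.inl ⟨d, hdM⟩)
  have h1 : F1 M ≤ T' := by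
    rw [F1, IntermediateField.adjoin_le_iff]
    rintro y (hy | ⟨u, rfl⟩)
    · exact hfull hy
    · exact hg0 (Sum.inr u)
  have h2 : modularFunctionFieldFull (M * ℓ) ≤ T' := by
    rw [modularFunctionFieldFull, IntermediateField.adjoin_le_iff]
    rintro y ⟨d', hne, hdvd, rfl⟩
    have := hne
    by_cases hd : ℓ ∣ d'
    · obtain ⟨d, rfl⟩ := hd
      have hdM : d ∣ M := by
        rw [mul_comm M ℓ] at hdvd
        exact (Nat.mul_dvd_mul_iff_left hℓ.pos).mp hdvd
      have hd0 : NeZero d := ⟨fun h0 => NeZero.ne (ℓ * d) (by rw [h0, mul_zero])⟩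
      have h3 := hg1 (Sum.inl ⟨d, hdM⟩)
      have h4 : qExpand ℚ ℓ (genQ M (Sum.inl ⟨d, hdM⟩)) = qExpand ℚ (ℓ * d) jq := by
        show qExpand ℚ ℓ (qExpand ℚ d jq) = qExpand ℚ (ℓ * d) jq
        rw [qExpand_qExpand]
      rw [h4] at h3
      exact h3
    · have hdM : d' ∣ M :=
        Nat.Coprime.dvd_of_dvd_mul_right ((Nat.Prime.coprime_iff_not_dvd hℓ).mpr hd).symm hdvd
      exact hg0 (Sum.inl ⟨d', hdM⟩)
  exact (sup_le h1 h2 : F1a M ℓ ≤ T') hx

variable {K}

/-- **The conjugate embeddings on `K·F1a(M, ℓ)`**, on the generators: for `ℓ` prime, `ℓ ∤ M`,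
`e` the class of `ℓ` in `(ℤ/M)ˣ` and an `ℓ`-th root of unity `w`, a `K`-embedding
`τ : K·F1a(M, ℓ) → K((t))` with `τ g = g(t^ℓ)` and `τ (g(q^ℓ)) = (e · g)(w t)` for the generators
`g = j(q^d), x_u` of `F1 M` (`e · j(q^d) = j(q^d)`, `e · x_u = x_{u e}`). -/
theorem exists_conj_F1a (ι : K →+* ℂ) (hℓ : ℓ.Prime) (hℓM : ¬ ℓ ∣ M) (e : (ZMod M)ˣ)
    (he : (e : ZMod M) = (ℓ : ZMod M)) (w : Kˣ) (hw : w ^ ℓ = 1) :
    ∃ τ : ↥(laurentBaseChange K (F1a M ℓ)) →ₐ[K] LaurentSeries K,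
      (∀ (g : Gv M) (x : ↥(laurentBaseChange K (F1a M ℓ))),
        (x : LaurentSeries K) = coeffEmb K (genQ M g) →
          τ x = qExpand K ℓ (coeffEmb K (genQ M g))) ∧
      (∀ (g : Gv M) (x : ↥(laurentBaseChange K (F1a M ℓ))),
        (x : LaurentSeries K) = qExpand K ℓ (coeffEmb K (genQ M g)) →
          τ x = rot w (coeffEmb K (genQ M (gvMul M e g)))) := by
  have hcop : Nat.Coprime ℓ M := (Nat.Prime.coprime_iff_not_dvd hℓ).mpr hℓM
  have heu : ZMod.unitOfCoprime ℓ hcop = e := by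
    apply Units.ext
    rw [ZMod.coe_unitOfCoprime, he]
  obtain ⟨τ₁, hτ₁⟩ := exists_conj (K := K) (famG M) ι ℓ hcop w hw
  refine ⟨τ₁.comp (IntermediateField.inclusion (F1aK_le_adjoin K M ℓ hℓ)), ?_, ?_⟩
  · intro g x hx
    have h := hτ₁ (Sum.inl g)
    have e1 : IntermediateField.inclusion (F1aK_le_adjoin K M ℓ hℓ) x =
        ⟨gens K ℓ (genQ M) (Sum.inl g), IntermediateField.subset_adjoin K _ ⟨Sum.inl g, rfl⟩⟩ :=
      Subtype.ext hx
    rw [AlgHom.comp_apply, e1, h]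
    rfl
  · intro g x hx
    have h := hτ₁ (Sum.inr g)
    have e1 : IntermediateField.inclusion (F1aK_le_adjoin K M ℓ hℓ) x =
        ⟨gens K ℓ (genQ M) (Sum.inr g), IntermediateField.subset_adjoin K _ ⟨Sum.inr g, rfl⟩⟩ := by
      apply Subtype.ext
      show (x : LaurentSeries K) = coeffEmb K (qExpand ℚ ℓ (genQ M g))
      rw [hx, coeffEmb_qExpand]
    rw [AlgHom.comp_apply, e1, h, heu]
    rfl

variable (K)

/-- Ring homomorphisms out of `K·F1(M)` into a field are determined by their values on the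
constants and on the generators. -/
theorem ringHom_ext_F1K {R : Type*} [Field R] (φ ψ : F1K K M →+* R)
    (hc : ∀ c : K, φ (algebraMap K (F1K K M) c) = ψ (algebraMap K (F1K K M) c))
    (hg : ∀ g : Gv M, φ (genK K M g) = ψ (genK K M g)) : φ = ψ := by
  have key : ∀ P : MvPolynomial (Gv M) K, φ (fm1 K M P) = ψ (fm1 K M P) := by
    intro P
    induction P using MvPolynomial.induction_on with
    | C c => rw [fm1_C]; exact hc c
    | add p q hp hq =>
      have h1 : fm1 K M (p + q) = fm1 K M p + fm1 K M q := map_add (fm1 K M) p q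
      rw [h1, map_add, map_add, hp, hq]
    | mul_X p i hp =>
      have h1 : fm1 K M (p * MvPolynomial.X i) = fm1 K M p * genK K M i := by
        rw [← fm1_X]
        exact map_mul (fm1 K M) p (MvPolynomial.X i)
      rw [h1, map_mul, map_mul, hp, hg]
  ext f
  obtain ⟨P, Q, -, rfl⟩ := exists_isRep1 K M f
  rw [map_div₀, map_div₀, key P, key Q]

variable {K}

/-- **(C3) `hconj`** for `F = K·F1(M)`, `F' = K·F1a(M, ℓ)`: `α x = x`, `β x = x(q^ℓ)`, `δ` a ring
endomorphism of `F` fixing the constants, with `δ g = e · g` on the generators (on the underlying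
series).  For every `ℓ`-th root of unity `w` there is `τ : F' →+* K((t))` with
`τ (α x) = x(t^ℓ)` and `τ (β x) = (δ x)(w t)`. -/
theorem hconj0 (ι : K →+* ℂ) (hℓ : ℓ.Prime) (hℓM : ¬ ℓ ∣ M) (e : (ZMod M)ˣ)
    (he : (e : ZMod M) = (ℓ : ZMod M))
    {A B D : Type*} [FunLike A (F1K K M) ↥(laurentBaseChange K (F1a M ℓ))]
    [RingHomClass A (F1K K M) ↥(laurentBaseChange K (F1a M ℓ))]
    [FunLike B (F1K K M) ↥(laurentBaseChange K (F1a M ℓ))]
    [RingHomClass B (F1K K M) ↥(laurentBaseChange K (F1a M ℓ))]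
    [FunLike D (F1K K M) (F1K K M)] [RingHomClass D (F1K K M) (F1K K M)]
    (α : A) (β : B) (δ : D)
    (hα : ∀ x : F1K K M, ((α x : ↥(laurentBaseChange K (F1a M ℓ))) : LaurentSeries K) = x)
    (hβ : ∀ x : F1K K M, ((β x : ↥(laurentBaseChange K (F1a M ℓ))) : LaurentSeries K) =
      qExpand K ℓ (x : LaurentSeries K))
    (hδc : ∀ c : K, δ (algebraMap K (F1K K M) c) = algebraMap K (F1K K M) c)
    (hδg : ∀ (g : Gv M) (x : F1K K M), (x : LaurentSeries K) = coeffEmb K (genQ M g) →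
      ((δ x : F1K K M) : LaurentSeries K) = coeffEmb K (genQ M (gvMul M e g)))
    (w : Kˣ) (hw : w ^ ℓ = 1) :
    ∃ τ : ↥(laurentBaseChange K (F1a M ℓ)) →+* LaurentSeries K,
      (∀ x : F1K K M, τ (α x) = qExpand K ℓ (x : LaurentSeries K)) ∧
      (∀ x : F1K K M, τ (β x) = rot w ((δ x : F1K K M) : LaurentSeries K)) := by
  obtain ⟨τ, hτ0, hτ1⟩ := exists_conj_F1a M ℓ ι hℓ hℓM e he w hw
  have hconst : ∀ c : K, qExpand K ℓ (algebraMap K (LaurentSeries K) c) =
      algebraMap K (LaurentSeries K) c := fun c => by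
    rw [algebraMap_laurentSeries_eq_single, qExpand_single, mul_zero]
  have hrotc : ∀ c : K, rot w (algebraMap K (LaurentSeries K) c) =
      algebraMap K (LaurentSeries K) c := fun c => by
    rw [algebraMap_laurentSeries_eq_single]
    exact rot_C w c
  have hαc : ∀ c : K, α (algebraMap K (F1K K M) c) =
      algebraMap K (↥(laurentBaseChange K (F1a M ℓ))) c := fun c => by
    apply Subtype.ext
    rw [hα, IntermediateField.coe_algebraMap_apply, IntermediateField.coe_algebraMap_apply]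
  have hβc : ∀ c : K, β (algebraMap K (F1K K M) c) =
      algebraMap K (↥(laurentBaseChange K (F1a M ℓ))) c := fun c => by
    apply Subtype.ext
    rw [hβ, IntermediateField.coe_algebraMap_apply, IntermediateField.coe_algebraMap_apply,
      hconst]
  obtain ⟨φ1, hφ1⟩ : ∃ φ1 : F1K K M →+* LaurentSeries K, ∀ y, φ1 y = τ (α y) :=
    ⟨(τ.toRingHom).comp (RingHomClass.toRingHom α), fun _ => rfl⟩
  obtain ⟨ψ1, hψ1⟩ : ∃ ψ1 : F1K K M →+* LaurentSeries K,
      ∀ y, ψ1 y = qExpand K ℓ (y : LaurentSeries K) :=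
    ⟨(qExpand K ℓ).comp (laurentBaseChange K (F1 M)).val.toRingHom, fun _ => rfl⟩
  obtain ⟨φ2, hφ2⟩ : ∃ φ2 : F1K K M →+* LaurentSeries K, ∀ y, φ2 y = τ (β y) :=
    ⟨(τ.toRingHom).comp (RingHomClass.toRingHom β), fun _ => rfl⟩
  obtain ⟨ψ2, hψ2⟩ : ∃ ψ2 : F1K K M →+* LaurentSeries K,
      ∀ y, ψ2 y = rot w ((δ y : F1K K M) : LaurentSeries K) :=
    ⟨(rot w).comp ((laurentBaseChange K (F1 M)).val.toRingHom.comp (RingHomClass.toRingHom δ)),
      fun _ => rfl⟩
  have h1 : φ1 = ψ1 := by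
    refine ringHom_ext_F1K K M φ1 ψ1 (fun c => ?_) (fun g => ?_)
    · rw [hφ1, hψ1, hαc, AlgHom.commutes, IntermediateField.coe_algebraMap_apply, hconst]
    · rw [hφ1, hψ1]
      exact hτ0 g _ (hα _)
  have h2 : φ2 = ψ2 := by
    refine ringHom_ext_F1K K M φ2 ψ2 (fun c => ?_) (fun g => ?_)
    · rw [hφ2, hψ2, hβc, AlgHom.commutes, hδc, IntermediateField.coe_algebraMap_apply, hrotc]
    · rw [hφ2, hψ2, hδg g (genK K M g) rfl]
      exact hτ1 g _ (hβ _)
  refine ⟨τ.toRingHom, fun x => ?_, fun x => ?_⟩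
  · have h := congrArg (fun φ => φ x) h1
    simp only [hφ1, hψ1] at h
    exact h
  · have h := congrArg (fun φ => φ x) h2
    simp only [hφ2, hψ2] at h
    exact h

/-- **(C3) `hconj`, general form**: the same for any subfields `F`, `F'` of `K((q))` with
`F = K·F1(M)` and `F' = K·F1a(M, ℓ)` (e.g. `F = K·F1a(M, 1)`, by `F1a_one`). -/
theorem hconj (ι : K →+* ℂ) (hℓ : ℓ.Prime) (hℓM : ¬ ℓ ∣ M) (e : (ZMod M)ˣ)
    (he : (e : ZMod M) = (ℓ : ZMod M))
    {F F' : IntermediateField K (LaurentSeries K)} (hF : F = laurentBaseChange K (F1 M))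
    (hF' : F' = laurentBaseChange K (F1a M ℓ))
    {A B D : Type*} [FunLike A F F'] [RingHomClass A F F'] [FunLike B F F'] [RingHomClass B F F']
    [FunLike D F F] [RingHomClass D F F] (α : A) (β : B) (δ : D)
    (hα : ∀ x : F, ((α x : F') : LaurentSeries K) = x)
    (hβ : ∀ x : F, ((β x : F') : LaurentSeries K) = qExpand K ℓ (x : LaurentSeries K))
    (hδc : ∀ c : K, δ (algebraMap K F c) = algebraMap K F c)
    (hδg : ∀ (g : Gv M) (x : F), (x : LaurentSeries K) = coeffEmb K (genQ M g) →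
      ((δ x : F) : LaurentSeries K) = coeffEmb K (genQ M (gvMul M e g)))
    (w : Kˣ) (hw : w ^ ℓ = 1) :
    ∃ τ : F' →+* LaurentSeries K,
      (∀ x : F, τ (α x) = qExpand K ℓ (x : LaurentSeries K)) ∧
      (∀ x : F, τ (β x) = rot w ((δ x : F) : LaurentSeries K)) := by
  subst hF hF'
  exact hconj0 M ℓ ι hℓ hℓM e he α β δ hα hβ hδc hδg w hw

/-- **(C3) `hconj` on `K·F1(M)`**, `δ` given on helper66's generators `genK K M`
(`δ (genK g) = genK (gvMul M e g)`, i.e. `δ j(q^d) = j(q^d)`, `δ x_u = x_{u e}`). -/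
theorem hconj_F1K (ι : K →+* ℂ) (hℓ : ℓ.Prime) (hℓM : ¬ ℓ ∣ M) (e : (ZMod M)ˣ)
    (he : (e : ZMod M) = (ℓ : ZMod M))
    {A B D : Type*} [FunLike A (F1K K M) ↥(laurentBaseChange K (F1a M ℓ))]
    [RingHomClass A (F1K K M) ↥(laurentBaseChange K (F1a M ℓ))]
    [FunLike B (F1K K M) ↥(laurentBaseChange K (F1a M ℓ))]
    [RingHomClass B (F1K K M) ↥(laurentBaseChange K (F1a M ℓ))]
    [FunLike D (F1K K M) (F1K K M)] [RingHomClass D (F1K K M) (F1K K M)]
    (α : A) (β : B) (δ : D)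
    (hα : ∀ x : F1K K M, ((α x : ↥(laurentBaseChange K (F1a M ℓ))) : LaurentSeries K) = x)
    (hβ : ∀ x : F1K K M, ((β x : ↥(laurentBaseChange K (F1a M ℓ))) : LaurentSeries K) =
      qExpand K ℓ (x : LaurentSeries K))
    (hδc : ∀ c : K, δ (algebraMap K (F1K K M) c) = algebraMap K (F1K K M) c)
    (hδg : ∀ g : Gv M, δ (genK K M g) = genK K M (gvMul M e g))
    (w : Kˣ) (hw : w ^ ℓ = 1) :
    ∃ τ : ↥(laurentBaseChange K (F1a M ℓ)) →+* LaurentSeries K,
      (∀ x : F1K K M, τ (α x) = qExpand K ℓ (x : LaurentSeries K)) ∧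
      (∀ x : F1K K M, τ (β x) = rot w ((δ x : F1K K M) : LaurentSeries K)) := by
  refine hconj0 M ℓ ι hℓ hℓM e he α β δ hα hβ hδc (fun g x hx => ?_) w hw
  have e1 : x = genK K M g := Subtype.ext hx
  rw [e1, hδg]
  rfl

/-- **(C3) `hconj` on `K·F1a(M, 1)`** (the model field of ruling #5), `δ` given on helper9's
generators `gen1K K M 1` (`δ j(q^d) = j(q^d)`, `δ x_u = x_{u e}`). -/
theorem hconj_F1aK (ι : K →+* ℂ) (hℓ : ℓ.Prime) (hℓM : ¬ ℓ ∣ M) (e : (ZMod M)ˣ)
    (he : (e : ZMod M) = (ℓ : ZMod M))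
    {A B D : Type*} [FunLike A (Dict.F1aK K M 1) (Dict.F1aK K M ℓ)]
    [RingHomClass A (Dict.F1aK K M 1) (Dict.F1aK K M ℓ)]
    [FunLike B (Dict.F1aK K M 1) (Dict.F1aK K M ℓ)]
    [RingHomClass B (Dict.F1aK K M 1) (Dict.F1aK K M ℓ)]
    [FunLike D (Dict.F1aK K M 1) (Dict.F1aK K M 1)]
    [RingHomClass D (Dict.F1aK K M 1) (Dict.F1aK K M 1)]
    (α : A) (β : B) (δ : D)
    (hα : ∀ x : Dict.F1aK K M 1, ((α x : Dict.F1aK K M ℓ) : LaurentSeries K) = x)
    (hβ : ∀ x : Dict.F1aK K M 1, ((β x : Dict.F1aK K M ℓ) : LaurentSeries K) =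
      qExpand K ℓ (x : LaurentSeries K))
    (hδc : ∀ c : K, δ (algebraMap K (Dict.F1aK K M 1) c) = algebraMap K (Dict.F1aK K M 1) c)
    (hδj : ∀ d : Dv (M * 1), δ (Dict.gen1K K M 1 (Sum.inl d)) = Dict.gen1K K M 1 (Sum.inl d))
    (hδx : ∀ u : (ZMod M)ˣ,
      δ (Dict.gen1K K M 1 (Sum.inr u)) = Dict.gen1K K M 1 (Sum.inr (u * e)))
    (w : Kˣ) (hw : w ^ ℓ = 1) :
    ∃ τ : Dict.F1aK K M ℓ →+* LaurentSeries K,
      (∀ x : Dict.F1aK K M 1, τ (α x) = qExpand K ℓ (x : LaurentSeries K)) ∧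
      (∀ x : Dict.F1aK K M 1, τ (β x) = rot w ((δ x : Dict.F1aK K M 1) : LaurentSeries K)) := by
  refine hconj M ℓ ι hℓ hℓM e he (congrArg (laurentBaseChange K) (F1a_one M)) rfl α β δ hα hβ hδc
    (fun g x hx => ?_) w hw
  rcases g with d | u
  · have e1 : x = Dict.gen1K K M 1 (Sum.inl ⟨d.1, by rw [mul_one]; exact d.2⟩) := Subtype.ext hx
    rw [e1, hδj]
    rfl
  · have e1 : x = Dict.gen1K K M 1 (Sum.inr u) := Subtype.ext hx
    rw [e1, hδx]
    rfl
end Main

end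

end Fermat.Agent.G1.ConjF1
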