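/-
G1 / CONG (L4): `hconj` at the model field `F1a M 1`, in the literal shape of the CONG board:
`α = GaloisOps.inclBar`, `β = GaloisOps.vBar`, `δ = Gal.diaK ι M 1 c` with `c · p = 1` in
`(ℤ/M)ˣ` (so `δ x_u = x_{u c⁻¹} = x_{u p}`).

For every `p`-th root of unity `w` there is a ring homomorphism
`τ : K·F1a(M, p) → K((t))` with `τ (α x) = x(t^p)` and `τ (β x) = (δ x)(w t)`.
-/
import Mathlib
import Fermat.Agent.G1.ConjF1
import Fermat.Agent.G1.GalBridge
import Fermat.Agent.G1.GaloisOps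

set_option autoImplicit false

namespace Fermat.Agent.G1.ConjF1

open ModularCurve Fermat.Agent.S24 Fermat.Agent.S28.Chain

noncomputable section

/-- **(L4) `hconj` at the model field `F1a M 1`**, any coefficient field `K` with `ι : K →+* ℂ`:
for a prime `p ∤ M`, `c ∈ (ℤ/M)ˣ` with `c · p = 1`, and a `p`-th root of unity `w`, a ring
homomorphism `τ : K·F1a(M, p) → K((t))` with `τ (α x) = x(t^p)` and `τ (V_p x) = (δ_c x)(w t)`,
`δ_c = Gal.diaK ι M 1 c`. -/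
theorem hconj1K {K : Type} [Field K] [Algebra ℚ K] (ι : K →+* ℂ) (M p : ℕ) [NeZero M] [NeZero p]
    (hp : p.Prime) (hpM : ¬ p ∣ M) (hle : F1a M 1 ≤ F1a M p)
    (hV : ∀ y ∈ F1a M 1, qExpand ℚ p y ∈ F1a M p) (c : (ZMod M)ˣ)
    (hc : (c : ZMod M) * (p : ZMod M) = 1) (w : Kˣ) (hw : w ^ p = 1) :
    ∃ τ : ↥(laurentBaseChange K (F1a M p)) →+* LaurentSeries K,
      (∀ x : Dict.F1aK K M 1,
        τ (GaloisOps.inclBar K hle x) = qExpand K p (x : LaurentSeries K)) ∧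
      (∀ x : Dict.F1aK K M 1,
        τ (GaloisOps.vBar K p hV x) =
          rot w ((Gal.diaK ι M 1 c x : Dict.F1aK K M 1) : LaurentSeries K)) := by
  have he : ((c⁻¹ : (ZMod M)ˣ) : ZMod M) = (p : ZMod M) := Units.inv_eq_of_mul_eq_one_right hc
  exact hconj_F1aK M p ι hp hpM c⁻¹ he (GaloisOps.inclBar K hle) (GaloisOps.vBar K p hV)
    (Gal.diaK ι M 1 c) (fun x => GaloisOps.coe_inclBar K hle x)
    (fun x => GaloisOps.coe_vBar K p hV x) (fun a => (Gal.diaK ι M 1 c).commutes a)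
    (fun d => Gal.diaK_gen_inl ι M 1 c d) (fun u => Gal.diaK_gen_inr ι M 1 c u) w hw

/-- **(L4) `hconj1`**, the literal target of the CONG board (`K = ℚ̄`, `ι = iotaK`). -/
theorem hconj1 (M p : ℕ) [NeZero M] [NeZero p] (hp : p.Prime) (hpM : ¬ p ∣ M)
    (hle : F1a M 1 ≤ F1a M p) (hV : ∀ y ∈ F1a M 1, qExpand ℚ p y ∈ F1a M p) (c : (ZMod M)ˣ)
    (hc : (c : ZMod M) * (p : ZMod M) = 1) (w : (AlgebraicClosure ℚ)ˣ) (hw : w ^ p = 1) :
    ∃ τ : ↥(laurentBaseChange (AlgebraicClosure ℚ) (F1a M p)) →+*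
        LaurentSeries (AlgebraicClosure ℚ),
      (∀ x : Dict.F1aK (AlgebraicClosure ℚ) M 1,
        τ (GaloisOps.inclBar (AlgebraicClosure ℚ) hle x) =
          qExpand (AlgebraicClosure ℚ) p (x : LaurentSeries (AlgebraicClosure ℚ))) ∧
      (∀ x : Dict.F1aK (AlgebraicClosure ℚ) M 1,
        τ (GaloisOps.vBar (AlgebraicClosure ℚ) p hV x) =
          rot w ((Gal.diaK iotaK M 1 c x : Dict.F1aK (AlgebraicClosure ℚ) M 1) :
            LaurentSeries (AlgebraicClosure ℚ))) :=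
  hconj1K iotaK M p hp hpM hle hV c hc w hw

/-- `coeffEmb K j = j` (the `q`-expansion of `j` with coefficients in `K`). -/
theorem coeffEmb_jq (K : Type*) [Field K] [Algebra ℚ K] : coeffEmb K jq = jqModC K :=
  map_jqModC (algebraMap ℚ K)

/-- **The `x₀` datum of the norm formula**: `j ∈ K·F1a(M, 1)` is fixed by every diamond. -/
theorem exists_x0 {K : Type} [Field K] [Algebra ℚ K] (ι : K →+* ℂ) (M : ℕ) [NeZero M]
    (c : (ZMod M)ˣ) :
    ∃ x₀ : Dict.F1aK K M 1,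
      ((Gal.diaK ι M 1 c x₀ : Dict.F1aK K M 1) : LaurentSeries K) = jqModC K := by
  refine ⟨Dict.gen1K K M 1 (Sum.inl ⟨1, one_dvd _⟩), ?_⟩
  rw [Gal.diaK_gen_inl]
  show coeffEmb K (qExpand ℚ 1 jq) = jqModC K
  rw [qExpand_one_apply]
  exact coeffEmb_jq K

end

end Fermat.Agent.G1.ConjF1
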