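import Mathlib
import Fermat.Agent.ESJ.Cong.Comm
import Fermat.Agent.ESJ.Jac.HeckeKummer
import Fermat.Agent.ESJ.Jac.FiniteLevelCore

/-!
# G1: Galois-equivariance of Hecke and diamond operators on `Pic0`, generic form

Everything is stated for arbitrary `F₀ F₁ : IntermediateField ℚ (LaurentSeries ℚ)` (fields of
`q`-series with rational coefficients), `L·F₀ = laurentBaseChange L F₀`, with the coefficientwise
Galois action `ModularCurve.arithmeticGalois F₀` of the Prelude.

* `inclBar L h`, `vBar L n hV` : the two degeneracy maps `L·F₀ → L·F₁` (`α` = inclusion for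
  `F₀ ≤ F₁`, `β = V_n : q ↦ q ^ n` when `V_n F₀ ⊆ F₁`); for the modular function fields they are
  the Prelude's `heckeAlphaBar`, `heckeBetaBar`;
* `intertwines_inclBar`, `intertwines_vBar` : both intertwine the Galois actions;
* `comm_correspondence_galois` : any correspondence `ψ_* φ^*` with intertwining `φ, ψ` commutes
  with `G_ℚ` on `Pic0`;
* `heckeGen L F₀ F₁ n` : the total Hecke operator `α_* β^*` on `Pic0 L (L·F₀)` (zero when the
  function-field inputs fail), `comm_heckeGen` (Galois-equivariance, unconditional),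
  `isKummerPair_heckeGen` (Kummer transfer `Nm_α ∘ β`), `heckeGen_mem_torsion`;
* `autOp δ` : the operator `x ↦ δ • x` on `Pic0 K F` of a `K`-automorphism `δ` of `F`
  (diamond operators), `isKummerPair_autOp` (`kummer_D`), `autOp_mem_torsion`,
  `ofAlgAut_smul_pic0` (the action through `SemilinearAut.ofAlgAut` is the same),
  `comm_autOp` (Galois-equivariance if `δ` commutes with the coefficientwise action);
* `galois_comm_of_gens` : an `L`-algebra endomorphism of `L·F₀` which maps rational generators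
  to series with rational coefficients commutes with the coefficientwise Galois action;
* `finiteLevel_torsion` : (J2) the Galois action on a finite `J[n]` has finite level;
  `galois_smul_mem_torsion`.
-/

set_option autoImplicit false

noncomputable section

namespace Fermat.Agent.G1.GaloisOps

open AlgebraicCurve ModularCurve HahnSeries
open Fermat.Agent.ESJ.Jac Fermat.Agent.ESJ.Cong

/-! ### The two degeneracy maps between base changes -/

section Maps

variable (L : Type*) [Field L] [Algebra ℚ L]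
variable {F₀ F₁ : IntermediateField ℚ (LaurentSeries ℚ)}

theorem laurentBaseChange_mono (h : F₀ ≤ F₁) :
    laurentBaseChange L F₀ ≤ laurentBaseChange L F₁ := by
  rw [laurentBaseChange, IntermediateField.adjoin_le_iff]
  rintro _ ⟨y, hy, rfl⟩
  exact coeffEmb_mem_laurentBaseChange L (h hy)

theorem coeffEmb_qExpand (n : ℕ) [NeZero n] (x : LaurentSeries ℚ) :
    coeffEmb L (qExpand ℚ n x) = qExpand L n (coeffEmb L x) :=
  coeffMap_qExpand _ n x

variable {L} in
theorem qExpand_mem_laurentBaseChange (n : ℕ) [NeZero n]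
    (hF : ∀ y ∈ F₀, qExpand ℚ n y ∈ F₁) {x : LaurentSeries L}
    (hx : x ∈ laurentBaseChange L F₀) : qExpand L n x ∈ laurentBaseChange L F₁ := by
  rw [mem_laurentBaseChange_iff] at hx
  induction hx using Subfield.closure_induction with
  | mem y hy =>
      rcases hy with ⟨a, rfl⟩ | ⟨z, hz, rfl⟩
      · rw [algebraMap_laurentSeries_eq_single, qExpand_single, mul_zero,
          ← algebraMap_laurentSeries_eq_single]
        exact (laurentBaseChange L F₁).algebraMap_mem _
      · rw [← coeffEmb_qExpand]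
        exact coeffEmb_mem_laurentBaseChange L (hF z hz)
  | one => simp
  | add x y _ _ hx hy => simpa using add_mem hx hy
  | neg x _ hx => simpa using neg_mem hx
  | inv x _ hx => simpa using inv_mem hx
  | mul x y _ _ hx hy => simpa using mul_mem hx hy

/-- `α`: the inclusion `L·F₀ → L·F₁` for `F₀ ≤ F₁`. -/
def inclBar (h : F₀ ≤ F₁) : laurentBaseChange L F₀ →ₐ[L] laurentBaseChange L F₁ :=
  IntermediateField.inclusion (laurentBaseChange_mono L h)

@[simp]
theorem coe_inclBar (h : F₀ ≤ F₁) (x : laurentBaseChange L F₀) :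
    (inclBar L h x : LaurentSeries L) = (x : LaurentSeries L) :=
  IntermediateField.coe_inclusion _ x

/-- `β = V_n : q ↦ q ^ n`, as a map `L·F₀ → L·F₁`, when `V_n F₀ ⊆ F₁`. -/
def vBar (n : ℕ) [NeZero n] (hV : ∀ y ∈ F₀, qExpand ℚ n y ∈ F₁) :
    laurentBaseChange L F₀ →ₐ[L] laurentBaseChange L F₁ where
  toFun x := ⟨qExpand L n (x : LaurentSeries L), qExpand_mem_laurentBaseChange n hV x.2⟩
  map_one' := Subtype.ext (map_one (qExpand L n))
  map_mul' _ _ := Subtype.ext (map_mul (qExpand L n) _ _)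
  map_zero' := Subtype.ext (map_zero (qExpand L n))
  map_add' _ _ := Subtype.ext (map_add (qExpand L n) _ _)
  commutes' a := Subtype.ext <| by
    show qExpand L n (algebraMap L (LaurentSeries L) a) = algebraMap L (LaurentSeries L) a
    rw [algebraMap_laurentSeries_eq_single, qExpand_single, mul_zero]

@[simp]
theorem coe_vBar (n : ℕ) [NeZero n] (hV : ∀ y ∈ F₀, qExpand ℚ n y ∈ F₁)
    (x : laurentBaseChange L F₀) :
    (vBar L n hV x : LaurentSeries L) = qExpand L n (x : LaurentSeries L) :=
  rfl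

/-- For the modular function fields, `inclBar` is the Prelude's `heckeAlphaBar`. -/
theorem heckeAlphaBar_eq_inclBar (N ℓ : ℕ) [NeZero N] [NeZero ℓ] :
    heckeAlphaBar L N ℓ = inclBar L (full_degeneracy_le (dvd_mul_right N ℓ)) :=
  rfl

/-- For the modular function fields, `vBar` is the Prelude's `heckeBetaBar`. -/
theorem heckeBetaBar_eq_vBar (N ℓ : ℕ) [NeZero N] [NeZero ℓ] :
    heckeBetaBar L N ℓ =
      vBar L ℓ (fun y hy => full_degeneracy_map_le (N := N) ℓ ⟨y, hy, rfl⟩) :=
  AlgHom.ext fun _ => Subtype.ext rfl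

variable {L}

/-- `α` intertwines the coefficientwise Galois actions. -/
theorem intertwines_inclBar (h : F₀ ≤ F₁) (σ : L ≃ₐ[ℚ] L) :
    SemilinearAut.IntertwinesAlong
      ((inclBar L h : laurentBaseChange L F₀ →ₐ[L] laurentBaseChange L F₁) :
        laurentBaseChange L F₀ →+* laurentBaseChange L F₁)
      (arithmeticGalois F₀ σ) (arithmeticGalois F₁ σ) := by
  intro x
  apply Subtype.ext
  rw [coe_arithmeticGalois_smul]
  show coeffMap (σ : L →+* L) ((inclBar L h x : laurentBaseChange L F₁) : LaurentSeries L)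
    = ((inclBar L h (arithmeticGalois F₀ σ • x) : laurentBaseChange L F₁) : LaurentSeries L)
  rw [coe_inclBar, coe_inclBar, coe_arithmeticGalois_smul]

/-- `β = V_n` intertwines the coefficientwise Galois actions. -/
theorem intertwines_vBar (n : ℕ) [NeZero n] (hV : ∀ y ∈ F₀, qExpand ℚ n y ∈ F₁)
    (σ : L ≃ₐ[ℚ] L) :
    SemilinearAut.IntertwinesAlong
      ((vBar L n hV : laurentBaseChange L F₀ →ₐ[L] laurentBaseChange L F₁) :
        laurentBaseChange L F₀ →+* laurentBaseChange L F₁)
      (arithmeticGalois F₀ σ) (arithmeticGalois F₁ σ) := by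
  intro x
  apply Subtype.ext
  rw [coe_arithmeticGalois_smul]
  show coeffMap (σ : L →+* L) ((vBar L n hV x : laurentBaseChange L F₁) : LaurentSeries L)
    = ((vBar L n hV (arithmeticGalois F₀ σ • x) : laurentBaseChange L F₁) : LaurentSeries L)
  rw [coe_vBar, coe_vBar, coe_arithmeticGalois_smul, ModularCurve.coeffMap_qExpand]

/-- **A correspondence `ψ_* φ^*` between base changes commutes with the Galois action on
`Pic0`** as soon as `φ` and `ψ` intertwine the coefficientwise actions. -/
theorem comm_correspondence_galois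
    [HasPrincipalDivisors L (laurentBaseChange L F₁)]
    (φ ψ : laurentBaseChange L F₀ →ₐ[L] laurentBaseChange L F₁)
    (hφ : φ.toRingHom.IsIntegral) (hψ : ψ.toRingHom.IsIntegral)
    (hFI : FundamentalIdentityAlong L φ hφ) (hfin : FiniteAlong L ψ)
    (hN : NormFormulaAlong L ψ hfin) (σ : L ≃ₐ[ℚ] L)
    (h₁ : SemilinearAut.IntertwinesAlong
      (φ : laurentBaseChange L F₀ →+* laurentBaseChange L F₁)
      (arithmeticGalois F₀ σ) (arithmeticGalois F₁ σ))
    (h₂ : SemilinearAut.IntertwinesAlong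
      (ψ : laurentBaseChange L F₀ →+* laurentBaseChange L F₁)
      (arithmeticGalois F₀ σ) (arithmeticGalois F₁ σ))
    (x : Pic0 L (laurentBaseChange L F₀)) :
    Pic0.correspondence φ ψ hφ hψ hFI hfin hN (σ • x) =
      σ • Pic0.correspondence φ ψ hφ hψ hFI hfin hN x := by
  rw [galois_smul_pic0_def, galois_smul_pic0_def]
  exact comm_pic0_correspondence φ ψ hφ hψ hFI hfin hN h₁ h₂ x

end Maps

/-! ### The total Hecke operator `α_* β^*` along `(F₀, F₁, n)` -/

section HeckeGen

variable (L : Type*) [Field L] [Algebra ℚ L]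
variable (F₀ F₁ : IntermediateField ℚ (LaurentSeries ℚ)) (n : ℕ) [NeZero n]

/-- The function-field inputs for the Hecke correspondence `α_* β^*`, `α` the inclusion
`L·F₀ → L·F₁`, `β = V_n`. -/
def HeckeInputsGen : Prop :=
  ∃ (hle : F₀ ≤ F₁) (hV : ∀ y ∈ F₀, qExpand ℚ n y ∈ F₁)
    (_ : (inclBar L hle).toRingHom.IsIntegral) (hβ : (vBar L n hV).toRingHom.IsIntegral)
    (_ : HasPrincipalDivisors L (laurentBaseChange L F₁))
    (hfin : FiniteAlong L (inclBar L hle)),
    FundamentalIdentityAlong L (vBar L n hV) hβ ∧ NormFormulaAlong L (inclBar L hle) hfin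

open Classical in
/-- **The Hecke operator `α_* β^*`** on `Pic0 L (L·F₀)` along `(F₀, F₁, n)`; zero if the
function-field inputs fail. -/
def heckeGen : Pic0 L (laurentBaseChange L F₀) →+ Pic0 L (laurentBaseChange L F₀) :=
  if h : HeckeInputsGen L F₀ F₁ n then
    haveI := h.snd.snd.snd.snd.fst
    Pic0.correspondence (vBar L n h.snd.fst) (inclBar L h.fst) h.snd.snd.snd.fst h.snd.snd.fst
      h.snd.snd.snd.snd.snd.snd.1 h.snd.snd.snd.snd.snd.fst h.snd.snd.snd.snd.snd.snd.2
  else 0

variable {L F₀ F₁ n}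

theorem heckeInputsGen_intro (hle : F₀ ≤ F₁) (hV : ∀ y ∈ F₀, qExpand ℚ n y ∈ F₁)
    (hα : (inclBar L hle).toRingHom.IsIntegral) (hβ : (vBar L n hV).toRingHom.IsIntegral)
    [hP : HasPrincipalDivisors L (laurentBaseChange L F₁)]
    (hFI : FundamentalIdentityAlong L (vBar L n hV) hβ)
    (hfin : FiniteAlong L (inclBar L hle))
    (hN : NormFormulaAlong L (inclBar L hle) hfin) : HeckeInputsGen L F₀ F₁ n :=
  ⟨hle, hV, hα, hβ, hP, hfin, hFI, hN⟩

theorem heckeGen_eq (hle : F₀ ≤ F₁) (hV : ∀ y ∈ F₀, qExpand ℚ n y ∈ F₁)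
    (hα : (inclBar L hle).toRingHom.IsIntegral) (hβ : (vBar L n hV).toRingHom.IsIntegral)
    [HasPrincipalDivisors L (laurentBaseChange L F₁)]
    (hFI : FundamentalIdentityAlong L (vBar L n hV) hβ)
    (hfin : FiniteAlong L (inclBar L hle))
    (hN : NormFormulaAlong L (inclBar L hle) hfin) :
    heckeGen L F₀ F₁ n =
      Pic0.correspondence (vBar L n hV) (inclBar L hle) hβ hα hFI hfin hN := by
  have h : HeckeInputsGen L F₀ F₁ n := heckeInputsGen_intro hle hV hα hβ hFI hfin hN
  rw [heckeGen, dif_pos h]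

theorem heckeGen_of_not (h : ¬ HeckeInputsGen L F₀ F₁ n) : heckeGen L F₀ F₁ n = 0 := by
  rw [heckeGen, dif_neg h]

/-- **The Hecke operator commutes with the Galois action** (unconditionally). -/
theorem comm_heckeGen (σ : L ≃ₐ[ℚ] L) (x : Pic0 L (laurentBaseChange L F₀)) :
    heckeGen L F₀ F₁ n (σ • x) = σ • heckeGen L F₀ F₁ n x := by
  by_cases h : HeckeInputsGen L F₀ F₁ n
  · obtain ⟨hle, hV, hα, hβ, hP, hfin, hFI, hN⟩ := h
    have := hP
    rw [heckeGen_eq hle hV hα hβ hFI hfin hN]
    exact comm_correspondence_galois _ _ hβ hα hFI hfin hN σ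
      (intertwines_vBar n hV σ) (intertwines_inclBar hle σ) x
  · rw [heckeGen_of_not h, AddMonoidHom.zero_apply, AddMonoidHom.zero_apply, smul_zero]

/-- **Kummer transfer of the Hecke operator**: `Nm_α ∘ β`. -/
theorem isKummerPair_heckeGen (hle : F₀ ≤ F₁) (hV : ∀ y ∈ F₀, qExpand ℚ n y ∈ F₁)
    (hα : (inclBar L hle).toRingHom.IsIntegral) (hβ : (vBar L n hV).toRingHom.IsIntegral)
    [HasPrincipalDivisors L (laurentBaseChange L F₁)]
    (hFI : FundamentalIdentityAlong L (vBar L n hV) hβ)
    (hfin : FiniteAlong L (inclBar L hle))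
    (hN : NormFormulaAlong L (inclBar L hle) hfin) {m : ℕ}
    {x : Pic0 L (laurentBaseChange L F₀)} {f : laurentBaseChange L F₀}
    (h : IsKummerPair m x f) :
    IsKummerPair m (heckeGen L F₀ F₁ n x)
      (HeckeKummer.normAlong (inclBar L hle) (vBar L n hV f)) := by
  rw [heckeGen_eq hle hV hα hβ hFI hfin hN]
  exact HeckeKummer.isKummerPair_correspondence _ _ hβ hα hFI hfin hN h

/-- Torsion is stable under the Hecke operator (unconditionally). -/
theorem heckeGen_mem_torsion {m : ℕ} {x : Pic0 L (laurentBaseChange L F₀)}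
    (hx : x ∈ Pic0.torsion L (laurentBaseChange L F₀) m) :
    heckeGen L F₀ F₁ n x ∈ Pic0.torsion L (laurentBaseChange L F₀) m := by
  rw [Pic0.mem_torsion] at hx ⊢
  rw [← map_zsmul, hx, map_zero]

end HeckeGen

/-! ### Operators induced by automorphisms (diamond operators) -/

section Aut

open scoped Pointwise

variable {K F : Type*} [Field K] [Field F] [Algebra K F]

/-- The operator `x ↦ δ • x` on `Pic0 K F` induced by a `K`-automorphism `δ` of `F`
(push-forward of divisor classes along `δ`). -/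
def autOp (δ : F ≃ₐ[K] F) : Pic0 K F →+ Pic0 K F :=
  DistribSMul.toAddMonoidHom (Pic0 K F) δ

@[simp]
theorem autOp_apply (δ : F ≃ₐ[K] F) (x : Pic0 K F) : autOp δ x = δ • x := rfl

theorem autOp_one (x : Pic0 K F) : autOp (1 : F ≃ₐ[K] F) x = x := one_smul _ x

theorem autOp_mul (δ δ' : F ≃ₐ[K] F) (x : Pic0 K F) :
    autOp (δ * δ') x = autOp δ (autOp δ' x) := mul_smul δ δ' x

/-- **`kummer_D`**: Kummer pairs under an automorphism. -/
theorem isKummerPair_autOp {n : ℕ} {x : Pic0 K F} {f : F} (h : IsKummerPair n x f)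
    (δ : F ≃ₐ[K] F) : IsKummerPair n (autOp δ x) (δ f) :=
  h.smul δ

theorem autOp_mem_torsion (δ : F ≃ₐ[K] F) {n : ℕ} {x : Pic0 K F}
    (hx : x ∈ Pic0.torsion K F n) : autOp δ x ∈ Pic0.torsion K F n := by
  rw [Pic0.mem_torsion] at hx ⊢
  rw [← map_zsmul, hx, map_zero]

/-- On places, the action of `δ` through `SemilinearAut.ofAlgAut` is the action of `δ`. -/
theorem ofAlgAut_smul_place (δ : F ≃ₐ[K] F) (v : Place K F) :
    SemilinearAut.ofAlgAut δ • v = δ • v := by
  apply Place.ext
  ext x
  rw [SemilinearAut.smul_toValuationSubring, Place.smul_toValuationSubring,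
    ValuationSubring.mem_pointwise_smul_iff_inv_smul_mem,
    ValuationSubring.mem_pointwise_smul_iff_inv_smul_mem]
  rfl

theorem ofAlgAut_smul_divisor (δ : F ≃ₐ[K] F) (D : Divisor K F) :
    SemilinearAut.ofAlgAut δ • D = δ • D := by
  rw [SemilinearAut.divisor_smul_def, Divisor.smul_def]
  exact Finsupp.mapDomain_congr fun v _ => ofAlgAut_smul_place δ v

/-- On `Pic0`, the action of `δ` through `SemilinearAut.ofAlgAut` is the action of `δ`. -/
theorem ofAlgAut_smul_pic0 (δ : F ≃ₐ[K] F) (x : Pic0 K F) :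
    SemilinearAut.ofAlgAut δ • x = δ • x := by
  obtain ⟨D, rfl⟩ := Pic0.mk_surjective x
  rw [SemilinearAut.pic0_smul_mk, Pic0.smul_mk]
  exact congrArg Pic0.mk (Subtype.ext (by
    rw [SemilinearAut.coe_degZeroSMulHom, Pic0.coe_degZeroSMulHom, ofAlgAut_smul_divisor]))

/-- Kummer pairs under a semilinear automorphism. -/
theorem isKummerPair_semilinear {n : ℕ} {x : Pic0 K F} {f : F} (h : IsKummerPair n x f)
    (g : SemilinearAut K F) : IsKummerPair n (g • x) (g • f) := by
  obtain ⟨hf, D, rfl, hD⟩ := h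
  refine ⟨by simpa using hf, SemilinearAut.degZeroSMulHom g D,
    (SemilinearAut.pic0_smul_mk g D).symm, fun w => ?_⟩
  rw [SemilinearAut.coe_degZeroSMulHom, SemilinearAut.divisor_smul_apply, hD (g⁻¹ • w)]
  have h1 := SemilinearAut.ord_smul g (g⁻¹ • w) f
  rw [smul_inv_smul] at h1
  exact h1.symm

/-- A `K`-automorphism commuting (on `F`) with a semilinear automorphism commutes with it on
`Pic0`. -/
theorem autOp_semilinear_comm (δ : F ≃ₐ[K] F) (g : SemilinearAut K F)
    (hcomm : ∀ f : F, δ (g • f) = g • δ f) (x : Pic0 K F) :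
    autOp δ (g • x) = g • autOp δ x := by
  have e : SemilinearAut.ofAlgAut δ * g = g * SemilinearAut.ofAlgAut δ := by
    apply Subtype.ext
    apply Prod.ext
    · apply RingEquiv.ext
      intro f
      exact hcomm f
    · show (1 : RingAut K) * SemilinearAut.baseAut g = SemilinearAut.baseAut g * 1
      rw [one_mul, mul_one]
  rw [autOp_apply, autOp_apply, ← ofAlgAut_smul_pic0, ← ofAlgAut_smul_pic0, ← mul_smul,
    ← mul_smul, e]

end Aut

/-! ### Galois-equivariance of automorphisms defined over `ℚ` -/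

section GaloisAut

variable {L : Type*} [Field L] [Algebra ℚ L]
variable {F₀ : IntermediateField ℚ (LaurentSeries ℚ)}

/-- **Diamond operators commute with the Galois action on `Pic0`**: an `L`-automorphism `δ` of
`L·F₀` commuting with the coefficientwise action of `σ` commutes with `σ` on `Pic0`. -/
theorem comm_autOp (δ : laurentBaseChange L F₀ ≃ₐ[L] laurentBaseChange L F₀) (σ : L ≃ₐ[ℚ] L)
    (hδ : ∀ f : laurentBaseChange L F₀,
      δ (arithmeticGalois F₀ σ • f) = arithmeticGalois F₀ σ • δ f)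
    (x : Pic0 L (laurentBaseChange L F₀)) : autOp δ (σ • x) = σ • autOp δ x := by
  rw [galois_smul_pic0_def, galois_smul_pic0_def]
  exact autOp_semilinear_comm δ (arithmeticGalois F₀ σ) hδ x

theorem coeffEmb_algebraMap_rat (L : Type*) [Field L] [Algebra ℚ L] (c : ℚ) :
    coeffEmb L (algebraMap ℚ (LaurentSeries ℚ) c) =
      algebraMap L (LaurentSeries L) (algebraMap ℚ L c) := by
  rw [algebraMap_laurentSeries_eq_single, algebraMap_laurentSeries_eq_single, coeffEmb,
    coeffMap_single]

/-- A ring endomorphism `δ` of `L·F₀` fixing the constants and mapping a set of rational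
generators of `F₀` to series with rational coefficients maps every element of `F₀` to a series
with rational coefficients. -/
theorem exists_rational_of_gens (δ : laurentBaseChange L F₀ →+* laurentBaseChange L F₀)
    (hδL : ∀ (a : L) (ha : algebraMap L (LaurentSeries L) a ∈ laurentBaseChange L F₀),
      ((δ ⟨algebraMap L (LaurentSeries L) a, ha⟩ : laurentBaseChange L F₀) : LaurentSeries L) =
        algebraMap L (LaurentSeries L) a)
    (S : Set (LaurentSeries ℚ)) (hSF : S ⊆ F₀)
    (hδ : ∀ s ∈ S, ∀ hs : coeffEmb L s ∈ laurentBaseChange L F₀,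
      ∃ t : LaurentSeries ℚ,
        ((δ ⟨coeffEmb L s, hs⟩ : laurentBaseChange L F₀) : LaurentSeries L) = coeffEmb L t)
    {y : LaurentSeries ℚ} (hy : y ∈ IntermediateField.adjoin ℚ S)
    (hy' : coeffEmb L y ∈ laurentBaseChange L F₀) :
    ∃ t : LaurentSeries ℚ,
      ((δ ⟨coeffEmb L y, hy'⟩ : laurentBaseChange L F₀) : LaurentSeries L) = coeffEmb L t := by
  have hle : IntermediateField.adjoin ℚ S ≤ F₀ := IntermediateField.adjoin_le_iff.mpr hSF
  have key : ∀ z : LaurentSeries ℚ, z ∈ IntermediateField.adjoin ℚ S →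
      ∀ hz : coeffEmb L z ∈ laurentBaseChange L F₀, ∃ t : LaurentSeries ℚ,
        ((δ ⟨coeffEmb L z, hz⟩ : laurentBaseChange L F₀) : LaurentSeries L) = coeffEmb L t := by
    intro z hz
    induction hz using IntermediateField.adjoin_induction with
    | mem s hs => exact fun hs' => hδ s hs hs'
    | algebraMap c =>
        intro hz
        refine ⟨algebraMap ℚ (LaurentSeries ℚ) c, ?_⟩
        have e := coeffEmb_algebraMap_rat L c
        have e' : (⟨coeffEmb L (algebraMap ℚ (LaurentSeries ℚ) c), hz⟩ :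
            laurentBaseChange L F₀) = ⟨algebraMap L (LaurentSeries L) (algebraMap ℚ L c),
              (laurentBaseChange L F₀).algebraMap_mem _⟩ := Subtype.ext e
        rw [e', hδL, e]
    | add a b ha hb iha ihb =>
        intro hz
        have ha' := coeffEmb_mem_laurentBaseChange L (hle ha)
        have hb' := coeffEmb_mem_laurentBaseChange L (hle hb)
        obtain ⟨t₁, h₁⟩ := iha ha'
        obtain ⟨t₂, h₂⟩ := ihb hb'
        refine ⟨t₁ + t₂, ?_⟩
        have e : (⟨coeffEmb L (a + b), hz⟩ : laurentBaseChange L F₀) =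
            ⟨coeffEmb L a, ha'⟩ + ⟨coeffEmb L b, hb'⟩ := Subtype.ext (map_add _ _ _)
        rw [e, map_add, map_add, ← h₁, ← h₂]
        rfl
    | inv a ha iha =>
        intro hz
        have ha' := coeffEmb_mem_laurentBaseChange L (hle ha)
        obtain ⟨t₁, h₁⟩ := iha ha'
        refine ⟨t₁⁻¹, ?_⟩
        have e : (⟨coeffEmb L a⁻¹, hz⟩ : laurentBaseChange L F₀) =
            (⟨coeffEmb L a, ha'⟩ : laurentBaseChange L F₀)⁻¹ := Subtype.ext (map_inv₀ _ _)
        rw [e, map_inv₀, map_inv₀, ← h₁]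
        rfl
    | mul a b ha hb iha ihb =>
        intro hz
        have ha' := coeffEmb_mem_laurentBaseChange L (hle ha)
        have hb' := coeffEmb_mem_laurentBaseChange L (hle hb)
        obtain ⟨t₁, h₁⟩ := iha ha'
        obtain ⟨t₂, h₂⟩ := ihb hb'
        refine ⟨t₁ * t₂, ?_⟩
        have e : (⟨coeffEmb L (a * b), hz⟩ : laurentBaseChange L F₀) =
            ⟨coeffEmb L a, ha'⟩ * ⟨coeffEmb L b, hb'⟩ := Subtype.ext (map_mul _ _ _)
        rw [e, map_mul, map_mul, ← h₁, ← h₂]
        rfl
  exact key y hy hy'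

/-- Abstract form of the rationality criterion: `G` is any ring endomorphism of `L·F₀` acting
coefficientwise through `σ'`. -/
theorem comm_of_gens_aux (δ G : laurentBaseChange L F₀ →+* laurentBaseChange L F₀)
    (σ' : L →+* L)
    (hG : ∀ x : laurentBaseChange L F₀,
      ((G x : laurentBaseChange L F₀) : LaurentSeries L) = coeffMap σ' (x : LaurentSeries L))
    (hσ : ∀ y : LaurentSeries ℚ, coeffMap σ' (coeffEmb L y) = coeffEmb L y)
    (hδL : ∀ (a : L) (ha : algebraMap L (LaurentSeries L) a ∈ laurentBaseChange L F₀),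
      ((δ ⟨algebraMap L (LaurentSeries L) a, ha⟩ : laurentBaseChange L F₀) : LaurentSeries L) =
        algebraMap L (LaurentSeries L) a)
    (S : Set (LaurentSeries ℚ)) (hSF : S ⊆ F₀) (hgen : F₀ ≤ IntermediateField.adjoin ℚ S)
    (hδ : ∀ s ∈ S, ∀ hs : coeffEmb L s ∈ laurentBaseChange L F₀,
      ∃ t : LaurentSeries ℚ,
        ((δ ⟨coeffEmb L s, hs⟩ : laurentBaseChange L F₀) : LaurentSeries L) = coeffEmb L t)
    (f : laurentBaseChange L F₀) : δ (G f) = G (δ f) := by
  obtain ⟨u, hu⟩ : ∃ u : laurentBaseChange L F₀ →+* laurentBaseChange L F₀,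
      ∀ g, u g = δ (G g) := ⟨δ.comp G, fun _ => rfl⟩
  obtain ⟨w, hw⟩ : ∃ w : laurentBaseChange L F₀ →+* laurentBaseChange L F₀,
      ∀ g, w g = G (δ g) := ⟨G.comp δ, fun _ => rfl⟩
  have key : ∀ x : LaurentSeries L, ∀ hx : x ∈ laurentBaseChange L F₀,
      u (⟨x, hx⟩ : laurentBaseChange L F₀) = w ⟨x, hx⟩ := by
    intro x hx
    have hx' := hx
    unfold laurentBaseChange at hx'
    induction hx' using IntermediateField.adjoin_induction with
    | mem x hx₀ =>
        obtain ⟨y, hy, rfl⟩ := hx₀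
        obtain ⟨t, ht⟩ := exists_rational_of_gens δ hδL S hSF hδ (hgen hy) hx
        have e1 : G (⟨coeffEmb L y, hx⟩ : laurentBaseChange L F₀) = ⟨coeffEmb L y, hx⟩ :=
          Subtype.ext (by rw [hG]; exact hσ y)
        rw [hu, hw, e1]
        apply Subtype.ext
        rw [hG, ht, hσ]
    | algebraMap a =>
        have hx2 : algebraMap L (LaurentSeries L) (σ' a) ∈ laurentBaseChange L F₀ :=
          (laurentBaseChange L F₀).algebraMap_mem _
        have e2 : G (⟨algebraMap L (LaurentSeries L) a, hx⟩ : laurentBaseChange L F₀) =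
            ⟨algebraMap L (LaurentSeries L) (σ' a), hx2⟩ :=
          Subtype.ext (by rw [hG]; exact coeffMap_algebraMap σ' a)
        rw [hu, hw, e2]
        apply Subtype.ext
        rw [hδL, hG, hδL, coeffMap_algebraMap]
    | add a b ha hb iha ihb =>
        have e0 : (⟨a + b, hx⟩ : laurentBaseChange L F₀) = ⟨a, ha⟩ + ⟨b, hb⟩ := rfl
        rw [e0, map_add, map_add, iha ha, ihb hb]
    | inv a ha iha =>
        have e0 : (⟨a⁻¹, hx⟩ : laurentBaseChange L F₀) =
            (⟨a, ha⟩ : laurentBaseChange L F₀)⁻¹ := rfl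
        rw [e0, map_inv₀, map_inv₀, iha ha]
    | mul a b ha hb iha ihb =>
        have e0 : (⟨a * b, hx⟩ : laurentBaseChange L F₀) = ⟨a, ha⟩ * ⟨b, hb⟩ := rfl
        rw [e0, map_mul, map_mul, iha ha, ihb hb]
  have h := key f.1 f.2
  rw [hu, hw] at h
  exact h

/-- **Rationality criterion**: a ring endomorphism `δ` of `L·F₀` fixing the constants and
mapping a set of rational generators of `F₀` to series with rational coefficients commutes with
the coefficientwise Galois action. -/
theorem galois_comm_of_gens (δ : laurentBaseChange L F₀ →+* laurentBaseChange L F₀)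
    (hδL : ∀ (a : L) (ha : algebraMap L (LaurentSeries L) a ∈ laurentBaseChange L F₀),
      ((δ ⟨algebraMap L (LaurentSeries L) a, ha⟩ : laurentBaseChange L F₀) : LaurentSeries L) =
        algebraMap L (LaurentSeries L) a)
    (S : Set (LaurentSeries ℚ)) (hSF : S ⊆ F₀) (hgen : F₀ ≤ IntermediateField.adjoin ℚ S)
    (hδ : ∀ s ∈ S, ∀ hs : coeffEmb L s ∈ laurentBaseChange L F₀,
      ∃ t : LaurentSeries ℚ,
        ((δ ⟨coeffEmb L s, hs⟩ : laurentBaseChange L F₀) : LaurentSeries L) = coeffEmb L t)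
    (σ : L ≃ₐ[ℚ] L) (f : laurentBaseChange L F₀) :
    δ (arithmeticGalois F₀ σ • f) = arithmeticGalois F₀ σ • δ f :=
  comm_of_gens_aux δ (MulSemiringAction.toRingHom _ _ (arithmeticGalois F₀ σ)) (σ : L →+* L)
    (fun _ => rfl) (coeffMap_coeffEmb σ) hδL S hSF hgen hδ f

/-- The rationality criterion for an `L`-algebra automorphism (diamond operators). -/
theorem galois_comm_of_gens_algEquiv
    (δ : laurentBaseChange L F₀ ≃ₐ[L] laurentBaseChange L F₀)
    (S : Set (LaurentSeries ℚ)) (hSF : S ⊆ F₀) (hgen : F₀ ≤ IntermediateField.adjoin ℚ S)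
    (hδ : ∀ s ∈ S, ∀ hs : coeffEmb L s ∈ laurentBaseChange L F₀,
      ∃ t : LaurentSeries ℚ,
        ((δ ⟨coeffEmb L s, hs⟩ : laurentBaseChange L F₀) : LaurentSeries L) = coeffEmb L t)
    (σ : L ≃ₐ[ℚ] L) (f : laurentBaseChange L F₀) :
    δ (arithmeticGalois F₀ σ • f) = arithmeticGalois F₀ σ • δ f :=
  galois_comm_of_gens (δ : laurentBaseChange L F₀ →+* laurentBaseChange L F₀)
    (fun a _ => congrArg Subtype.val (δ.commutes a)) S hSF hgen hδ σ f

end GaloisAut

/-! ### Families indexed by `ℕ` (the shape of `TorsionPackage`) -/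

section Family

variable (L : Type*) [Field L] [Algebra ℚ L]
variable (F₀ : IntermediateField ℚ (LaurentSeries ℚ))
variable (F₁ : ∀ (p : ℕ) [NeZero p], IntermediateField ℚ (LaurentSeries ℚ))

/-- The Hecke operators `T p = α_* β^*` along `(F₀, F₁ p, p)` as a total family in `p : ℕ`
(zero for `p = 0` and whenever the function-field inputs fail). -/
def heckeFam (p : ℕ) : Pic0 L (laurentBaseChange L F₀) →+ Pic0 L (laurentBaseChange L F₀) :=
  if hp : p = 0 then 0 else
    haveI : NeZero p := ⟨hp⟩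
    heckeGen L F₀ (F₁ p) p

variable {L F₀ F₁}

theorem heckeFam_eq (p : ℕ) [NeZero p] : heckeFam L F₀ F₁ p = heckeGen L F₀ (F₁ p) p := by
  rw [heckeFam, dif_neg (NeZero.ne p)]

/-- **The family `T p` commutes with the Galois action**, for every `p : ℕ`. -/
theorem comm_heckeFam (p : ℕ) (σ : L ≃ₐ[ℚ] L) (x : Pic0 L (laurentBaseChange L F₀)) :
    heckeFam L F₀ F₁ p (σ • x) = σ • heckeFam L F₀ F₁ p x := by
  by_cases hp : p = 0
  · rw [heckeFam, dif_pos hp, AddMonoidHom.zero_apply, AddMonoidHom.zero_apply, smul_zero]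
  · haveI : NeZero p := ⟨hp⟩
    rw [heckeFam_eq]
    exact comm_heckeGen σ x

theorem heckeFam_mem_torsion (p : ℕ) {m : ℕ} {x : Pic0 L (laurentBaseChange L F₀)}
    (hx : x ∈ Pic0.torsion L (laurentBaseChange L F₀) m) :
    heckeFam L F₀ F₁ p x ∈ Pic0.torsion L (laurentBaseChange L F₀) m := by
  rw [Pic0.mem_torsion] at hx ⊢
  rw [← map_zsmul, hx, map_zero]

end Family

/-! ### Torsion: Galois stability and finite level (J2) -/

section Torsion

variable {L : Type*} [Field L] [Algebra ℚ L]
variable (F₀ : IntermediateField ℚ (LaurentSeries ℚ))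

/-- `J[n]` is stable under the Galois action. -/
theorem galois_smul_mem_torsion (σ : L ≃ₐ[ℚ] L) {n : ℕ}
    {x : Pic0 L (laurentBaseChange L F₀)}
    (hx : x ∈ Pic0.torsion L (laurentBaseChange L F₀) n) :
    σ • x ∈ Pic0.torsion L (laurentBaseChange L F₀) n :=
  SemilinearAut.smul_mem_torsion (arithmeticGalois F₀ σ) hx

/-- **(J2) Finite level**: if `J[n]` is finite, the Galois action on it factors through a
finite extension of `ℚ` (literally the third field of `G1.TorsionPackage`). -/
theorem finiteLevel_torsion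
    [HasPrincipalDivisors (AlgebraicClosure ℚ) (laurentBaseChange (AlgebraicClosure ℚ) F₀)]
    (n : ℕ)
    (hfin : Finite (Pic0.torsion (AlgebraicClosure ℚ)
      (laurentBaseChange (AlgebraicClosure ℚ) F₀) n)) :
    ∃ K : IntermediateField ℚ (AlgebraicClosure ℚ), FiniteDimensional ℚ K ∧
      ∀ σ : AlgebraicClosure ℚ ≃ₐ[ℚ] AlgebraicClosure ℚ, (∀ x ∈ K, σ x = x) →
        ∀ x ∈ Pic0.torsion (AlgebraicClosure ℚ) (laurentBaseChange (AlgebraicClosure ℚ) F₀) n,
          σ • x = x :=
  FiniteLevel.exists_level_of_finite F₀ _ (Set.toFinite _)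

end Torsion

end Fermat.Agent.G1.GaloisOps

end
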