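import Mathlib
import Fermat.Agent.G1.GaloisOps
import Fermat.Agent.G1.Gen

/-!
# G1: Galois-equivariance of automorphisms of `L·F1a M a` (diamond operators), instance form

`F1a M a = F1 M ⊔ modularFunctionFieldFull (M * a)` is generated over `ℚ` by the modular
function field of level `M * a` and the series `xgen M u`.  An `L`-automorphism of `L·F1a M a`
which maps these generators to series with rational coefficients commutes with the
coefficientwise Galois action (`galois_comm_F1a`), hence the induced operator on `Pic0` commutes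
with `G_ℚ` (`comm_autOp_F1a`).
-/

set_option autoImplicit false

noncomputable section

namespace Fermat.Agent.G1.GaloisOps

open AlgebraicCurve ModularCurve HahnSeries

variable (M a : ℕ) [NeZero M] [NeZero a]

/-- The rational generators of `F1a M a`. -/
def gensF1a : Set (LaurentSeries ℚ) :=
  (modularFunctionFieldFull (M * a) : Set (LaurentSeries ℚ)) ∪ Set.range (xgen M)

theorem gensF1a_subset : gensF1a M a ⊆ (F1a M a : Set (LaurentSeries ℚ)) := by
  rintro s (hs | ⟨u, rfl⟩)
  · exact full_le_F1a M a hs
  · exact F1_le_F1a M a (xgen_mem_F1 M u)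

theorem F1a_le_adjoin_gens : F1a M a ≤ IntermediateField.adjoin ℚ (gensF1a M a) := by
  refine sup_le ?_ ?_
  · refine IntermediateField.adjoin_le_iff.mpr ?_
    rintro s (hs | ⟨u, rfl⟩)
    · exact IntermediateField.subset_adjoin ℚ _
        (Or.inl (full_degeneracy_le (dvd_mul_right M a) hs))
    · exact IntermediateField.subset_adjoin ℚ _ (Or.inr ⟨u, rfl⟩)
  · intro s hs
    exact IntermediateField.subset_adjoin ℚ _ (Or.inl hs)

variable {M a} {L : Type*} [Field L] [Algebra ℚ L]

/-- **Galois-equivariance of a diamond automorphism**: an `L`-automorphism `δ` of `L·F1a M a`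
mapping the Γ₀-part and the `x_u` to series with rational coefficients commutes with the
coefficientwise Galois action. -/
theorem galois_comm_F1a
    (δ : laurentBaseChange L (F1a M a) ≃ₐ[L] laurentBaseChange L (F1a M a))
    (h0 : ∀ s ∈ modularFunctionFieldFull (M * a),
      ∀ hs : coeffEmb L s ∈ laurentBaseChange L (F1a M a), ∃ t : LaurentSeries ℚ,
        ((δ ⟨coeffEmb L s, hs⟩ : laurentBaseChange L (F1a M a)) : LaurentSeries L) =
          coeffEmb L t)
    (hx : ∀ u : (ZMod M)ˣ,
      ∀ hs : coeffEmb L (xgen M u) ∈ laurentBaseChange L (F1a M a), ∃ t : LaurentSeries ℚ,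
        ((δ ⟨coeffEmb L (xgen M u), hs⟩ : laurentBaseChange L (F1a M a)) : LaurentSeries L) =
          coeffEmb L t)
    (σ : L ≃ₐ[ℚ] L) (f : laurentBaseChange L (F1a M a)) :
    δ (arithmeticGalois (F1a M a) σ • f) = arithmeticGalois (F1a M a) σ • δ f :=
  galois_comm_of_gens_algEquiv δ (gensF1a M a) (gensF1a_subset M a) (F1a_le_adjoin_gens M a)
    (by
      rintro s (hs | ⟨u, rfl⟩) hs'
      · exact h0 s hs hs'
      · exact hx u hs') σ f

/-- The operator on `Pic0` of such a diamond automorphism commutes with the Galois action. -/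
theorem comm_autOp_F1a
    (δ : laurentBaseChange L (F1a M a) ≃ₐ[L] laurentBaseChange L (F1a M a))
    (h0 : ∀ s ∈ modularFunctionFieldFull (M * a),
      ∀ hs : coeffEmb L s ∈ laurentBaseChange L (F1a M a), ∃ t : LaurentSeries ℚ,
        ((δ ⟨coeffEmb L s, hs⟩ : laurentBaseChange L (F1a M a)) : LaurentSeries L) =
          coeffEmb L t)
    (hx : ∀ u : (ZMod M)ˣ,
      ∀ hs : coeffEmb L (xgen M u) ∈ laurentBaseChange L (F1a M a), ∃ t : LaurentSeries ℚ,
        ((δ ⟨coeffEmb L (xgen M u), hs⟩ : laurentBaseChange L (F1a M a)) : LaurentSeries L) =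
          coeffEmb L t)
    (σ : L ≃ₐ[ℚ] L) (x : Pic0 L (laurentBaseChange L (F1a M a))) :
    autOp δ (σ • x) = σ • autOp δ x :=
  comm_autOp δ σ (galois_comm_F1a δ h0 hx σ) x

end Fermat.Agent.G1.GaloisOps

end
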