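/-
G1-GEN (6): the degeneracy map `V_ℓ : q ↦ q^ℓ` maps `F1 M` into `F1a M ℓ`.

`F1a M ℓ = F1 M ⊔ F₀(M ℓ)` contains `x_u(q^ℓ)` for every `u`: with `y_c = x_c(q^ℓ)`, the sums
`S_j = ∑_c y_c x_c^j` lie in `F₀(M ℓ)` (invariants, `aeval_xgen_hecke_mem_full`), and for
`g = ∏_{c ≠ ±u} (X - x_c) ∈ F1 M [X]` one has `∑_c y_c g(x_c) = 2 y_u g(x_u)`, `g(x_u) ≠ 0`
(property (U)).

* `sum_qExpand_mul_pow_mem_full` : `S_j ∈ F₀(M ℓ)`;
* `qExpand_xgen_mem_F1a` : `x_u(q^ℓ) ∈ F1a M ℓ`;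
* `qExpand_mem_F1a` : `V_ℓ (F1 M) ⊆ F1a M ℓ`.
-/
import Mathlib
import Fermat.Agent.G1.GenInvHecke

set_option autoImplicit false

namespace Fermat.Agent.G1

open ModularCurve IntermediateField

section

variable (M ℓ : ℕ) [NeZero M] [NeZero ℓ]

/-- The mixed power sums `∑_c x_c(q^ℓ) · x_c(q)^j` lie in `F₀(M ℓ)`. -/
theorem sum_qExpand_mul_pow_mem_full (j : ℕ) :
    ∑ c : (ZMod M)ˣ, qExpand ℚ ℓ (xgen M c) * xgen M c ^ j ∈ modularFunctionFieldFull (M * ℓ) := by
  classical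
  set Ψ : MvPolynomial ((ZMod M)ˣ ⊕ (ZMod M)ˣ) ℚ :=
    ∑ c : (ZMod M)ˣ, MvPolynomial.X (Sum.inr c) * MvPolynomial.X (Sum.inl c) ^ j with hΨ
  have hinv : ∀ d : (ZMod M)ˣ, MvPolynomial.rename (Sum.map (d * ·) (d * ·)) Ψ = Ψ := by
    intro d
    rw [hΨ, map_sum]
    simp only [map_mul, map_pow, MvPolynomial.rename_X, Sum.map_inr, Sum.map_inl]
    exact Fintype.sum_equiv (Equiv.mulLeft d) _ _ (fun c => rfl)
  have h := aeval_xgen_hecke_mem_full M ℓ Ψ hinv
  rw [hΨ, map_sum] at h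
  simpa only [map_mul, map_pow, MvPolynomial.aeval_X, Sum.elim_inr, Sum.elim_inl] using h

variable {M ℓ}

/-- `x_u(q^ℓ) ∈ F1a M ℓ = F1 M ⊔ F₀(M ℓ)`. -/
theorem qExpand_xgen_mem_F1a (hM : 3 ≤ M) (u : (ZMod M)ˣ) :
    qExpand ℚ ℓ (xgen M u) ∈ F1a M ℓ := by
  classical
  set K : IntermediateField ℚ (LaurentSeries ℚ) := F1a M ℓ with hK
  have hx : ∀ c : (ZMod M)ˣ, xgen M c ∈ K := fun c => F1_le_F1a M ℓ (xgen_mem_F1 M c)
  -- the polynomial `g = ∏_{c ≠ ±u} (X - x_c)`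
  set T : Finset (ZMod M)ˣ := Finset.univ.filter (fun c => c ≠ u ∧ c ≠ -u) with hT
  set g : Polynomial K := ∏ c ∈ T, (Polynomial.X - Polynomial.C (⟨xgen M c, hx c⟩ : K)) with hg
  have hgeval : ∀ c : (ZMod M)ˣ, Polynomial.aeval (xgen M c) g = ∏ c' ∈ T, (xgen M c - xgen M c') := by
    intro c
    rw [hg, map_prod]
    refine Finset.prod_congr rfl (fun c' _ => ?_)
    rw [map_sub, Polynomial.aeval_X, Polynomial.aeval_C]
    rfl
  -- `g(x_c) = 0` for `c ≠ ±u`
  have hzero : ∀ c : (ZMod M)ˣ, c ≠ u ∧ c ≠ -u → Polynomial.aeval (xgen M c) g = 0 := by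
    intro c hc
    rw [hgeval]
    refine Finset.prod_eq_zero (i := c) ?_ (sub_self _)
    rw [hT, Finset.mem_filter]
    exact ⟨Finset.mem_univ _, hc⟩
  -- `g(x_u) ≠ 0`
  have hG : Polynomial.aeval (xgen M u) g ≠ 0 := by
    rw [hgeval, Finset.prod_ne_zero_iff]
    intro c hc
    rw [hT, Finset.mem_filter] at hc
    rw [sub_ne_zero]
    intro h
    rcases (xgen_eq_iff hM u c).mp h with h | h
    · exact hc.2.1 h.symm
    · exact hc.2.2 (by rw [h, neg_neg])
  have hGmem : Polynomial.aeval (xgen M u) g ∈ K := by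
    rw [hgeval]
    exact prod_mem (fun c _ => sub_mem (hx u) (hx c))
  -- the sum `∑_c y_c g(x_c)`, computed in two ways
  have hsum1 : ∑ c : (ZMod M)ˣ, qExpand ℚ ℓ (xgen M c) * Polynomial.aeval (xgen M c) g =
      2 * (qExpand ℚ ℓ (xgen M u) * Polynomial.aeval (xgen M u) g) := by
    have hne : u ≠ -u := by
      intro h
      have := congrArg (fun v : (ZMod M)ˣ => (v : ZMod M)) h
      simp only [Units.val_neg] at this
      exact unit_ne_neg hM u this
    rw [Finset.sum_eq_add u (-u) hne (fun c _ hc => by rw [hzero c hc, mul_zero])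
      (fun h => absurd (Finset.mem_univ _) h) (fun h => absurd (Finset.mem_univ _) h)]
    rw [xgen_neg, two_mul]
  have hsum2 : ∑ c : (ZMod M)ˣ, qExpand ℚ ℓ (xgen M c) * Polynomial.aeval (xgen M c) g ∈ K := by
    have e : ∑ c : (ZMod M)ˣ, qExpand ℚ ℓ (xgen M c) * Polynomial.aeval (xgen M c) g =
        ∑ j ∈ Finset.range (g.natDegree + 1), ((g.coeff j : K) : LaurentSeries ℚ) *
          ∑ c : (ZMod M)ˣ, qExpand ℚ ℓ (xgen M c) * xgen M c ^ j := by
      simp only [Polynomial.aeval_eq_sum_range, Finset.mul_sum]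
      rw [Finset.sum_comm]
      refine Finset.sum_congr rfl (fun j _ => Finset.sum_congr rfl (fun c _ => ?_))
      rw [Algebra.smul_def, IntermediateField.algebraMap_apply]
      ring
    rw [e]
    refine sum_mem (fun j _ => mul_mem (g.coeff j).2 ?_)
    exact full_le_F1a M ℓ (sum_qExpand_mul_pow_mem_full M ℓ j)
  rw [hsum1] at hsum2
  have h2 : (2 : LaurentSeries ℚ) ∈ K := by
    have : (2 : LaurentSeries ℚ) = 1 + 1 := by norm_num
    rw [this]
    exact add_mem (one_mem K) (one_mem K)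
  have h20 : (2 : LaurentSeries ℚ) ≠ 0 := by
    have e2 : (2 : LaurentSeries ℚ) = algebraMap ℚ (LaurentSeries ℚ) 2 := by simp
    rw [e2]
    exact (map_ne_zero _).mpr two_ne_zero
  have e : qExpand ℚ ℓ (xgen M u) =
      (2 * (qExpand ℚ ℓ (xgen M u) * Polynomial.aeval (xgen M u) g)) /
        (2 * Polynomial.aeval (xgen M u) g) := by
    field_simp
  rw [e]
  exact div_mem hsum2 (mul_mem h2 hGmem)

/-- **`V_ℓ` maps `F1 M` into `F1a M ℓ`.** -/
theorem qExpand_mem_F1a (hM : 3 ≤ M) {f : LaurentSeries ℚ} (hf : f ∈ F1 M) :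
    qExpand ℚ ℓ f ∈ F1a M ℓ := by
  have hle : (F1 M).map (qExpandₐ ℓ) ≤ F1a M ℓ := by
    unfold F1
    rw [IntermediateField.adjoin_map, IntermediateField.adjoin_le_iff]
    rintro x ⟨y, hy, rfl⟩
    rcases hy with hy | ⟨u, rfl⟩
    · exact full_le_F1a M ℓ (full_degeneracy_map_le (N := M) ℓ ⟨y, hy, rfl⟩)
    · exact qExpand_xgen_mem_F1a hM u
  exact hle ⟨f, hf, rfl⟩

/-- Base-changed form: `V_ℓ` maps `L·F1(M)` into `L·F1a M ℓ`. -/
theorem qExpand_mem_laurentBaseChange_F1a (L : Type*) [Field L] [Algebra ℚ L] (hM : 3 ≤ M)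
    {x : LaurentSeries L} (hx : x ∈ laurentBaseChange L (F1 M)) :
    qExpand L ℓ x ∈ laurentBaseChange L (F1a M ℓ) := by
  rw [mem_laurentBaseChange_iff] at hx
  induction hx using Subfield.closure_induction with
  | mem y hy =>
      rcases hy with ⟨a, rfl⟩ | ⟨z, hz, rfl⟩
      · rw [algebraMap_laurentSeries_eq_single, qExpand_single, mul_zero,
          ← algebraMap_laurentSeries_eq_single]
        exact (laurentBaseChange L (F1a M ℓ)).algebraMap_mem _
      · have e : qExpand L ℓ (coeffEmb L z) = coeffEmb L (qExpand ℚ ℓ z) :=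
          (coeffMap_qExpand (algebraMap ℚ L) ℓ z).symm
        rw [e]
        exact coeffEmb_mem_laurentBaseChange L (qExpand_mem_F1a hM hz)
  | one => simp
  | add x y _ _ hx hy => simpa using add_mem hx hy
  | neg x _ hx => simpa using neg_mem hx
  | inv x _ hx => simpa using inv_mem hx
  | mul x y _ _ hx hy => simpa using mul_mem hx hy

/-- The degeneracy map `β = V_ℓ : L·F1(M) → L·F1a M ℓ` as an `L`-algebra homomorphism. -/
noncomputable def heckeBeta1 (L : Type*) [Field L] [Algebra ℚ L] (hM : 3 ≤ M) :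
    laurentBaseChange L (F1 M) →ₐ[L] laurentBaseChange L (F1a M ℓ) where
  toFun x := ⟨qExpand L ℓ (x : LaurentSeries L), qExpand_mem_laurentBaseChange_F1a L hM x.2⟩
  map_one' := Subtype.ext (map_one (qExpand L ℓ))
  map_mul' _ _ := Subtype.ext (map_mul (qExpand L ℓ) _ _)
  map_zero' := Subtype.ext (map_zero (qExpand L ℓ))
  map_add' _ _ := Subtype.ext (map_add (qExpand L ℓ) _ _)
  commutes' := fun a => Subtype.ext <| by
    show qExpand L ℓ (algebraMap L (LaurentSeries L) a) = algebraMap L (LaurentSeries L) a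
    rw [algebraMap_laurentSeries_eq_single, qExpand_single, mul_zero]

@[simp]
theorem coe_heckeBeta1 (L : Type*) [Field L] [Algebra ℚ L] (hM : 3 ≤ M)
    (x : laurentBaseChange L (F1 M)) :
    ((heckeBeta1 (ℓ := ℓ) L hM x : laurentBaseChange L (F1a M ℓ)) : LaurentSeries L) =
      qExpand L ℓ (x : LaurentSeries L) :=
  rfl

/-- `L·F1(M) ≤ L·F1a M ℓ`. -/
theorem laurentBaseChange_F1_le_F1a (L : Type*) [Field L] [Algebra ℚ L] :
    laurentBaseChange L (F1 M) ≤ laurentBaseChange L (F1a M ℓ) := by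
  rw [laurentBaseChange, IntermediateField.adjoin_le_iff]
  rintro _ ⟨y, hy, rfl⟩
  exact coeffEmb_mem_laurentBaseChange L (F1_le_F1a M ℓ hy)

/-- The degeneracy map `α` (inclusion) `L·F1(M) → L·F1a M ℓ`. -/
noncomputable def heckeAlpha1 (L : Type*) [Field L] [Algebra ℚ L] :
    laurentBaseChange L (F1 M) →ₐ[L] laurentBaseChange L (F1a M ℓ) :=
  IntermediateField.inclusion (laurentBaseChange_F1_le_F1a L)

@[simp]
theorem coe_heckeAlpha1 (L : Type*) [Field L] [Algebra ℚ L] (x : laurentBaseChange L (F1 M)) :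
    ((heckeAlpha1 (M := M) (ℓ := ℓ) L x : laurentBaseChange L (F1a M ℓ)) : LaurentSeries L) =
      (x : LaurentSeries L) :=
  IntermediateField.coe_inclusion _ x

end

end Fermat.Agent.G1
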