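/-
G1 / CONG: the `q`-expansion norm formula of the Hecke correspondence of `X₁(M)` at a prime
`p ∤ M`, UNCONDITIONAL (`3 ≤ M`), on the model field `ℚ̄·F1a M 1`:

  `Nm_α (V_p y)(t^p) = y(t^{p²}) · ∏_{b<p} (δ_c y)(ζ^b t)`,   `c · p = 1` in `(ℤ/M)ˣ`,

`α = Cong.alphaOfLe (F1a M 1 ≤ F1a M p)`, `V_p = Cong.betaOfStable`, `Nm_α ∘ V_p =
Cong.normTOfLevel`, `δ_c = Gal.diaK iotaK M 1 c`.  Assembled from `ConjF1.hconj1` (the conjugate
embeddings), `ConjF1.exists_x0`, `Cong.Level1` (degree `≤ p + 1`) and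
`Cong.qExpand_norm_of_level`.

* `qExpand_norm1` : the formula for any `c` with `c · p = 1`;
* `hN_TStar` : the literal `hN` of `Jac.HeckeMer1.hnorm_TStar` (`c = (punit hp hpM)⁻¹`).
-/
import Mathlib
import Fermat.Agent.G1.ConjLevel1
import Fermat.Agent.G1.Cong.Level1
import Fermat.Agent.G1.Cong.HeckeAbs
import Fermat.Agent.DS.Hecke1.Defs

set_option autoImplicit false

namespace Fermat.Agent.G1.ConjF1

open ModularCurve Fermat.Agent.S24 Fermat.Agent.S28.Chain Fermat.Agent.G1.Cong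
open Fermat.Agent.ESJ.Jac Fermat.Agent.ESJ.Cong

noncomputable section

/-- **The norm formula for `X₁(M)`** (`3 ≤ M`, `p ∤ M` prime, `c · p = 1` in `(ℤ/M)ˣ`):
`Nm_α (V_p y)(t^p) = y(t^{p²}) · ∏_{b<p} (δ_c y)(ζ^b t)`. -/
theorem qExpand_norm1 (M p : ℕ) [NeZero M] [NeZero p] (hM : 3 ≤ M) (hp : p.Prime)
    (hpM : ¬ p ∣ M) (c : (ZMod M)ˣ) (hc : (c : ZMod M) * (p : ZMod M) = 1)
    (ζ : (AlgebraicClosure ℚ)ˣ) (hζ : IsPrimitiveRoot ζ p)
    (y : ↥(laurentBaseChange (AlgebraicClosure ℚ) (F1a M 1))) :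
    qExpand (AlgebraicClosure ℚ) p
        ((normTOfLevel p (F1a_one_le M p) (vStable1 M p hM) y :
          ↥(laurentBaseChange (AlgebraicClosure ℚ) (F1a M 1))) :
            LaurentSeries (AlgebraicClosure ℚ)) =
      qExpand (AlgebraicClosure ℚ) (p * p) (y : LaurentSeries (AlgebraicClosure ℚ)) *
        ∏ b ∈ Finset.range p,
          rot (ζ ^ b)
            ((Gal.diaK iotaK M 1 c y : ↥(laurentBaseChange (AlgebraicClosure ℚ) (F1a M 1))) :
              LaurentSeries (AlgebraicClosure ℚ)) := by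
  obtain ⟨x₀, hx₀⟩ := exists_x0 iotaK M c
  exact qExpand_norm_of_level p hp (F1a_one_le M p) (vStable1 M p hM)
    (finiteAlong_incl1 M p hp hpM) (finrankAlong_incl1_le M p hp hpM)
    (fun f => Gal.diaK iotaK M 1 c f)
    (fun w hw => hconj1 M p hp hpM (F1a_one_le M p) (vStable1 M p hM) c hc w hw)
    x₀ hx₀ ζ hζ y

/-- The literal `hN` of `Jac.HeckeMer1.hnorm_TStar`, for `NT = Cong.normTOfLevel`
(`= Nm_α ∘ V_p`) and the diamond `δ = diaK iotaK M 1 (punit hp hpM)⁻¹` (`x_u ↦ x_{u p}`). -/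
theorem hN_TStar (M p : ℕ) [NeZero M] [NeZero p] (hM : 3 ≤ M) (hp : p.Prime) (hpM : ¬ p ∣ M) :
    ∀ ζ : KQˣ, IsPrimitiveRoot ζ p → ∀ y : Dict.F1aK KQ M 1,
      qExpand KQ p
          ((normTOfLevel p (F1a_one_le M p) (vStable1 M p hM) y : Dict.F1aK KQ M 1) :
            LaurentSeries KQ) =
        qExpand KQ (p * p) (y : LaurentSeries KQ) *
          ∏ b ∈ Finset.range p, rot (ζ ^ b)
            ((Gal.diaK iotaK M 1 (Fermat.Agent.DS.Hecke1.punit hp hpM)⁻¹ y : Dict.F1aK KQ M 1) :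
              LaurentSeries KQ) := by
  intro ζ hζ y
  have hc : (((Fermat.Agent.DS.Hecke1.punit hp hpM)⁻¹ : (ZMod M)ˣ) : ZMod M) * (p : ZMod M) = 1 := by
    rw [← Fermat.Agent.DS.Hecke1.coe_punit hp hpM, ← Units.val_mul, inv_mul_cancel, Units.val_one]
  exact qExpand_norm1 M p hM hp hpM _ hc ζ hζ y

end

end Fermat.Agent.G1.ConjF1
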