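/-
G1 (function field of `X_1(M)`, μ-model): behaviour of the weight-0 generators at all cusps.

For every `g ∈ SL(2, ℤ)` the translate `z ↦ w_u(g z)` is holomorphic on `ℍ`, `M`-periodic and
meromorphic at `i∞` (a member of `S24.MerInf M`): indeed `w_u ∘ g = ∏ (H_{u i} ∣[3] g) / Δ`
with the weight-3 translates holomorphic and bounded at `i∞`.

* `mdiff_H_slash`, `isBoundedAtImInfty_H_slash`;
* `wfun_smul_eq`, `conj_T_pow_mem_Gamma1`, `wfun_comp_vadd`, `wfun_comp_mem_MerInf`.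
-/
import Mathlib
import Fermat.Agent.G1.EisGen0
import Fermat.Agent.S24.QLaurent

set_option autoImplicit false

namespace Fermat.Agent.G1.EisGen

open UpperHalfPlane ModularForm CongruenceSubgroup Complex ModularCurve
open Fermat.Agent.DS Fermat.Agent.S24.QExp Fermat.Agent.Lib.Analysis.EisensteinChar
open scoped MatrixGroups Manifold Real

variable {M : ℕ} [NeZero M]

omit [NeZero M] in
theorem norm_vWeight_single_le (u : ZMod M) (x : Fin 2 → ℤ) :
    ‖EisV.vWeight (Pi.single u (1 : ℂ)) x‖ ≤ 1 := by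
  unfold EisV.vWeight
  rw [Pi.single_apply]
  split_ifs <;> simp

/-- The `SL(2, ℤ)`-translates of `H_u` are holomorphic. -/
theorem mdiff_H_slash (u : ZMod M) (g : SL(2, ℤ)) : MDiff (⇑(H M u) ∣[(3 : ℤ)] g) := by
  rw [coe_H, ModularForm.SL_smul_slash]
  unfold EisV.Gfun
  rw [show ((3 : ℕ) : ℤ) = 3 from rfl, wEis_slash]
  exact (wEis_mdifferentiable (fun v => norm_vWeight_single_le u _) le_rfl).const_smul _

/-- The `SL(2, ℤ)`-translates of `H_u` are bounded at `i∞`. -/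
theorem isBoundedAtImInfty_H_slash (u : ZMod M) (g : SL(2, ℤ)) :
    IsBoundedAtImInfty (⇑(H M u) ∣[(3 : ℤ)] g) := by
  rw [coe_H, ModularForm.SL_smul_slash]
  exact (EisV.isBoundedAtImInfty_Gfun_slash (Pi.single u (1 : ℂ)) (le_refl 3) g).const_smul_left _

/-- The translate of a weight-0 generator as a quotient of weight-3 translates. -/
theorem wfun_smul_eq (u : Fin 4 → ZMod M) (g : SL(2, ℤ)) (z : ℍ) :
    wfun M u (g • z) = (∏ i, (⇑(H M (u i)) ∣[(3 : ℤ)] g) z) / ModularForm.discriminant z := by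
  have hH : ∀ i, H M (u i) (g • z) = denom g z ^ (3 : ℤ) * (⇑(H M (u i)) ∣[(3 : ℤ)] g) z := by
    intro i
    rw [ModularForm.SL_slash_apply]
    have hd := denom_ne_zero g z
    rw [mul_comm, mul_assoc, ← zpow_add₀ hd]
    simp
  unfold wfun
  rw [Fermat.Agent.S24.CuspTop.disc_smul]
  simp only [hH, Fin.prod_univ_four]
  have hd := denom_ne_zero g z
  have hΔ := ModularForm.discriminant_ne_zero z
  field_simp

omit [NeZero M] in
/-- Conjugates of `T ^ M` lie in `Γ₁(M)`. -/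
theorem conj_T_pow_mem_Gamma1 (g : SL(2, ℤ)) :
    g * ModularGroup.T ^ (M : ℤ) * g⁻¹ ∈ Gamma1 M := by
  have h1 : ModularGroup.T ^ (M : ℤ) ∈ CongruenceSubgroup.Gamma M := by
    have := ModularGroup_T_pow_mem_Gamma (M : ℤ) (M : ℤ) dvd_rfl
    simpa using this
  have h2 : g * ModularGroup.T ^ (M : ℤ) * g⁻¹ ∈ CongruenceSubgroup.Gamma M :=
    (Gamma_normal M).conj_mem _ h1 g
  rw [Gamma_mem] at h2
  rw [Gamma1_mem]
  exact ⟨h2.1, h2.2.2.2, h2.2.2.1⟩

/-- `M`-periodicity of the translates. -/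
theorem wfun_comp_vadd (u : Fin 4 → ZMod M) (g : SL(2, ℤ)) (z : ℍ) :
    wfun M u (g • (((M : ℕ) : ℝ) +ᵥ z)) = wfun M u (g • z) := by
  have h1 : (((M : ℕ) : ℝ) +ᵥ z : ℍ) = ModularGroup.T ^ (M : ℤ) • z := by
    rw [UpperHalfPlane.modular_T_zpow_smul]
    simp
  have h2 : g • (ModularGroup.T ^ (M : ℤ) • z) =
      (g * ModularGroup.T ^ (M : ℤ) * g⁻¹) • (g • z) := by
    rw [← mul_smul, ← mul_smul]
    congr 1
    group
  rw [h1, h2]
  exact wfun_smul_Gamma1 u _ (conj_T_pow_mem_Gamma1 g) (g • z)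

/-- **Cusp behaviour**: every `SL(2, ℤ)`-translate of a weight-0 generator is holomorphic,
`M`-periodic and meromorphic at `i∞`. -/
theorem wfun_comp_mem_MerInf (u : Fin 4 → ZMod M) (g : SL(2, ℤ)) :
    (fun z : ℍ => wfun M u (g • z)) ∈ Fermat.Agent.S24.QLaurent.MerInf M := by
  have hfun : (fun z : ℍ => wfun M u (g • z)) =
      fun z => (∏ i, (⇑(H M (u i)) ∣[(3 : ℤ)] g) z) / ModularForm.discriminant z :=
    funext (wfun_smul_eq u g)
  rw [Fermat.Agent.S24.QLaurent.mem_MerInf_iff_discriminant]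
  refine ⟨?_, ?_, 1, ?_⟩
  · rw [hfun]
    have h1 : MDiff (fun z : ℍ => ∏ i : Fin 4, (⇑(H M (u i)) ∣[(3 : ℤ)] g) z) := by
      have : (fun z : ℍ => ∏ i : Fin 4, (⇑(H M (u i)) ∣[(3 : ℤ)] g) z) =
          fun z => (⇑(H M (u 0)) ∣[(3 : ℤ)] g) z * (⇑(H M (u 1)) ∣[(3 : ℤ)] g) z *
            (⇑(H M (u 2)) ∣[(3 : ℤ)] g) z * (⇑(H M (u 3)) ∣[(3 : ℤ)] g) z := by
        funext z
        rw [Fin.prod_univ_four]
      rw [this]
      exact (((mdiff_H_slash (u 0) g).mul (mdiff_H_slash (u 1) g)).mul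
        (mdiff_H_slash (u 2) g)).mul (mdiff_H_slash (u 3) g)
    exact h1.div CuspForm.discriminant.holo' ModularForm.discriminant_ne_zero
  · rw [Fermat.Agent.S24.QLaurent.periodic_comp_ofComplex_iff]
    intro z
    exact wfun_comp_vadd u g z
  · have hb : IsBoundedAtImInfty (fun z : ℍ => (⇑(H M (u 0)) ∣[(3 : ℤ)] g) z *
        (⇑(H M (u 1)) ∣[(3 : ℤ)] g) z * (⇑(H M (u 2)) ∣[(3 : ℤ)] g) z *
        (⇑(H M (u 3)) ∣[(3 : ℤ)] g) z) :=
      (((isBoundedAtImInfty_H_slash (u 0) g).mul (isBoundedAtImInfty_H_slash (u 1) g)).mul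
        (isBoundedAtImInfty_H_slash (u 2) g)).mul (isBoundedAtImInfty_H_slash (u 3) g)
    have e : (fun z : ℍ => ModularForm.discriminant z ^ 1 * wfun M u (g • z)) =
        fun z : ℍ => (⇑(H M (u 0)) ∣[(3 : ℤ)] g) z *
        (⇑(H M (u 1)) ∣[(3 : ℤ)] g) z * (⇑(H M (u 2)) ∣[(3 : ℤ)] g) z *
        (⇑(H M (u 3)) ∣[(3 : ℤ)] g) z := by
      funext z
      rw [wfun_smul_eq, Fin.prod_univ_four, pow_one,
        mul_div_cancel₀ _ (ModularForm.discriminant_ne_zero z)]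
    rw [e]
    exact hb

end Fermat.Agent.G1.EisGen
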