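/-
G1: elementary facts on the groups `Γ₁(M)` and `Γ₁(M) ⊓ Γ₀(N)` used by the dictionary / Jacobian
layers: regularity (`Jac.IsReg`) for `M ≥ 5`, `T ∈ Γ`, finite index, `-1 ∉ Γ`, and the conjugates
of `T ^ N` (cusp widths divide `N` when `M ∣ N`).
-/
import Mathlib
import Fermat.Agent.G1.Jac.Defs
import Fermat.Agent.G1.EisGenCusp

set_option autoImplicit false

namespace Fermat.Agent.G1

open CongruenceSubgroup
open scoped MatrixGroups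

/-- Regularity passes to subgroups. -/
theorem isReg_of_le {Γ Γ' : Subgroup SL(2, ℤ)} (h : Γ' ≤ Γ) (hΓ : Jac.IsReg Γ) : Jac.IsReg Γ' :=
  fun γ hγ htr => hΓ γ (h hγ) htr

/-- `Γ₁(M)` is regular for `M ≥ 5`: an element with `tr² ≤ 4` has trace `2`. -/
theorem isReg_Gamma1 {M : ℕ} (hM : 5 ≤ M) : Jac.IsReg (Gamma1 M) := by
  intro γ hγ htr
  rw [Gamma1_mem] at hγ
  obtain ⟨h00, h11, -⟩ := hγ
  have htrace : (γ : Matrix (Fin 2) (Fin 2) ℤ).trace = γ 0 0 + γ 1 1 := by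
    rw [Matrix.trace_fin_two]
  rw [htrace] at htr ⊢
  have hdvd : (M : ℤ) ∣ γ 0 0 + γ 1 1 - 2 := by
    rw [← ZMod.intCast_zmod_eq_zero_iff_dvd]
    push_cast
    rw [h00, h11]
    norm_num
  obtain ⟨k, hk⟩ := hdvd
  have hM' : (5 : ℤ) ≤ M := by exact_mod_cast hM
  have h1 : -2 ≤ γ 0 0 + γ 1 1 := by nlinarith
  have h2 : γ 0 0 + γ 1 1 ≤ 2 := by nlinarith
  have hk0 : k = 0 := by
    by_contra hne
    rcases lt_or_gt_of_ne hne with hlt | hgt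
    · have : k ≤ -1 := by omega
      nlinarith
    · have : 1 ≤ k := by omega
      nlinarith
  rw [hk0, mul_zero] at hk
  omega

/-- `Γ₁(M) ⊓ Γ₀(N)` is regular for `M ≥ 5`. -/
theorem isReg_Gamma1_inf_Gamma0 {M : ℕ} (hM : 5 ≤ M) (N : ℕ) :
    Jac.IsReg (Gamma1 M ⊓ Gamma0 N) :=
  isReg_of_le inf_le_left (isReg_Gamma1 hM)

theorem T_mem_Gamma1' (M : ℕ) : ModularGroup.T ∈ Gamma1 M := by
  rw [Gamma1_mem]
  simp [ModularGroup.T]

theorem T_mem_Gamma0' (N : ℕ) : ModularGroup.T ∈ Gamma0 N := by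
  rw [Gamma0_mem]
  simp [ModularGroup.T]

/-- `T ∈ Γ₁(M) ⊓ Γ₀(N)`. -/
theorem T_mem_Gamma1_inf_Gamma0 (M N : ℕ) : ModularGroup.T ∈ Gamma1 M ⊓ Gamma0 N :=
  ⟨T_mem_Gamma1' M, T_mem_Gamma0' N⟩

/-- `Γ₁(M) ⊓ Γ₀(N)` has finite index in `SL(2, ℤ)`. -/
instance finiteIndex_Gamma1_inf_Gamma0 (M N : ℕ) [NeZero M] [NeZero N] :
    (Gamma1 M ⊓ Gamma0 N).FiniteIndex :=
  inferInstance

/-- `-1 ∉ Γ₁(M)` for `M ≥ 3`. -/
theorem neg_one_notMem_Gamma1 {M : ℕ} (hM : 3 ≤ M) : (-1 : SL(2, ℤ)) ∉ Gamma1 M := by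
  intro h
  rw [Gamma1_mem] at h
  have h00 := h.1
  have e : ((-1 : SL(2, ℤ)) 0 0 : ℤ) = -1 := by simp
  rw [e] at h00
  have h2 : ((2 : ℕ) : ZMod M) = 0 := by
    have : (2 : ZMod M) = 1 - ((-1 : ℤ) : ZMod M) := by push_cast; ring
    push_cast
    rw [this, h00, sub_self]
  rw [ZMod.natCast_eq_zero_iff] at h2
  have := Nat.le_of_dvd (by norm_num) h2
  omega

/-- Conjugates of `T ^ N` lie in `Γ₁(M) ⊓ Γ₀(N)` when `M ∣ N` (all cusp widths divide `N`). -/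
theorem conj_T_pow_mem_Gamma1_inf_Gamma0 {M N : ℕ} (hMN : M ∣ N) (g : SL(2, ℤ)) :
    g * ModularGroup.T ^ (N : ℤ) * g⁻¹ ∈ Gamma1 M ⊓ Gamma0 N := by
  have h1 : g * ModularGroup.T ^ (N : ℤ) * g⁻¹ ∈ Gamma1 N := EisGen.conj_T_pow_mem_Gamma1 g
  refine ⟨?_, Gamma1_in_Gamma0 N h1⟩
  show g * ModularGroup.T ^ (N : ℤ) * g⁻¹ ∈ Gamma1 M
  rw [Gamma1_mem] at h1 ⊢
  obtain ⟨a, b, c⟩ := h1
  have cast : ∀ x : ℤ, (ZMod.cast (x : ZMod N) : ZMod M) = (x : ZMod M) := fun x =>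
    ZMod.cast_intCast hMN x
  refine ⟨?_, ?_, ?_⟩
  · have := congrArg (ZMod.cast : ZMod N → ZMod M) a
    rw [cast] at this
    rw [this]
    exact ZMod.cast_one hMN
  · have := congrArg (ZMod.cast : ZMod N → ZMod M) b
    rw [cast] at this
    rw [this]
    exact ZMod.cast_one hMN
  · have := congrArg (ZMod.cast : ZMod N → ZMod M) c
    rw [cast] at this
    rw [this]
    exact ZMod.cast_zero

end Fermat.Agent.G1
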