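import Mathlib
import Fermat.Agent.G1.GalDefs
import Fermat.Agent.S24.Mer

/-!
# G1-GAL (a): the meromorphic function of an element of `K·F1(M)`

* `MerRep.mer fm ev f` : generic construction.  For a "representation system" — a field `F`
  over `K` all of whose elements are quotients `fm P / fm Q` of formal evaluations of
  polynomials, with an analytic evaluation `ev` into holomorphic functions on `ℍ` such that
  `fm P = 0 ↔ ev P = 0` (`MerRep.IsRepSys`) — the function `ev P / ev Q` of a chosen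
  representative, with the usual rules up to discrete subsets of `U = {Im z > 0}`
  (`mer_eq_div_ae`, `meromorphicOn_mer`, `mer_mul`, `mer_add`, `mer_algebraMap`,
  `mer_eq_zero_iff`, `mer_one`, `mer_neg`, `mer_pow`, `mer_injective`, `mer_comp_mob`).
  The Γ₀-function `Jac.merK ι N` is the instance `(fmK K N, evK ι N)` (`merK_eq_mer`).
* `merK1 ι M f` : the instance `(fm1 K M, ev1 M ι)`, with the same rules (`merK1_*`) and
  `Γ₁(M)`-invariance `merK1_mob`.
-/

set_option autoImplicit false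
set_option linter.unusedSectionVars false

open UpperHalfPlane ModularForm CongruenceSubgroup ModularCurve Filter
open scoped MatrixGroups Manifold Topology

noncomputable section

namespace Fermat.Agent.G1

open Fermat.Agent.S24 Fermat.Agent.ESJ.Jac

namespace MerRep

open Fermat.Agent.S24.Mer

variable {K : Type} [Field K] {σ : Type*} {F : Type*} [Field F] [Algebra K F]
  (fm : MvPolynomial σ K →ₐ[K] F) (ev : MvPolynomial σ K →+* (ℍ → ℂ))

/-- The meromorphic function attached to `f : F`: `ev P / ev Q` for a chosen representative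
`f = fm P / fm Q`. -/
def mer (f : F) : ℂ → ℂ :=
  open scoped Classical in
  if h : ∃ P Q, fm Q ≠ 0 ∧ f = fm P / fm Q then
    fun z => ev h.choose (ofComplex z) / ev h.choose_spec.choose (ofComplex z)
  else 0

/-- A representation system: every element is a quotient of formal evaluations, the analytic
evaluations are holomorphic, and formal relations are exactly the analytic relations. -/
structure IsRepSys (ι : K →+* ℂ) : Prop where
  exists_rep : ∀ f : F, ∃ P Q, fm Q ≠ 0 ∧ f = fm P / fm Q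
  zero_iff : ∀ P, fm P = 0 ↔ ev P = 0
  mdiff : ∀ P, MDiff (ev P)
  ev_C : ∀ c : K, ev (MvPolynomial.C c) = fun _ => ι c

variable {fm ev} {ι : K →+* ℂ} (hS : IsRepSys fm ev ι)
include hS

theorem IsRepSys.ev_ne_zero {P : MvPolynomial σ K} (h : fm P ≠ 0) : ev P ≠ 0 :=
  fun h0 => h ((hS.zero_iff P).2 h0)

/-- `mer` is the quotient `ev P / ev Q` for some representative of `f`. -/
theorem mer_spec (f : F) : ∃ P Q, (fm Q ≠ 0 ∧ f = fm P / fm Q) ∧
    mer fm ev f = fun z => ev P (ofComplex z) / ev Q (ofComplex z) := by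
  have h : ∃ P Q, fm Q ≠ 0 ∧ f = fm P / fm Q := hS.exists_rep f
  refine ⟨h.choose, h.choose_spec.choose, h.choose_spec.choose_spec, ?_⟩
  unfold mer
  rw [dif_pos h]

/-- Two representatives of the same element: cross-multiplication on the analytic side. -/
theorem ev_mul_eq_of_rep {f : F} {P Q P' Q' : MvPolynomial σ K}
    (h : fm Q ≠ 0 ∧ f = fm P / fm Q) (h' : fm Q' ≠ 0 ∧ f = fm P' / fm Q') (τ : ℍ) :
    ev P τ * ev Q' τ = ev P' τ * ev Q τ := by
  have e : fm P / fm Q = fm P' / fm Q' := by rw [← h.2, ← h'.2]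
  rw [div_eq_div_iff h.1 h'.1] at e
  have h0 : fm (P * Q' - P' * Q) = 0 := by rw [map_sub, map_mul, map_mul, e, sub_self]
  have h1 := (hS.zero_iff _).1 h0
  rw [map_sub, map_mul, map_mul, sub_eq_zero] at h1
  exact congrFun h1 τ

/-- Off a discrete subset of `U`, `mer` can be computed on any representative. -/
theorem mer_eq_div_ae (f : F) {P Q : MvPolynomial σ K} (h : fm Q ≠ 0 ∧ f = fm P / fm Q) :
    mer fm ev f =ᶠ[codiscreteWithin U]
      fun z => ev P (ofComplex z) / ev Q (ofComplex z) := by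
  obtain ⟨P0, Q0, h0, e0⟩ := mer_spec hS f
  have hQ := ne_zero_mem_codiscreteWithin (hS.mdiff Q) (hS.ev_ne_zero h.1)
  have hQ0 := ne_zero_mem_codiscreteWithin (hS.mdiff Q0) (hS.ev_ne_zero h0.1)
  filter_upwards [hQ, hQ0] with z hz hz0
  have hz' : ev Q (ofComplex z) ≠ 0 := hz
  have hz0' : ev Q0 (ofComplex z) ≠ 0 := hz0
  rw [e0]
  show ev P0 (ofComplex z) / ev Q0 (ofComplex z) = ev P (ofComplex z) / ev Q (ofComplex z)
  rw [div_eq_div_iff hz0' hz']
  exact ev_mul_eq_of_rep hS h0 h (ofComplex z)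

/-- `mer f` is meromorphic on `U`. -/
theorem meromorphicOn_mer (f : F) : MeromorphicOn (mer fm ev f) U := by
  obtain ⟨P, Q, h, e⟩ := mer_spec hS f
  intro z hz
  rw [e]
  exact ((analyticAt_comp_ofComplex (hS.mdiff P) hz).meromorphicAt).div
    ((analyticAt_comp_ofComplex (hS.mdiff Q) hz).meromorphicAt)

theorem mer_mul (f g : F) : mer fm ev (f * g) =ᶠ[codiscreteWithin U]
    fun z => mer fm ev f z * mer fm ev g z := by
  obtain ⟨P1, Q1, h1, e1⟩ := mer_spec hS f
  obtain ⟨P2, Q2, h2, e2⟩ := mer_spec hS g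
  have h3 : fm (Q1 * Q2) ≠ 0 ∧ f * g = fm (P1 * P2) / fm (Q1 * Q2) := by
    refine ⟨?_, ?_⟩
    · rw [map_mul]
      exact mul_ne_zero h1.1 h2.1
    · rw [map_mul, map_mul]
      conv_lhs => rw [h1.2, h2.2]
      rw [div_mul_div_comm]
  filter_upwards [mer_eq_div_ae hS (f * g) h3] with z hz
  rw [hz, e1, e2]
  simp only [map_mul, Pi.mul_apply]
  rw [mul_div_mul_comm]

theorem mer_add (f g : F) : mer fm ev (f + g) =ᶠ[codiscreteWithin U]
    fun z => mer fm ev f z + mer fm ev g z := by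
  obtain ⟨P1, Q1, h1, e1⟩ := mer_spec hS f
  obtain ⟨P2, Q2, h2, e2⟩ := mer_spec hS g
  have h3 : fm (Q1 * Q2) ≠ 0 ∧ f + g = fm (P1 * Q2 + Q1 * P2) / fm (Q1 * Q2) := by
    refine ⟨?_, ?_⟩
    · rw [map_mul]
      exact mul_ne_zero h1.1 h2.1
    · rw [map_add, map_mul, map_mul, map_mul]
      conv_lhs => rw [h1.2, h2.2]
      rw [div_add_div _ _ h1.1 h2.1]
  have hQ1 := ne_zero_mem_codiscreteWithin (hS.mdiff Q1) (hS.ev_ne_zero h1.1)
  have hQ2 := ne_zero_mem_codiscreteWithin (hS.mdiff Q2) (hS.ev_ne_zero h2.1)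
  filter_upwards [mer_eq_div_ae hS (f + g) h3, hQ1, hQ2] with z hz hz1 hz2
  have hz1' : ev Q1 (ofComplex z) ≠ 0 := hz1
  have hz2' : ev Q2 (ofComplex z) ≠ 0 := hz2
  rw [hz, e1, e2]
  simp only [map_add, map_mul, Pi.add_apply, Pi.mul_apply]
  rw [div_add_div _ _ hz1' hz2']

theorem mer_algebraMap (c : K) : mer fm ev (algebraMap K F c)
    =ᶠ[codiscreteWithin U] fun _ => ι c := by
  have h : fm 1 ≠ 0 ∧ algebraMap K F c = fm (MvPolynomial.C c) / fm 1 := by
    refine ⟨by rw [map_one]; exact one_ne_zero, ?_⟩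
    rw [map_one, div_one, ← MvPolynomial.algebraMap_eq, AlgHom.commutes]
  filter_upwards [mer_eq_div_ae hS _ h] with z hz
  rw [hz, hS.ev_C c, map_one]
  simp

theorem mer_eq_zero_iff (f : F) :
    mer fm ev f =ᶠ[codiscreteWithin U] (fun _ => (0 : ℂ)) ↔ f = 0 := by
  obtain ⟨P, Q, h, e⟩ := mer_spec hS f
  constructor
  · intro hz
    by_contra hf
    have hP : fm P ≠ 0 := by
      intro h0
      apply hf
      rw [h.2, h0, zero_div]
    have hP' := ne_zero_mem_codiscreteWithin (hS.mdiff P) (hS.ev_ne_zero hP)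
    have hQ' := ne_zero_mem_codiscreteWithin (hS.mdiff Q) (hS.ev_ne_zero h.1)
    have hfalse : ∀ᶠ _ in codiscreteWithin U, False := by
      filter_upwards [hz, hP', hQ'] with z hz0 hzP hzQ
      have hzP' : ev P (ofComplex z) ≠ 0 := hzP
      have hzQ' : ev Q (ofComplex z) ≠ 0 := hzQ
      rw [e] at hz0
      exact div_ne_zero hzP' hzQ' hz0
    have := codiscreteWithin_U_neBot
    obtain ⟨_, hx⟩ := hfalse.exists
    exact hx
  · intro hf
    have hP : fm P = 0 := by
      have h2 := h.2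
      rw [hf] at h2
      rcases div_eq_zero_iff.mp h2.symm with h0 | h0
      · exact h0
      · exact absurd h0 h.1
    have hev : ev P = 0 := (hS.zero_iff P).1 hP
    rw [e, hev]
    exact Eventually.of_forall fun z => by simp

theorem mer_one : mer fm ev (1 : F) =ᶠ[codiscreteWithin U] fun _ => (1 : ℂ) := by
  have h := mer_algebraMap hS (1 : K)
  rw [map_one] at h
  filter_upwards [h] with z hz
  rw [hz, map_one]

theorem mer_neg (f : F) : mer fm ev (-f) =ᶠ[codiscreteWithin U] fun z => -mer fm ev f z := by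
  have h1 := mer_add hS f (-f)
  have h2 := (mer_eq_zero_iff hS (f + -f)).2 (by ring)
  filter_upwards [h1, h2] with z hz1 hz2
  rw [hz2] at hz1
  exact eq_neg_of_add_eq_zero_right hz1.symm

theorem mer_sub (f g : F) : mer fm ev (f - g) =ᶠ[codiscreteWithin U]
    fun z => mer fm ev f z - mer fm ev g z := by
  have h1 := mer_add hS f (-g)
  have h2 := mer_neg hS g
  filter_upwards [h1, h2] with z hz1 hz2
  rw [sub_eq_add_neg, hz1, hz2, sub_eq_add_neg]

theorem mer_pow (f : F) (n : ℕ) : mer fm ev (f ^ n) =ᶠ[codiscreteWithin U]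
    fun z => mer fm ev f z ^ n := by
  induction n with
  | zero =>
    filter_upwards [mer_one hS] with z hz
    rw [pow_zero, hz, pow_zero]
  | succ n ih =>
    filter_upwards [mer_mul hS (f ^ n) f, ih] with z hz1 hz2
    rw [pow_succ, hz1, hz2, pow_succ]

theorem mer_injective {f g : F}
    (h : mer fm ev f =ᶠ[codiscreteWithin U] mer fm ev g) : f = g := by
  rw [← sub_eq_zero, ← mer_eq_zero_iff hS]
  filter_upwards [mer_sub hS f g, h] with z hz1 hz2
  rw [hz1, hz2, sub_self]

/-- Invariance: if every `ev P` is invariant under `γ`, so is `mer f` on `U`. -/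
theorem mer_mob (f : F) (γ : SL(2, ℤ)) (hγ : ∀ (P : MvPolynomial σ K) (z : ℍ), ev P (γ • z) = ev P z)
    {z : ℂ} (hz : z ∈ U) : mer fm ev f (mob γ z) = mer fm ev f z := by
  obtain ⟨P, Q, h, e⟩ := mer_spec hS f
  rw [e]
  show ev P (ofComplex (mob γ z)) / ev Q (ofComplex (mob γ z))
    = ev P (ofComplex z) / ev Q (ofComplex z)
  rw [ofComplex_mob γ hz, hγ P, hγ Q]

/-- Equivariance: if `ev P ∘ γ = ev (r P)` and `δ (fm P) = fm (r P)` for a field endomorphism
`δ` and a ring endomorphism `r` of the polynomial ring, then `mer (δ f) = mer f ∘ γ` off a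
discrete set. -/
theorem mer_comp_mob (δ : F →+* F) (r : MvPolynomial σ K →+* MvPolynomial σ K)
    (hδ : ∀ P, δ (fm P) = fm (r P)) (γ : SL(2, ℤ))
    (hγ : ∀ (P : MvPolynomial σ K) (z : ℍ), ev P (γ • z) = ev (r P) z) (f : F) :
    mer fm ev (δ f) =ᶠ[codiscreteWithin U] fun z => mer fm ev f (mob γ z) := by
  obtain ⟨P, Q, h, e⟩ := mer_spec hS f
  have h' : fm (r Q) ≠ 0 ∧ δ f = fm (r P) / fm (r Q) := by
    refine ⟨?_, ?_⟩
    · rw [← hδ]
      exact (map_ne_zero δ).2 h.1
    · rw [h.2, map_div₀, hδ, hδ]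
  filter_upwards [mer_eq_div_ae hS (δ f) h', self_mem_codiscreteWithin U] with z hz hzU
  rw [hz, e]
  show _ = ev P (ofComplex (mob γ z)) / ev Q (ofComplex (mob γ z))
  rw [ofComplex_mob γ hzU, hγ P, hγ Q]

end MerRep

/-! ### The instance `K·F1(M)` -/

section F1

variable {K : Type} [Field K] [Algebra ℚ K] (ι : K →+* ℂ) (M : ℕ) [NeZero M]

/-- The meromorphic function on `ℂ` (only its restriction to `U` matters) attached to
`f ∈ K·F1(M)`: `ev1 P / ev1 Q` for a chosen representative `f = fm1 P / fm1 Q`. -/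
def merK1 (f : F1K K M) : ℂ → ℂ := MerRep.mer (fm1 K M) (ev1 M ι) f

/-- `(fm1, ev1)` is a representation system. -/
theorem isRepSys1 : MerRep.IsRepSys (fm1 K M) (ev1 M ι) ι where
  exists_rep := exists_isRep1 K M
  zero_iff := fm1_eq_zero_iff M ι
  mdiff := mdiff_ev1 M ι
  ev_C := ev1_C M ι

theorem merK1_spec (f : F1K K M) : ∃ P Q, IsRep1 K M f P Q ∧
    merK1 ι M f = fun z => ev1 M ι P (ofComplex z) / ev1 M ι Q (ofComplex z) :=
  MerRep.mer_spec (isRepSys1 ι M) f

/-- Off a discrete subset of `U`, `merK1` is `ev1 P / ev1 Q` for ANY representative. -/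
theorem merK1_eq_div_ae (f : F1K K M) {P Q : MvPolynomial (Gv M) K} (h : IsRep1 K M f P Q) :
    merK1 ι M f =ᶠ[codiscreteWithin U]
      fun z => ev1 M ι P (ofComplex z) / ev1 M ι Q (ofComplex z) :=
  MerRep.mer_eq_div_ae (isRepSys1 ι M) f h

theorem meromorphicOn_merK1 (f : F1K K M) : MeromorphicOn (merK1 ι M f) U :=
  MerRep.meromorphicOn_mer (isRepSys1 ι M) f

theorem merK1_mul (f g : F1K K M) : merK1 ι M (f * g) =ᶠ[codiscreteWithin U]
    fun z => merK1 ι M f z * merK1 ι M g z :=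
  MerRep.mer_mul (isRepSys1 ι M) f g

theorem merK1_add (f g : F1K K M) : merK1 ι M (f + g) =ᶠ[codiscreteWithin U]
    fun z => merK1 ι M f z + merK1 ι M g z :=
  MerRep.mer_add (isRepSys1 ι M) f g

theorem merK1_algebraMap (c : K) : merK1 ι M (algebraMap K (F1K K M) c)
    =ᶠ[codiscreteWithin U] fun _ => ι c :=
  MerRep.mer_algebraMap (isRepSys1 ι M) c

theorem merK1_eq_zero_iff (f : F1K K M) :
    merK1 ι M f =ᶠ[codiscreteWithin U] (fun _ => (0 : ℂ)) ↔ f = 0 :=
  MerRep.mer_eq_zero_iff (isRepSys1 ι M) f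

theorem merK1_one : merK1 ι M (1 : F1K K M) =ᶠ[codiscreteWithin U] fun _ => (1 : ℂ) :=
  MerRep.mer_one (isRepSys1 ι M)

theorem merK1_neg (f : F1K K M) :
    merK1 ι M (-f) =ᶠ[codiscreteWithin U] fun z => -merK1 ι M f z :=
  MerRep.mer_neg (isRepSys1 ι M) f

theorem merK1_sub (f g : F1K K M) : merK1 ι M (f - g) =ᶠ[codiscreteWithin U]
    fun z => merK1 ι M f z - merK1 ι M g z :=
  MerRep.mer_sub (isRepSys1 ι M) f g

theorem merK1_pow (f : F1K K M) (n : ℕ) : merK1 ι M (f ^ n) =ᶠ[codiscreteWithin U]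
    fun z => merK1 ι M f z ^ n :=
  MerRep.mer_pow (isRepSys1 ι M) f n

theorem merK1_injective {f g : F1K K M}
    (h : merK1 ι M f =ᶠ[codiscreteWithin U] merK1 ι M g) : f = g :=
  MerRep.mer_injective (isRepSys1 ι M) h

/-- `merK1 ι M f` is `Γ₁(M)`-invariant on `U`. -/
theorem merK1_mob (f : F1K K M) (γ : SL(2, ℤ)) (hγ : γ ∈ Gamma1 M) {z : ℂ} (hz : z ∈ U) :
    merK1 ι M f (mob γ z) = merK1 ι M f z :=
  MerRep.mer_mob (isRepSys1 ι M) f γ (fun P z => ev1_smul_Gamma1 M ι P γ hγ z) hz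

/-- The function of a polynomial in the generators. -/
theorem merK1_fm1 (P : MvPolynomial (Gv M) K) :
    merK1 ι M (fm1 K M P) =ᶠ[codiscreteWithin U] fun z => ev1 M ι P (ofComplex z) := by
  have h : IsRep1 K M (fm1 K M P) P 1 :=
    ⟨by rw [map_one]; exact one_ne_zero, by rw [map_one, div_one]⟩
  filter_upwards [merK1_eq_div_ae ι M _ h] with z hz
  rw [hz, map_one]
  simp

end F1

end Fermat.Agent.G1
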