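import Mathlib
import Fermat.Agent.G1.Dict.Defs
import Fermat.Agent.G1.GenInvHecke

/-!
# G1-GAL: the fixed field of the diamond automorphisms is `K·F0(M a)`

Level `(M, a)`, helper9's names (`G1/Dict/Defs.lean`): `F1aK K M a = K·F1a(M, a)`, generators
indexed by `Ix M a = Dv (M a) ⊕ (ZMod M)ˣ`, `fm1K`, `gen1Fun`.

* `mem_of_forall_fixed` : abstract Artin-type lemma (norm and trace of a polynomial
  representative);
* `gen1Fun_smul` : `Γ₀(M a)` permutes the analytic generators through the lower right entry;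
* `fm1K_mem_of_invariant` : a polynomial in the generators which is invariant under the diamond
  substitutions `X_u ↦ X_{u c}` lies in `K·F0(M a)`;
* `fixed_mem_range` : an element of `K·F1a(M, a)` fixed by a family of ring endomorphisms `δ_c`
  acting on the generators by `X_u ↦ X_{u c}` lies in (the image of) `K·F0(M a)`.
-/

set_option autoImplicit false
set_option linter.unusedSectionVars false

open UpperHalfPlane ModularForm CongruenceSubgroup ModularCurve
open scoped MatrixGroups Manifold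

noncomputable section

namespace Fermat.Agent.G1.GalArt

open Fermat.Agent.S24 Fermat.Agent.S24.QExp Fermat.Agent.ESJ.Jac Fermat.Agent.G1.Dict

/-! ### The abstract lemma -/

section Abstract

variable {K F σ C : Type*} [Field K] [Field F] [Algebra K F] [CharZero F] [Group C] [Fintype C]

/-- **Fixed elements are quotients of invariant polynomials.**  `fm` evaluates polynomials in
`F`, every element of `F` is a quotient `fm P / fm Q`, the finite group `C` acts on the
polynomials by `tw` and on `F` by `δ` compatibly, and `fm` maps invariant polynomials into the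
subfield `F0`.  Then every `δ`-fixed element of `F` lies in `F0`. -/
theorem mem_of_forall_fixed (fm : MvPolynomial σ K →ₐ[K] F)
    (tw : C → MvPolynomial σ K →ₐ[K] MvPolynomial σ K)
    (tw_one : ∀ P, tw 1 P = P) (tw_mul : ∀ c c' P, tw c (tw c' P) = tw (c * c') P)
    (δ : C → F →+* F) (hδ : ∀ c P, δ c (fm P) = fm (tw c P))
    (hrep : ∀ f : F, ∃ P Q, fm Q ≠ 0 ∧ f = fm P / fm Q)
    (F0 : Subfield F) (hF0 : ∀ Ψ, (∀ c, tw c Ψ = Ψ) → fm Ψ ∈ F0)
    (f : F) (hf : ∀ c, δ c f = f) : f ∈ F0 := by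
  classical
  obtain ⟨P, Q, hQ, hfPQ⟩ := hrep f
  -- the norm of the denominator
  set Q' : MvPolynomial σ K := ∏ c, tw c Q with hQ'
  have hQ'inv : ∀ c, tw c Q' = Q' := by
    intro c
    rw [hQ', map_prod]
    simp only [tw_mul]
    exact Fintype.prod_equiv (Equiv.mulLeft c) _ _ (fun _ => rfl)
  have hQ'0 : fm Q' ≠ 0 := by
    rw [hQ', map_prod]
    refine Finset.prod_ne_zero_iff.2 fun c _ => ?_
    rw [← hδ]
    exact (map_ne_zero (δ c)).2 hQ
  -- the numerator
  set P₁ : MvPolynomial σ K := P * ∏ c ∈ Finset.univ.erase (1 : C), tw c Q with hP₁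
  have hQ'eq : Q' = Q * ∏ c ∈ Finset.univ.erase (1 : C), tw c Q := by
    rw [hQ', ← Finset.mul_prod_erase Finset.univ (fun c => tw c Q) (Finset.mem_univ 1), tw_one]
  have hrest : fm (∏ c ∈ Finset.univ.erase (1 : C), tw c Q) ≠ 0 := by
    intro h
    apply hQ'0
    rw [hQ'eq, map_mul, h, mul_zero]
  have hf1 : fm P₁ = f * fm Q' := by
    rw [hP₁, hQ'eq, map_mul, map_mul, hfPQ]
    field_simp
  have hfix : ∀ c, δ c (fm P₁) = fm P₁ := by
    intro c
    rw [hf1, map_mul, hf c, hδ, hQ'inv]
  -- the trace of the numerator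
  set P₂ : MvPolynomial σ K := ∑ c, tw c P₁ with hP₂
  have hP₂inv : ∀ c, tw c P₂ = P₂ := by
    intro c
    rw [hP₂, map_sum]
    simp only [tw_mul]
    exact Fintype.sum_equiv (Equiv.mulLeft c) _ _ (fun _ => rfl)
  have hP₂ev : fm P₂ = (Fintype.card C : F) * fm P₁ := by
    rw [hP₂, map_sum]
    simp only [← hδ, hfix]
    rw [Finset.sum_const, Finset.card_univ, nsmul_eq_mul]
  have hcard : (Fintype.card C : F) ≠ 0 := Nat.cast_ne_zero.2 Fintype.card_ne_zero
  have hfin : f = fm P₂ / ((Fintype.card C : F) * fm Q') := by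
    rw [hP₂ev, hf1]
    field_simp
  rw [hfin]
  exact F0.div_mem (hF0 P₂ hP₂inv) (F0.mul_mem (natCast_mem F0 _) (hF0 Q' hQ'inv))

end Abstract

/-! ### The generators at level `(M, a)` -/

section Gens

variable {K : Type} [Field K] [Algebra ℚ K] (M a : ℕ) [NeZero M] [NeZero a]

theorem coe_fm1K (P : MvPolynomial (Ix M a) K) :
    ((fm1K K M a P : F1aK K M a) : LaurentSeries K)
      = MvPolynomial.aeval (fun i : Ix M a => coeffEmb K (gen1Q M a i)) P := by
  have := MvPolynomial.comp_aeval (R := K) (gen1K K M a)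
    (IntermediateField.val (laurentBaseChange K (F1a M a)))
  exact congrArg (fun φ => φ P) this

theorem coeffMap_coeffEmb_rat (ι : K →+* ℂ) (x : LaurentSeries ℚ) :
    coeffMap ι (coeffEmb K x) = coeffMap (algebraMap ℚ ℂ) x := by
  rw [coeffEmb, coeffMap_coeffMap]
  exact coeffMap_congr (RingHom.ext_rat _ _) _

/-- Formal = analytic for the generators. -/
theorem hasQExp_gen1Fun (i : Ix M a) :
    HasQExp 1 (gen1Fun M a i) (coeffMap (algebraMap ℚ ℂ) (gen1Q M a i)) := by
  rcases i with d | u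
  · have : NeZero d.1 := d.neZero
    show HasQExp 1 (Jabd d.1 0 1) (coeffMap (algebraMap ℚ ℂ) (qExpand ℚ d.1 jq))
    rw [coeffMap_qExpand]
    exact hasQExp_Jabd_scale d.1
  · exact hasQExp_xfun' u

/-- The translates of the generators are meromorphic at `i∞` in the parameter `q_{M a}`. -/
theorem gen1Fun_comp_mem_MerInf (i : Ix M a) (g : SL(2, ℤ)) :
    (fun z : ℍ => gen1Fun M a i (g • z)) ∈ Fermat.Agent.S24.QLaurent.MerInf (M * a) := by
  rcases i with d | u
  · have hq := QExp.hasQExp_trans_ev' (M * a) g⁻¹ (MvPolynomial.X d)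
    have hmem := QLaurent.mem_MerInf_of_hasSum hq
    have e : Fermat.Agent.S24.trans g⁻¹ (ev (M * a) (MvPolynomial.X d)) =
        fun z : ℍ => gen1Fun M a (Sum.inl d) (g • z) := by
      funext z
      rw [HNFMod.ev_X]
      show Jabd d.1 0 1 (g⁻¹⁻¹ • z) = Jabd d.1 0 1 (g • z)
      rw [inv_inv]
    rw [e] at hmem
    exact hmem
  · exact QLaurent.MerInf_le_mul M a (xfun_comp_mem_MerInf (u : ZMod M) g)

/-- **Diamond action on the generators**: `γ ∈ Γ₀(M a)` with lower right entry `c` fixes the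
`J(d z)` and maps `x_u` to `x_{u c⁻¹}`. -/
theorem gen1Fun_smul (γ : SL(2, ℤ)) (hγ : γ ∈ Gamma0 (M * a)) (c : (ZMod M)ˣ)
    (hc : (c : ZMod M) = ((γ 1 1 : ℤ) : ZMod M)) (i : Ix M a) (z : ℍ) :
    gen1Fun M a i (γ • z) = gen1Fun M a (Sum.map id (· * c⁻¹) i) z := by
  rcases i with d | u
  · exact HNFMod.Jabd_smul_of_mem_Gamma0 (M * a) d γ hγ z
  · exact xfun_smul_unit u c γ (Gamma0_mul_le γ hγ) hc z

/-- **Invariant polynomials in the generators lie in `K·F0(M a)`.** -/
theorem fm1K_mem_of_invariant (ι : K →+* ℂ) (Ψ : MvPolynomial (Ix M a) K)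
    (hΨ : ∀ c : (ZMod M)ˣ, MvPolynomial.rename (Sum.map id (· * c)) Ψ = Ψ) :
    ((fm1K K M a Ψ : F1aK K M a) : LaurentSeries K) ∈
      laurentBaseChange K (modularFunctionFieldFull (M * a)) := by
  rw [coe_fm1K]
  refine aeval_mem_of_invariant (M * a) (M * a) ι (gen1Fun M a) _ (fun i => ?_)
    (fun i g => gen1Fun_comp_mem_MerInf M a i g) Ψ (fun γ hγ z => ?_)
  · rw [coeffMap_coeffEmb_rat ι]
    exact hasQExp_gen1Fun M a i
  · obtain ⟨c, hc⟩ := isUnit_lowerRight_of_mem_Gamma0 γ (Gamma0_mul_le γ hγ)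
    have h1 : (fun s => gen1Fun M a s (γ • z)) =
        (fun s => gen1Fun M a s z) ∘ (Sum.map id (· * c⁻¹)) := by
      funext s
      exact gen1Fun_smul M a γ hγ c hc s z
    rw [h1, ← MvPolynomial.eval₂_rename, hΨ]

/-- The same, as an element of the image of `K·F0(M a)`. -/
theorem fm1K_mem_range_of_invariant (ι : K →+* ℂ) (Ψ : MvPolynomial (Ix M a) K)
    (hΨ : ∀ c : (ZMod M)ˣ, MvPolynomial.rename (Sum.map id (· * c)) Ψ = Ψ) :
    fm1K K M a Ψ ∈ (algebraMap (FNK K (M * a)) (F1aK K M a)).fieldRange := by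
  rw [RingHom.mem_fieldRange]
  exact ⟨⟨_, fm1K_mem_of_invariant M a ι Ψ hΨ⟩, Subtype.ext (coe_algebraMap_F0 K M a _)⟩

/-- **The fixed field of the diamonds is `K·F0(M a)`.**  `δ` is any family of ring endomorphisms
of `K·F1a(M, a)` acting on the polynomial representatives by the substitution `X_u ↦ X_{u c}`
(the `j`-variables fixed). -/
theorem fixed_mem_range (ι : K →+* ℂ) (hrep : ∀ f : F1aK K M a, ∃ P Q, IsRep1K M a f P Q)
    (δ : (ZMod M)ˣ → F1aK K M a →+* F1aK K M a)
    (hδ : ∀ c P, δ c (fm1K K M a P) =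
      fm1K K M a (MvPolynomial.rename (Sum.map id (· * c)) P))
    (f : F1aK K M a) (hf : ∀ c, δ c f = f) :
    f ∈ (algebraMap (FNK K (M * a)) (F1aK K M a)).range := by
  have : CharZero K := algebraRat.charZero K
  have : CharZero (F1aK K M a) :=
    charZero_of_injective_algebraMap (algebraMap K (F1aK K M a)).injective
  have key := mem_of_forall_fixed (C := (ZMod M)ˣ) (fm1K K M a)
    (fun c => MvPolynomial.rename (Sum.map id (· * c)))
    (fun P => by
      have e : (Sum.map id (· * (1 : (ZMod M)ˣ)) : Ix M a → Ix M a) = id := by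
        funext i
        rcases i with d | u
        · rfl
        · simp
      rw [e, MvPolynomial.rename_id_apply])
    (fun c c' P => by
      rw [MvPolynomial.rename_rename]
      congr 2
      funext i
      rcases i with d | u
      · rfl
      · simp [mul_assoc, mul_comm c c'])
    δ hδ hrep (algebraMap (FNK K (M * a)) (F1aK K M a)).fieldRange
    (fun Ψ hΨ => fm1K_mem_range_of_invariant M a ι Ψ hΨ) f hf
  obtain ⟨x, hx⟩ := RingHom.mem_fieldRange.1 key
  exact ⟨x, hx⟩

end Gens

end Fermat.Agent.G1.GalArt
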