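import Mathlib
import Fermat.Agent.G1.GalFixed
import Fermat.Agent.ESJ.Dict.Bc

/-!
# G1-GAL: `K·F1a(M, a) / K·F0(M a)` is Galois with group `(ℤ/M)ˣ/±1`

* `finrank_eq_card_of_fixed`, `isGalois_of_fixed` : Artin's theorem in the form "a finite group
  `G` of ring automorphisms of `F1` fixing (the image of) `F0` pointwise, with fixed field
  contained in `F0`" (transport of Mathlib's `FixedPoints.finrank_eq_card`);
* `diaGroup K M a` : the ring automorphisms of `K·F1a(M, a)` acting on the polynomial
  representatives by a diamond substitution `X_u ↦ X_{u c}`;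
* `finiteDimensional_F1aK`, `finrank_F1aK : finrank (K·F0(M a)) (K·F1a(M, a)) = #((ℤ/M)ˣ/±1)`
  (`3 ≤ M`), `isGalois_F1aK` — from the existence of the diamond automorphisms (`hex`, helper51's
  `diaK`) and of polynomial representatives (`hrep`).
-/

set_option autoImplicit false
set_option linter.unusedSectionVars false

open UpperHalfPlane ModularForm CongruenceSubgroup ModularCurve Module
open scoped MatrixGroups Manifold

noncomputable section

namespace Fermat.Agent.G1.GalArt

open Fermat.Agent.S24 Fermat.Agent.ESJ.Jac Fermat.Agent.G1.Dict Fermat.Agent.ESJ.Dict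

/-! ### Artin's theorem, transported -/

section AbstractDeg

variable {F0 F1 : Type*} [Field F0] [Field F1] [Algebra F0 F1]

/-- **Artin.**  If a finite group `G` of ring automorphisms of `F1` fixes the image of `F0`
pointwise and every `G`-fixed element comes from `F0`, then `[F1 : F0] = #G`. -/
theorem finrank_eq_card_of_fixed (G : Subgroup (F1 ≃+* F1)) [Finite G]
    (hfix : ∀ g ∈ G, ∀ x : F0, g (algebraMap F0 F1 x) = algebraMap F0 F1 x)
    (hinv : ∀ f : F1, (∀ g ∈ G, g f = f) → f ∈ (algebraMap F0 F1).range) :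
    FiniteDimensional F0 F1 ∧ finrank F0 F1 = Nat.card G := by
  classical
  have : Fintype G := Fintype.ofFinite G
  let S : Subfield F1 := FixedPoints.subfield G F1
  have hmemS : ∀ x : F0, algebraMap F0 F1 x ∈ S := fun x g => hfix g.1 g.2 x
  let f : F0 →+* S := (algebraMap F0 F1).codRestrict S hmemS
  have hf : Function.Bijective f := by
    constructor
    · intro x y h
      exact (algebraMap F0 F1).injective (congrArg Subtype.val h)
    · rintro ⟨y, hy⟩
      obtain ⟨x, hx⟩ := hinv y (fun g hg => hy ⟨g, hg⟩)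
      exact ⟨x, Subtype.ext hx⟩
  let i : F0 ≃+* S := RingEquiv.ofBijective f hf
  have hc : (algebraMap S F1).comp i.toRingHom =
      (RingEquiv.refl F1).toRingHom.comp (algebraMap F0 F1) := by
    ext x
    rfl
  have h1 : finrank F0 F1 = finrank S F1 :=
    Algebra.finrank_eq_of_equiv_equiv i (RingEquiv.refl F1) hc
  have h2 : finrank S F1 = Fintype.card G := FixedPoints.finrank_eq_card G F1
  have h3 : finrank F0 F1 = Nat.card G := by rw [h1, h2, Nat.card_eq_fintype_card]
  refine ⟨FiniteDimensional.of_finrank_pos ?_, h3⟩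
  rw [h3]
  exact Nat.card_pos

/-- In the situation of `finrank_eq_card_of_fixed` the extension is Galois. -/
theorem isGalois_of_fixed (G : Subgroup (F1 ≃+* F1)) [Finite G]
    (hfix : ∀ g ∈ G, ∀ x : F0, g (algebraMap F0 F1 x) = algebraMap F0 F1 x)
    (hinv : ∀ f : F1, (∀ g ∈ G, g f = f) → f ∈ (algebraMap F0 F1).range) :
    IsGalois F0 F1 := by
  obtain ⟨hfd, hrank⟩ := finrank_eq_card_of_fixed G hfix hinv
  apply IsGalois.of_card_aut_eq_finrank
  apply le_antisymm
  · rw [Nat.card_eq_fintype_card]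
    exact AlgEquiv.card_le
  · rw [hrank]
    let φ : G → (F1 ≃ₐ[F0] F1) := fun g =>
      AlgEquiv.ofRingEquiv (f := (g : F1 ≃+* F1)) (fun x => hfix g.1 g.2 x)
    have hφ : Function.Injective φ := by
      intro g g' h
      apply Subtype.ext
      ext x
      exact congrArg (fun e : F1 ≃ₐ[F0] F1 => e x) h
    exact Nat.card_le_card_of_injective φ hφ

end AbstractDeg

/-! ### The diamond substitutions -/

section Subst

variable {K : Type} [Field K] [Algebra ℚ K] (M a : ℕ) [NeZero M] [NeZero a]

theorem rename_dia_one (P : MvPolynomial (Ix M a) K) :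
    MvPolynomial.rename (Sum.map id (· * (1 : (ZMod M)ˣ))) P = P := by
  have e : (Sum.map id (· * (1 : (ZMod M)ˣ)) : Ix M a → Ix M a) = id := by
    funext i
    rcases i with d | u
    · rfl
    · simp
  rw [e, MvPolynomial.rename_id_apply]

theorem rename_dia_mul (c c' : (ZMod M)ˣ) (P : MvPolynomial (Ix M a) K) :
    MvPolynomial.rename (Sum.map id (· * c)) (MvPolynomial.rename (Sum.map id (· * c')) P) =
      MvPolynomial.rename (Sum.map id (· * (c * c'))) P := by
  rw [MvPolynomial.rename_rename]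
  congr 2
  funext i
  rcases i with d | u
  · rfl
  · simp [mul_assoc, mul_comm c c']

theorem rename_dia_inl (c : (ZMod M)ˣ) (R : MvPolynomial (Dv (M * a)) K) :
    MvPolynomial.rename (Sum.map id (· * c)) (MvPolynomial.rename Sum.inl R) =
      (MvPolynomial.rename Sum.inl R : MvPolynomial (Ix M a) K) := by
  rw [MvPolynomial.rename_rename]
  rfl

/-- The substitution `X_u ↦ X_{-u}` does not change the value. -/
theorem fm1K_rename_neg_one (P : MvPolynomial (Ix M a) K) :
    fm1K K M a (MvPolynomial.rename (Sum.map id (· * (-1 : (ZMod M)ˣ))) P) = fm1K K M a P := by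
  have e : (gen1K K M a) ∘ (Sum.map id (· * (-1 : (ZMod M)ˣ))) = gen1K K M a := by
    funext i
    rcases i with d | u
    · rfl
    · apply Subtype.ext
      show coeffEmb K (xgen M (u * -1)) = coeffEmb K (xgen M u)
      rw [mul_neg, mul_one, xgen_neg]
  show MvPolynomial.aeval (gen1K K M a) (MvPolynomial.rename _ P) = MvPolynomial.aeval _ P
  rw [MvPolynomial.aeval_rename, e]

/-- The image of a polynomial in the `j`-variables. -/
theorem algebraMap_fmK (R : MvPolynomial (Dv (M * a)) K) :
    algebraMap (FNK K (M * a)) (F1aK K M a) (fmK K (M * a) R) =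
      fm1K K M a (MvPolynomial.rename Sum.inl R) := by
  apply Subtype.ext
  rw [coe_algebraMap_F0, Bc.coe_fmK, coe_fm1K, MvPolynomial.aeval_rename]
  rfl

/-- Two ring homomorphisms out of `K·F1a(M, a)` agreeing on the polynomial expressions are
equal. -/
theorem ringHom_ext_fm1K (hrep : ∀ f : F1aK K M a, ∃ P Q, IsRep1K M a f P Q)
    {R : Type*} [DivisionRing R] {g g' : F1aK K M a →+* R}
    (h : ∀ P, g (fm1K K M a P) = g' (fm1K K M a P)) (f : F1aK K M a) : g f = g' f := by
  obtain ⟨P, Q, -, rfl⟩ := hrep f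
  rw [map_div₀, map_div₀, h P, h Q]

end Subst

/-! ### The group of diamond automorphisms -/

section Group

variable (K : Type) [Field K] [Algebra ℚ K] (M a : ℕ) [NeZero M] [NeZero a]

/-- The ring automorphisms of `K·F1a(M, a)` acting on the polynomial representatives by a
diamond substitution `X_u ↦ X_{u c}`. -/
def diaGroup : Subgroup (F1aK K M a ≃+* F1aK K M a) where
  carrier := {g | ∃ c : (ZMod M)ˣ, ∀ P : MvPolynomial (Ix M a) K,
    g (fm1K K M a P) = fm1K K M a (MvPolynomial.rename (Sum.map id (· * c)) P)}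
  mul_mem' := by
    rintro g g' ⟨c, hc⟩ ⟨c', hc'⟩
    refine ⟨c * c', fun P => ?_⟩
    show g (g' (fm1K K M a P)) = _
    rw [hc', hc, rename_dia_mul]
  one_mem' := ⟨1, fun P => by rw [rename_dia_one]; rfl⟩
  inv_mem' := by
    rintro g ⟨c, hc⟩
    refine ⟨c⁻¹, fun P => ?_⟩
    apply g.injective
    rw [hc, rename_dia_mul, mul_inv_cancel, rename_dia_one]
    exact g.apply_symm_apply _

variable {K M a}

theorem mem_diaGroup {g : F1aK K M a ≃+* F1aK K M a} :
    g ∈ diaGroup K M a ↔ ∃ c : (ZMod M)ˣ, ∀ P : MvPolynomial (Ix M a) K,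
      g (fm1K K M a P) = fm1K K M a (MvPolynomial.rename (Sum.map id (· * c)) P) := Iff.rfl

/-- The diamond automorphisms fix `K·F0(M a)` pointwise. -/
theorem diaGroup_fix {g : F1aK K M a ≃+* F1aK K M a} (hg : g ∈ diaGroup K M a)
    (x : FNK K (M * a)) :
    g (algebraMap (FNK K (M * a)) (F1aK K M a) x) = algebraMap (FNK K (M * a)) (F1aK K M a) x := by
  obtain ⟨c, hc⟩ := hg
  obtain ⟨P, Q, -, rfl⟩ := Bc.exists_isRepK (M * a) x
  rw [map_div₀, algebraMap_fmK, algebraMap_fmK, map_div₀, hc, hc, rename_dia_inl, rename_dia_inl]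

end Group

/-! ### The degree -/

section Deg

variable {K : Type} [Field K] [Algebra ℚ K] (M a : ℕ) [NeZero M] [NeZero a]

/-- The surjection `(ℤ/M)ˣ → diaGroup` attached to a choice of diamond automorphisms. -/
theorem exists_diaGroup_hom (hM : 3 ≤ M) (hrep : ∀ f : F1aK K M a, ∃ P Q, IsRep1K M a f P Q)
    (hex : ∀ c : (ZMod M)ˣ, ∃ δ : F1aK K M a ≃+* F1aK K M a, ∀ P : MvPolynomial (Ix M a) K,
      δ (fm1K K M a P) = fm1K K M a (MvPolynomial.rename (Sum.map id (· * c)) P)) :
    ∃ φ : (ZMod M)ˣ →* diaGroup K M a, Function.Surjective φ ∧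
      φ.ker = Subgroup.zpowers (-1 : (ZMod M)ˣ) ∧
      ∀ (c : (ZMod M)ˣ) (P : MvPolynomial (Ix M a) K), (φ c : F1aK K M a ≃+* F1aK K M a)
        (fm1K K M a P) = fm1K K M a (MvPolynomial.rename (Sum.map id (· * c)) P) := by
  choose δ hδ using hex
  have hext : ∀ g g' : F1aK K M a ≃+* F1aK K M a,
      (∀ P, g (fm1K K M a P) = g' (fm1K K M a P)) → g = g' := by
    intro g g' h
    apply RingEquiv.ext
    intro f
    exact ringHom_ext_fm1K M a hrep (g := g.toRingHom) (g' := g'.toRingHom) h f
  let φ : (ZMod M)ˣ →* diaGroup K M a :=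
    { toFun := fun c => ⟨δ c, c, hδ c⟩
      map_one' := by
        apply Subtype.ext
        refine hext _ _ fun P => ?_
        show δ 1 (fm1K K M a P) = fm1K K M a P
        rw [hδ, rename_dia_one]
      map_mul' := by
        intro c c'
        apply Subtype.ext
        refine hext _ _ fun P => ?_
        show δ (c * c') (fm1K K M a P) = δ c (δ c' (fm1K K M a P))
        rw [hδ, hδ, hδ, rename_dia_mul] }
  have hφ : ∀ c, ((φ c : diaGroup K M a) : F1aK K M a ≃+* F1aK K M a) = δ c := fun c => rfl
  refine ⟨φ, ?_, ?_, fun c P => hδ c P⟩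
  · rintro ⟨g, c, hc⟩
    refine ⟨c, Subtype.ext (hext _ _ fun P => ?_)⟩
    rw [hφ, hδ, hc]
  · apply le_antisymm
    · intro c hc
      rw [MonoidHom.mem_ker] at hc
      have h1 : δ c = 1 := by
        have := congrArg Subtype.val hc
        exact this
      have h2 := hδ c (MvPolynomial.X (Sum.inr 1))
      rw [h1, MvPolynomial.rename_X] at h2
      have h3 : gen1K K M a (Sum.inr (1 * c)) = gen1K K M a (Sum.inr 1) := by
        have e1 : fm1K K M a (MvPolynomial.X (Sum.inr (1 * c))) = gen1K K M a (Sum.inr (1 * c)) :=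
          MvPolynomial.aeval_X _ _
        have e2 : fm1K K M a (MvPolynomial.X (Sum.inr 1)) = gen1K K M a (Sum.inr 1) :=
          MvPolynomial.aeval_X _ _
        rw [← e1, ← e2]
        exact h2.symm
      have h4 : coeffEmb K (xgen M (1 * c)) = coeffEmb K (xgen M 1) := congrArg Subtype.val h3
      have h5 : xgen M (1 * c) = xgen M 1 := (coeffEmb K).injective h4
      rw [one_mul] at h5
      rcases (xgen_eq_iff hM c 1).1 h5 with h6 | h6
      · rw [h6]
        exact one_mem _
      · rw [h6]
        exact Subgroup.mem_zpowers _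
    · rw [Subgroup.zpowers_le, MonoidHom.mem_ker]
      apply Subtype.ext
      refine hext _ _ fun P => ?_
      show δ (-1) (fm1K K M a P) = fm1K K M a P
      rw [hδ, fm1K_rename_neg_one]

/-- **The degree**: `K·F1a(M, a)` is finite over `K·F0(M a)`, of degree `#((ℤ/M)ˣ/±1)`, and
Galois.  Inputs: polynomial representatives (`hrep`) and the existence of the diamond
automorphisms (`hex`). -/
theorem finrank_F1aK (hM : 3 ≤ M) (ι : K →+* ℂ)
    (hrep : ∀ f : F1aK K M a, ∃ P Q, IsRep1K M a f P Q)
    (hex : ∀ c : (ZMod M)ˣ, ∃ δ : F1aK K M a ≃+* F1aK K M a, ∀ P : MvPolynomial (Ix M a) K,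
      δ (fm1K K M a P) = fm1K K M a (MvPolynomial.rename (Sum.map id (· * c)) P)) :
    FiniteDimensional (FNK K (M * a)) (F1aK K M a) ∧
      finrank (FNK K (M * a)) (F1aK K M a) =
        Nat.card ((ZMod M)ˣ ⧸ Subgroup.zpowers (-1 : (ZMod M)ˣ)) ∧
      IsGalois (FNK K (M * a)) (F1aK K M a) := by
  obtain ⟨φ, hsurj, hker, hφ⟩ := exists_diaGroup_hom M a hM hrep hex
  have : Finite (diaGroup K M a) := Finite.of_surjective φ hsurj
  have hfix : ∀ g ∈ diaGroup K M a, ∀ x : FNK K (M * a),
      g (algebraMap (FNK K (M * a)) (F1aK K M a) x) =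
        algebraMap (FNK K (M * a)) (F1aK K M a) x := fun g hg x => diaGroup_fix hg x
  have hinv : ∀ f : F1aK K M a, (∀ g ∈ diaGroup K M a, g f = f) →
      f ∈ (algebraMap (FNK K (M * a)) (F1aK K M a)).range := by
    intro f hf
    refine fixed_mem_range M a ι hrep
      (fun c => ((φ c : diaGroup K M a) : F1aK K M a ≃+* F1aK K M a).toRingHom)
      (fun c P => hφ c P) f (fun c => hf _ (φ c).2)
  obtain ⟨hfd, hrank⟩ := finrank_eq_card_of_fixed (diaGroup K M a) hfix hinv
  refine ⟨hfd, ?_, isGalois_of_fixed (diaGroup K M a) hfix hinv⟩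
  rw [hrank, ← hker]
  exact Nat.card_congr (QuotientGroup.quotientKerEquivOfSurjective φ hsurj).toEquiv.symm

end Deg

end Fermat.Agent.G1.GalArt
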