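import Mathlib
import Fermat.Agent.G1.Dict.Defs
import Fermat.Agent.G1.GenInvHecke
import Fermat.Agent.ESJ.Jac.Gal
import Fermat.Agent.DS.Hecke1.Coset

/-!
# G1-GAL: every invariant meromorphic function comes from the function field (`MerFull`)

Level `(M, a)`: the group is `Gam1a M a = Γ₁(M) ∩ Γ₀(M a)`, the generators are helper9's
`gen1Fun M a` (`G1/Dict/Defs.lean`): `J(d z)`, `d ∣ M a`, and `x_u`, `u ∈ (ℤ/M)ˣ`.

A `Gam1a M a`-invariant meromorphic function `φ` on `U`, meromorphic at the cusps, has the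
conjugates `φ ∘ ρ_u` (`ρ_u ∈ Γ₀(M a)` with lower right entry `u⁻¹`), indexed by
`u ∈ (ℤ/M)ˣ/±1`; the Lagrange numerator `∑_u (φ ∘ ρ_u) ∏_{v ≠ u} (X - x_v)` has
`Γ₀(M a)`-invariant coefficients, which are quotients of polynomials in the `J(d z)` by the trunk
(`GalCore.exists_ev_eq` at level `M a`).  Evaluating at `X = x_1` gives `φ = ev P / ev Q`.

* `exists_ev1K_eq` : the polynomial form;
* `merFull_of_isDict1` : `Jac.MerFull (Gam1a M a) (mer1K (RingHom.id ℂ) M a)` from the dictionary.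
-/

set_option autoImplicit false
set_option linter.unusedSectionVars false

open UpperHalfPlane ModularForm CongruenceSubgroup ModularCurve Filter
open scoped MatrixGroups Manifold Topology

noncomputable section

namespace Fermat.Agent.G1.GalArt

open Fermat.Agent.S24 Fermat.Agent.ESJ.Jac Fermat.Agent.G1.Dict Fermat.Agent.DS.Hecke1
open Fermat.Agent.ESJ.Jac.GalCore

/-! ### Representatives of the diamond classes in `Γ₀(M a)` -/

section Reps

variable (M a : ℕ) [NeZero M] [NeZero a]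

/-- Every unit mod `M` is the lower right entry of an element of `Γ₀(M a)`. -/
theorem exists_rep_lr (u : (ZMod M)ˣ) :
    ∃ γ : SL(2, ℤ), γ ∈ Gamma0 (M * a) ∧ lr M γ = (u : ZMod M) := by
  have hdvd : M ∣ M * a := Dvd.intro a rfl
  obtain ⟨v, hv⟩ := ZMod.unitsMap_surjective hdvd u
  obtain ⟨γ, hγ, hlr⟩ := exists_rep (N := M * a) v
  refine ⟨γ, hγ, ?_⟩
  have h1 : lr M γ = ZMod.castHom hdvd (ZMod M) (lr (M * a) γ) := by
    rw [lr_def, lr_def, map_intCast]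
  rw [h1, hlr, ← hv]
  rfl

/-- A chosen element of `Γ₀(M a)` with lower right entry `u⁻¹`. -/
def rho (u : (ZMod M)ˣ) : SL(2, ℤ) := Classical.choose (exists_rep_lr M a u⁻¹)

theorem rho_mem (u : (ZMod M)ˣ) : rho M a u ∈ Gamma0 (M * a) :=
  (Classical.choose_spec (exists_rep_lr M a u⁻¹)).1

theorem lr_rho (u : (ZMod M)ˣ) : lr M (rho M a u) = ((u⁻¹ : (ZMod M)ˣ) : ZMod M) :=
  (Classical.choose_spec (exists_rep_lr M a u⁻¹)).2

variable {M a}

theorem neg_mem_Gamma0 {N : ℕ} {g : SL(2, ℤ)} (hg : g ∈ Gamma0 N) : -g ∈ Gamma0 N := by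
  rw [Gamma0_mem] at hg ⊢
  have : ((-g : SL(2, ℤ)) 1 0 : ℤ) = -(g 1 0) := by
    simp [Matrix.SpecialLinearGroup.coe_neg]
  rw [this, Int.cast_neg, hg, neg_zero]

theorem mob_neg_eq (g : SL(2, ℤ)) (z : ℂ) : mob (-g) z = mob g z := by
  unfold mob
  simp only [Matrix.SpecialLinearGroup.coe_neg, Matrix.neg_apply, Int.cast_neg]
  rw [neg_mul, neg_mul, ← neg_add, ← neg_add, neg_div_neg_eq]

theorem lr_neg (g : SL(2, ℤ)) : lr M (-g) = -lr M g := by
  rw [lr_def, lr_def]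
  have : ((-g : SL(2, ℤ)) 1 1 : ℤ) = -(g 1 1) := by
    simp [Matrix.SpecialLinearGroup.coe_neg]
  rw [this, Int.cast_neg]

/-- A `Gam1a M a`-invariant function is invariant under the elements of `Γ₀(M a)` with lower
right entry `±1`. -/
theorem apply_mob_of_lr {φ : ℂ → ℂ} (hinv : ∀ γ ∈ Gam1a M a, ∀ z ∈ U, φ (mob γ z) = φ z)
    {g : SL(2, ℤ)} (hg : g ∈ Gamma0 (M * a)) (h : lr M g = 1 ∨ lr M g = -1) {z : ℂ}
    (hz : z ∈ U) : φ (mob g z) = φ z := by
  rcases h with h | h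
  · exact hinv g ⟨mem_Gamma1_of_lr_eq_one (Gamma0_mul_le g hg) h, hg⟩ z hz
  · have hneg0 : -g ∈ Gamma0 (M * a) := neg_mem_Gamma0 hg
    have hlr : lr M (-g) = 1 := by rw [lr_neg, h, neg_neg]
    rw [← mob_neg_eq g z]
    exact hinv (-g) ⟨mem_Gamma1_of_lr_eq_one (Gamma0_mul_le (-g) hneg0) hlr, hneg0⟩ z hz

/-- Two elements of `Γ₀(M a)` with the same lower right entry up to sign give the same
conjugate of a `Gam1a M a`-invariant function. -/
theorem apply_mob_congr {φ : ℂ → ℂ} (hinv : ∀ γ ∈ Gam1a M a, ∀ z ∈ U, φ (mob γ z) = φ z)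
    {γ γ' : SL(2, ℤ)} (hγ : γ ∈ Gamma0 (M * a)) (hγ' : γ' ∈ Gamma0 (M * a))
    (h : lr M γ = lr M γ' ∨ lr M γ = -lr M γ') {z : ℂ} (hz : z ∈ U) :
    φ (mob γ z) = φ (mob γ' z) := by
  have hg : γ * γ'⁻¹ ∈ Gamma0 (M * a) := mul_mem hγ (inv_mem hγ')
  have hgM : γ * γ'⁻¹ ∈ Gamma0 M := Gamma0_mul_le _ hg
  have hγ'M : γ' ∈ Gamma0 M := Gamma0_mul_le _ hγ'
  have e : γ = (γ * γ'⁻¹) * γ' := by group
  have hmul : lr M γ = lr M (γ * γ'⁻¹) * lr M γ' := by
    conv_lhs => rw [e]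
    exact lr_mul hgM
  have hu : IsUnit (lr M γ') := isUnit_lowerRight_of_mem_Gamma0 γ' hγ'M
  have h' : lr M (γ * γ'⁻¹) = 1 ∨ lr M (γ * γ'⁻¹) = -1 := by
    rcases h with h | h
    · left
      have h2 : lr M (γ * γ'⁻¹) * lr M γ' = 1 * lr M γ' := by rw [← hmul, h, one_mul]
      exact hu.mul_left_inj.1 h2
    · right
      have h2 : lr M (γ * γ'⁻¹) * lr M γ' = (-1) * lr M γ' := by rw [← hmul, h, neg_one_mul]
      exact hu.mul_left_inj.1 h2
  have e2 : mob γ z = mob (γ * γ'⁻¹) (mob γ' z) := by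
    rw [← mob_mul _ _ hz, ← e]
  rw [e2]
  exact apply_mob_of_lr hinv hg h' (mob_mem_U _ hz)

end Reps

/-! ### The index set `(ℤ/M)ˣ/±1` -/

section Index

variable (M : ℕ)

/-- The diamond index group `(ℤ/M)ˣ/±1` (the same type as helper4's `V.DG M`). -/
abbrev DGq : Type := (ZMod M)ˣ ⧸ Subgroup.zpowers (-1 : (ZMod M)ˣ)

variable {M}

/-- A family indexed by the units which is even descends to the quotient through `Quotient.out`. -/
theorem apply_out_mk {X : Type*} (f : (ZMod M)ˣ → X) (hf : ∀ u, f (-u) = f u) (u : (ZMod M)ˣ) :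
    f ((QuotientGroup.mk u : DGq M).out) = f u := by
  obtain ⟨h, hh⟩ := QuotientGroup.mk_out_eq_mul (Subgroup.zpowers (-1 : (ZMod M)ˣ)) u
  obtain ⟨k, hk⟩ := Subgroup.mem_zpowers_iff.1 h.2
  rw [hh, ← hk]
  rcases Int.even_or_odd k with hk2 | hk2
  · rw [hk2.neg_one_zpow, mul_one]
  · rw [hk2.neg_one_zpow, mul_neg, mul_one, hf]

theorem apply_out_mul_mk {X : Type*} (f : (ZMod M)ˣ → X) (hf : ∀ u, f (-u) = f u)
    (k : DGq M) (c : (ZMod M)ˣ) :
    f ((k * (QuotientGroup.mk c : DGq M)).out) = f (k.out * c) := by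
  conv_lhs => rw [← QuotientGroup.out_eq' k]
  rw [← QuotientGroup.mk_mul]
  exact apply_out_mk f hf _

theorem apply_out_one {X : Type*} (f : (ZMod M)ˣ → X) (hf : ∀ u, f (-u) = f u) :
    f ((1 : DGq M).out) = f 1 :=
  apply_out_mk f hf 1

/-- The class of `u` is trivial iff `u = ±1`. -/
theorem out_ne_of_ne_one {k : DGq M} (hk : k ≠ 1) : k.out ≠ 1 ∧ k.out ≠ -1 := by
  constructor
  · intro h
    apply hk
    rw [← QuotientGroup.out_eq' k, h]
    rfl
  · intro h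
    apply hk
    rw [← QuotientGroup.out_eq' k, h, QuotientGroup.eq_one_iff]
    exact Subgroup.mem_zpowers _

end Index

/-! ### The analytic evaluation -/

section Ev

variable (M a : ℕ) [NeZero M] [NeZero a]

theorem gen1Fun_mem_R0 (i : Ix M a) : gen1Fun M a i ∈ Inv.R0 := by
  rcases i with d | u
  · exact Inv.Jabd_mem_R0 (M * a) d
  · exact ⟨mdiff_xfun _, fun g => xfun_cusp _ g⟩

theorem ev1C_X (i : Ix M a) :
    ev1K (RingHom.id ℂ) M a (MvPolynomial.X i) = gen1Fun M a i := by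
  simp [ev1K]

theorem ev1C_C (c : ℂ) : ev1K (RingHom.id ℂ) M a (MvPolynomial.C c) = fun _ => c := by
  funext z
  simp [ev1K]

theorem ev1C_mem_R0 (P : MvPolynomial (Ix M a) ℂ) : ev1K (RingHom.id ℂ) M a P ∈ Inv.R0 := by
  induction P using MvPolynomial.induction_on with
  | C c =>
    rw [ev1C_C]
    exact Inv.const_mem_R0 _
  | add p q hp hq =>
    rw [map_add]
    exact Inv.R0.add_mem hp hq
  | mul_X p i hp =>
    rw [map_mul, ev1C_X]
    exact Inv.R0.mul_mem hp (gen1Fun_mem_R0 M a i)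

/-- Polynomials in the `J(d z)` alone. -/
theorem ev1C_rename_inl (R : MvPolynomial (Dv (M * a)) ℂ) :
    ev1K (RingHom.id ℂ) M a (MvPolynomial.rename Sum.inl R) = Inv.evC (M * a) R := by
  show MvPolynomial.eval₂ _ _ (MvPolynomial.rename Sum.inl R) = MvPolynomial.eval₂ _ _ R
  rw [MvPolynomial.eval₂_rename]
  rfl

theorem ev1C_X_inr (u : (ZMod M)ˣ) :
    ev1K (RingHom.id ℂ) M a (MvPolynomial.X (Sum.inr u)) = xfun M (u : ZMod M) :=
  ev1C_X M a (Sum.inr u)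

end Ev

/-! ### The conjugates -/

section Conj

variable (M a : ℕ) [NeZero M] [NeZero a]

theorem xfun_mem_R0 (u : ZMod M) : xfun M u ∈ Inv.R0 :=
  ⟨mdiff_xfun _, fun g => xfun_cusp _ g⟩

/-- The conjugates of `x_1` as elements of `MA`. -/
def tC (k : DGq M) : MA :=
  ⟨fun z => xfun M ((k.out : (ZMod M)ˣ) : ZMod M) (ofComplex z),
    comp_ofComplex_mem ⟨_, xfun_mem_R0 M _⟩⟩

/-- The conjugates of `φ ∈ MA`. -/
def aC {φ : ℂ → ℂ} (hφ : φ ∈ MA) (k : DGq M) : MA :=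
  ⟨fun z => φ (mob (rho M a k.out) z), comp_mob_mem hφ _⟩

variable {M a}

theorem xfun_units_neg (u : (ZMod M)ˣ) (τ : ℍ) :
    xfun M ((-u : (ZMod M)ˣ) : ZMod M) τ = xfun M (u : ZMod M) τ := by
  rw [Units.val_neg, xfun_neg]

theorem rho_neg_apply {φ : ℂ → ℂ} (hinv : ∀ γ ∈ Gam1a M a, ∀ z ∈ U, φ (mob γ z) = φ z)
    (u : (ZMod M)ˣ) {z : ℂ} (hz : z ∈ U) :
    φ (mob (rho M a (-u)) z) = φ (mob (rho M a u) z) := by
  refine apply_mob_congr hinv (rho_mem M a _) (rho_mem M a _) (Or.inr ?_) hz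
  rw [lr_rho, lr_rho, ← neg_inv, Units.val_neg]

/-- The action of `Γ₀(M a)` on the conjugates of `x_1`. -/
theorem tC_apply_mob (γ : SL(2, ℤ)) (hγ : γ ∈ Gamma0 (M * a)) (c : (ZMod M)ˣ)
    (hc : (c : ZMod M) = lr M γ) (k : DGq M) {z : ℂ} (hz : z ∈ U) :
    (tC M k : ℂ → ℂ) (mob γ z) =
      (tC M (k * (QuotientGroup.mk c⁻¹ : DGq M)) : ℂ → ℂ) z := by
  show xfun M ((k.out : (ZMod M)ˣ) : ZMod M) (ofComplex (mob γ z)) =
    xfun M (((k * (QuotientGroup.mk c⁻¹ : DGq M)).out : (ZMod M)ˣ) : ZMod M) (ofComplex z)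
  rw [Mer.ofComplex_mob γ hz, xfun_smul_unit k.out c γ (Gamma0_mul_le γ hγ) hc]
  exact (apply_out_mul_mk (fun u : (ZMod M)ˣ => xfun M (u : ZMod M) (ofComplex z))
    (fun u => xfun_units_neg u _) k c⁻¹).symm

/-- The action of `Γ₀(M a)` on the conjugates of a `Gam1a M a`-invariant function. -/
theorem aC_apply_mob {φ : ℂ → ℂ} (hφ : φ ∈ MA)
    (hinv : ∀ γ ∈ Gam1a M a, ∀ z ∈ U, φ (mob γ z) = φ z)
    (γ : SL(2, ℤ)) (hγ : γ ∈ Gamma0 (M * a)) (c : (ZMod M)ˣ)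
    (hc : (c : ZMod M) = lr M γ) (k : DGq M) {z : ℂ} (hz : z ∈ U) :
    (aC M a hφ k : ℂ → ℂ) (mob γ z) =
      (aC M a hφ (k * (QuotientGroup.mk c⁻¹ : DGq M)) : ℂ → ℂ) z := by
  show φ (mob (rho M a k.out) (mob γ z)) =
    φ (mob (rho M a (k * (QuotientGroup.mk c⁻¹ : DGq M)).out) z)
  rw [apply_out_mul_mk (fun u : (ZMod M)ˣ => φ (mob (rho M a u) z))
    (fun u => rho_neg_apply hinv u hz) k c⁻¹, ← mob_mul _ _ hz]
  refine apply_mob_congr hinv (mul_mem (rho_mem M a _) hγ) (rho_mem M a _) (Or.inl ?_) hz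
  rw [lr_mul (Gamma0_mul_le _ (rho_mem M a _)), lr_rho, lr_rho, ← hc, ← Units.val_mul,
    mul_inv_rev, inv_inv, mul_comm]

theorem aC_one_apply {φ : ℂ → ℂ} (hφ : φ ∈ MA)
    (hinv : ∀ γ ∈ Gam1a M a, ∀ z ∈ U, φ (mob γ z) = φ z) {z : ℂ} (hz : z ∈ U) :
    (aC M a hφ 1 : ℂ → ℂ) z = φ z := by
  show φ (mob (rho M a (1 : DGq M).out) z) = φ z
  rw [apply_out_one (fun u : (ZMod M)ˣ => φ (mob (rho M a u) z))
    (fun u => rho_neg_apply hinv u hz)]
  refine apply_mob_of_lr hinv (rho_mem M a _) (Or.inl ?_) hz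
  rw [lr_rho, inv_one, Units.val_one]

theorem tC_one_apply (z : ℂ) :
    (tC M 1 : ℂ → ℂ) z = xfun M ((1 : (ZMod M)ˣ) : ZMod M) (ofComplex z) := by
  show xfun M (((1 : DGq M).out : (ZMod M)ˣ) : ZMod M) (ofComplex z) = _
  exact apply_out_one (fun u : (ZMod M)ˣ => xfun M (u : ZMod M) (ofComplex z))
    (fun u => xfun_units_neg u _)

end Conj

/-! ### The Lagrange numerator -/

section Lagrange

variable {M a : ℕ} [NeZero M] [NeZero a]

open Polynomial in
/-- Pointwise form of the coefficients of the Lagrange numerator. -/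
theorem lagC_coeff_apply [Fintype (DGq M)] [DecidableEq (DGq M)] {φ : ℂ → ℂ} (hφ : φ ∈ MA)
    (n : ℕ) (w : ℂ) :
    (((lag (aC M a hφ) (tC M)).coeff n : MA) : ℂ → ℂ) w =
      (lag (fun q => (aC M a hφ q : ℂ → ℂ) w) (fun q => (tC M q : ℂ → ℂ) w)).coeff n := by
  have h1 := lag_map (evalAt w) (aC M a hφ) (tC M)
  simp only [evalAt_apply] at h1
  rw [← h1, Polynomial.coeff_map, evalAt_apply]

open Polynomial in
/-- The coefficients of the Lagrange numerator are `Γ₀(M a)`-invariant. -/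
theorem lagC_coeff_mob [Fintype (DGq M)] [DecidableEq (DGq M)] {φ : ℂ → ℂ} (hφ : φ ∈ MA)
    (hinv : ∀ γ ∈ Gam1a M a, ∀ z ∈ U, φ (mob γ z) = φ z) (n : ℕ) (γ : SL(2, ℤ))
    (hγ : γ ∈ Gamma0 (M * a)) {z : ℂ} (hz : z ∈ U) :
    (((lag (aC M a hφ) (tC M)).coeff n : MA) : ℂ → ℂ) (mob γ z) =
      (((lag (aC M a hφ) (tC M)).coeff n : MA) : ℂ → ℂ) z := by
  obtain ⟨c, hc⟩ := isUnit_lowerRight_of_mem_Gamma0 γ (Gamma0_mul_le γ hγ)
  rw [lagC_coeff_apply hφ n (mob γ z), lagC_coeff_apply hφ n z]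
  have ha : (fun q => (aC M a hφ q : ℂ → ℂ) (mob γ z)) =
      fun q => (aC M a hφ (Equiv.mulRight (QuotientGroup.mk c⁻¹ : DGq M) q) : ℂ → ℂ) z := by
    funext q
    exact aC_apply_mob hφ hinv γ hγ c hc q hz
  have ht : (fun q => (tC M q : ℂ → ℂ) (mob γ z)) =
      fun q => (tC M (Equiv.mulRight (QuotientGroup.mk c⁻¹ : DGq M) q) : ℂ → ℂ) z := by
    funext q
    exact tC_apply_mob γ hγ c hc q hz
  rw [ha, ht]
  exact congrArg (fun p => Polynomial.coeff p n)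
    (lag_comp_perm (Equiv.mulRight (QuotientGroup.mk c⁻¹ : DGq M))
      (fun q => (aC M a hφ q : ℂ → ℂ) z) (fun q => (tC M q : ℂ → ℂ) z))

end Lagrange

/-! ### The main theorem -/

section Main

variable (M a : ℕ) [NeZero M] [NeZero a]

/-- The difference `x_1 - x_u` is not identically zero when `u ≠ ±1`. -/
theorem xfun_one_sub_ne_zero (hM : 3 ≤ M) {u : (ZMod M)ˣ} (h1 : u ≠ 1) (h2 : u ≠ -1) :
    xfun M ((1 : (ZMod M)ˣ) : ZMod M) - xfun M (u : ZMod M) ≠ 0 := by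
  intro h
  have e : xfun M ((1 : (ZMod M)ˣ) : ZMod M) = xfun M (u : ZMod M) := sub_eq_zero.1 h
  have hq1 := hasQExp_xfun (M := M) ((1 : (ZMod M)ˣ) : ZMod M)
  have hq2 := hasQExp_xfun (M := M) (u : ZMod M)
  rw [e] at hq1
  have h3 := QExp.HasQExp.unique hq1 hq2
  rcases (xgenR_eq_iff ℂ (unit_ne_neg hM 1) (unit_ne_neg hM u)).1 h3 with h4 | h4
  · exact h1 (Units.ext h4).symm
  · apply h2
    have h5 : u = -1 := by
      apply Units.ext
      rw [Units.val_neg, h4, neg_neg]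
    exact h5

open Polynomial in
/-- **G1-GAL, core.** A `Γ₁(M) ∩ Γ₀(M a)`-invariant meromorphic function on `U` which is
meromorphic at the cusps is, off a discrete set, a quotient `ev P / ev Q` of polynomials in the
functions `J(d z)`, `d ∣ M a`, and `x_u`, `u ∈ (ℤ/M)ˣ`. -/
theorem exists_ev1K_eq (hM : 3 ≤ M) (φ : ℂ → ℂ) (hφ : MeromorphicOn φ U)
    (hinv : ∀ γ ∈ Gam1a M a, ∀ z ∈ U, φ (mob γ z) = φ z) (hc : MerAtCusps φ) :
    ∃ P Q : MvPolynomial (Ix M a) ℂ, ev1K (RingHom.id ℂ) M a Q ≠ 0 ∧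
      (fun z => φ z * ev1K (RingHom.id ℂ) M a Q (ofComplex z)) =ᶠ[codiscreteWithin U]
        fun z => ev1K (RingHom.id ℂ) M a P (ofComplex z) := by
  classical
  have : Fintype (DGq M) := Fintype.ofFinite _
  have hφM : φ ∈ MA := ⟨hφ, hc⟩
  set W : MA[X] := lag (aC M a hφM) (tC M) with hW
  -- the trunk statement at level `M a` for each coefficient
  have hL : ∀ n : ℕ, ∃ A B : MvPolynomial (Dv (M * a)) ℂ, Inv.evC (M * a) B ≠ 0 ∧
      (fun z => ((W.coeff n : MA) : ℂ → ℂ) z * Inv.evC (M * a) B (ofComplex z))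
        =ᶠ[codiscreteWithin U] fun z => Inv.evC (M * a) A (ofComplex z) :=
    fun n => GalCore.exists_ev_eq (M * a) levelOneStatement _ (W.coeff n).2.1
      (fun γ hγ z hz => lagC_coeff_mob hφM hinv n γ hγ hz) (W.coeff n).2.2
  choose A B hB hAB using hL
  set x1 : Ix M a := Sum.inr (1 : (ZMod M)ˣ) with hx1
  set s : Finset ℕ := Finset.range (W.natDegree + 1) with hs
  set PD : MvPolynomial (Ix M a) ℂ := ∏ k ∈ Finset.univ.erase (1 : DGq M),
    (MvPolynomial.X x1 - MvPolynomial.X (Sum.inr k.out)) with hPD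
  set Bt : MvPolynomial (Dv (M * a)) ℂ := ∏ i ∈ s, B i with hBt
  have hev : ∀ R, MDiff (ev1K (RingHom.id ℂ) M a R) := fun R => (ev1C_mem_R0 M a R).1
  have hPDev : ∀ τ : ℍ, ev1K (RingHom.id ℂ) M a PD τ = ∏ k ∈ Finset.univ.erase (1 : DGq M),
      (xfun M ((1 : (ZMod M)ˣ) : ZMod M) τ - xfun M ((k.out : (ZMod M)ˣ) : ZMod M) τ) := by
    intro τ
    rw [hPD, map_prod, Finset.prod_apply]
    refine Finset.prod_congr rfl fun k _ => ?_
    rw [map_sub, ev1C_X_inr, ev1C_X_inr]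
    rfl
  refine ⟨∑ n ∈ s, MvPolynomial.rename Sum.inl (A n * ∏ i ∈ s.erase n, B i) *
      MvPolynomial.X x1 ^ n, PD * MvPolynomial.rename Sum.inl Bt, ?_, ?_⟩
  · -- the denominator is nonzero
    intro h0
    rw [map_mul] at h0
    rcases (UpperHalfPlane.mul_eq_zero_iff (hev _) (hev _)).1 h0 with h | h
    · -- the discriminant-type factor
      rw [hPD, map_prod] at h
      have hR0 : ∀ k : DGq M, (⟨ev1K (RingHom.id ℂ) M a
          (MvPolynomial.X x1 - MvPolynomial.X (Sum.inr k.out)), ev1C_mem_R0 M a _⟩ : Inv.R0) ≠ 0 ∨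
          k = 1 := by
        intro k
        by_cases hk : k = 1
        · exact Or.inr hk
        · left
          intro h'
          have h'' : ev1K (RingHom.id ℂ) M a
              (MvPolynomial.X x1 - MvPolynomial.X (Sum.inr k.out)) = 0 := congrArg Subtype.val h'
          rw [map_sub, hx1, ev1C_X_inr, ev1C_X_inr] at h''
          exact xfun_one_sub_ne_zero M hM (out_ne_of_ne_one hk).1 (out_ne_of_ne_one hk).2 h''
      have hprod : (∏ k ∈ Finset.univ.erase (1 : DGq M), (⟨ev1K (RingHom.id ℂ) M a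
          (MvPolynomial.X x1 - MvPolynomial.X (Sum.inr k.out)), ev1C_mem_R0 M a _⟩ : Inv.R0)) = 0 := by
        apply Subtype.ext
        rw [← Subring.coe_subtype, map_prod]
        exact h
      obtain ⟨k, hk, hk0⟩ := Finset.prod_eq_zero_iff.1 hprod
      rcases hR0 k with h' | h'
      · exact h' hk0
      · exact (Finset.mem_erase.1 hk).1 h'
    · rw [ev1C_rename_inl, hBt, map_prod] at h
      have hprod : (∏ i ∈ s, (⟨Inv.evC (M * a) (B i), Inv.evC_mem_R0 (M * a) _⟩ : Inv.R0)) = 0 := by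
        apply Subtype.ext
        rw [← Subring.coe_subtype, map_prod]
        exact h
      obtain ⟨i, -, hi0⟩ := Finset.prod_eq_zero_iff.1 hprod
      exact hB i (congrArg Subtype.val hi0)
  · -- the identity off a discrete set
    have hev' : ∀ᶠ z in codiscreteWithin U, z ∈ U ∧ ∀ n ∈ s,
        ((W.coeff n : MA) : ℂ → ℂ) z * Inv.evC (M * a) (B n) (ofComplex z) =
          Inv.evC (M * a) (A n) (ofComplex z) := by
      refine (Filter.eventually_of_mem (Filter.self_mem_codiscreteWithin U) (fun z hz => hz)).and ?_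
      rw [Filter.eventually_all_finset]
      exact fun n _ => hAB n
    filter_upwards [hev'] with z ⟨hzU, hz⟩
    set τ : ℍ := ofComplex z with hτ
    -- pointwise Lagrange identity
    have hlag : ∑ n ∈ s, ((W.coeff n : MA) : ℂ → ℂ) z *
        xfun M ((1 : (ZMod M)ˣ) : ZMod M) τ ^ n = φ z * ev1K (RingHom.id ℂ) M a PD τ := by
      have h1 := lag_map (evalAt z) (aC M a hφM) (tC M)
      have h2 := lag_eval (fun q => evalAt z (aC M a hφM q)) (fun q => evalAt z (tC M q))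
        (1 : DGq M)
      rw [← h1, Polynomial.eval_map, Polynomial.eval₂_eq_sum_range] at h2
      simp only [evalAt_apply, tC_one_apply] at h2
      rw [← hW] at h2
      rw [h2, hPDev τ, aC_one_apply hφM hinv hzU]
      rfl
    rw [map_mul, Pi.mul_apply, ev1C_rename_inl, ← mul_assoc, ← hlag, map_sum, Finset.sum_apply,
      Finset.sum_mul]
    refine Finset.sum_congr rfl fun n hn => ?_
    rw [map_mul, map_pow, Pi.mul_apply, Pi.pow_apply, ev1C_rename_inl, ev1C_X_inr, map_mul,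
      Pi.mul_apply, hBt, map_prod, map_prod, Finset.prod_apply, Finset.prod_apply,
      ← Finset.mul_prod_erase s (fun i => Inv.evC (M * a) (B i) τ) hn, ← hz n hn]
    ring

/-- **G1-GAL (`MerFull`).** Every `Γ₁(M) ∩ Γ₀(M a)`-invariant meromorphic function on `U` which
is meromorphic at the cusps is the avatar of an element of `ℂ·F1a(M, a)`. -/
theorem merFull_of_isDict1 (hM : 3 ≤ M) (hD : IsDict1 (RingHom.id ℂ) M a) :
    Fermat.Agent.G1.Jac.MerFull (Gam1a M a) (mer1K (RingHom.id ℂ) M a) := by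
  intro φ hφ hinv hc
  obtain ⟨P, Q, hQ, hPQ⟩ := exists_ev1K_eq M a hM φ hφ hinv hc
  have hfQ : fm1K ℂ M a Q ≠ 0 := fun h => hQ ((hD.fm1K_eq_zero_iff Q).1 h)
  refine ⟨fm1K ℂ M a P / fm1K ℂ M a Q, ?_⟩
  have h1 := hD.mer1K_eq_div_ae (fm1K ℂ M a P / fm1K ℂ M a Q) P Q ⟨hfQ, rfl⟩
  have h2 := Mer.ne_zero_mem_codiscreteWithin (hD.mdiff_ev1K Q) hQ
  filter_upwards [h1, h2, hPQ] with z hz1 hz2 hz3
  rw [hz1, eq_comm, eq_div_iff hz2]
  exact hz3

end Main

end Fermat.Agent.G1.GalArt
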