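import Mathlib
import Fermat.Agent.G1.GalBridge
import Fermat.Agent.G1.GalDeg
import Fermat.Agent.G1.GalFull

/-!
# G1-GAL: the unconditional Galois statements for `K·F1a(M, a) / K·F0(M a)`

Instances of `GalFixed.lean` / `GalDeg.lean` at helper51's diamond automorphisms
`Gal.diaK ι M a : (ZMod M)ˣ →* (F1aK K M a ≃ₐ[K] F1aK K M a)` (`G1/GalBridge.lean`):

* `diaK_fixed_mem_range` : the fixed field of the diamonds is `K·F0(M a)`;
* `finiteDimensional_F1aK`, `finrank_F1aK_eq`, `isGalois_F1aK` (`3 ≤ M`):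
  `K·F1a(M, a) / K·F0(M a)` is finite Galois of degree `#((ℤ/M)ˣ/±1)`.
-/

set_option autoImplicit false
set_option linter.unusedSectionVars false

open UpperHalfPlane ModularForm CongruenceSubgroup ModularCurve Module
open scoped MatrixGroups Manifold

noncomputable section

namespace Fermat.Agent.G1.GalArt

open Fermat.Agent.S24 Fermat.Agent.ESJ.Jac Fermat.Agent.G1.Dict

section Inst

variable {K : Type} [Field K] [Algebra ℚ K] (ι : K →+* ℂ) (M a : ℕ) [NeZero M] [NeZero a]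

include ι

/-- helper51's `δ_{c⁻¹}` acts on the polynomial representatives by `X_u ↦ X_{u c}`. -/
theorem diaK_inv_fm1K (c : (ZMod M)ˣ) (P : MvPolynomial (Ix M a) K) :
    Gal.diaK ι M a c⁻¹ (fm1K K M a P) =
      fm1K K M a (MvPolynomial.rename (Sum.map id (· * c)) P) := by
  rw [Gal.diaK_fm1K]
  have e : Gal.twIdx M a c⁻¹ = (Sum.map id (· * c) : Ix M a → Ix M a) := by
    funext i
    rcases i with d | u
    · rfl
    · show Sum.inr (u * c⁻¹⁻¹) = Sum.inr (u * c)
      rw [inv_inv]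
  show fm1K K M a (MvPolynomial.rename (Gal.twIdx M a c⁻¹) P) = _
  rw [e]

theorem exists_diaRingEquiv (c : (ZMod M)ˣ) :
    ∃ δ : F1aK K M a ≃+* F1aK K M a, ∀ P : MvPolynomial (Ix M a) K,
      δ (fm1K K M a P) = fm1K K M a (MvPolynomial.rename (Sum.map id (· * c)) P) :=
  ⟨(Gal.diaK ι M a c⁻¹).toRingEquiv, fun P => diaK_inv_fm1K ι M a c P⟩

/-- **The fixed field of the diamond automorphisms is `K·F0(M a)`.** -/
theorem diaK_fixed_mem_range (f : F1aK K M a) (hf : ∀ c : (ZMod M)ˣ, Gal.diaK ι M a c f = f) :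
    f ∈ (algebraMap (FNK K (M * a)) (F1aK K M a)).range :=
  fixed_mem_range M a ι (Gal.exists_isRep1K M a)
    (fun c => (Gal.diaK ι M a c⁻¹).toRingEquiv.toRingHom)
    (fun c P => diaK_inv_fm1K ι M a c P) f (fun c => hf c⁻¹)

/-- `K·F1a(M, a)` is finite over `K·F0(M a)`. -/
theorem finiteDimensional_F1aK (hM : 3 ≤ M) :
    FiniteDimensional (FNK K (M * a)) (F1aK K M a) :=
  (finrank_F1aK M a hM ι (Gal.exists_isRep1K M a) (exists_diaRingEquiv ι M a)).1

/-- **The degree**: `[K·F1a(M, a) : K·F0(M a)] = #((ℤ/M)ˣ/±1)`. -/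
theorem finrank_F1aK_eq (hM : 3 ≤ M) :
    finrank (FNK K (M * a)) (F1aK K M a) =
      Nat.card ((ZMod M)ˣ ⧸ Subgroup.zpowers (-1 : (ZMod M)ˣ)) :=
  (finrank_F1aK M a hM ι (Gal.exists_isRep1K M a) (exists_diaRingEquiv ι M a)).2.1

/-- `K·F1a(M, a) / K·F0(M a)` is Galois. -/
theorem isGalois_F1aK (hM : 3 ≤ M) : IsGalois (FNK K (M * a)) (F1aK K M a) :=
  (finrank_F1aK M a hM ι (Gal.exists_isRep1K M a) (exists_diaRingEquiv ι M a)).2.2

end Inst

end Fermat.Agent.G1.GalArt
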