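import Mathlib
import Fermat.Agent.ESJ.Jac.EigenFunctional

/-!
# G1 / DS seam : eigen-functionals attached to a ring homomorphism of a Hecke algebra

Pure algebra (Mathlib + the evaluation map `ev` of `ESJ/Jac/EigenFunctional`).

Let `H` be a finitely generated abelian group with a commuting family of endomorphisms `T i`.

* `exists_eigenfunctional_of_ringHom` : if `ψ : ℤ[X_i] → k` (`k` a field) kills every polynomial
  relation satisfied by the `T i` on `H`, then the eigen-system `(ψ (X i))` occurs in
  `Hom(H, k)`: there is a nonzero additive `μ : H → k` with `μ (T i h) = ψ (X i) * μ h`.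
* `exists_eigenfunctional_of_relations` : the same for a ring homomorphism `θ : 𝕋 → k` of a
  commutative ring `𝕋` with elements `t i` satisfying all the relations of the `T i`.
* `exists_eigenfunctional_of_surj` : the form consumed by Deligne–Serre: `𝕋` acts faithfully on
  a complex vector space `V` (weight-2 cusp forms), and `V` is an equivariant quotient of
  `ℂ ⊗ H` (Eichler–Shimura: `ℂ ⊗ Hom_PE(Γ, ℤ) ≃ S₂ × S₂`).  Then every ring homomorphism
  `θ : 𝕋 → k` has a nonzero eigen-functional on `H`.
-/

set_option autoImplicit false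

open scoped TensorProduct

noncomputable section

namespace Fermat.Agent.G1.EigenFuncHom

open Fermat.Agent.ESJ.Jac.EigenFunctional

/-- **Eigen-functionals from a character of the polynomial ring.** -/
theorem exists_eigenfunctional_of_ringHom {H : Type*} [AddCommGroup H] [Module.Finite ℤ H]
    {ι : Type*} (T : ι → Module.End ℤ H) (hT : ∀ i j, T i * T j = T j * T i)
    {k : Type*} [Field k] (ψ : MvPolynomial ι ℤ →+* k)
    (hψ : ∀ f : MvPolynomial ι ℤ, ev T hT f = 0 → ψ f = 0) :
    ∃ μ : H →+ k, μ ≠ 0 ∧ ∀ (i : ι) (h : H), μ (T i h) = ψ (MvPolynomial.X i) * μ h := by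
  classical
  let E : MvPolynomial ι ℤ →ₐ[ℤ] Module.End ℤ H := ev T hT
  have hEX : ∀ i, E (MvPolynomial.X i) = T i := ev_X T hT
  -- `H` as a module over the polynomial ring
  let instP : Module (MvPolynomial ι ℤ) H := Module.compHom H E.toRingHom
  have hsmul : ∀ (f : MvPolynomial ι ℤ) (h : H), f • h = E f h := fun _ _ => rfl
  have : IsScalarTower ℤ (MvPolynomial ι ℤ) H := ⟨fun n f h => by
    rw [hsmul, hsmul, map_zsmul]
    rfl⟩
  have : Module.Finite (MvPolynomial ι ℤ) H :=
    Module.Finite.of_restrictScalars_finite ℤ (MvPolynomial ι ℤ) H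
  -- the kernel of `ψ` is in the support of `H`
  have hprime : (RingHom.ker ψ).IsPrime := RingHom.ker_isPrime ψ
  have hann : Module.annihilator (MvPolynomial ι ℤ) H ≤ RingHom.ker ψ := by
    intro f hf
    rw [Module.mem_annihilator] at hf
    have hE : E f = 0 := LinearMap.ext fun h => by
      rw [← hsmul, hf h, LinearMap.zero_apply]
    exact hψ f hE
  have hsupp : (⟨RingHom.ker ψ, hprime⟩ : PrimeSpectrum (MvPolynomial ι ℤ)) ∈
      Module.support (MvPolynomial ι ℤ) H := Module.mem_support_iff_of_finite.mpr hann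
  have hnt : Nontrivial ((RingHom.ker ψ).ResidueField ⊗[MvPolynomial ι ℤ] H) :=
    (Module.mem_support_iff_nontrivial_residueField_tensorProduct
      (⟨RingHom.ker ψ, hprime⟩ : PrimeSpectrum (MvPolynomial ι ℤ))).mp hsupp
  -- the embedding of the residue field into `k`
  let j : (RingHom.ker ψ).ResidueField →+* k :=
    Ideal.ResidueField.lift (RingHom.ker ψ) ψ le_rfl (by
      intro f hf
      have hf' : ψ f ≠ 0 := fun h0 => hf (RingHom.mem_ker.mpr h0)
      exact isUnit_iff_ne_zero.mpr hf')
  have hj : ∀ f, j (algebraMap (MvPolynomial ι ℤ) (RingHom.ker ψ).ResidueField f) = ψ f :=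
    fun f => Ideal.ResidueField.lift_algebraMap _ _ _ _ f
  -- a nonzero functional
  obtain ⟨w, hw⟩ : ∃ w : (RingHom.ker ψ).ResidueField ⊗[MvPolynomial ι ℤ] H, w ≠ 0 :=
    exists_ne 0
  obtain ⟨lam, hlam⟩ := Module.Projective.exists_dual_ne_zero (RingHom.ker ψ).ResidueField hw
  let ι₁ : H →+ (RingHom.ker ψ).ResidueField ⊗[MvPolynomial ι ℤ] H :=
    (TensorProduct.mk (MvPolynomial ι ℤ) (RingHom.ker ψ).ResidueField H 1).toAddMonoidHom
  let μ : H →+ k := (j : (RingHom.ker ψ).ResidueField →+ k).comp (lam.toAddMonoidHom.comp ι₁)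
  have hμ : ∀ h : H, μ h = j (lam ((1 : (RingHom.ker ψ).ResidueField) ⊗ₜ[MvPolynomial ι ℤ] h)) :=
    fun _ => rfl
  have hμsmul : ∀ (f : MvPolynomial ι ℤ) (h : H), μ (f • h) = ψ f * μ h := by
    intro f h
    rw [hμ, hμ, ← hj, ← map_mul]
    congr 1
    have e1 : (1 : (RingHom.ker ψ).ResidueField) ⊗ₜ[MvPolynomial ι ℤ] (f • h)
        = (algebraMap (MvPolynomial ι ℤ) (RingHom.ker ψ).ResidueField f) •
          ((1 : (RingHom.ker ψ).ResidueField) ⊗ₜ[MvPolynomial ι ℤ] h) := by
      rw [TensorProduct.smul_tmul', smul_eq_mul, mul_one, ← TensorProduct.smul_tmul,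
        Algebra.smul_def, mul_one]
    rw [e1, map_smul, smul_eq_mul]
  refine ⟨μ, ?_, fun i h => ?_⟩
  · intro hμ0
    have hz : ∀ h : H, lam ((1 : (RingHom.ker ψ).ResidueField) ⊗ₜ[MvPolynomial ι ℤ] h) = 0 := by
      intro h
      have h1 : μ h = 0 := by rw [hμ0]; rfl
      rw [hμ] at h1
      exact (map_eq_zero j).mp h1
    have hall : ∀ x : (RingHom.ker ψ).ResidueField ⊗[MvPolynomial ι ℤ] H, lam x = 0 := by
      intro x
      induction x using TensorProduct.induction_on with
      | zero => exact map_zero lam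
      | tmul c h =>
        have e : c ⊗ₜ[MvPolynomial ι ℤ] h
            = c • ((1 : (RingHom.ker ψ).ResidueField) ⊗ₜ[MvPolynomial ι ℤ] h) := by
          rw [TensorProduct.smul_tmul', smul_eq_mul, mul_one]
        rw [e, map_smul, hz h, smul_zero]
      | add x y hx hy => rw [map_add, hx, hy, add_zero]
    exact hlam (hall w)
  · have h1 : T i h = (MvPolynomial.X i : MvPolynomial ι ℤ) • h := by
      rw [hsmul, hEX]
    rw [h1, hμsmul]

/-- **Eigen-functionals from a ring homomorphism of a commutative ring satisfying the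
relations of the family.** -/
theorem exists_eigenfunctional_of_relations {H : Type*} [AddCommGroup H] [Module.Finite ℤ H]
    {ι : Type*} (T : ι → Module.End ℤ H) (hT : ∀ i j, T i * T j = T j * T i)
    {𝕋 : Type*} [CommRing 𝕋] (t : ι → 𝕋)
    (hrel : ∀ f : MvPolynomial ι ℤ, ev T hT f = 0 → MvPolynomial.aeval t f = 0)
    {k : Type*} [Field k] (θ : 𝕋 →+* k) :
    ∃ μ : H →+ k, μ ≠ 0 ∧ ∀ (i : ι) (h : H), μ (T i h) = θ (t i) * μ h := by
  obtain ⟨μ, hμ, hμT⟩ := exists_eigenfunctional_of_ringHom T hT
    (θ.comp (MvPolynomial.aeval t : MvPolynomial ι ℤ →ₐ[ℤ] 𝕋).toRingHom)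
    (fun f hf => by
      show θ (MvPolynomial.aeval t f) = 0
      rw [hrel f hf, map_zero])
  refine ⟨μ, hμ, fun i h => ?_⟩
  rw [hμT i h]
  show θ (MvPolynomial.aeval t (MvPolynomial.X i)) * μ h = θ (t i) * μ h
  rw [MvPolynomial.aeval_X]

/-- **Eigen-functionals for a Hecke algebra acting faithfully on an equivariant quotient of
`ℂ ⊗ H`.**  `𝕋` is a commutative ring acting faithfully (`incl` injective) on the complex
vector space `V`; `q : ℂ ⊗ H → V` is surjective and intertwines `T i ⊗ 1` with `t i`.  Then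
every ring homomorphism `θ : 𝕋 → k` into a field has a nonzero eigen-functional on `H`. -/
theorem exists_eigenfunctional_of_surj {H : Type*} [AddCommGroup H] [Module.Finite ℤ H]
    {ι : Type*} (T : ι → Module.End ℤ H) (hT : ∀ i j, T i * T j = T j * T i)
    {V : Type*} [AddCommGroup V] [Module ℂ V]
    {𝕋 : Type*} [CommRing 𝕋] (incl : 𝕋 →+* Module.End ℂ V) (hincl : Function.Injective incl)
    (t : ι → 𝕋) (q : ℂ ⊗[ℤ] H →ₗ[ℂ] V) (hq : Function.Surjective q)
    (hqT : ∀ (i : ι) (x : ℂ ⊗[ℤ] H), q ((T i).baseChange ℂ x) = incl (t i) (q x))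
    {k : Type*} [Field k] (θ : 𝕋 →+* k) :
    ∃ μ : H →+ k, μ ≠ 0 ∧ ∀ (i : ι) (h : H), μ (T i h) = θ (t i) * μ h := by
  refine exists_eigenfunctional_of_relations T hT t (fun f hf => ?_) θ
  -- equivariance for all polynomials
  have key : ∀ (g : MvPolynomial ι ℤ) (x : ℂ ⊗[ℤ] H),
      q ((ev T hT g).baseChange ℂ x) = incl (MvPolynomial.aeval t g) (q x) := by
    intro g
    induction g using MvPolynomial.induction_on with
    | C n =>
      intro x
      rw [← MvPolynomial.algebraMap_eq, AlgHom.commutes, AlgHom.commutes,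
        Algebra.algebraMap_eq_smul_one, LinearMap.baseChange_smul, LinearMap.baseChange_one,
        LinearMap.smul_apply, Module.End.one_apply, eq_intCast, map_intCast, map_zsmul]
      rw [← zsmul_one (n : ℤ), LinearMap.smul_apply, Module.End.one_apply]
    | add f g hf hg =>
      intro x
      rw [map_add, map_add, LinearMap.baseChange_add, LinearMap.add_apply, map_add, hf, hg,
        map_add, LinearMap.add_apply]
    | mul_X f i hf =>
      intro x
      rw [map_mul, map_mul, ev_X, MvPolynomial.aeval_X, LinearMap.baseChange_mul,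
        Module.End.mul_apply, hf, hqT, map_mul, Module.End.mul_apply]
  apply hincl
  rw [map_zero]
  ext v
  obtain ⟨x, rfl⟩ := hq v
  rw [← key f x, hf, LinearMap.baseChange_zero, LinearMap.zero_apply, map_zero,
    LinearMap.zero_apply]

/-- **Eigen-functionals for a Hecke algebra acting faithfully on an equivariant subobject of
`ℂ ⊗ H`** (period-map form).  `𝕋` is a commutative ring acting faithfully on the complex vector
space `V`; `per : V → ℂ ⊗ H` is injective and intertwines `t i` with `T i ⊗ 1`.  Then every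
ring homomorphism `θ : 𝕋 → k` into a field has a nonzero eigen-functional on `H`. -/
theorem exists_eigenfunctional_of_inj {H : Type*} [AddCommGroup H] [Module.Finite ℤ H]
    {ι : Type*} (T : ι → Module.End ℤ H) (hT : ∀ i j, T i * T j = T j * T i)
    {V : Type*} [AddCommGroup V] [Module ℂ V]
    {𝕋 : Type*} [CommRing 𝕋] (incl : 𝕋 →+* Module.End ℂ V) (hincl : Function.Injective incl)
    (t : ι → 𝕋) (per : V →+ ℂ ⊗[ℤ] H) (hper : Function.Injective per)
    (hperT : ∀ (i : ι) (v : V), per (incl (t i) v) = (T i).baseChange ℂ (per v))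
    {k : Type*} [Field k] (θ : 𝕋 →+* k) :
    ∃ μ : H →+ k, μ ≠ 0 ∧ ∀ (i : ι) (h : H), μ (T i h) = θ (t i) * μ h := by
  refine exists_eigenfunctional_of_relations T hT t (fun f hf => ?_) θ
  have key : ∀ (g : MvPolynomial ι ℤ) (v : V),
      per (incl (MvPolynomial.aeval t g) v) = (ev T hT g).baseChange ℂ (per v) := by
    intro g
    induction g using MvPolynomial.induction_on with
    | C n =>
      intro v
      have e1 : incl (MvPolynomial.aeval t (MvPolynomial.C n)) v = n • v := by
        rw [← MvPolynomial.algebraMap_eq, AlgHom.commutes, eq_intCast, map_intCast,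
          ← zsmul_one (n : ℤ), LinearMap.smul_apply, Module.End.one_apply]
      have e2 : (ev T hT (MvPolynomial.C n)).baseChange ℂ (per v) = n • per v := by
        rw [← MvPolynomial.algebraMap_eq, AlgHom.commutes, Algebra.algebraMap_eq_smul_one,
          LinearMap.baseChange_smul, LinearMap.baseChange_one, LinearMap.smul_apply,
          Module.End.one_apply]
      rw [e1, e2, map_zsmul]
    | add f g hf hg =>
      intro v
      have e1 : incl (MvPolynomial.aeval t (f + g)) v
          = incl (MvPolynomial.aeval t f) v + incl (MvPolynomial.aeval t g) v := by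
        rw [map_add, map_add, LinearMap.add_apply]
      have e2 : (ev T hT (f + g)).baseChange ℂ (per v)
          = (ev T hT f).baseChange ℂ (per v) + (ev T hT g).baseChange ℂ (per v) := by
        rw [map_add, LinearMap.baseChange_add, LinearMap.add_apply]
      rw [e1, e2, map_add, hf, hg]
    | mul_X f i hf =>
      intro v
      have e1 : incl (MvPolynomial.aeval t (f * MvPolynomial.X i)) v
          = incl (MvPolynomial.aeval t f) (incl (t i) v) := by
        rw [map_mul, MvPolynomial.aeval_X, map_mul, Module.End.mul_apply]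
      have e2 : (ev T hT (f * MvPolynomial.X i)).baseChange ℂ (per v)
          = (ev T hT f).baseChange ℂ ((T i).baseChange ℂ (per v)) := by
        rw [map_mul, ev_X, LinearMap.baseChange_mul, Module.End.mul_apply]
      rw [e1, e2, hf, hperT]
  apply hincl
  rw [map_zero]
  ext v
  apply hper
  rw [key f v, hf, LinearMap.baseChange_zero, LinearMap.zero_apply, LinearMap.zero_apply,
    map_zero]

end Fermat.Agent.G1.EigenFuncHom
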