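import Mathlib
import Fermat.Agent.ESJ.ParHom.HeckeGamma0
import Fermat.Agent.ESJ.ParHom.Torsion
import Fermat.Agent.DS.Hecke1.Defs

/-!
# G1 : the Hecke operators `T_p` (`p ∤ M`) and the diamond operators on `Hom(Γ₁(M), A)`

Coset systems for `jSub (Gamma1 M) : Γ₁(M) → GL(2, ℝ)` (in the sense of
`ESJ.ParHom.IsHeckeSystem`):

* `t1Rep M p u x = σ_x · β_x` (`x ∈ ℙ¹(𝔽_p)`), where `β_j = (1 j; 0 p)`, `β_∞ = (p 0; 0 1)` and
  `σ_x = Hecke1.rep M (cU u x) ∈ Γ₀(M)` has lower-right entry `≡ u = p` at `x = ∞` and `≡ 1`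
  at the finite points; these are exactly the matrices of `Hecke1.T1_eq_sum`;
* `d1Rep M d = σ_d = Hecke1.rep M d` (one representative; the operator is `φ ↦ φ ∘ conj σ_d`).

Operators: `heckeCoh1T`, `heckeCoh1D` on `Additive (Gamma1 M) →+ A` and
`heckeT1`, `diamond1 : Module.End R (peHoms (Gamma1 M) R A)`.
-/

set_option autoImplicit false

noncomputable section

namespace Fermat.Agent.G1

open Matrix.SpecialLinearGroup CongruenceSubgroup ModularForm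
open Fermat.Agent.ESJ.ParHom Fermat.Agent.DS.Hecke1
open scoped MatrixGroups OnePoint

variable {M : ℕ}

theorem lr_inv_mul {γ : SL(2, ℤ)} (hγ : γ ∈ Gamma0 M) : lr M γ⁻¹ * lr M γ = 1 := by
  rw [← lr_mul ((Gamma0 M).inv_mem hγ), inv_mul_cancel, lr_one]

theorem lr_mul_inv {γ : SL(2, ℤ)} (hγ : γ ∈ Gamma0 M) : lr M γ * lr M γ⁻¹ = 1 := by
  rw [← lr_mul hγ, mul_inv_cancel, lr_one]

/-- `Γ₁(M)` is normal in `Γ₀(M)`. -/
theorem conj_mem_Gamma1 {g γ : SL(2, ℤ)} (hg : g ∈ Gamma0 M) (hγ : γ ∈ Gamma1 M) :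
    g * γ * g⁻¹ ∈ Gamma1 M := by
  have h0 : g * γ ∈ Gamma0 M := (Gamma0 M).mul_mem hg (Gamma1_in_Gamma0 M hγ)
  refine mem_Gamma1_of_lr_eq_one ((Gamma0 M).mul_mem h0 ((Gamma0 M).inv_mem hg)) ?_
  rw [lr_mul h0, lr_mul hg, lr_eq_one_of_mem_Gamma1 hγ, mul_one, lr_mul_inv hg]

/-- `SL(2, ℤ)`-separation of the representatives `β_x`. -/
theorem hRep_sep {p : ℕ} [Fact p.Prime] (x x' : OnePoint (ZMod p)) (g : SL(2, ℤ))
    (e : hRep p x = mapGL ℝ g * hRep p x') : x = x' := by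
  have hp1 : ¬ p ∣ 1 := fun h => (Fact.out : p.Prime).one_lt.ne' (Nat.dvd_one.mp h)
  have hg : g ∈ Gamma0 1 := by
    rw [Gamma0_mem]
    exact Subsingleton.elim _ _
  exact (isHeckeSystem_T 1 hp1).sep x x' ⟨g, hg⟩ e

variable [NeZero M]

/-- The representatives of `T_p` on `Γ₁(M)`: `σ_x β_x`. -/
def t1Rep (M : ℕ) [NeZero M] (p : ℕ) (u : (ZMod M)ˣ) (x : OnePoint (ZMod p)) : GL (Fin 2) ℝ :=
  mapGL ℝ (rep M (cU u x)) * hRep p x

theorem t1Rep_def (p : ℕ) (u : (ZMod M)ˣ) (x : OnePoint (ZMod p)) :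
    t1Rep M p u x = mapGL ℝ (rep M (cU u x)) * hRep p x := rfl

/-- The twisted representatives form a Hecke system for `Γ₁(M)`. -/
theorem isHeckeSystem_T1 (M : ℕ) [NeZero M] {p : ℕ} [Fact p.Prime] (hpM : ¬ p ∣ M)
    (u : (ZMod M)ˣ) (hu : (u : ZMod M) = (p : ZMod M)) :
    IsHeckeSystem (jSub (Gamma1 M)) (t1Rep M p u) where
  inj := jSub_injective _
  sep x x' γ e := by
    refine hRep_sep x x' ((rep M (cU u x))⁻¹ * (γ : SL(2, ℤ)) * rep M (cU u x')) ?_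
    simp only [t1Rep, jSub_apply] at e
    rw [map_mul, map_mul, map_inv, mul_assoc, mul_assoc, ← e, inv_mul_cancel_left]
  stab γ x := by
    have hγ0 : (γ : SL(2, ℤ)) ∈ Gamma0 M := Gamma1_in_Gamma0 M γ.2
    obtain ⟨g', hg', hmul, hlr⟩ := rep_mul hpM (γ : SL(2, ℤ)) (dvd_of_mem_Gamma0 hγ0) x
    have hg'0 : g' ∈ Gamma0 M := mem_Gamma0_of_dvd hg'
    have hδ0 : rep M (cU u x) * g' * (rep M (cU u (rMat p (γ : SL(2, ℤ)) • x)))⁻¹ ∈ Gamma0 M :=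
      (Gamma0 M).mul_mem ((Gamma0 M).mul_mem (rep_mem _) hg'0) ((Gamma0 M).inv_mem (rep_mem _))
    have hδ1 : lr M (rep M (cU u x) * g' * (rep M (cU u (rMat p (γ : SL(2, ℤ)) • x)))⁻¹) = 1 := by
      rw [lr_mul ((Gamma0 M).mul_mem (rep_mem _) hg'0), lr_mul (rep_mem _), lr_rep, coe_cU u hu]
      have h1 : lr M (γ : SL(2, ℤ)) = 1 := lr_eq_one_of_mem_Gamma1 γ.2
      have h2 : cfac M p (rMat p (γ : SL(2, ℤ)) • x) *
          lr M (rep M (cU u (rMat p (γ : SL(2, ℤ)) • x)))⁻¹ = 1 := by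
        have := lr_mul_inv (rep_mem (cU u (rMat p (γ : SL(2, ℤ)) • x)))
        rwa [lr_rep, coe_cU u hu] at this
      rw [mul_comm (cfac M p x), hlr, h1, one_mul, h2]
    refine ⟨rMat p (γ : SL(2, ℤ)) • x, ⟨_, mem_Gamma1_of_lr_eq_one hδ0 hδ1⟩, ?_⟩
    show mapGL ℝ (rep M (cU u x)) * hRep p x * mapGL ℝ (γ : SL(2, ℤ)) =
      mapGL ℝ (rep M (cU u x) * g' * (rep M (cU u (rMat p (γ : SL(2, ℤ)) • x)))⁻¹) *
        (mapGL ℝ (rep M (cU u (rMat p (γ : SL(2, ℤ)) • x))) *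
          hRep p (rMat p (γ : SL(2, ℤ)) • x))
    rw [mul_assoc, hmul]
    simp only [map_mul, map_inv, mul_assoc, inv_mul_cancel_left]

/-- The representative of the diamond operator `⟨d⟩`. -/
def d1Rep (M : ℕ) [NeZero M] (d : (ZMod M)ˣ) (_ : Unit) : GL (Fin 2) ℝ := mapGL ℝ (rep M d)

theorem isHeckeSystem_D1 (M : ℕ) [NeZero M] (d : (ZMod M)ˣ) :
    IsHeckeSystem (jSub (Gamma1 M)) (d1Rep M d) where
  inj := jSub_injective _
  sep _ _ _ _ := rfl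
  stab γ _ := by
    refine ⟨(), ⟨rep M d * (γ : SL(2, ℤ)) * (rep M d)⁻¹, conj_mem_Gamma1 (rep_mem d) γ.2⟩, ?_⟩
    show mapGL ℝ (rep M d) * mapGL ℝ (γ : SL(2, ℤ)) =
      mapGL ℝ (rep M d * (γ : SL(2, ℤ)) * (rep M d)⁻¹) * mapGL ℝ (rep M d)
    simp only [map_mul, map_inv, mul_assoc, inv_mul_cancel, mul_one]

/-! ### The operators on `Hom(Γ₁(M), A)` -/

section Operators

variable (M) {A : Type*} [AddCommGroup A]

/-- The Hecke operator `T_p` (`p ∤ M`) on `Hom(Γ₁(M), A)`. -/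
def heckeCoh1T {p : ℕ} (hp : p.Prime) (hpM : ¬ p ∣ M) (φ : Additive (Gamma1 M) →+ A) :
    Additive (Gamma1 M) →+ A :=
  haveI : Fact p.Prime := ⟨hp⟩
  (isHeckeSystem_T1 M hpM (punit hp hpM) (coe_punit hp hpM)).hecke φ

/-- The diamond operator `⟨d⟩` on `Hom(Γ₁(M), A)`. -/
def heckeCoh1D (d : (ZMod M)ˣ) (φ : Additive (Gamma1 M) →+ A) : Additive (Gamma1 M) →+ A :=
  (isHeckeSystem_D1 M d).hecke φ

theorem heckeCoh1T_eq {p : ℕ} [Fact p.Prime] (hp : p.Prime) (hpM : ¬ p ∣ M)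
    (φ : Additive (Gamma1 M) →+ A) :
    heckeCoh1T M hp hpM φ =
      (isHeckeSystem_T1 M hpM (punit hp hpM) (coe_punit hp hpM)).hecke φ := rfl

/-- Explicit formula for `T_p`, for arbitrary witnesses. -/
theorem heckeCoh1T_apply_of {p : ℕ} [Fact p.Prime] (hp : p.Prime) (hpM : ¬ p ∣ M)
    (φ : Additive (Gamma1 M) →+ A) (γ : Gamma1 M)
    (π : OnePoint (ZMod p) → OnePoint (ZMod p)) (γ' : OnePoint (ZMod p) → Gamma1 M)
    (e : ∀ x, t1Rep M p (punit hp hpM) x * mapGL ℝ (γ : SL(2, ℤ))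
      = mapGL ℝ (γ' x : SL(2, ℤ)) * t1Rep M p (punit hp hpM) (π x)) :
    heckeCoh1T M hp hpM φ (Additive.ofMul γ) = ∑ x, φ (Additive.ofMul (γ' x)) :=
  (isHeckeSystem_T1 M hpM (punit hp hpM) (coe_punit hp hpM)).hecke_apply_of φ γ π γ' e

/-- Explicit formula for `⟨d⟩`: `(⟨d⟩ φ)(γ) = φ(g γ g⁻¹)` for every `g ∈ Γ₀(M)` with lower-right
entry `≡ d`. -/
theorem heckeCoh1D_apply (d : (ZMod M)ˣ) (φ : Additive (Gamma1 M) →+ A) (γ : Gamma1 M)
    (g : SL(2, ℤ)) (hg : g ∈ Gamma0 M) (hd : lr M g = d) :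
    heckeCoh1D M d φ (Additive.ofMul γ) =
      φ (Additive.ofMul (⟨g * (γ : SL(2, ℤ)) * g⁻¹, conj_mem_Gamma1 hg γ.2⟩ : Gamma1 M)) := by
  have hη : g * (rep M d)⁻¹ ∈ Gamma1 M := by
    refine mem_Gamma1_of_lr_eq_one ((Gamma0 M).mul_mem hg ((Gamma0 M).inv_mem (rep_mem d))) ?_
    rw [lr_mul hg, hd, ← lr_rep d, lr_mul_inv (rep_mem d)]
  have e : ∀ _ : Unit, d1Rep M d () * jSub (Gamma1 M) γ =
      jSub (Gamma1 M) (⟨rep M d * (γ : SL(2, ℤ)) * (rep M d)⁻¹, conj_mem_Gamma1 (rep_mem d) γ.2⟩ :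
        Gamma1 M) * d1Rep M d () := by
    intro _
    show mapGL ℝ (rep M d) * mapGL ℝ (γ : SL(2, ℤ)) =
      mapGL ℝ (rep M d * (γ : SL(2, ℤ)) * (rep M d)⁻¹) * mapGL ℝ (rep M d)
    simp only [map_mul, map_inv, mul_assoc, inv_mul_cancel, mul_one]
  have h1 := (isHeckeSystem_D1 M d).hecke_apply_of φ γ (fun _ => ()) _ e
  simp only [Finset.univ_unique, Finset.sum_singleton] at h1
  rw [heckeCoh1D, h1]
  -- the two conjugates differ by an inner automorphism of `Γ₁(M)`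
  have h2 : (⟨g * (γ : SL(2, ℤ)) * g⁻¹, conj_mem_Gamma1 hg γ.2⟩ : Gamma1 M) =
      (⟨g * (rep M d)⁻¹, hη⟩ : Gamma1 M) *
        (⟨rep M d * (γ : SL(2, ℤ)) * (rep M d)⁻¹, conj_mem_Gamma1 (rep_mem d) γ.2⟩ : Gamma1 M) *
        (⟨g * (rep M d)⁻¹, hη⟩ : Gamma1 M)⁻¹ := by
    apply Subtype.ext
    simp only [Subgroup.coe_mul, Subgroup.coe_inv, mul_inv_rev, inv_inv]
    group
  rw [h2, ofMul_mul, ofMul_mul, ofMul_inv, map_add, map_add, map_neg]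
  abel

theorem heckeCoh1T_add {p : ℕ} (hp : p.Prime) (hpM : ¬ p ∣ M) (φ ψ : Additive (Gamma1 M) →+ A) :
    heckeCoh1T M hp hpM (φ + ψ) = heckeCoh1T M hp hpM φ + heckeCoh1T M hp hpM ψ := by
  haveI : Fact p.Prime := ⟨hp⟩
  exact IsHeckeSystem.hecke_add _ φ ψ

theorem heckeCoh1T_smul {R : Type*} [Semiring R] [Module R A] {p : ℕ} (hp : p.Prime)
    (hpM : ¬ p ∣ M) (c : R) (φ : Additive (Gamma1 M) →+ A) :
    heckeCoh1T M hp hpM (c • φ) = c • heckeCoh1T M hp hpM φ := by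
  haveI : Fact p.Prime := ⟨hp⟩
  exact IsHeckeSystem.hecke_smul _ c φ

theorem heckeCoh1T_comp {B : Type*} [AddCommGroup B] {p : ℕ} (hp : p.Prime) (hpM : ¬ p ∣ M)
    (u : A →+ B) (φ : Additive (Gamma1 M) →+ A) :
    heckeCoh1T M hp hpM (u.comp φ) = u.comp (heckeCoh1T M hp hpM φ) := by
  haveI : Fact p.Prime := ⟨hp⟩
  exact IsHeckeSystem.hecke_comp _ u φ

theorem isPEHom_heckeCoh1T {p : ℕ} (hp : p.Prime) (hpM : ¬ p ∣ M)
    {φ : Additive (Gamma1 M) →+ A} (hφ : IsPEHom (Gamma1 M) φ) :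
    IsPEHom (Gamma1 M) (heckeCoh1T M hp hpM φ) := by
  haveI : Fact p.Prime := ⟨hp⟩
  exact IsHeckeSystem.isPEHom_hecke _ hφ

theorem heckeCoh1D_add (d : (ZMod M)ˣ) (φ ψ : Additive (Gamma1 M) →+ A) :
    heckeCoh1D M d (φ + ψ) = heckeCoh1D M d φ + heckeCoh1D M d ψ :=
  IsHeckeSystem.hecke_add _ φ ψ

theorem heckeCoh1D_smul {R : Type*} [Semiring R] [Module R A] (d : (ZMod M)ˣ) (c : R)
    (φ : Additive (Gamma1 M) →+ A) : heckeCoh1D M d (c • φ) = c • heckeCoh1D M d φ :=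
  IsHeckeSystem.hecke_smul _ c φ

theorem heckeCoh1D_comp {B : Type*} [AddCommGroup B] (d : (ZMod M)ˣ) (u : A →+ B)
    (φ : Additive (Gamma1 M) →+ A) : heckeCoh1D M d (u.comp φ) = u.comp (heckeCoh1D M d φ) :=
  IsHeckeSystem.hecke_comp _ u φ

theorem isPEHom_heckeCoh1D (d : (ZMod M)ˣ) {φ : Additive (Gamma1 M) →+ A}
    (hφ : IsPEHom (Gamma1 M) φ) : IsPEHom (Gamma1 M) (heckeCoh1D M d φ) :=
  IsHeckeSystem.isPEHom_hecke _ hφ

/-- `T_p` on the module of parabolic-elliptic homomorphisms `Γ₁(M) → A`. -/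
def heckeT1 {p : ℕ} (hp : p.Prime) (hpM : ¬ p ∣ M) (R : Type*) [Semiring R] (A : Type*)
    [AddCommGroup A] [Module R A] : Module.End R (peHoms (Gamma1 M) R A) :=
  LinearMap.restrict
    ({ toFun := heckeCoh1T M hp hpM
       map_add' := heckeCoh1T_add M hp hpM
       map_smul' := fun c φ => heckeCoh1T_smul M hp hpM c φ } :
      (Additive (Gamma1 M) →+ A) →ₗ[R] (Additive (Gamma1 M) →+ A))
    (fun _ hφ => isPEHom_heckeCoh1T M hp hpM hφ)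

/-- `⟨d⟩` on the module of parabolic-elliptic homomorphisms `Γ₁(M) → A`. -/
def diamond1 (d : (ZMod M)ˣ) (R : Type*) [Semiring R] (A : Type*) [AddCommGroup A]
    [Module R A] : Module.End R (peHoms (Gamma1 M) R A) :=
  LinearMap.restrict
    ({ toFun := heckeCoh1D M d
       map_add' := heckeCoh1D_add M d
       map_smul' := fun c φ => heckeCoh1D_smul M d c φ } :
      (Additive (Gamma1 M) →+ A) →ₗ[R] (Additive (Gamma1 M) →+ A))
    (fun _ hφ => isPEHom_heckeCoh1D M d hφ)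

@[simp] theorem coe_heckeT1_apply {p : ℕ} (hp : p.Prime) (hpM : ¬ p ∣ M) (R : Type*)
    [Semiring R] (A : Type*) [AddCommGroup A] [Module R A] (φ : peHoms (Gamma1 M) R A) :
    ((heckeT1 M hp hpM R A φ : peHoms (Gamma1 M) R A) : Additive (Gamma1 M) →+ A)
      = heckeCoh1T M hp hpM (φ : Additive (Gamma1 M) →+ A) := rfl

@[simp] theorem coe_diamond1_apply (d : (ZMod M)ˣ) (R : Type*) [Semiring R] (A : Type*)
    [AddCommGroup A] [Module R A] (φ : peHoms (Gamma1 M) R A) :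
    ((diamond1 M d R A φ : peHoms (Gamma1 M) R A) : Additive (Gamma1 M) →+ A)
      = heckeCoh1D M d (φ : Additive (Gamma1 M) →+ A) := rfl

/-- Naturality of `T_p` in the coefficients. -/
theorem mapPE_heckeT1 {p : ℕ} (hp : p.Prime) (hpM : ¬ p ∣ M) {R R' : Type*} [Semiring R]
    [Semiring R'] {A B : Type*} [AddCommGroup A] [AddCommGroup B] [Module R A] [Module R' B]
    (u : A →+ B) (φ : peHoms (Gamma1 M) R A) :
    mapPE (Gamma1 M) (R := R) (R' := R') u (heckeT1 M hp hpM R A φ) =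
      heckeT1 M hp hpM R' B (mapPE (Gamma1 M) (R := R) (R' := R') u φ) :=
  Subtype.ext (heckeCoh1T_comp M hp hpM u (φ : Additive (Gamma1 M) →+ A)).symm

/-- Naturality of `⟨d⟩` in the coefficients. -/
theorem mapPE_diamond1 (d : (ZMod M)ˣ) {R R' : Type*} [Semiring R]
    [Semiring R'] {A B : Type*} [AddCommGroup A] [AddCommGroup B] [Module R A] [Module R' B]
    (u : A →+ B) (φ : peHoms (Gamma1 M) R A) :
    mapPE (Gamma1 M) (R := R) (R' := R') u (diamond1 M d R A φ) =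
      diamond1 M d R' B (mapPE (Gamma1 M) (R := R) (R' := R') u φ) :=
  Subtype.ext (heckeCoh1D_comp M d u (φ : Additive (Gamma1 M) →+ A)).symm

end Operators

end Fermat.Agent.G1
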