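import Mathlib
import Fermat.Agent.S21.Injective
import Fermat.Agent.S21.Parabolic
import Fermat.Agent.ESJ.ParHom.HeckePeriod
import Fermat.Agent.ESJ.ParHom.Free
import Fermat.Agent.G1.MaxPrinciple1
import Fermat.Agent.G1.HeckeSys1
import Fermat.Agent.DS.Hecke1.Comm

/-!
# G1 : the period map of `S₂(Γ₁(M))`

* `exists_hasPrim1` : every `f ∈ S₂(Γ₁(M))` has a primitive `F` on `ℍ` with
  `F (γ z) - F z` constant for `γ ∈ Γ₁(M)` and with limits at all cusps;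
* `periodMap1 M f : Additive (Gamma1 M) →+ ℂ`, `γ ↦ F (γ z) - F z`; it is a parabolic-elliptic
  homomorphism, `per1 M : CuspForm (Gamma1 M) 2 →ₗ[ℂ] peHoms (Gamma1 M) ℂ ℂ`;
* `per1_injective`;
* Hecke equivariance: `per1_heckeT`, `per1_diamond` (for the operators of `DS/Hecke1` on cusp
  forms and those of `G1/HeckeSys1` on `Hom_pe(Γ₁(M), ℂ)`).
-/

set_option autoImplicit false

open UpperHalfPlane hiding I
open Complex Filter Function Topology
open scoped MatrixGroups Manifold ModularForm Real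
open Derivative
open CongruenceSubgroup ModularCurve ModularCurve.Period
open Fermat.Agent.ESJ.ParHom Fermat.Agent.DS.Hecke1

noncomputable section

namespace Fermat.Agent.G1

/-! ### Primitives -/

/-- `δ T^M δ⁻¹ ∈ Γ₁(M)` for every `δ ∈ SL(2, ℤ)`. -/
theorem conj_T_pow_mem_Gamma1 (M : ℕ) (δ : SL(2, ℤ)) :
    δ * ModularGroup.T ^ M * δ⁻¹ ∈ Gamma1 M := by
  have hdet := Fermat.Agent.DS.Hecke1.det_eq' δ
  have key00 : ((δ * ModularGroup.T ^ M * δ⁻¹ : SL(2, ℤ)) : Matrix (Fin 2) (Fin 2) ℤ) 0 0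
      = 1 + (M : ℤ) * (-(δ 0 0 * δ 1 0)) := by
    simp only [Matrix.SpecialLinearGroup.coe_mul, Matrix.SpecialLinearGroup.coe_inv,
      Fermat.Agent.S21.coe_T_pow, Matrix.adjugate_fin_two, Matrix.mul_apply, Fin.sum_univ_two,
      Matrix.of_apply, Matrix.cons_val', Matrix.cons_val_zero, Matrix.cons_val_one,
      Matrix.empty_val', Matrix.cons_val_fin_one, Matrix.head_cons]
    linear_combination hdet
  have key11 : ((δ * ModularGroup.T ^ M * δ⁻¹ : SL(2, ℤ)) : Matrix (Fin 2) (Fin 2) ℤ) 1 1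
      = 1 + (M : ℤ) * (δ 0 0 * δ 1 0) := by
    simp only [Matrix.SpecialLinearGroup.coe_mul, Matrix.SpecialLinearGroup.coe_inv,
      Fermat.Agent.S21.coe_T_pow, Matrix.adjugate_fin_two, Matrix.mul_apply, Fin.sum_univ_two,
      Matrix.of_apply, Matrix.cons_val', Matrix.cons_val_zero, Matrix.cons_val_one,
      Matrix.empty_val', Matrix.cons_val_fin_one, Matrix.head_cons]
    linear_combination hdet
  have key10 : ((δ * ModularGroup.T ^ M * δ⁻¹ : SL(2, ℤ)) : Matrix (Fin 2) (Fin 2) ℤ) 1 0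
      = (M : ℤ) * (-(δ 1 0 * δ 1 0)) := by
    simp only [Matrix.SpecialLinearGroup.coe_mul, Matrix.SpecialLinearGroup.coe_inv,
      Fermat.Agent.S21.coe_T_pow, Matrix.adjugate_fin_two, Matrix.mul_apply, Fin.sum_univ_two,
      Matrix.of_apply, Matrix.cons_val', Matrix.cons_val_zero, Matrix.cons_val_one,
      Matrix.empty_val', Matrix.cons_val_fin_one, Matrix.head_cons]
    ring
  rw [Gamma1_mem]
  refine ⟨?_, ?_, ?_⟩
  · rw [key00]; push_cast; simp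
  · rw [key11]; push_cast; simp
  · rw [key10]; push_cast; simp

theorem slash_T_pow_of_invariant1 {M : ℕ} {k : ℤ} {f : ℍ → ℂ}
    (hinv : ∀ γ ∈ Gamma1 M, f ∣[k] γ = f) (δ : SL(2, ℤ)) :
    (f ∣[k] δ) ∣[k] (ModularGroup.T ^ M) = f ∣[k] δ := by
  have h1 : δ * ModularGroup.T ^ M = (δ * ModularGroup.T ^ M * δ⁻¹) * δ := by group
  rw [← SlashAction.slash_mul, h1, SlashAction.slash_mul, hinv _ (conj_T_pow_mem_Gamma1 M δ)]

/-- Every `SL(2, ℤ)`-translate of a `Γ₁(M)`-invariant function is `M`-periodic. -/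
theorem periodic_slash1 {M : ℕ} {k : ℤ} {f : ℍ → ℂ}
    (hinv : ∀ γ ∈ Gamma1 M, f ∣[k] γ = f) (δ : SL(2, ℤ)) :
    Periodic ((f ∣[k] δ) ∘ ofComplex) ((M : ℝ) : ℂ) := by
  refine Fermat.Agent.S22.periodic_comp_ofComplex_of_extension
    (G := f ∣[k] δ) (Gc := (f ∣[k] δ) ∘ ofComplex) (h := (M : ℝ)) (fun z => ?_) (fun w hw => ?_)
  · simp only [comp_apply, ofComplex_apply]
  · simp only [comp_apply]
    rw [Fermat.Agent.S21.ofComplex_add_natCast M hw,
      ← Fermat.Agent.S21.slash_T_pow_apply (f ∣[k] δ) k M, slash_T_pow_of_invariant1 hinv δ]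

/-- Function-level existence of an equivariant primitive, for `Γ₁(M)`. -/
theorem exists_primitive_aux1 (M : ℕ) [NeZero M] {f : ℍ → ℂ} (hol : MDiff f)
    (hinv : ∀ γ ∈ Gamma1 M, f ∣[(2 : ℤ)] γ = f)
    (hzero : ∀ δ : SL(2, ℤ), IsZeroAtImInfty (f ∣[(2 : ℤ)] δ)) :
    ∃ F : ℍ → ℂ, MDiff F ∧ (∀ τ : ℍ, HasDerivAt (F ∘ ofComplex) (f τ) ↑τ) ∧
      (∀ γ ∈ Gamma1 M, ∃ c : ℂ, ∀ z : ℍ, F (γ • z) - F z = c) ∧
      ∀ δ : SL(2, ℤ), ∃ L : ℂ, Tendsto (fun w : ℍ => F (δ • w)) atImInfty (𝓝 L) := by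
  have hN : (0 : ℝ) < (M : ℝ) := by exact_mod_cast Nat.pos_of_ne_zero (NeZero.ne M)
  have hprim : ∀ δ : SL(2, ℤ), ∃ G : ℍ → ℂ, MDiff G ∧ D G = f ∣[(2 : ℤ)] δ ∧
      IsZeroAtImInfty G := by
    intro δ
    obtain ⟨G, hG, hDG, -, hG0⟩ := Fermat.Agent.S22.exists_periodic_primitive hN
      (Fermat.Agent.S22.Bol.mdifferentiable_slash_SL hol 2 δ) (periodic_slash1 hinv δ) (hzero δ)
    exact ⟨G, hG, hDG, hG0⟩
  obtain ⟨G, hG, hDG, hG0⟩ := hprim 1
  rw [SlashAction.slash_one] at hDG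
  have hD0 : ∀ γ : SL(2, ℤ), D (G ∣[(0 : ℤ)] γ) = f ∣[(2 : ℤ)] γ := by
    intro γ
    have h := Fermat.Agent.S22.Bol.bol_SL 1 hG γ
    simp only [Function.iterate_one, Nat.cast_one, sub_self] at h
    rw [h, hDG]
    norm_num
  have h0apply : ∀ (γ : SL(2, ℤ)) (z : ℍ), (G ∣[(0 : ℤ)] γ) z = G (γ • z) := by
    intro γ z
    rw [ModularForm.SL_slash_apply]
    simp
  have h2pi : (2 * π * I : ℂ) ≠ 0 := Complex.two_pi_I_ne_zero
  refine ⟨(2 * π * I)⁻¹ • G, hG.const_smul _, ?_, ?_, ?_⟩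
  · intro τ
    have hd : DifferentiableAt ℂ (G ∘ ofComplex) ↑τ :=
      UpperHalfPlane.mdifferentiableAt_iff.mp (hG τ)
    have hderiv : deriv (G ∘ ofComplex) ↑τ = 2 * π * I * f τ := by
      have h := congrFun hDG τ
      rw [Fermat.Agent.S22.Bol.D_apply] at h
      rw [← h]
      field_simp
    have h1 := hd.hasDerivAt.const_smul ((2 * π * I)⁻¹ : ℂ)
    rw [hderiv] at h1
    have h2 : (2 * π * I)⁻¹ • (2 * π * I * f τ) = f τ := by
      rw [smul_eq_mul]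
      field_simp
    rw [h2] at h1
    exact h1
  · intro γ hγ
    have hS : MDiff (G ∣[(0 : ℤ)] γ) := Fermat.Agent.S22.Bol.mdifferentiable_slash_SL hG 0 γ
    have hDH : D (G ∣[(0 : ℤ)] γ - G) = 0 := by
      rw [normalizedDerivOfComplex_sub _ _ hS hG, hD0 γ, hinv γ hγ, hDG, sub_self]
    obtain ⟨c, hc⟩ := Fermat.Agent.S22.Bol.exists_const_of_D_eq_zero (hS.sub hG) hDH
    refine ⟨(2 * π * I)⁻¹ * c, fun z => ?_⟩
    have h := hc z
    simp only [Pi.sub_apply, h0apply] at h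
    simp only [Pi.smul_apply, smul_eq_mul]
    rw [← h]
    ring
  · intro δ
    obtain ⟨Gδ, hGδ, hDGδ, hGδ0⟩ := hprim δ
    have hS : MDiff (G ∣[(0 : ℤ)] δ) := Fermat.Agent.S22.Bol.mdifferentiable_slash_SL hG 0 δ
    have hDH : D (G ∣[(0 : ℤ)] δ - Gδ) = 0 := by
      rw [normalizedDerivOfComplex_sub _ _ hS hGδ, hD0 δ, hDGδ, sub_self]
    obtain ⟨c, hc⟩ := Fermat.Agent.S22.Bol.exists_const_of_D_eq_zero (hS.sub hGδ) hDH
    refine ⟨(2 * π * I)⁻¹ * c, ?_⟩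
    have hfun : (fun w : ℍ => ((2 * π * I)⁻¹ • G) (δ • w))
        = fun w => (2 * π * I)⁻¹ * (Gδ w + c) := by
      funext w
      have h := hc w
      simp only [Pi.sub_apply, h0apply] at h
      simp only [Pi.smul_apply, smul_eq_mul]
      rw [← h]
      ring
    rw [hfun]
    have h1 : Tendsto (fun w : ℍ => Gδ w + c) atImInfty (𝓝 (0 + c)) :=
      Filter.Tendsto.add hGδ0 tendsto_const_nhds
    have h2 := h1.const_mul ((2 * π * I)⁻¹ : ℂ)
    simpa using h2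

/-- A weight-2 cusp form on `Γ₁(M)` is slash-invariant under `Γ₁(M)` (function level). -/
theorem cuspForm_slash_eq1 {M : ℕ} (f : CuspForm (Gamma1 M) 2) (γ : SL(2, ℤ))
    (hγ : γ ∈ Gamma1 M) : (⇑f) ∣[(2 : ℤ)] γ = ⇑f :=
  SlashInvariantFormClass.slash_action_eq f (Matrix.SpecialLinearGroup.mapGL ℝ γ)
    (Subgroup.mem_map_of_mem _ hγ)

/-- Every `SL(2, ℤ)`-translate of a cusp form on `Γ₁(M)` is zero at `i∞`. -/
theorem cuspForm_isZeroAtImInfty_slash1 {M : ℕ} [NeZero M] (f : CuspForm (Gamma1 M) 2)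
    (δ : SL(2, ℤ)) : IsZeroAtImInfty ((⇑f) ∣[(2 : ℤ)] δ) := by
  have hc : IsCusp (Matrix.SpecialLinearGroup.mapGL ℝ δ • OnePoint.infty)
      ((Gamma1 M).map (Matrix.SpecialLinearGroup.mapGL ℝ)) := by
    rw [Subgroup.IsArithmetic.isCusp_iff_isCusp_SL2Z, isCusp_SL2Z_iff']
    exact ⟨δ, rfl⟩
  exact f.zero_at_cusps' hc (Matrix.SpecialLinearGroup.mapGL ℝ δ) rfl

/-- `F` is an equivariant primitive of `f ∈ S₂(Γ₁(M))` with limits at all cusps. -/
def HasPrim1 (M : ℕ) (f : CuspForm (Gamma1 M) 2) (F : ℍ → ℂ) : Prop :=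
  (∀ τ : ℍ, HasDerivAt (F ∘ ofComplex) (f τ) ↑τ) ∧
    IsEquivariantPrimitive (Gamma1 M) F ∧
    ∀ δ : SL(2, ℤ), ∃ L : ℂ, Tendsto (fun w : ℍ => F (δ • w)) atImInfty (𝓝 L)

theorem exists_hasPrim1 (M : ℕ) [NeZero M] (f : CuspForm (Gamma1 M) 2) :
    ∃ F : ℍ → ℂ, HasPrim1 M f F ∧ MDiff F := by
  obtain ⟨F, hF, h1, h3, h4⟩ := exists_primitive_aux1 M f.holo' (cuspForm_slash_eq1 f)
    (cuspForm_isZeroAtImInfty_slash1 f)
  exact ⟨F, ⟨h1, fun γ => h3 γ γ.2, h4⟩, hF⟩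

/-! ### The period map -/

/-- The period homomorphism of `f ∈ S₂(Γ₁(M))`: `γ ↦ F (γ z) - F z` for a primitive `F`. -/
def periodMap1 (M : ℕ) [NeZero M] (f : CuspForm (Gamma1 M) 2) : Additive (Gamma1 M) →+ ℂ :=
  (Classical.choose_spec (exists_hasPrim1 M f)).1.2.1.periodHom

theorem periodMap1_apply {M : ℕ} [NeZero M] {f : CuspForm (Gamma1 M) 2} {F : ℍ → ℂ}
    (hF : HasPrim1 M f F) (γ : Gamma1 M) (z : ℍ) :
    periodMap1 M f (Additive.ofMul γ) = F ((γ : SL(2, ℤ)) • z) - F z := by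
  have h₀ : HasPrim1 M f (Classical.choose (exists_hasPrim1 M f)) :=
    (Classical.choose_spec (exists_hasPrim1 M f)).1
  obtain ⟨c, hc⟩ := Fermat.Agent.S21.exists_const_of_hasDerivAt h₀.1 hF.1
  have e1 : periodMap1 M f (Additive.ofMul γ)
      = Classical.choose (exists_hasPrim1 M f) ((γ : SL(2, ℤ)) • z)
        - Classical.choose (exists_hasPrim1 M f) z :=
    (IsEquivariantPrimitive.sub_eq_period h₀.2.1 γ z).symm
  rw [e1]
  have a1 := hc ((γ : SL(2, ℤ)) • z)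
  have a2 := hc z
  linear_combination a1 - a2

theorem hasPrim1_add {M : ℕ} {f g : CuspForm (Gamma1 M) 2} {F G : ℍ → ℂ}
    (hF : HasPrim1 M f F) (hG : HasPrim1 M g G) : HasPrim1 M (f + g) (F + G) := by
  refine ⟨fun τ => ?_, fun γ => ?_, fun δ => ?_⟩
  · exact (hF.1 τ).add (hG.1 τ)
  · obtain ⟨c, hc⟩ := hF.2.1 γ
    obtain ⟨d, hd⟩ := hG.2.1 γ
    refine ⟨c + d, fun z => ?_⟩
    simp only [Pi.add_apply]
    rw [← hc z, ← hd z]
    ring
  · obtain ⟨L, hL⟩ := hF.2.2 δ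
    obtain ⟨L', hL'⟩ := hG.2.2 δ
    exact ⟨L + L', hL.add hL'⟩

theorem hasPrim1_smul {M : ℕ} {f : CuspForm (Gamma1 M) 2} {F : ℍ → ℂ} (c : ℂ)
    (hF : HasPrim1 M f F) : HasPrim1 M (c • f) (c • F) := by
  refine ⟨fun τ => ?_, fun γ => ?_, fun δ => ?_⟩
  · exact (hF.1 τ).const_smul c
  · obtain ⟨d, hd⟩ := hF.2.1 γ
    refine ⟨c * d, fun z => ?_⟩
    simp only [Pi.smul_apply, smul_eq_mul]
    rw [← hd z]
    ring
  · obtain ⟨L, hL⟩ := hF.2.2 δ
    exact ⟨c • L, hL.const_smul c⟩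

theorem periodMap1_add (M : ℕ) [NeZero M] (f g : CuspForm (Gamma1 M) 2) :
    periodMap1 M (f + g) = periodMap1 M f + periodMap1 M g := by
  obtain ⟨F, hF, -⟩ := exists_hasPrim1 M f
  obtain ⟨G, hG, -⟩ := exists_hasPrim1 M g
  refine AddMonoidHom.ext fun γ => ?_
  obtain ⟨γ, rfl⟩ := Additive.ofMul.surjective γ
  rw [AddMonoidHom.add_apply, periodMap1_apply (hasPrim1_add hF hG) γ UpperHalfPlane.I,
    periodMap1_apply hF γ UpperHalfPlane.I, periodMap1_apply hG γ UpperHalfPlane.I]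
  simp only [Pi.add_apply]
  ring

theorem periodMap1_smul (M : ℕ) [NeZero M] (c : ℂ) (f : CuspForm (Gamma1 M) 2) :
    periodMap1 M (c • f) = c • periodMap1 M f := by
  obtain ⟨F, hF, -⟩ := exists_hasPrim1 M f
  refine AddMonoidHom.ext fun γ => ?_
  obtain ⟨γ, rfl⟩ := Additive.ofMul.surjective γ
  rw [AddMonoidHom.smul_apply, periodMap1_apply (hasPrim1_smul c hF) γ UpperHalfPlane.I,
    periodMap1_apply hF γ UpperHalfPlane.I]
  simp only [Pi.smul_apply, smul_eq_mul]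
  ring

/-- The period of a primitive along an element of trace `±2` vanishes. -/
theorem period1_eq_zero_of_trace_sq {M : ℕ} [NeZero M] {f : CuspForm (Gamma1 M) 2} {F : ℍ → ℂ}
    (hF : HasPrim1 M f F) (γ : Gamma1 M)
    (hγ : ((γ : SL(2, ℤ)) : Matrix (Fin 2) (Fin 2) ℤ).trace ^ 2 = 4) :
    periodMap1 M f (Additive.ofMul γ) = 0 := by
  obtain ⟨δ, g, hδg, hg⟩ := Fermat.Agent.S21.exists_conj_upperTriangular (γ : SL(2, ℤ)) hγ
  obtain ⟨L, hL⟩ := hF.2.2 δ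
  have hgt : Tendsto (fun w : ℍ => g • w) atImInfty atImInfty := by
    have h1 : ((g : GL (Fin 2) ℝ) : Matrix (Fin 2) (Fin 2) ℝ) 1 0 = 0 := by
      simp [hg]
    exact tendsto_smul_atImInfty h1
  have h2 : Tendsto (fun w : ℍ => F (δ • (g • w))) atImInfty (𝓝 L) := hL.comp hgt
  have h3 : ∀ w : ℍ, F (δ • (g • w)) - F (δ • w) = periodMap1 M f (Additive.ofMul γ) := by
    intro w
    have h4 := periodMap1_apply hF γ (δ • w)
    rw [← mul_smul, hδg, mul_smul] at h4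
    exact h4.symm
  have h5 : Tendsto (fun w : ℍ => F (δ • (g • w)) - F (δ • w)) atImInfty (𝓝 (L - L)) :=
    h2.sub hL
  have h6 : Tendsto (fun _ : ℍ => periodMap1 M f (Additive.ofMul γ)) atImInfty (𝓝 (L - L)) := by
    refine h5.congr fun w => ?_
    exact h3 w
  have h7 := tendsto_nhds_unique h6 tendsto_const_nhds
  rw [← h7, sub_self]

theorem isPEHom_periodMap1 (M : ℕ) [NeZero M] (f : CuspForm (Gamma1 M) 2) :
    IsPEHom (Gamma1 M) (periodMap1 M f) := by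
  obtain ⟨F, hF, -⟩ := exists_hasPrim1 M f
  exact isPEHom_of_isParabolicHom (Gamma1 M) fun γ hγ => period1_eq_zero_of_trace_sq hF γ hγ

/-- **The period map** `S₂(Γ₁(M)) → Hom_pe(Γ₁(M), ℂ)`. -/
def per1 (M : ℕ) [NeZero M] : CuspForm (Gamma1 M) 2 →ₗ[ℂ] peHoms (Gamma1 M) ℂ ℂ where
  toFun f := ⟨periodMap1 M f, isPEHom_periodMap1 M f⟩
  map_add' f g := Subtype.ext (periodMap1_add M f g)
  map_smul' c f := Subtype.ext (periodMap1_smul M c f)

@[simp] theorem coe_per1 (M : ℕ) [NeZero M] (f : CuspForm (Gamma1 M) 2) :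
    ((per1 M f : peHoms (Gamma1 M) ℂ ℂ) : Additive (Gamma1 M) →+ ℂ) = periodMap1 M f := rfl

/-! ### Injectivity -/

theorem periodMap1_eq_zero_imp (M : ℕ) [NeZero M] (f : CuspForm (Gamma1 M) 2)
    (h : periodMap1 M f = 0) : f = 0 := by
  obtain ⟨F, hF, hFd⟩ := exists_hasPrim1 M f
  have hinvF : ∀ γ ∈ Gamma1 M, ∀ z : ℍ, F (γ • z) = F z := by
    intro γ hγ z
    have h1 := periodMap1_apply hF ⟨γ, hγ⟩ z
    rw [h, AddMonoidHom.zero_apply] at h1
    exact (sub_eq_zero.mp h1.symm)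
  obtain ⟨c, hc⟩ := exists_const_of_re_invariant_of_finiteIndex (Gamma1 M) M hFd
    (fun γ hγ z => by rw [hinvF γ hγ z])
    (fun δ w => by
      have h1 := hinvF _ (conj_T_pow_mem_Gamma1 M δ) (δ • w)
      rw [← mul_smul, inv_mul_cancel_right, mul_smul] at h1
      exact h1)
    (fun δ => by
      obtain ⟨L, hL⟩ := hF.2.2 δ
      exact hL.isBigO_one ℝ)
  refine DFunLike.ext _ _ fun τ => ?_
  have h1 := hF.1 τ
  have h2 : HasDerivAt (F ∘ ofComplex) 0 (τ : ℂ) := by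
    have h3 : F ∘ ofComplex = fun _ => c := by
      funext w
      exact hc _
    rw [h3]
    exact hasDerivAt_const _ _
  exact h1.unique h2

theorem per1_injective (M : ℕ) [NeZero M] : Function.Injective (per1 M) := by
  rw [injective_iff_map_eq_zero]
  intro f hf
  exact periodMap1_eq_zero_imp M f (congrArg Subtype.val hf)

/-! ### Hecke equivariance -/

/-- Chain rule: if `F` is a primitive of `f` then `F ∘ g` is a primitive of `f ∣[2] g`, for
`g ∈ GL(2, ℝ)` of positive determinant. -/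
theorem hasDerivAt_comp_smul_GL {F f : ℍ → ℂ}
    (hF : ∀ τ : ℍ, HasDerivAt (F ∘ ofComplex) (f τ) ↑τ)
    {g : GL (Fin 2) ℝ} (hg : 0 < g.val.det) (τ : ℍ) :
    HasDerivAt ((fun z : ℍ => F (g • z)) ∘ ofComplex) ((f ∣[(2 : ℤ)] g) τ) ↑τ := by
  have h1 : HasDerivAt (fun z : ℂ => ((g • ofComplex z : ℍ) : ℂ))
      ((g.val.det : ℂ) / denom g τ ^ 2) ↑τ := (hasStrictDerivAt_smul hg τ).hasDerivAt
  have h2 : HasDerivAt (F ∘ ofComplex) (f (g • τ))
      ((fun z : ℂ => ((g • ofComplex z : ℍ) : ℂ)) ↑τ) := by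
    simp only [ofComplex_apply]
    exact hF (g • τ)
  have h3 := HasDerivAt.comp (τ : ℂ) h2 h1
  have hfun : (F ∘ ofComplex) ∘ (fun z : ℂ => ((g • ofComplex z : ℍ) : ℂ))
      = (fun z : ℍ => F (g • z)) ∘ ofComplex := by
    funext z
    simp only [comp_apply, ofComplex_apply]
  rw [hfun] at h3
  have h4 : (f ∣[(2 : ℤ)] g) τ = f (g • τ) * ((g.val.det : ℂ) / denom g τ ^ 2) := by
    have hdet : g.det.val = g.val.det := Matrix.GeneralLinearGroup.val_det_apply g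
    rw [ModularForm.slash_apply, hdet, abs_of_pos hg]
    have hσ : UpperHalfPlane.σ g = ContinuousAlgEquiv.refl ℝ ℂ := by
      unfold UpperHalfPlane.σ
      rw [if_pos (by rw [hdet]; exact hg)]
    rw [hσ, ContinuousAlgEquiv.refl_apply]
    have hd := denom_ne_zero g τ
    rw [show ((2 : ℤ) - 1) = 1 by norm_num, zpow_one, zpow_neg, div_eq_mul_inv]
    push_cast
    rw [show (2 : ℤ) = ((2 : ℕ) : ℤ) by norm_num, zpow_natCast]
    ring
  rw [h4]
  exact h3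

/-- **The period map intertwines a Hecke system with the corresponding sum of slashes.** -/
theorem periodMap1_eq_hecke {M : ℕ} [NeZero M] {ι : Type*} [Fintype ι]
    {a : ι → GL (Fin 2) ℝ} (h : IsHeckeSystem (jSub (Gamma1 M)) a)
    (ha : ∀ i, 0 < (a i).val.det)
    (f f' : CuspForm (Gamma1 M) 2) (hf' : ⇑f' = ∑ i, ⇑f ∣[(2 : ℤ)] a i) :
    periodMap1 M f' = h.hecke (periodMap1 M f) := by
  obtain ⟨F, hF, -⟩ := exists_hasPrim1 M f
  obtain ⟨G, hG, -⟩ := exists_hasPrim1 M f'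
  set F' : ℍ → ℂ := fun z => ∑ i, F (a i • z) with hF'def
  have hF' : ∀ τ : ℍ, HasDerivAt (F' ∘ ofComplex) (f' τ) ↑τ := by
    intro τ
    have e : f' τ = ∑ i, (⇑f ∣[(2 : ℤ)] a i) τ := by
      rw [hf', Finset.sum_apply]
    rw [e]
    have h0 := HasDerivAt.fun_sum (u := Finset.univ)
      (fun i _ => hasDerivAt_comp_smul_GL hF.1 (ha i) τ)
    exact h0
  obtain ⟨c0, hc0⟩ := Fermat.Agent.S21.exists_const_of_hasDerivAt hG.1 hF'
  refine AddMonoidHom.ext fun γ => ?_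
  obtain ⟨γ, rfl⟩ := Additive.ofMul.surjective γ
  rw [periodMap1_apply hG γ UpperHalfPlane.I, h.hecke_apply]
  have e1 : G ((γ : SL(2, ℤ)) • UpperHalfPlane.I) - G UpperHalfPlane.I
      = F' ((γ : SL(2, ℤ)) • UpperHalfPlane.I) - F' UpperHalfPlane.I := by
    have a1 := hc0 ((γ : SL(2, ℤ)) • UpperHalfPlane.I)
    have a2 := hc0 UpperHalfPlane.I
    linear_combination a1 - a2
  rw [e1]
  have e2 : ∀ i, periodMap1 M f (Additive.ofMul (h.coc γ i))
      = F (a i • ((γ : SL(2, ℤ)) • UpperHalfPlane.I)) - F (a (h.perm γ i) • UpperHalfPlane.I) := by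
    intro i
    rw [periodMap1_apply hF (h.coc γ i) (a (h.perm γ i) • UpperHalfPlane.I)]
    congr 2
    have hs := h.spec γ i
    calc ((h.coc γ i : Gamma1 M) : SL(2, ℤ)) • (a (h.perm γ i) • UpperHalfPlane.I)
        = (jSub (Gamma1 M) (h.coc γ i) * a (h.perm γ i)) • UpperHalfPlane.I := by
          rw [mul_smul]; rfl
      _ = (a i * jSub (Gamma1 M) γ) • UpperHalfPlane.I := by rw [← hs]
      _ = a i • ((γ : SL(2, ℤ)) • UpperHalfPlane.I) := by rw [mul_smul]; rfl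
  simp only [e2, hF'def, Finset.sum_sub_distrib]
  congr 1
  exact (Equiv.sum_comp (h.permEquiv γ) (fun i => F (a i • UpperHalfPlane.I))).symm

/-! ### `T_p` and `⟨d⟩` -/

theorem det_mapGL_pos (g : SL(2, ℤ)) : 0 < (Matrix.SpecialLinearGroup.mapGL ℝ g : GL (Fin 2) ℝ).val.det := by
  have h : (Matrix.SpecialLinearGroup.mapGL ℝ g : GL (Fin 2) ℝ).val.det = 1 := by
    rw [← Matrix.GeneralLinearGroup.val_det_apply]
    simp
  rw [h]
  exact one_pos

theorem det_hRep_pos (p : ℕ) (x : OnePoint (ZMod p)) : 0 < (hRep p x).val.det := by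
  induction x using OnePoint.rec with
  | infty =>
    rw [hRep_infty, ← Matrix.GeneralLinearGroup.val_det_apply]
    exact ModularForm.det_heckeDiagMatrix_pos p
  | coe j =>
    rw [hRep_coe, ← Matrix.GeneralLinearGroup.val_det_apply]
    exact ModularForm.det_heckeMatrix_pos p j.val

theorem det_t1Rep_pos (M : ℕ) [NeZero M] (p : ℕ) (u : (ZMod M)ˣ) (x : OnePoint (ZMod p)) :
    0 < (t1Rep M p u x).val.det := by
  rw [t1Rep_def, Units.val_mul, Matrix.det_mul]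
  exact mul_pos (det_mapGL_pos _) (det_hRep_pos p x)

/-- The period map intertwines `T_p` on cusp forms with `T_p` on cohomology. -/
theorem periodMap1_heckeT (M : ℕ) [NeZero M] {p : ℕ} (hp : p.Prime) (hpM : ¬ p ∣ M)
    (f : CuspForm (Gamma1 M) 2) :
    periodMap1 M (DS.Hecke1.heckeT 2 hp hpM f) = heckeCoh1T M hp hpM (periodMap1 M f) := by
  haveI : Fact p.Prime := ⟨hp⟩
  haveI : NeZero p := ⟨hp.ne_zero⟩
  rw [heckeCoh1T_eq]
  refine periodMap1_eq_hecke _ (det_t1Rep_pos M p _) f _ ?_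
  have h1 : ⇑(DS.Hecke1.heckeT 2 hp hpM f) = T1 M 2 p (punit hp hpM) ⇑f := rfl
  rw [h1, T1_eq_sum (punit hp hpM) (inv1_cuspForm f)]
  refine Finset.sum_congr rfl fun x _ => ?_
  rw [t1Rep_def, SlashAction.slash_mul]
  rfl

/-- The period map intertwines `⟨d⟩` on cusp forms with `⟨d⟩` on cohomology. -/
theorem periodMap1_diamond (M : ℕ) [NeZero M] (d : (ZMod M)ˣ) (f : CuspForm (Gamma1 M) 2) :
    periodMap1 M (DS.Hecke1.diamond 2 d f) = heckeCoh1D M d (periodMap1 M f) := by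
  refine periodMap1_eq_hecke (isHeckeSystem_D1 M d) (fun _ => det_mapGL_pos _) f _ ?_
  rw [Fintype.sum_unique]
  rfl

theorem per1_heckeT (M : ℕ) [NeZero M] {p : ℕ} (hp : p.Prime) (hpM : ¬ p ∣ M)
    (f : CuspForm (Gamma1 M) 2) :
    per1 M (DS.Hecke1.heckeT 2 hp hpM f) = heckeT1 M hp hpM ℂ ℂ (per1 M f) :=
  Subtype.ext (periodMap1_heckeT M hp hpM f)

theorem per1_diamond (M : ℕ) [NeZero M] (d : (ZMod M)ˣ) (f : CuspForm (Gamma1 M) 2) :
    per1 M (DS.Hecke1.diamond 2 d f) = diamond1 M d ℂ ℂ (per1 M f) :=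
  Subtype.ext (periodMap1_diamond M d f)

end Fermat.Agent.G1
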