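import Mathlib
import Fermat.Agent.G1.Period1
import Fermat.Agent.G1.EigenFuncHom

/-!
# G1 / PER : eigen-functionals on `Hom_PE(Γ₁(M), ℤ/m)` for every character of the Hecke algebra

Let `𝕋 = Hecke1.heckeAlgebra M 2` (the `ℤ`-algebra generated by all `T_p`, `p ∤ M`, and all
diamond operators on `S₂(Γ₁(M))`), `k` a field and `θ : 𝕋 →+* k` a ring homomorphism.

* `exists_eigenfunctional_int1` : there is a nonzero additive `μ : Hom_PE(Γ₁(M), ℤ) → k` with
  `μ ∘ T_p = θ(T_p) μ`, `μ ∘ ⟨d⟩ = θ(⟨d⟩) μ`.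
* `exists_eigenfunctional_zmod1` : the same on `Hom_PE(Γ₁(M), ℤ/m)` whenever `m = 0` in `k`.

No dimension formula, no freeness of `Γ₁(M)^ab` modulo parabolics and no surjectivity of
the reduction map are used: only the injectivity and Hecke-equivariance of the period map
(`Period1.lean`), finite generation, and the Cayley–Hamilton theorem for ideals.

The commutativity of the operators on `Hom_PE(Γ₁(M), A)` is an explicit hypothesis
(`OpComm M A`), discharged in `HeckeComm1`.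
-/

set_option autoImplicit false

open scoped MatrixGroups
open CongruenceSubgroup ModularCurve.Period
open Fermat.Agent.ESJ.ParHom Fermat.Agent.DS.Hecke1
open Fermat.Agent.ESJ.Jac.EigenFunctional

noncomputable section

namespace Fermat.Agent.G1

/-! ### Generalities on `Hom_PE(Γ, A)` for `Γ` of finite index -/

section General

variable (Γ : Subgroup SL(2, ℤ))

theorem moduleFinite_zmod (m : ℕ) : Module.Finite ℤ (ZMod m) :=
  Module.Finite.of_surjective (Int.castAddHom (ZMod m)).toIntLinearMap ZMod.intCast_surjective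

/-- Homomorphisms from a finitely generated abelian group to a finitely generated abelian group
form a finitely generated abelian group. -/
theorem moduleFinite_addMonoidHom (Q A : Type*) [AddCommGroup Q] [AddCommGroup A]
    (hQ : AddGroup.FG Q) [Module.Finite ℤ A] : Module.Finite ℤ (Q →+ A) := by
  obtain ⟨S, hS, hfin⟩ := AddGroup.fg_iff.mp hQ
  haveI : Finite S := hfin.to_subtype
  haveI : IsNoetherian ℤ A := isNoetherian_of_isNoetherianRing_of_finite ℤ A
  let e : (Q →+ A) →ₗ[ℤ] (S → A) :=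
    { toFun := fun φ s => φ s
      map_add' := fun _ _ => rfl
      map_smul' := fun _ _ => rfl }
  refine Module.Finite.of_injective e ?_
  intro φ ψ h
  refine AddMonoidHom.eq_of_eqOn_dense hS ?_
  intro s hs
  exact congrFun h ⟨s, hs⟩

/-- `Hom_PE(Γ, A)` is a finitely generated abelian group, for `Γ` of finite index and `A`
finitely generated. -/
theorem moduleFinite_peHoms [Γ.FiniteIndex] (A : Type*) [AddCommGroup A] [Module.Finite ℤ A] :
    Module.Finite ℤ (peHoms Γ ℤ A) := by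
  haveI : Module.Finite ℤ (PEQuot Γ →+ A) :=
    moduleFinite_addMonoidHom (PEQuot Γ) A (addGroupFG_PEQuot Γ)
  exact Module.Finite.equiv (peHomsEquiv Γ ℤ A).symm

/-- The kernel of reduction mod `m` on `Hom_PE(Γ, ℤ)` is `m · Hom_PE(Γ, ℤ)`. -/
theorem exists_eq_smul_of_mapPE_intCast_eq_zero (m : ℕ) (φ : peHoms Γ ℤ ℤ)
    (h : mapPE Γ (Int.castAddHom (ZMod m)) φ = (0 : peHoms Γ ℤ (ZMod m))) :
    ∃ ψ : peHoms Γ ℤ ℤ, φ = (m : ℤ) • ψ := by
  have hdvd : ∀ x : Additive Γ, (m : ℤ) ∣ (φ : Additive Γ →+ ℤ) x := by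
    intro x
    have h1 := congrArg (fun χ : peHoms Γ ℤ (ZMod m) => (χ : Additive Γ →+ ZMod m) x) h
    exact (ZMod.intCast_zmod_eq_zero_iff_dvd _ m).mp h1
  let ψ₀ : Additive Γ →+ ℤ :=
    { toFun := fun x => (φ : Additive Γ →+ ℤ) x / (m : ℤ)
      map_zero' := by simp
      map_add' := fun x y => by
        show (φ : Additive Γ →+ ℤ) (x + y) / (m : ℤ) = _
        rw [map_add, Int.add_ediv_of_dvd_left (hdvd x)] }
  have hψ₀ : IsPEHom Γ ψ₀ := by
    intro γ hγ
    show (φ : Additive Γ →+ ℤ) (Additive.ofMul γ) / (m : ℤ) = 0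
    rw [(mem_peHoms_iff.mp φ.2) γ hγ, Int.zero_ediv]
  refine ⟨⟨ψ₀, mem_peHoms_iff.mpr hψ₀⟩, ?_⟩
  apply Subtype.ext
  refine AddMonoidHom.ext fun x => ?_
  show (φ : Additive Γ →+ ℤ) x = (m : ℤ) * ((φ : Additive Γ →+ ℤ) x / (m : ℤ))
  exact (Int.mul_ediv_cancel' (hdvd x)).symm

/-- The homomorphism `ℤ → ℂ`, `n ↦ c * n`. -/
def mulCast (c : ℂ) : ℤ →+ ℂ := (AddMonoidHom.mulLeft c).comp (Int.castAddHom ℂ)

theorem mulCast_apply (c : ℂ) (n : ℤ) : mulCast c n = c * n := rfl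

/-- `Hom_PE(Γ, ℂ)` is spanned over `ℂ` by `Hom_PE(Γ, ℤ)`. -/
theorem exists_eq_sum_mapPE_mulCast [Γ.FiniteIndex] (ψ : peHoms Γ ℤ ℂ) :
    ∃ (ι : Type) (_ : Fintype ι) (c : ι → ℂ) (φ : ι → peHoms Γ ℤ ℤ),
      ψ = ∑ i, mapPE Γ (mulCast (c i)) (φ i) := by
  classical
  haveI : Module.Finite ℤ (PEQuot Γ) := Module.Finite.iff_addGroup_fg.mpr (addGroupFG_PEQuot Γ)
  let L : PEQuot Γ →ₗ[ℤ] ℂ := (peHomsEquiv Γ ℤ ℂ ψ).toIntLinearMap
  haveI : Module.Finite ℤ (LinearMap.range L) := Module.Finite.range L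
  haveI : Module.Free ℤ (LinearMap.range L) := Module.free_of_finite_type_torsion_free'
  let b := Module.Free.chooseBasis ℤ (LinearMap.range L)
  let n : Module.Free.ChooseBasisIndex ℤ (LinearMap.range L) → (PEQuot Γ →+ ℤ) :=
    fun i => ((b.coord i).comp L.rangeRestrict).toAddMonoidHom
  refine ⟨Module.Free.ChooseBasisIndex ℤ (LinearMap.range L), inferInstance,
    fun i => ((b i : LinearMap.range L) : ℂ), fun i => (peHomsEquiv Γ ℤ ℤ).symm (n i), ?_⟩
  apply Subtype.ext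
  refine AddMonoidHom.ext fun x => ?_
  have h1 : (ψ : Additive Γ →+ ℂ) x = L (peProj Γ x) :=
    (peHomsEquiv_apply_peProj ℤ ℂ ψ x).symm
  have h2 := b.sum_repr (L.rangeRestrict (peProj Γ x))
  have h3 : L (peProj Γ x) = ((L.rangeRestrict (peProj Γ x) : LinearMap.range L) : ℂ) := rfl
  rw [h1, h3, ← h2]
  rw [AddSubmonoidClass.coe_finsetSum, AddSubmonoidClass.coe_finsetSum]
  rw [AddMonoidHom.finsetSum_apply]
  refine Finset.sum_congr rfl fun i _ => ?_
  rw [coe_mapPE_apply, mulCast_apply, Submodule.coe_smul, zsmul_eq_mul, mul_comm]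
  rfl

end General

/-! ### The operators, indexed uniformly -/

section Ops

variable (M : ℕ) [NeZero M]

/-- Index type of the Hecke operators of level `Γ₁(M)`: the primes `p ∤ M` and the diamonds. -/
abbrev HIdx (M : ℕ) : Type := {p : ℕ // p.Prime ∧ ¬ p ∣ M} ⊕ (ZMod M)ˣ

/-- The operators `T_p`, `⟨d⟩` on `Hom_PE(Γ₁(M), A)`. -/
def opPE (A : Type*) [AddCommGroup A] : HIdx M → Module.End ℤ (peHoms (Gamma1 M) ℤ A) :=
  Sum.elim (fun p => heckeT1 M p.2.1 p.2.2 ℤ A) (fun d => diamond1 M d ℤ A)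

/-- The elements `T_p`, `⟨d⟩` of the Hecke algebra. -/
def opT : HIdx M → heckeAlgebra M 2 :=
  Sum.elim (fun p => heckeAlgebra.T p.2.1 p.2.2) (fun d => heckeAlgebra.D d)

/-- Commutativity of the operators on `Hom_PE(Γ₁(M), A)`. -/
def OpComm (A : Type*) [AddCommGroup A] : Prop :=
  ∀ i j : HIdx M, opPE M A i * opPE M A j = opPE M A j * opPE M A i

variable {M}

theorem mapPE_opPE {A B : Type*} [AddCommGroup A] [AddCommGroup B] (u : A →+ B) (i : HIdx M)
    (φ : peHoms (Gamma1 M) ℤ A) :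
    mapPE (Gamma1 M) u (opPE M A i φ) = opPE M B i (mapPE (Gamma1 M) u φ) := by
  rcases i with p | d
  · exact mapPE_heckeT1 M p.2.1 p.2.2 u φ
  · exact mapPE_diamond1 M d u φ

/-- Naturality of polynomials in the Hecke operators with respect to the coefficients. -/
theorem mapPE_ev {A B : Type*} [AddCommGroup A] [AddCommGroup B] (hA : OpComm M A)
    (hB : OpComm M B) (u : A →+ B) (P : MvPolynomial (HIdx M) ℤ) :
    ∀ φ : peHoms (Gamma1 M) ℤ A,
      mapPE (Gamma1 M) u (ev (opPE M A) hA P φ) = ev (opPE M B) hB P (mapPE (Gamma1 M) u φ) := by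
  induction P using MvPolynomial.induction_on with
  | C a =>
    intro φ
    rw [← MvPolynomial.algebraMap_eq, AlgHom.commutes, AlgHom.commutes,
      Module.algebraMap_end_apply, Module.algebraMap_end_apply, map_zsmul]
  | add P Q hP hQ =>
    intro φ
    rw [map_add, map_add, LinearMap.add_apply, LinearMap.add_apply, map_add, hP, hQ]
  | mul_X P i hP =>
    intro φ
    rw [map_mul, map_mul, ev_X, ev_X, Module.End.mul_apply, Module.End.mul_apply, hP,
      mapPE_opPE]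

/-- The period map with values in `Hom_PE(Γ₁(M), ℂ)` seen as an abelian group. -/
def perZ (M : ℕ) [NeZero M] : CuspForm (Gamma1 M) 2 →+ peHoms (Gamma1 M) ℤ ℂ :=
  (mapPE (Gamma1 M) (R := ℂ) (R' := ℤ) (AddMonoidHom.id ℂ)).comp (per1 M).toAddMonoidHom

theorem perZ_apply (f : CuspForm (Gamma1 M) 2) :
    perZ M f = mapPE (Gamma1 M) (R := ℂ) (R' := ℤ) (AddMonoidHom.id ℂ) (per1 M f) := rfl

theorem perZ_injective : Function.Injective (perZ M) := by
  intro f g h
  rw [perZ_apply, perZ_apply] at h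
  exact per1_injective M (mapPE_injective (Gamma1 M) (fun _ _ h => h) h)

theorem perZ_opT (i : HIdx M) (f : CuspForm (Gamma1 M) 2) :
    perZ M (((opT M i : heckeAlgebra M 2) : Module.End ℂ (CuspForm (Gamma1 M) 2)) f)
      = opPE M ℂ i (perZ M f) := by
  rcases i with p | d
  · show perZ M (DS.Hecke1.heckeT 2 p.2.1 p.2.2 f) = heckeT1 M p.2.1 p.2.2 ℤ ℂ (perZ M f)
    rw [perZ_apply, perZ_apply, per1_heckeT, mapPE_heckeT1]
  · show perZ M (DS.Hecke1.diamond 2 d f) = diamond1 M d ℤ ℂ (perZ M f)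
    rw [perZ_apply, perZ_apply, per1_diamond, mapPE_diamond1]

/-- Evaluation of polynomials at the Hecke operators in the Hecke algebra. -/
def evS (M : ℕ) [NeZero M] : MvPolynomial (HIdx M) ℤ →ₐ[ℤ] heckeAlgebra M 2 :=
  MvPolynomial.aeval (opT M)

theorem evS_X (i : HIdx M) : evS M (MvPolynomial.X i) = opT M i := MvPolynomial.aeval_X _ i

/-- The period map is equivariant for all polynomials in the Hecke operators. -/
theorem perZ_ev (hℂ : OpComm M ℂ) (P : MvPolynomial (HIdx M) ℤ) :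
    ∀ f : CuspForm (Gamma1 M) 2,
      perZ M (((evS M P : heckeAlgebra M 2) : Module.End ℂ (CuspForm (Gamma1 M) 2)) f)
        = ev (opPE M ℂ) hℂ P (perZ M f) := by
  induction P using MvPolynomial.induction_on with
  | C a =>
    intro f
    rw [← MvPolynomial.algebraMap_eq, AlgHom.commutes, AlgHom.commutes,
      Subalgebra.coe_algebraMap, Module.algebraMap_end_apply, Module.algebraMap_end_apply,
      map_zsmul]
  | add P Q hP hQ =>
    intro f
    rw [map_add, map_add, Subalgebra.coe_add, LinearMap.add_apply, LinearMap.add_apply,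
      map_add, hP, hQ]
  | mul_X P i hP =>
    intro f
    rw [map_mul, map_mul, ev_X, evS_X, Subalgebra.coe_mul, Module.End.mul_apply,
      Module.End.mul_apply, hP, perZ_opT]

/-- **Transfer.** A polynomial relation between the Hecke operators on `Hom_PE(Γ₁(M), ℤ)`
holds in the Hecke algebra of `S₂(Γ₁(M))`. -/
theorem evS_eq_zero_of_ev_int (hℤ : OpComm M ℤ) (hℂ : OpComm M ℂ)
    (Q : MvPolynomial (HIdx M) ℤ) (h : ev (opPE M ℤ) hℤ Q = 0) : evS M Q = 0 := by
  apply Subtype.ext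
  refine LinearMap.ext fun f => ?_
  apply perZ_injective
  rw [perZ_ev hℂ]
  show ev (opPE M ℂ) hℂ Q (perZ M f) = perZ M 0
  rw [map_zero]
  obtain ⟨ι, _, c, φ, hψ⟩ := exists_eq_sum_mapPE_mulCast (Gamma1 M) (perZ M f)
  rw [hψ, map_sum]
  refine Finset.sum_eq_zero fun i _ => ?_
  rw [← mapPE_ev hℤ hℂ, h, LinearMap.zero_apply, map_zero]

/-- **Eigen-functionals on the integral lattice `Hom_PE(Γ₁(M), ℤ)`**, for every ring
homomorphism `θ` from the Hecke algebra of `S₂(Γ₁(M))` to a field. -/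
theorem exists_eigenfunctional_int1_of_comm (hℤ : OpComm M ℤ) (hℂ : OpComm M ℂ)
    {k : Type*} [Field k] (θ : heckeAlgebra M 2 →+* k) :
    ∃ μ : peHoms (Gamma1 M) ℤ ℤ →+ k, μ ≠ 0 ∧
      (∀ (p : ℕ) (hp : p.Prime) (hpM : ¬ p ∣ M) (x : peHoms (Gamma1 M) ℤ ℤ),
        μ (heckeT1 M hp hpM ℤ ℤ x) = θ (heckeAlgebra.T hp hpM) * μ x) ∧
      (∀ (d : (ZMod M)ˣ) (x : peHoms (Gamma1 M) ℤ ℤ),
        μ (diamond1 M d ℤ ℤ x) = θ (heckeAlgebra.D d) * μ x) := by
  haveI : Module.Finite ℤ (peHoms (Gamma1 M) ℤ ℤ) := moduleFinite_peHoms (Gamma1 M) ℤ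
  obtain ⟨μ, hμ, hμT⟩ := EigenFuncHom.exists_eigenfunctional_of_relations (opPE M ℤ) hℤ (opT M)
    (fun Q hQ => evS_eq_zero_of_ev_int hℤ hℂ Q hQ) θ
  exact ⟨μ, hμ, fun p hp hpM x => hμT (Sum.inl ⟨p, hp, hpM⟩) x, fun d x => hμT (Sum.inr d) x⟩

/-- A character of the Hecke algebra with values in a field in which `m = 0` kills every
polynomial in the Hecke operators that vanishes on `Hom_PE(Γ₁(M), ℤ/m)`. -/
theorem map_evS_eq_zero_of_ev_zmod (hℤ : OpComm M ℤ) (hℂ : OpComm M ℂ) (m : ℕ)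
    (hm : OpComm M (ZMod m)) {k : Type*} [Field k] (hmk : (m : k) = 0)
    (θ : heckeAlgebra M 2 →+* k) (P : MvPolynomial (HIdx M) ℤ)
    (h : ev (opPE M (ZMod m)) hm P = 0) : θ (evS M P) = 0 := by
  haveI : Module.Finite ℤ (peHoms (Gamma1 M) ℤ ℤ) := moduleFinite_peHoms (Gamma1 M) ℤ
  set f : Module.End ℤ (peHoms (Gamma1 M) ℤ ℤ) := ev (opPE M ℤ) hℤ P with hf
  set I : Ideal ℤ := Ideal.span {(m : ℤ)} with hI
  have hrange : LinearMap.range f ≤ I • (⊤ : Submodule ℤ (peHoms (Gamma1 M) ℤ ℤ)) := by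
    rintro _ ⟨φ, rfl⟩
    have h0 : mapPE (Gamma1 M) (Int.castAddHom (ZMod m)) (f φ)
        = (0 : peHoms (Gamma1 M) ℤ (ZMod m)) := by
      rw [hf, mapPE_ev hℤ hm, h, LinearMap.zero_apply]
    obtain ⟨ψ, hψ⟩ := exists_eq_smul_of_mapPE_intCast_eq_zero (Gamma1 M) m (f φ) h0
    rw [hψ]
    exact Submodule.smul_mem_smul (Ideal.mem_span_singleton_self _) Submodule.mem_top
  obtain ⟨g, hmonic, -, hcoeff, hg0⟩ :=
    LinearMap.exists_monic_and_natDegree_eq_and_coeff_mem_pow_and_aeval_eq_zero ℤ f I hrange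
  -- the relation `g(P) = 0` transfers to the Hecke algebra
  have h1 : ev (opPE M ℤ) hℤ (Polynomial.aeval P g) = 0 := by
    rw [← Polynomial.aeval_algHom_apply, ← hf, hg0]
  have h2 : Polynomial.aeval (evS M P) g = 0 := by
    rw [Polynomial.aeval_algHom_apply]
    exact evS_eq_zero_of_ev_int hℤ hℂ _ h1
  -- apply `θ`
  have h3 : Polynomial.eval₂ (Int.castRingHom k) (θ (evS M P)) g = 0 := by
    have h4 := congrArg θ h2
    rw [map_zero, Polynomial.aeval_def, Polynomial.hom_eval₂] at h4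
    rw [← h4]
    congr 1
    exact Subsingleton.elim _ _
  rw [Polynomial.eval₂_eq_sum_range, Finset.sum_range_succ, hmonic.coeff_natDegree, map_one,
    one_mul] at h3
  have h5 : ∑ i ∈ Finset.range g.natDegree, (Int.castRingHom k) (g.coeff i) * θ (evS M P) ^ i
      = 0 := by
    refine Finset.sum_eq_zero fun i hi => ?_
    have hi' : i < g.natDegree := Finset.mem_range.mp hi
    have h6 : g.coeff i ∈ I := by
      have h7 := hcoeff i
      have h8 : I ^ (g.natDegree - i) ≤ I := Ideal.pow_le_self (by omega)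
      exact h8 h7
    obtain ⟨c, hc⟩ := Ideal.mem_span_singleton.mp h6
    rw [hc, map_mul, eq_intCast, eq_intCast, Int.cast_natCast, hmk, zero_mul, zero_mul]
  rw [h5, zero_add] at h3
  exact eq_zero_of_pow_eq_zero h3

/-- **Eigen-functionals on `Hom_PE(Γ₁(M), ℤ/m)`**, `m = 0` in `k`, for every ring homomorphism
`θ` from the Hecke algebra of `S₂(Γ₁(M))` to the field `k`. -/
theorem exists_eigenfunctional_zmod1_of_comm (hℤ : OpComm M ℤ) (hℂ : OpComm M ℂ) (m : ℕ)
    (hm : OpComm M (ZMod m)) {k : Type*} [Field k] (hmk : (m : k) = 0)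
    (θ : heckeAlgebra M 2 →+* k) :
    ∃ μ : peHoms (Gamma1 M) ℤ (ZMod m) →+ k, μ ≠ 0 ∧
      (∀ (p : ℕ) (hp : p.Prime) (hpM : ¬ p ∣ M) (x : peHoms (Gamma1 M) ℤ (ZMod m)),
        μ (heckeT1 M hp hpM ℤ (ZMod m) x) = θ (heckeAlgebra.T hp hpM) * μ x) ∧
      (∀ (d : (ZMod M)ˣ) (x : peHoms (Gamma1 M) ℤ (ZMod m)),
        μ (diamond1 M d ℤ (ZMod m) x) = θ (heckeAlgebra.D d) * μ x) := by
  haveI : Module.Finite ℤ (ZMod m) := moduleFinite_zmod m
  haveI : Module.Finite ℤ (peHoms (Gamma1 M) ℤ (ZMod m)) :=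
    moduleFinite_peHoms (Gamma1 M) (ZMod m)
  obtain ⟨μ, hμ, hμT⟩ := EigenFuncHom.exists_eigenfunctional_of_ringHom (opPE M (ZMod m)) hm
    (θ.comp (evS M).toRingHom)
    (fun Q hQ => map_evS_eq_zero_of_ev_zmod hℤ hℂ m hm hmk θ Q hQ)
  have hX : ∀ i : HIdx M, (θ.comp (evS M).toRingHom) (MvPolynomial.X i) = θ (opT M i) := by
    intro i
    show θ (evS M (MvPolynomial.X i)) = _
    rw [evS_X]
  refine ⟨μ, hμ, fun p hp hpM x => ?_, fun d x => ?_⟩
  · have := hμT (Sum.inl ⟨p, hp, hpM⟩) x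
    rw [hX] at this
    exact this
  · have := hμT (Sum.inr d) x
    rw [hX] at this
    exact this

end Ops

end Fermat.Agent.G1
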