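import Mathlib
import Fermat.Agent.ESJ.ParHom.Hecke

/-!
# G1: a commutation criterion for abstract Hecke (transfer) operators on `Hom(Γ, A)`

Setting of `ESJ/ParHom/Hecke.lean`: `j : Γ →* G` injective, `a : ι → G` and `b : κ → G` two
Hecke systems for `j`, with operators `ha.hecke`, `hb.hecke` on `Additive Γ →+ A`.

* `sum_eq_zero_of_perm` : cycle lemma.  If `c (τ x) = j (u x) * c x` for a permutation `τ` of a
  finite set, then `∑ x, φ (u x) = 0` for every homomorphism `φ`.
* `sum_eq_of_witnesses` : the sum `∑ x, φ (Γ x)` attached to a finite family `c : X → G` and an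
  element `t` (`c x * t = j (Γ x) * c (ρ x)`, `ρ` a permutation) does not depend on the witnesses.
* `hecke_comm_of_swap` : if `a i * b k = j (g (i, k)) * (b k' * a i')` with `(k', i') = σ (i, k)`
  for a bijection `σ : ι × κ ≃ κ × ι`, then `ha.hecke` and `hb.hecke` commute.
* `hecke_comm_of_exists` : the same from (1) every product `a i * b k` lies in some coset
  `j Γ * (b k' * a i')` and (2) the products `a i * b k` lie in pairwise distinct cosets.
* `hecke_comm_self`, `hecke_comm_of_single` : special cases.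
-/

set_option autoImplicit false

namespace Fermat.Agent.G1.HeckeComm

open Fermat.Agent.ESJ.ParHom

variable {Γ G : Type*} [Group Γ] [Group G] {j : Γ →* G}

/-- **Cycle lemma.**  `c : X → G` a finite family, `τ` a permutation of `X`, and
`c (τ x) = j (u x) * c x` with `u x : Γ`.  Then `∑ x, φ (u x) = 0` for every `φ : Γ → A`. -/
theorem sum_eq_zero_of_perm {X A : Type*} [Fintype X] [AddCommGroup A]
    (hj : Function.Injective j) (c : X → G) (τ : Equiv.Perm X) (u : X → Γ)
    (h : ∀ x, c (τ x) = j (u x) * c x) (φ : Additive Γ →+ A) :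
    ∑ x, φ (Additive.ofMul (u x)) = 0 := by
  classical
  -- the ordered products along the orbit
  let P : ℕ → X → Γ := fun n => Nat.rec (fun _ => 1) (fun n Pn x => u (τ^[n] x) * Pn x) n
  have hP0 : ∀ x, P 0 x = 1 := fun _ => rfl
  have hPs : ∀ n x, P (n + 1) x = u (τ^[n] x) * P n x := fun _ _ => rfl
  have hc : ∀ n x, c (τ^[n] x) = j (P n x) * c x := by
    intro n
    induction n with
    | zero => intro x; rw [hP0, map_one, one_mul]; rfl
    | succ n ih =>
      intro x
      rw [Function.iterate_succ_apply', h, ih, hPs, map_mul, mul_assoc]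
  have hφ : ∀ n x, φ (Additive.ofMul (P n x))
      = ∑ i ∈ Finset.range n, φ (Additive.ofMul (u (τ^[i] x))) := by
    intro n
    induction n with
    | zero => intro x; rw [hP0]; simp
    | succ n ih =>
      intro x
      rw [hPs, ofMul_mul, map_add, ih, Finset.sum_range_succ, add_comm]
  obtain ⟨w, hw⟩ := exists_primitive_of_cycle_sums (fun x => τ x)
    (fun x => φ (Additive.ofMul (u x))) (by
      intro x
      refine ⟨orderOf τ, orderOf_pos τ, ?_⟩
      have e : (fun x => τ x)^[orderOf τ] = ⇑(τ ^ orderOf τ) := by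
        rw [Equiv.Perm.coe_pow]
      rw [e, pow_orderOf_eq_one]
      rfl) (by
      intro x n hx
      have hx' : τ^[n] x = x := hx
      have h1 := hc n x
      rw [hx'] at h1
      have h2 : j (P n x) = 1 := by
        have : j (P n x) * c x = 1 * c x := by rw [← h1, one_mul]
        exact mul_right_cancel this
      have h3 : P n x = 1 := hj (by rw [h2, map_one])
      have h4 := hφ n x
      rw [h3] at h4
      rw [show (fun x => τ x) = ⇑τ from rfl, ← h4]
      simp)
  simp only [hw, Finset.sum_sub_distrib]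
  rw [sub_eq_zero]
  exact Equiv.sum_comp τ w

/-- **Independence of the witnesses.**  For a finite family `c : X → G` and `t : G`, the sum
`∑ x, φ (Γ x)` over witnesses `c x * t = j (Γ x) * c (ρ x)` (`ρ` a permutation of `X`) does not
depend on the witnesses — even if the cosets `j Γ * c x` are not pairwise distinct. -/
theorem sum_eq_of_witnesses {X A : Type*} [Fintype X] [AddCommGroup A]
    (hj : Function.Injective j) (c : X → G) (t : G) (ρ₁ ρ₂ : Equiv.Perm X) (Γ₁ Γ₂ : X → Γ)
    (h₁ : ∀ x, c x * t = j (Γ₁ x) * c (ρ₁ x)) (h₂ : ∀ x, c x * t = j (Γ₂ x) * c (ρ₂ x))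
    (φ : Additive Γ →+ A) :
    ∑ x, φ (Additive.ofMul (Γ₁ x)) = ∑ x, φ (Additive.ofMul (Γ₂ x)) := by
  have key : ∀ y, c ((ρ₁.symm.trans ρ₂) y)
      = j ((Γ₂ (ρ₁.symm y))⁻¹ * Γ₁ (ρ₁.symm y)) * c y := by
    intro y
    have e1 := h₁ (ρ₁.symm y)
    have e2 := h₂ (ρ₁.symm y)
    rw [Equiv.apply_symm_apply] at e1
    rw [Equiv.trans_apply, map_mul, map_inv, mul_assoc, ← e1, e2, inv_mul_cancel_left]
  have h0 := sum_eq_zero_of_perm hj c (ρ₁.symm.trans ρ₂) _ key φ
  have h1 : ∑ y, φ (Additive.ofMul ((Γ₂ (ρ₁.symm y))⁻¹ * Γ₁ (ρ₁.symm y)))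
      = ∑ x, φ (Additive.ofMul ((Γ₂ x)⁻¹ * Γ₁ x)) :=
    Equiv.sum_comp ρ₁.symm (fun x => φ (Additive.ofMul ((Γ₂ x)⁻¹ * Γ₁ x)))
  rw [h1] at h0
  simp only [ofMul_mul, ofMul_inv, map_add, map_neg, Finset.sum_add_distrib,
    Finset.sum_neg_distrib] at h0
  rw [neg_add_eq_zero] at h0
  exact h0.symm

section Comm

variable {ι κ A : Type*} [Fintype ι] [Fintype κ] [AddCommGroup A] {a : ι → G} {b : κ → G}

/-- The composite `T_b ∘ T_a` as a double sum: it is "the operator of the family `a i * b k`". -/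
theorem hecke_hecke_apply (ha : IsHeckeSystem j a) (hb : IsHeckeSystem j b)
    (φ : Additive Γ →+ A) (γ : Γ) :
    hb.hecke (ha.hecke φ) (Additive.ofMul γ)
      = ∑ x : ι × κ, φ (Additive.ofMul (ha.coc (hb.coc γ x.2) x.1)) := by
  rw [hb.hecke_apply, Fintype.sum_prod_type_right]
  exact Finset.sum_congr rfl fun k _ => ha.hecke_apply φ _

/-- The coset permutation of the family `a i * b k`. -/
noncomputable def prodPerm (ha : IsHeckeSystem j a) (hb : IsHeckeSystem j b) (γ : Γ) : Equiv.Perm (ι × κ) :=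
  Equiv.ofBijective (fun x => (ha.perm (hb.coc γ x.2) x.1, hb.perm γ x.2)) (by
    rw [← Finite.injective_iff_bijective]
    rintro ⟨i, k⟩ ⟨i', k'⟩ hx
    simp only [Prod.mk.injEq] at hx
    obtain ⟨h1, h2⟩ := hx
    have hk : k = k' := (hb.permEquiv γ).injective h2
    subst hk
    have hi : i = i' := (ha.permEquiv (hb.coc γ k)).injective h1
    rw [hi])

theorem prodPerm_apply (ha : IsHeckeSystem j a) (hb : IsHeckeSystem j b) (γ : Γ) (x : ι × κ) :
    prodPerm ha hb γ x = (ha.perm (hb.coc γ x.2) x.1, hb.perm γ x.2) := rfl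

/-- The defining relation of the family `a i * b k`. -/
theorem prod_spec (ha : IsHeckeSystem j a) (hb : IsHeckeSystem j b) (γ : Γ) (x : ι × κ) :
    a x.1 * b x.2 * j γ
      = j (ha.coc (hb.coc γ x.2) x.1)
        * (a (prodPerm ha hb γ x).1 * b (prodPerm ha hb γ x).2) := by
  rw [prodPerm_apply, mul_assoc, hb.spec γ x.2, ← mul_assoc, ha.spec (hb.coc γ x.2) x.1, mul_assoc]

/-- **Commutation criterion, bijection form.**  If every product `a i * b k` is, up to an element
of `Γ` on the left, the product `b k' * a i'` with `(k', i') = σ (i, k)` for a bijection `σ`, then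
the two Hecke operators commute. -/
theorem hecke_comm_of_swap (ha : IsHeckeSystem j a) (hb : IsHeckeSystem j b)
    (σ : ι × κ ≃ κ × ι) (g : ι × κ → Γ)
    (e : ∀ x : ι × κ, a x.1 * b x.2 = j (g x) * (b (σ x).1 * a (σ x).2))
    (φ : Additive Γ →+ A) :
    ha.hecke (hb.hecke φ) = hb.hecke (ha.hecke φ) := by
  refine AddMonoidHom.ext fun γ => ?_
  obtain ⟨γ, rfl⟩ := Additive.ofMul.surjective γ
  rw [hecke_hecke_apply hb ha φ γ, hecke_hecke_apply ha hb φ γ]
  -- the family `c x = a x.1 * b x.2` with its own witnesses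
  let c : ι × κ → G := fun x => a x.1 * b x.2
  -- the transported witnesses
  let ρ : Equiv.Perm (ι × κ) := (σ.trans (prodPerm hb ha γ)).trans σ.symm
  let Γ₂ : ι × κ → Γ := fun x => g x * hb.coc (ha.coc γ (σ x).2) (σ x).1 * (g (ρ x))⁻¹
  have h₁ : ∀ x, c x * j γ = j (ha.coc (hb.coc γ x.2) x.1) * c (prodPerm ha hb γ x) :=
    fun x => prod_spec ha hb γ x
  have h₂ : ∀ x, c x * j γ = j (Γ₂ x) * c (ρ x) := by
    intro x
    have e1 := e x
    have e2 := e (ρ x)
    have e3 := prod_spec hb ha γ (σ x)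
    have hρ : σ (ρ x) = prodPerm hb ha γ (σ x) := by
      simp [ρ]
    rw [hρ] at e2
    show a x.1 * b x.2 * j γ = j (Γ₂ x) * (a (ρ x).1 * b (ρ x).2)
    rw [e1, e2, mul_assoc, e3]
    simp only [Γ₂, map_mul, map_inv, mul_assoc, inv_mul_cancel_left]
  have h := sum_eq_of_witnesses ha.inj c (j γ) (prodPerm ha hb γ) ρ _ Γ₂ h₁ h₂ φ
  -- evaluate the transported sum
  have h3 : ∑ x, φ (Additive.ofMul (Γ₂ x))
      = ∑ y : κ × ι, φ (Additive.ofMul (hb.coc (ha.coc γ y.2) y.1)) := by
    simp only [Γ₂, ofMul_mul, ofMul_inv, map_add, map_neg, Finset.sum_add_distrib,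
      Finset.sum_neg_distrib]
    have e1 : ∑ x, φ (Additive.ofMul (g (ρ x))) = ∑ x, φ (Additive.ofMul (g x)) :=
      Equiv.sum_comp ρ (fun x => φ (Additive.ofMul (g x)))
    have e2 : ∑ x, φ (Additive.ofMul (hb.coc (ha.coc γ (σ x).2) (σ x).1))
        = ∑ y : κ × ι, φ (Additive.ofMul (hb.coc (ha.coc γ y.2) y.1)) :=
      Equiv.sum_comp σ (fun y : κ × ι => φ (Additive.ofMul (hb.coc (ha.coc γ y.2) y.1)))
    rw [e1, e2]
    abel
  rw [← h3, ← h]

/-- **Commutation criterion, existence form.**  If (1) every product `a i * b k` lies in some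
coset `j Γ * (b k' * a i')` and (2) the products `a i * b k` lie in pairwise distinct cosets,
then the two Hecke operators commute. -/
theorem hecke_comm_of_exists (ha : IsHeckeSystem j a) (hb : IsHeckeSystem j b)
    (hswap : ∀ (i : ι) (k : κ), ∃ (k' : κ) (i' : ι) (γ : Γ), a i * b k = j γ * (b k' * a i'))
    (hsep : ∀ (i : ι) (k : κ) (i' : ι) (k' : κ) (γ : Γ),
      a i * b k = j γ * (a i' * b k') → i = i' ∧ k = k')
    (φ : Additive Γ →+ A) :
    ha.hecke (hb.hecke φ) = hb.hecke (ha.hecke φ) := by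
  classical
  choose fk fi fg hf using hswap
  let f : ι × κ → κ × ι := fun x => (fk x.1 x.2, fi x.1 x.2)
  have hinj : Function.Injective f := by
    rintro ⟨i, k⟩ ⟨i', k'⟩ hx
    simp only [f, Prod.mk.injEq] at hx
    obtain ⟨h1, h2⟩ := hx
    have e1 := hf i k
    have e2 := hf i' k'
    rw [h1, h2] at e1
    have e3 : a i * b k = j (fg i k * (fg i' k')⁻¹) * (a i' * b k') := by
      rw [e1, e2, map_mul, map_inv]
      simp only [mul_assoc, inv_mul_cancel_left]
    obtain ⟨hi, hk⟩ := hsep i k i' k' _ e3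
    rw [hi, hk]
  have hbij : Function.Bijective f := by
    rw [Fintype.bijective_iff_injective_and_card]
    exact ⟨hinj, by rw [Fintype.card_prod, Fintype.card_prod, mul_comm]⟩
  exact hecke_comm_of_swap ha hb (Equiv.ofBijective f hbij) (fun x => fg x.1 x.2)
    (fun x => hf x.1 x.2) φ

/-- **Commutation with a one-element system** (a "diamond operator": `b` is a single element
normalising `j Γ`).  If every `a i * s` lies in some coset `j Γ * (s * a i')`, the operators
commute. -/
theorem hecke_comm_of_single (ha : IsHeckeSystem j a) {s : G}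
    (hb : IsHeckeSystem j (fun _ : Unit => s))
    (hswap : ∀ i : ι, ∃ (i' : ι) (γ : Γ), a i * s = j γ * (s * a i'))
    (φ : Additive Γ →+ A) :
    ha.hecke (hb.hecke φ) = hb.hecke (ha.hecke φ) := by
  refine hecke_comm_of_exists ha hb (fun i _ => ?_) (fun i _ i' _ γ e => ?_) φ
  · obtain ⟨i', γ, h⟩ := hswap i
    exact ⟨(), i', γ, h⟩
  · refine ⟨?_, rfl⟩
    have e' : a i = j γ * a i' := by
      have := congrArg (· * s⁻¹) e
      simpa [mul_assoc] using this
    exact ha.sep i i' γ e'

end Comm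

end Fermat.Agent.G1.HeckeComm
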