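import Mathlib
import Fermat.Agent.G1.HeckeCommAbs
import Fermat.Agent.G1.HeckeSys1

/-!
# G1: the Hecke operators `T_p`, `T_q`, `⟨d⟩` on `Hom(Γ₁(M), A)` commute

Combinatorial proof (no comparison with cusp forms): the coset representatives of `T_p` are
integer matrices of determinant `p` congruent to `(1 *; 0 p)` mod `M`; products of
representatives of `T_p` and `T_q` (`p ≠ q` primes) are matched, up to left multiplication by
`Γ₁(M)`, by a bijection, and `HeckeCommAbs.hecke_comm_of_matching` applies.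

* integer-matrix lemmas: `exists_factor` (a matrix of determinant `p n` is `X · (rep of T_p)`),
  `int_sep` (cancellation for coprime determinants);
* `IsDeltaSys M p a Aint` : the family `a` in `GL(2, ℝ)` consists of the integer matrices `Aint`,
  of determinant `p`, `≡ (1 *; 0 *)` mod `M`, and every integer matrix of determinant `p n` is
  `X · Aint x`;  `hecke_comm_of_deltaSys` : two such Hecke systems of `Γ₁(M)` for coprime
  determinants commute;  `hecke_comm_deltaSys_single` : commutation with `{σ}`, `σ ∈ Γ₀(M)`;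
* in the names of `G1/HeckeSys1.lean`: `heckeCoh1T_comm`, `heckeCoh1T_heckeCoh1D_comm`,
  `heckeCoh1D_comm` on `Additive (Gamma1 M) →+ A`, and `heckeT1_comm`, `heckeT1_diamond1_comm`,
  `diamond1_comm` on `peHoms (Gamma1 M) R A`.
-/

set_option autoImplicit false

namespace Fermat.Agent.G1.HeckeComm1

open Fermat.Agent.ESJ.ParHom CongruenceSubgroup Matrix.SpecialLinearGroup
open scoped MatrixGroups OnePoint

local notation "M2" => Matrix (Fin 2) (Fin 2) ℤ

/-! ### Integer `2 × 2` matrices -/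

theorem mul00 (X Y : M2) : (X * Y) 0 0 = X 0 0 * Y 0 0 + X 0 1 * Y 1 0 := by
  simp [Matrix.mul_apply, Fin.sum_univ_two]

theorem mul01 (X Y : M2) : (X * Y) 0 1 = X 0 0 * Y 0 1 + X 0 1 * Y 1 1 := by
  simp [Matrix.mul_apply, Fin.sum_univ_two]

theorem mul10 (X Y : M2) : (X * Y) 1 0 = X 1 0 * Y 0 0 + X 1 1 * Y 1 0 := by
  simp [Matrix.mul_apply, Fin.sum_univ_two]

theorem mul11 (X Y : M2) : (X * Y) 1 1 = X 1 0 * Y 0 1 + X 1 1 * Y 1 1 := by
  simp [Matrix.mul_apply, Fin.sum_univ_two]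

theorem ext2 {m m' : M2} (h00 : m 0 0 = m' 0 0) (h01 : m 0 1 = m' 0 1) (h10 : m 1 0 = m' 1 0)
    (h11 : m 1 1 = m' 1 1) : m = m' := by
  ext i j
  fin_cases i <;> fin_cases j <;> assumption

/-- The congruence conditions `≡ (1 *; 0 *)` mod `M`. -/
def Cong (M : ℕ) (m : M2) : Prop := (M : ℤ) ∣ m 1 0 ∧ (M : ℤ) ∣ m 0 0 - 1

theorem Cong.mul {M : ℕ} {X Y : M2} (hX : Cong M X) (hY : Cong M Y) : Cong M (X * Y) := by
  obtain ⟨⟨u, hu⟩, ⟨v, hv⟩⟩ := hX
  obtain ⟨⟨u', hu'⟩, ⟨v', hv'⟩⟩ := hY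
  refine ⟨⟨u * Y 0 0 + X 1 1 * u', ?_⟩, ⟨v * Y 0 0 + v' + X 0 1 * u', ?_⟩⟩
  · rw [mul10]; linear_combination Y 0 0 * hu + X 1 1 * hu'
  · rw [mul00]; linear_combination Y 0 0 * hv + hv' + X 0 1 * hu'

/-- Left cancellation of the congruence conditions. -/
theorem dvd10_of_mul {M : ℕ} {m X Y : M2} (h : m = X * Y) (hY : Cong M Y)
    (hm : (M : ℤ) ∣ m 1 0) : (M : ℤ) ∣ X 1 0 := by
  obtain ⟨⟨u, hu⟩, ⟨v, hv⟩⟩ := hY
  obtain ⟨w, hw⟩ := hm
  have h1 := mul10 X Y
  rw [← h] at h1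
  exact ⟨w - X 1 0 * v - X 1 1 * u, by linear_combination hw - h1 - X 1 0 * hv - X 1 1 * hu⟩

theorem dvd00_of_mul {M : ℕ} {m X Y : M2} (h : m = X * Y) (hY : Cong M Y) (c : ℤ)
    (hm : (M : ℤ) ∣ m 0 0 - c) : (M : ℤ) ∣ X 0 0 - c := by
  obtain ⟨⟨u, hu⟩, ⟨v, hv⟩⟩ := hY
  obtain ⟨w, hw⟩ := hm
  have h1 := mul00 X Y
  rw [← h] at h1
  exact ⟨w - X 0 0 * v - X 0 1 * u, by linear_combination hw - h1 - X 0 0 * hv - X 0 1 * hu⟩

theorem Cong.of_mul {M : ℕ} {m X Y : M2} (h : m = X * Y) (hY : Cong M Y) (hm : Cong M m) :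
    Cong M X :=
  ⟨dvd10_of_mul h hY hm.1, dvd00_of_mul h hY 1 hm.2⟩

/-- The integer representatives of `T_p` on `Γ₁(M)`: `S · diag(p, 1)` at `∞` (for a matrix `S`
of determinant one, in practice `S ∈ Γ₀(M)` with lower right entry `≡ p`), and `(1 j; 0 p)`. -/
def repI (p : ℕ) (S : M2) (x : OnePoint (ZMod p)) : M2 :=
  x.elim (S * !![(p : ℤ), 0; 0, 1]) (fun j => !![1, (j.val : ℤ); 0, (p : ℤ)])

theorem repI_infty (p : ℕ) (S : M2) : repI p S ∞ = S * !![(p : ℤ), 0; 0, 1] := rfl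

theorem repI_coe (p : ℕ) (S : M2) (j : ZMod p) :
    repI p S (j : OnePoint (ZMod p)) = !![1, (j.val : ℤ); 0, (p : ℤ)] := rfl

theorem det_repI (p : ℕ) (S : M2) (hS : S.det = 1) (x : OnePoint (ZMod p)) :
    (repI p S x).det = p := by
  induction x using OnePoint.rec with
  | infty => rw [repI_infty, Matrix.det_mul, hS, Matrix.det_fin_two_of]; ring
  | coe j => rw [repI_coe, Matrix.det_fin_two_of]; ring

theorem cong_repI {M : ℕ} (p : ℕ) (S : M2) (hS10 : (M : ℤ) ∣ S 1 0)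
    (hS00 : (M : ℤ) ∣ S 0 0 * p - 1) (x : OnePoint (ZMod p)) : Cong M (repI p S x) := by
  induction x using OnePoint.rec with
  | infty =>
    obtain ⟨u, hu⟩ := hS10
    obtain ⟨v, hv⟩ := hS00
    refine ⟨⟨u * p, ?_⟩, ⟨v, ?_⟩⟩
    · rw [repI_infty, mul10]; simp; linear_combination (p : ℤ) * hu
    · rw [repI_infty, mul00]; simp; linear_combination hv
  | coe j =>
    refine ⟨⟨0, ?_⟩, ⟨0, ?_⟩⟩
    · rw [repI_coe]; simp
    · rw [repI_coe]; simp

/-- **Factorisation**: an integer matrix of determinant `p n` (`p` prime) is `X · (rep of T_p)`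
with `det X = n`. -/
theorem exists_factor {p : ℕ} [Fact p.Prime] (S : M2) (hS : S.det = 1) (m : M2) (n : ℤ)
    (hdet : m.det = p * n) :
    ∃ (x : OnePoint (ZMod p)) (X : M2), X.det = n ∧ m = X * repI p S x := by
  have hp0 : (p : ℤ) ≠ 0 := by exact_mod_cast (Fact.out : p.Prime).ne_zero
  have hd : m 0 0 * m 1 1 - m 0 1 * m 1 0 = p * n := by rw [← hdet, Matrix.det_fin_two]
  have hS' : S 0 0 * S 1 1 - S 0 1 * S 1 0 = 1 := by rw [← hS, Matrix.det_fin_two]
  by_cases hA : ((m 0 0 : ℤ) : ZMod p) = 0 ∧ ((m 1 0 : ℤ) : ZMod p) = 0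
  · obtain ⟨u, hu⟩ := (ZMod.intCast_zmod_eq_zero_iff_dvd _ _).mp hA.1
    obtain ⟨v, hv⟩ := (ZMod.intCast_zmod_eq_zero_iff_dvd _ _).mp hA.2
    have h1 : u * m 1 1 - m 0 1 * v = n := by
      apply mul_left_cancel₀ hp0
      rw [← hd, hu, hv]; ring
    refine ⟨∞, !![u * S 1 1 - m 0 1 * S 1 0, -u * S 0 1 + m 0 1 * S 0 0;
      v * S 1 1 - m 1 1 * S 1 0, -v * S 0 1 + m 1 1 * S 0 0], ?_, ?_⟩
    · rw [Matrix.det_fin_two_of]
      linear_combination (u * m 1 1 - m 0 1 * v) * hS' + h1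
    · rw [repI_infty]
      apply ext2
      · rw [mul00, mul00, mul10]; simp; linear_combination hu - (p : ℤ) * u * hS'
      · rw [mul01, mul01, mul11]; simp; linear_combination -(m 0 1) * hS'
      · rw [mul10, mul00, mul10]; simp; linear_combination hv - (p : ℤ) * v * hS'
      · rw [mul11, mul01, mul11]; simp; linear_combination -(m 1 1) * hS'
  · have hdF : ((m 0 0 : ℤ) : ZMod p) * ((m 1 1 : ℤ) : ZMod p) =
        ((m 0 1 : ℤ) : ZMod p) * ((m 1 0 : ℤ) : ZMod p) := by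
      have h2 := congrArg (Int.cast : ℤ → ZMod p) hd
      push_cast at h2
      rw [ZMod.natCast_self, zero_mul] at h2
      linear_combination h2
    obtain ⟨t, ht0, ht1⟩ : ∃ t : ZMod p, ((m 0 1 : ℤ) : ZMod p) = t * ((m 0 0 : ℤ) : ZMod p) ∧
        ((m 1 1 : ℤ) : ZMod p) = t * ((m 1 0 : ℤ) : ZMod p) := by
      by_cases h0 : ((m 0 0 : ℤ) : ZMod p) = 0
      · have h10 : ((m 1 0 : ℤ) : ZMod p) ≠ 0 := fun h => hA ⟨h0, h⟩
        refine ⟨((m 1 1 : ℤ) : ZMod p) / ((m 1 0 : ℤ) : ZMod p), ?_, ?_⟩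
        · rw [h0, mul_zero]
          rw [h0, zero_mul] at hdF
          rcases mul_eq_zero.mp hdF.symm with h | h
          · exact h
          · exact absurd h h10
        · rw [div_mul_cancel₀ _ h10]
      · refine ⟨((m 0 1 : ℤ) : ZMod p) / ((m 0 0 : ℤ) : ZMod p), ?_, ?_⟩
        · rw [div_mul_cancel₀ _ h0]
        · field_simp
          linear_combination hdF
    obtain ⟨e₀, he₀⟩ : (p : ℤ) ∣ m 0 1 - (t.val : ℤ) * m 0 0 := by
      rw [← ZMod.intCast_zmod_eq_zero_iff_dvd]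
      push_cast
      rw [ZMod.natCast_zmod_val, ht0, sub_self]
    obtain ⟨e₁, he₁⟩ : (p : ℤ) ∣ m 1 1 - (t.val : ℤ) * m 1 0 := by
      rw [← ZMod.intCast_zmod_eq_zero_iff_dvd]
      push_cast
      rw [ZMod.natCast_zmod_val, ht1, sub_self]
    refine ⟨(t : OnePoint (ZMod p)), !![m 0 0, e₀; m 1 0, e₁], ?_, ?_⟩
    · rw [Matrix.det_fin_two_of]
      apply mul_left_cancel₀ hp0
      linear_combination hd - m 0 0 * he₁ + m 1 0 * he₀
    · rw [repI_coe]
      apply ext2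
      · rw [mul00]; simp
      · rw [mul01]; simp [-ZMod.natCast_val]; linear_combination he₀
      · rw [mul10]; simp
      · rw [mul11]; simp [-ZMod.natCast_val]; linear_combination he₁

/-- **Cancellation for coprime determinants.** -/
theorem int_sep {p q : ℤ} (hpq : IsCoprime p q) (hq : q ≠ 0) {A A' B B' Γm : M2}
    (hA : A.det = p) (hB : B.det = q) (hB' : B'.det = q)
    (h : A * B = Γm * A' * B') :
    ∃ X : M2, X.det = 1 ∧ B = X * B' ∧ A * X = Γm * A' := by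
  set U : M2 := B * B'.adjugate with hU
  set V : M2 := A.adjugate * Γm * A' with hV
  have hUV : p • U = q • V := by
    have h1 : A.adjugate * (A * B) * B'.adjugate = p • U := by
      rw [← mul_assoc, Matrix.adjugate_mul, hA, Matrix.smul_mul, Matrix.one_mul, Matrix.smul_mul]
    have h2 : A.adjugate * (Γm * A' * B') * B'.adjugate = q • V := by
      rw [show A.adjugate * (Γm * A' * B') * B'.adjugate
          = A.adjugate * Γm * A' * (B' * B'.adjugate) by simp only [mul_assoc],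
        Matrix.mul_adjugate, hB', Matrix.mul_smul, Matrix.mul_one]
    rw [← h1, ← h2, h]
  have hdvd : ∀ i k, q ∣ U i k := by
    intro i k
    have h1 : p * U i k = q * V i k := by
      have := congrFun (congrFun hUV i) k
      simpa using this
    exact hpq.symm.dvd_of_dvd_mul_left ⟨V i k, h1⟩
  choose X hX using hdvd
  have hUX : U = q • (Matrix.of X : M2) := by
    ext i k
    simp [hX i k]
  have hB1 : q • B = q • ((Matrix.of X : M2) * B') := by
    have h1 : U * B' = q • B := by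
      rw [hU, mul_assoc, Matrix.adjugate_mul, hB', Matrix.mul_smul, Matrix.mul_one]
    rw [← h1, hUX, Matrix.smul_mul]
  have hB2 : B = (Matrix.of X : M2) * B' := smul_right_injective M2 hq hB1
  have hdetX : (Matrix.of X : M2).det = 1 := by
    have h1 := congrArg Matrix.det hB2
    rw [Matrix.det_mul, hB, hB'] at h1
    exact (mul_right_cancel₀ hq (by rw [one_mul]; exact h1)).symm
  refine ⟨Matrix.of X, hdetX, hB2, ?_⟩
  have h3 : (A * (Matrix.of X : M2)) * B' = (Γm * A') * B' := by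
    rw [mul_assoc, ← hB2, h]
  have h4 : q • (A * (Matrix.of X : M2)) = q • (Γm * A') := by
    have := congrArg (fun Z : M2 => Z * B'.adjugate) h3
    simp only [mul_assoc, Matrix.mul_adjugate, hB', Matrix.mul_smul, Matrix.mul_one] at this
    exact this
  exact smul_right_injective M2 hq h4

/-- A matrix `X` of determinant one with `X · B = B`, `det B ≠ 0`, is the identity. -/
theorem eq_one_of_mul_eq {X B : M2} (hB : B.det ≠ 0) (h : B = X * B) : X = 1 := by
  have h1 : B.det • (1 : M2) = B.det • X := by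
    have := congrArg (fun Z : M2 => Z * B.adjugate) h
    simp only [mul_assoc, Matrix.mul_adjugate, Matrix.mul_smul, Matrix.mul_one] at this
    exact this
  exact (smul_right_injective M2 hB h1).symm

/-! ### The bridge to `GL(2, ℝ)` -/

/-- An integer matrix as a real matrix. -/
noncomputable def castM (m : M2) : Matrix (Fin 2) (Fin 2) ℝ := (Int.castRingHom ℝ).mapMatrix m

theorem castM_mul (m m' : M2) : castM (m * m') = castM m * castM m' := map_mul _ _ _

theorem castM_apply (m : M2) (i k : Fin 2) : castM m i k = ((m i k : ℤ) : ℝ) := rfl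

theorem castM_injective : Function.Injective castM := by
  intro m m' h
  ext i k
  have := congrFun (congrFun h i) k
  rw [castM_apply, castM_apply] at this
  exact_mod_cast this

theorem val_mapGL (γ : SL(2, ℤ)) :
    ((mapGL ℝ γ : GL (Fin 2) ℝ) : Matrix (Fin 2) (Fin 2) ℝ) = castM (γ : M2) := by
  ext i k
  rw [castM_apply]
  exact coe_mapGL_apply γ i k

/-- An integer matrix of determinant one satisfying the congruences is in `Γ₁(M)`. -/
theorem mem_Gamma1_of_cong {M : ℕ} (X : M2) (hdet : X.det = 1) (hX : Cong M X) :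
    (⟨X, hdet⟩ : Matrix.SpecialLinearGroup (Fin 2) ℤ) ∈ Gamma1 M := by
  refine (Gamma1_mem M _).mpr ?_
  obtain ⟨h10, h00⟩ := hX
  have e10 : ((X 1 0 : ℤ) : ZMod M) = 0 := (ZMod.intCast_zmod_eq_zero_iff_dvd _ _).mpr h10
  have e00 : ((X 0 0 : ℤ) : ZMod M) = 1 := by
    have := (ZMod.intCast_zmod_eq_zero_iff_dvd _ _).mpr h00
    push_cast at this
    exact sub_eq_zero.mp this
  have hd : X 0 0 * X 1 1 - X 0 1 * X 1 0 = 1 := by rw [← hdet, Matrix.det_fin_two]
  refine ⟨e00, ?_, e10⟩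
  have := congrArg (Int.cast : ℤ → ZMod M) hd
  push_cast at this
  rw [e00, e10, mul_zero, sub_zero, one_mul] at this
  exact this

/-- A "`Δ_M(p)`-system": the family `a` in `GL(2, ℝ)` consists of the integer matrices `Aint x`,
of determinant `p`, congruent to `(1 *; 0 *)` mod `M`, and every integer matrix of determinant
`p n` is `X · Aint x` with `det X = n`. -/
structure IsDeltaSys (M : ℕ) (p : ℤ) {ι : Type*} (a : ι → GL (Fin 2) ℝ) (Aint : ι → M2) :
    Prop where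
  val : ∀ x, ((a x : GL (Fin 2) ℝ) : Matrix (Fin 2) (Fin 2) ℝ) = castM (Aint x)
  det : ∀ x, (Aint x).det = p
  cong : ∀ x, Cong M (Aint x)
  factor : ∀ (m : M2) (n : ℤ), m.det = p * n → ∃ (x : ι) (X : M2), X.det = n ∧ m = X * Aint x

section Main

variable {M : ℕ} {ι κ : Type*} [Fintype ι] [Fintype κ]
  {a : ι → GL (Fin 2) ℝ} {b : κ → GL (Fin 2) ℝ} {A : Type*} [AddCommGroup A]

/-- **Commutation of two `Δ`-systems of `Γ₁(M)` with coprime determinants.** -/
theorem hecke_comm_of_deltaSys {p q : ℤ} (hpq : IsCoprime p q) (hq : q ≠ 0)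
    {Aint : ι → M2} {Bint : κ → M2} (hA : IsDeltaSys M p a Aint) (hB : IsDeltaSys M q b Bint)
    (ha : IsHeckeSystem (jSub (Gamma1 M)) a) (hb : IsHeckeSystem (jSub (Gamma1 M)) b)
    (φ : Additive (Gamma1 M) →+ A) :
    ha.hecke (hb.hecke φ) = hb.hecke (ha.hecke φ) := by
  refine HeckeComm.hecke_comm_of_exists ha hb (fun x y => ?_) (fun x y x' y' γ e => ?_) φ
  · -- every product `a x * b y` is `γ · b y' · a x'`
    have hm : Cong M (Aint x * Bint y) := (hA.cong x).mul (hB.cong y)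
    have hdet : (Aint x * Bint y).det = p * q := by rw [Matrix.det_mul, hA.det, hB.det]
    obtain ⟨x', X₁, hX₁, h1⟩ := hA.factor _ q hdet
    have hX₁c : Cong M X₁ := Cong.of_mul h1 (hA.cong x') hm
    obtain ⟨y', X₂, hX₂, h2⟩ := hB.factor X₁ 1 (by rw [hX₁, mul_one])
    have hX₂c : Cong M X₂ := Cong.of_mul h2 (hB.cong y') hX₁c
    refine ⟨y', x', ⟨⟨X₂, hX₂⟩, mem_Gamma1_of_cong X₂ hX₂ hX₂c⟩, ?_⟩
    apply Units.ext
    rw [Units.val_mul, Units.val_mul, Units.val_mul, hA.val, hB.val, hA.val, hB.val, jSub_apply,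
      val_mapGL, ← castM_mul, ← castM_mul, ← castM_mul]
    refine congrArg castM ?_
    show Aint x * Bint y = X₂ * (Bint y' * Aint x')
    rw [h1, h2, mul_assoc]
  · -- the products `a x * b y` lie in pairwise distinct cosets
    have e4 : Aint x * Bint y = (((γ : Gamma1 M) : SL(2, ℤ)) : M2) * Aint x' * Bint y' := by
      apply castM_injective
      have := congrArg (fun u : GL (Fin 2) ℝ => (u : Matrix (Fin 2) (Fin 2) ℝ)) e
      simp only [Units.val_mul, hA.val, hB.val, jSub_apply, val_mapGL] at this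
      rw [castM_mul, castM_mul, castM_mul, this, mul_assoc]
    obtain ⟨X, hX, hBX, hAX⟩ := int_sep hpq hq (hA.det x) (hB.det y) (hB.det y') e4
    have hXc : Cong M X := Cong.of_mul hBX (hB.cong y') (hB.cong y)
    have e5 : b y = jSub (Gamma1 M) ⟨⟨X, hX⟩, mem_Gamma1_of_cong X hX hXc⟩ * b y' := by
      apply Units.ext
      rw [Units.val_mul, hB.val, hB.val, jSub_apply, val_mapGL, ← castM_mul]
      exact congrArg castM hBX
    have h2 : y = y' := hb.sep _ _ _ e5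
    have hX1 : X = 1 := by
      rw [← h2] at hBX
      exact eq_one_of_mul_eq (by rw [hB.det]; exact hq) hBX
    rw [hX1, mul_one] at hAX
    have e6 : a x = jSub (Gamma1 M) γ * a x' := by
      apply Units.ext
      rw [Units.val_mul, hA.val, hA.val, jSub_apply, val_mapGL, ← castM_mul]
      exact congrArg castM hAX
    exact ⟨ha.sep _ _ _ e6, h2⟩

/-- **Commutation of a `Δ`-system with a one-element system `{σ}`, `σ ∈ Γ₀(M)`.** -/
theorem hecke_comm_deltaSys_single {p : ℤ} {Aint : ι → M2} (hA : IsDeltaSys M p a Aint)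
    (ha : IsHeckeSystem (jSub (Gamma1 M)) a) (σ : SL(2, ℤ)) (hσ : (M : ℤ) ∣ σ 1 0)
    (hb : IsHeckeSystem (jSub (Gamma1 M)) (fun _ : Unit => (mapGL ℝ σ : GL (Fin 2) ℝ)))
    (φ : Additive (Gamma1 M) →+ A) :
    ha.hecke (hb.hecke φ) = hb.hecke (ha.hecke φ) := by
  refine HeckeComm.hecke_comm_of_single ha hb (fun x => ?_) φ
  obtain ⟨u, hu⟩ := hσ
  have hσdet : σ 0 0 * σ 1 1 - σ 0 1 * σ 1 0 = 1 := by
    have h := σ.det_coe
    rwa [Matrix.det_fin_two] at h
  obtain ⟨⟨v, hv⟩, ⟨w, hw⟩⟩ := hA.cong x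
  have hdet : (Aint x * (σ : M2)).det = p * 1 := by
    rw [Matrix.det_mul, hA.det, σ.det_coe]
  obtain ⟨x', X, hX, h1⟩ := hA.factor _ 1 hdet
  have hX10 : (M : ℤ) ∣ X 1 0 := by
    refine dvd10_of_mul h1 (hA.cong x') ⟨v * σ 0 0 + Aint x 1 1 * u, ?_⟩
    rw [mul10]; linear_combination σ 0 0 * hv + Aint x 1 1 * hu
  have hX00 : (M : ℤ) ∣ X 0 0 - σ 0 0 := by
    refine dvd00_of_mul h1 (hA.cong x') (σ 0 0) ⟨w * σ 0 0 + Aint x 0 1 * u, ?_⟩
    rw [mul00]; linear_combination σ 0 0 * hw + Aint x 0 1 * hu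
  obtain ⟨c, hc⟩ := hX10
  obtain ⟨d, hd⟩ := hX00
  have hXdet : X 0 0 * X 1 1 - X 0 1 * X 1 0 = 1 := by rw [← hX, Matrix.det_fin_two]
  -- `γ = X · σ⁻¹`
  have hγdet : (!![X 0 0 * σ 1 1 - X 0 1 * σ 1 0, -X 0 0 * σ 0 1 + X 0 1 * σ 0 0;
      X 1 0 * σ 1 1 - X 1 1 * σ 1 0, -X 1 0 * σ 0 1 + X 1 1 * σ 0 0] : M2).det = 1 := by
    rw [Matrix.det_fin_two_of]
    linear_combination (X 0 0 * X 1 1 - X 0 1 * X 1 0) * hσdet + hXdet
  have hγc : Cong M (!![X 0 0 * σ 1 1 - X 0 1 * σ 1 0, -X 0 0 * σ 0 1 + X 0 1 * σ 0 0;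
      X 1 0 * σ 1 1 - X 1 1 * σ 1 0, -X 1 0 * σ 0 1 + X 1 1 * σ 0 0] : M2) := by
    refine ⟨⟨c * σ 1 1 - X 1 1 * u, ?_⟩, ⟨d * σ 1 1 + σ 0 1 * u - X 0 1 * u, ?_⟩⟩
    · simp; linear_combination σ 1 1 * hc - X 1 1 * hu
    · simp; linear_combination σ 1 1 * hd + hσdet + σ 0 1 * hu - X 0 1 * hu
  refine ⟨x', ⟨⟨_, hγdet⟩, mem_Gamma1_of_cong _ hγdet hγc⟩, ?_⟩
  apply Units.ext
  rw [Units.val_mul, Units.val_mul, Units.val_mul, hA.val, hA.val, jSub_apply, val_mapGL,
    val_mapGL, ← castM_mul, ← castM_mul, ← castM_mul]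
  refine congrArg castM ?_
  show Aint x * (σ : M2) = (!![X 0 0 * σ 1 1 - X 0 1 * σ 1 0, -X 0 0 * σ 0 1 + X 0 1 * σ 0 0;
      X 1 0 * σ 1 1 - X 1 1 * σ 1 0, -X 1 0 * σ 0 1 + X 1 1 * σ 0 0] : M2) * ((σ : M2) * Aint x')
  rw [h1, ← mul_assoc]
  congr 1
  apply ext2
  · rw [mul00]; simp; linear_combination -(X 0 0) * hσdet
  · rw [mul01]; simp; linear_combination -(X 0 1) * hσdet
  · rw [mul10]; simp; linear_combination -(X 1 0) * hσdet
  · rw [mul11]; simp; linear_combination -(X 1 1) * hσdet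

end Main

/-! ### The systems of `G1/HeckeSys1.lean` -/

section Inst

open Fermat.Agent.DS.Hecke1 Fermat.Agent.G1 ModularForm

variable {M : ℕ} [NeZero M]

theorem val_hRep {p : ℕ} [Fact p.Prime] (x : OnePoint (ZMod p)) :
    ((hRep p x : GL (Fin 2) ℝ) : Matrix (Fin 2) (Fin 2) ℝ) = castM (repI p 1 x) := by
  have hp : p ≠ 0 := (Fact.out : p.Prime).ne_zero
  induction x using OnePoint.rec with
  | infty =>
    rw [hRep_infty, val_heckeDiagMatrix hp, repI_infty, one_mul]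
    ext i k
    fin_cases i <;> fin_cases k <;> simp [castM_apply]
  | coe j =>
    rw [hRep_coe, val_heckeMatrix hp, repI_coe]
    ext i k
    fin_cases i <;> fin_cases k <;> simp [castM_apply]

omit [NeZero M] in
theorem cong_of_mem_Gamma1 {γ : SL(2, ℤ)} (hγ : γ ∈ Gamma1 M) : Cong M (γ : M2) := by
  obtain ⟨h00, -, h10⟩ := (Gamma1_mem M γ).mp hγ
  refine ⟨(ZMod.intCast_zmod_eq_zero_iff_dvd _ _).mp h10,
    (ZMod.intCast_zmod_eq_zero_iff_dvd _ _).mp ?_⟩
  push_cast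
  rw [h00, sub_self]

/-- The representatives `t1Rep M p u` of `T_p` on `Γ₁(M)` form a `Δ_M(p)`-system. -/
theorem isDeltaSys_t1Rep {p : ℕ} [Fact p.Prime] (u : (ZMod M)ˣ)
    (hu : (u : ZMod M) = (p : ZMod M)) :
    IsDeltaSys M p (t1Rep M p u)
      (fun x => ((rep M (cU u x) : SL(2, ℤ)) : M2) * repI p 1 x) where
  val x := by rw [t1Rep_def, Units.val_mul, val_mapGL, val_hRep, castM_mul]
  det x := by
    rw [Matrix.det_mul, (rep M (cU u x)).det_coe, one_mul, det_repI p 1 Matrix.det_one]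
  cong x := by
    induction x using OnePoint.rec with
    | infty =>
      have h : ((rep M (cU u (∞ : OnePoint (ZMod p))) : SL(2, ℤ)) : M2) * repI p 1 ∞ =
          repI p ((rep M u : SL(2, ℤ)) : M2) ∞ := by
        rw [repI_infty, repI_infty, one_mul]
        rfl
      rw [h]
      refine cong_repI p _ (dvd_of_mem_Gamma0 (rep_mem u)) ?_ ∞
      have hlr : (((rep M u : SL(2, ℤ)) 1 1 : ℤ) : ZMod M) = (p : ZMod M) := by
        have := lr_rep (N := M) u
        rw [lr_def] at this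
        rw [this, hu]
      have h10 : (((rep M u : SL(2, ℤ)) 1 0 : ℤ) : ZMod M) = 0 := Gamma0_mem.mp (rep_mem u)
      have hdet := det_eq' (rep M u)
      rw [← ZMod.intCast_zmod_eq_zero_iff_dvd]
      have h2 := congrArg (Int.cast : ℤ → ZMod M) hdet
      push_cast at h2 ⊢
      rw [hlr, h10, mul_zero, sub_zero] at h2
      rw [h2, sub_self]
    | coe j =>
      have h1 : rep M (cU u (j : OnePoint (ZMod p))) ∈ Gamma1 M := by
        refine mem_Gamma1_of_lr_eq_one (rep_mem _) ?_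
        rw [lr_rep, cU_coe, Units.val_one]
      refine (cong_of_mem_Gamma1 h1).mul ⟨⟨0, ?_⟩, ⟨0, ?_⟩⟩
      · rw [repI_coe]; simp
      · rw [repI_coe]; simp
  factor m n hdet := by
    obtain ⟨x, X, hX, h⟩ := exists_factor (p := p) 1 Matrix.det_one m n hdet
    refine ⟨x, X * ((rep M (cU u x) : SL(2, ℤ)) : M2).adjugate, ?_, ?_⟩
    · rw [Matrix.det_mul, hX, Matrix.det_adjugate, (rep M (cU u x)).det_coe]
      simp
    · rw [mul_assoc, ← mul_assoc (Matrix.adjugate _), Matrix.adjugate_mul,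
        (rep M (cU u x)).det_coe, one_smul, Matrix.one_mul]
      exact h

variable (M) {A : Type*} [AddCommGroup A]

/-- **`T_p T_q = T_q T_p` on `Hom(Γ₁(M), A)`.** -/
theorem heckeCoh1T_comm {p q : ℕ} (hp : p.Prime) (hpM : ¬ p ∣ M) (hq : q.Prime) (hqM : ¬ q ∣ M)
    (φ : Additive (Gamma1 M) →+ A) :
    heckeCoh1T M hp hpM (heckeCoh1T M hq hqM φ) = heckeCoh1T M hq hqM (heckeCoh1T M hp hpM φ) := by
  rcases eq_or_ne p q with rfl | hne
  · rfl
  · haveI : Fact p.Prime := ⟨hp⟩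
    have : Fact q.Prime := ⟨hq⟩
    have hcop : IsCoprime (p : ℤ) (q : ℤ) :=
      Nat.isCoprime_iff_coprime.mpr ((Nat.coprime_primes hp hq).mpr hne)
    exact hecke_comm_of_deltaSys hcop (by exact_mod_cast hq.ne_zero)
      (isDeltaSys_t1Rep (punit hp hpM) (coe_punit hp hpM))
      (isDeltaSys_t1Rep (punit hq hqM) (coe_punit hq hqM))
      (isHeckeSystem_T1 M hpM (punit hp hpM) (coe_punit hp hpM))
      (isHeckeSystem_T1 M hqM (punit hq hqM) (coe_punit hq hqM)) φ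

/-- **`T_p ⟨d⟩ = ⟨d⟩ T_p` on `Hom(Γ₁(M), A)`.** -/
theorem heckeCoh1T_heckeCoh1D_comm {p : ℕ} (hp : p.Prime) (hpM : ¬ p ∣ M) (d : (ZMod M)ˣ)
    (φ : Additive (Gamma1 M) →+ A) :
    heckeCoh1T M hp hpM (heckeCoh1D M d φ) = heckeCoh1D M d (heckeCoh1T M hp hpM φ) := by
  have : Fact p.Prime := ⟨hp⟩
  exact hecke_comm_deltaSys_single (isDeltaSys_t1Rep (punit hp hpM) (coe_punit hp hpM))
    (isHeckeSystem_T1 M hpM (punit hp hpM) (coe_punit hp hpM)) (rep M d)
    (dvd_of_mem_Gamma0 (rep_mem d)) (isHeckeSystem_D1 M d) φ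

/-- **`⟨d⟩ ⟨d'⟩ = ⟨d'⟩ ⟨d⟩` on `Hom(Γ₁(M), A)`.** -/
theorem heckeCoh1D_comm (d d' : (ZMod M)ˣ) (φ : Additive (Gamma1 M) →+ A) :
    heckeCoh1D M d (heckeCoh1D M d' φ) = heckeCoh1D M d' (heckeCoh1D M d φ) := by
  have h0 : rep M d * rep M d' * (rep M d)⁻¹ ∈ Gamma0 M :=
    (Gamma0 M).mul_mem ((Gamma0 M).mul_mem (rep_mem d) (rep_mem d'))
      ((Gamma0 M).inv_mem (rep_mem d))
  have hmem : rep M d * rep M d' * (rep M d)⁻¹ * (rep M d')⁻¹ ∈ Gamma1 M := by
    refine mem_Gamma1_of_lr_eq_one ((Gamma0 M).mul_mem h0 ((Gamma0 M).inv_mem (rep_mem d'))) ?_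
    rw [lr_mul h0, lr_mul ((Gamma0 M).mul_mem (rep_mem d) (rep_mem d')), lr_mul (rep_mem d)]
    have h1 := lr_mul_inv (rep_mem (N := M) d)
    have h2 := lr_mul_inv (rep_mem (N := M) d')
    linear_combination (lr M (rep M d') * lr M (rep M d')⁻¹) * h1 + h2
  refine HeckeComm.hecke_comm_of_single (isHeckeSystem_D1 M d)
    (s := (mapGL ℝ (rep M d') : GL (Fin 2) ℝ)) (isHeckeSystem_D1 M d')
    (fun _ => ⟨(), ⟨_, hmem⟩, ?_⟩) φ
  show mapGL ℝ (rep M d) * mapGL ℝ (rep M d') =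
    mapGL ℝ (rep M d * rep M d' * (rep M d)⁻¹ * (rep M d')⁻¹) *
      (mapGL ℝ (rep M d') * mapGL ℝ (rep M d))
  simp only [map_mul, map_inv, mul_assoc, inv_mul_cancel_left, inv_mul_cancel, mul_one]

/-! ### On `peHoms (Gamma1 M) R A` -/

variable (R : Type*) [Semiring R] (A) [Module R A]

theorem heckeT1_comm {p q : ℕ} (hp : p.Prime) (hpM : ¬ p ∣ M) (hq : q.Prime) (hqM : ¬ q ∣ M) :
    Commute (heckeT1 M hp hpM R A) (heckeT1 M hq hqM R A) := by
  refine LinearMap.ext fun φ => Subtype.ext ?_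
  simp only [Module.End.mul_apply, coe_heckeT1_apply]
  exact heckeCoh1T_comm M hp hpM hq hqM _

theorem heckeT1_diamond1_comm {p : ℕ} (hp : p.Prime) (hpM : ¬ p ∣ M) (d : (ZMod M)ˣ) :
    Commute (heckeT1 M hp hpM R A) (diamond1 M d R A) := by
  refine LinearMap.ext fun φ => Subtype.ext ?_
  simp only [Module.End.mul_apply, coe_heckeT1_apply, coe_diamond1_apply]
  exact heckeCoh1T_heckeCoh1D_comm M hp hpM d _

theorem diamond1_comm (d d' : (ZMod M)ˣ) :
    Commute (diamond1 M d R A) (diamond1 M d' R A) := by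
  refine LinearMap.ext fun φ => Subtype.ext ?_
  simp only [Module.End.mul_apply, coe_diamond1_apply]
  exact heckeCoh1D_comm M d d' _

end Inst

end Fermat.Agent.G1.HeckeComm1
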