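import Mathlib
import Fermat.Agent.G1.EigenFunc1
import Fermat.Agent.G1.HeckeComm1

/-!
# G1 / PER : eigen-functionals on `Hom_PE(Γ₁(M), ℤ/m)` — unconditional statements

`EigenFunc1.lean` with the commutativity of the Hecke operators (`HeckeComm1.lean`) plugged in.

* `opComm M A` : the operators `T_p` (`p ∤ M`), `⟨d⟩` on `Hom_PE(Γ₁(M), A)` commute pairwise;
* `exists_eigenfunctional_zmod1` : for every field `k` with `m = 0` in `k` and every ring
  homomorphism `θ : Hecke1.heckeAlgebra M 2 →+* k` there is a nonzero additive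
  `μ : Hom_PE(Γ₁(M), ℤ/m) → k` with `μ ∘ T_p = θ(T_p) μ` and `μ ∘ ⟨d⟩ = θ(⟨d⟩) μ`;
* `exists_eigenfunctional_int1` : the same on `Hom_PE(Γ₁(M), ℤ)`, any field `k`;
* `exists_eigenfunctional_of_surjection1` : transport along an equivariant additive surjection
  onto `Hom_PE(Γ₁(M), ℤ/m)` (the shape of the Kummer comparison).
-/

set_option autoImplicit false

open scoped MatrixGroups
open CongruenceSubgroup
open Fermat.Agent.ESJ.ParHom Fermat.Agent.DS.Hecke1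

noncomputable section

namespace Fermat.Agent.G1

variable (M : ℕ) [NeZero M]

/-- The Hecke operators `T_p` (`p ∤ M`) and `⟨d⟩` on `Hom_PE(Γ₁(M), A)` commute pairwise. -/
theorem opComm (A : Type*) [AddCommGroup A] : OpComm M A := by
  intro i j
  rcases i with p | d <;> rcases j with q | d'
  · exact (HeckeComm1.heckeT1_comm M A ℤ p.2.1 p.2.2 q.2.1 q.2.2).eq
  · exact (HeckeComm1.heckeT1_diamond1_comm M A ℤ p.2.1 p.2.2 d').eq
  · exact (HeckeComm1.heckeT1_diamond1_comm M A ℤ q.2.1 q.2.2 d).eq.symm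
  · exact (HeckeComm1.diamond1_comm M A ℤ d d').eq

/-- **Eigen-functionals on `Hom_PE(Γ₁(M), ℤ/m)`.** For every field `k` with `m = 0` in `k` and
every ring homomorphism `θ` from the Hecke algebra of `S₂(Γ₁(M))` to `k`, the eigen-system
`(θ(T_p), θ(⟨d⟩))` occurs in `Hom(Hom_PE(Γ₁(M), ℤ/m), k)`. -/
theorem exists_eigenfunctional_zmod1 (m : ℕ) {k : Type*} [Field k] (hmk : (m : k) = 0)
    (θ : heckeAlgebra M 2 →+* k) :
    ∃ μ : peHoms (Gamma1 M) ℤ (ZMod m) →+ k, μ ≠ 0 ∧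
      (∀ (p : ℕ) (hp : p.Prime) (hpM : ¬ p ∣ M) (x : peHoms (Gamma1 M) ℤ (ZMod m)),
        μ (heckeT1 M hp hpM ℤ (ZMod m) x) = θ (heckeAlgebra.T hp hpM) * μ x) ∧
      (∀ (d : (ZMod M)ˣ) (x : peHoms (Gamma1 M) ℤ (ZMod m)),
        μ (diamond1 M d ℤ (ZMod m) x) = θ (heckeAlgebra.D d) * μ x) :=
  exists_eigenfunctional_zmod1_of_comm (opComm M ℤ) (opComm M ℂ) m (opComm M (ZMod m)) hmk θ

/-- **Eigen-functionals on the lattice `Hom_PE(Γ₁(M), ℤ)`.** -/
theorem exists_eigenfunctional_int1 {k : Type*} [Field k] (θ : heckeAlgebra M 2 →+* k) :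
    ∃ μ : peHoms (Gamma1 M) ℤ ℤ →+ k, μ ≠ 0 ∧
      (∀ (p : ℕ) (hp : p.Prime) (hpM : ¬ p ∣ M) (x : peHoms (Gamma1 M) ℤ ℤ),
        μ (heckeT1 M hp hpM ℤ ℤ x) = θ (heckeAlgebra.T hp hpM) * μ x) ∧
      (∀ (d : (ZMod M)ˣ) (x : peHoms (Gamma1 M) ℤ ℤ),
        μ (diamond1 M d ℤ ℤ x) = θ (heckeAlgebra.D d) * μ x) :=
  exists_eigenfunctional_int1_of_comm (opComm M ℤ) (opComm M ℂ) θ

/-- **Transport along a Kummer-type comparison.** Let `κ : P → Hom_PE(Γ₁(M), ℤ/m)` be an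
additive surjection (`m = 0` in `k`), and let `T p`, `D d` be maps on `P` which `κ` intertwines
with `T_p`, `⟨d⟩` for the primes `p ∤ M` satisfying `good p` and the units `d` satisfying
`goodD d`.  Then `P` carries a nonzero `θ`-eigen-functional for these operators. -/
theorem exists_eigenfunctional_of_surjection1 (m : ℕ) {k : Type*} [Field k] (hmk : (m : k) = 0)
    (θ : heckeAlgebra M 2 →+* k) {P : Type*} [AddCommGroup P]
    (κ : P →+ peHoms (Gamma1 M) ℤ (ZMod m)) (hκ : Function.Surjective κ)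
    (good : ℕ → Prop) (T : ℕ → P → P)
    (hT : ∀ (p : ℕ) (hp : p.Prime) (hpM : ¬ p ∣ M), good p →
      ∀ x : P, κ (T p x) = heckeT1 M hp hpM ℤ (ZMod m) (κ x))
    (goodD : (ZMod M)ˣ → Prop) (D : (ZMod M)ˣ → P → P)
    (hD : ∀ d : (ZMod M)ˣ, goodD d → ∀ x : P, κ (D d x) = diamond1 M d ℤ (ZMod m) (κ x)) :
    ∃ lam : P →+ k, lam ≠ 0 ∧
      (∀ (p : ℕ) (hp : p.Prime) (hpM : ¬ p ∣ M), good p →
        ∀ x : P, lam (T p x) = θ (heckeAlgebra.T hp hpM) * lam x) ∧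
      (∀ d : (ZMod M)ˣ, goodD d → ∀ x : P, lam (D d x) = θ (heckeAlgebra.D d) * lam x) := by
  obtain ⟨μ, hμ, hμT, hμD⟩ := exists_eigenfunctional_zmod1 M m hmk θ
  refine ⟨μ.comp κ, ?_, fun p hp hpM hg x => ?_, fun d hg x => ?_⟩
  · intro h0
    apply hμ
    refine AddMonoidHom.ext fun y => ?_
    obtain ⟨x, rfl⟩ := hκ y
    exact DFunLike.congr_fun h0 x
  · rw [AddMonoidHom.comp_apply, AddMonoidHom.comp_apply, hT p hp hpM hg, hμT]
  · rw [AddMonoidHom.comp_apply, AddMonoidHom.comp_apply, hD d hg, hμD]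

end Fermat.Agent.G1
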