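import Mathlib
import Fermat.Agent.Lib.Analysis.EisensteinChar

/-!
# G1 : Eisenstein series with a character of an arbitrary subgroup `Γ ∋ T` of `SL(2, ℤ)`

Generalisation of the character part of `Lib/Analysis/EisensteinChar` (which treats `Γ₀(N)`) to
an arbitrary subgroup `Γ ≤ SL(2, ℤ)` containing `T` — in particular `Γ₁(M)`, which does not
contain `-1` for `M ≥ 3`.

For a character `χ` of `Γ`, trivial on `T` (and on `-1` if `-1 ∈ Γ`), with values of absolute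
value one, the series `E_χ(z) = Σ_{(c,d)} χ̃(c,d) (cz+d)⁻ᵏ` (sum over the bottom rows of `Γ`,
`χ̃ = χ⁻¹` of any element with that bottom row) is holomorphic on the upper half plane, satisfies
`E_χ(γ z) = χ(γ) (cz+d)ᵏ E_χ(z)` for `γ ∈ Γ`, has a NONZERO limit at `i∞` (`1` or `2`) and is
bounded at all cusps (`eisCharS_spec`, `eisCharS_ne_zero`).
-/

set_option autoImplicit false

open Complex UpperHalfPlane Filter Topology Matrix ModularGroup EisensteinSeries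
  CongruenceSubgroup ModularForm
open scoped MatrixGroups Manifold

noncomputable section

namespace Fermat.Agent.G1.EisCharSub

open Fermat.Agent.Lib.Analysis.EisensteinChar

section Character

variable {Γ : Subgroup SL(2, ℤ)} (χ : ↥Γ →* ℂˣ)

/-- A character which is trivial on `T` takes the same value on elements with the same bottom
row. -/
lemma chi_eq_of_row_eq (hTm : T ∈ Γ) (hT : χ ⟨T, hTm⟩ = 1) (δ δ' : ↥Γ)
    (h : (δ : SL(2, ℤ)) 1 = (δ' : SL(2, ℤ)) 1) : χ δ = χ δ' := by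
  obtain ⟨m, hm⟩ := exists_T_zpow_mul_of_row_eq (δ : SL(2, ℤ)) (δ' : SL(2, ℤ)) h
  have h1 : δ' = (⟨T, hTm⟩ : ↥Γ) ^ m * δ := by
    apply Subtype.ext
    rw [Subgroup.coe_mul, Subgroup.coe_zpow]
    exact hm
  rw [h1, map_mul, map_zpow, hT, _root_.one_zpow, one_mul]

open scoped Classical in
/-- The weight attached to a character: `χ(δ)⁻¹` on the bottom row of `δ ∈ Γ`, zero on
vectors which are not bottom rows of elements of `Γ`. -/
def chiTildeS (v : Fin 2 → ℤ) : ℂ :=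
  if h : ∃ δ : ↥Γ, (δ : SL(2, ℤ)) 1 = v then ((χ h.choose)⁻¹ : ℂˣ) else 0

lemma chiTildeS_of_row (hTm : T ∈ Γ) (hT : χ ⟨T, hTm⟩ = 1) (δ : ↥Γ) :
    chiTildeS χ ((δ : SL(2, ℤ)) 1) = ((χ δ)⁻¹ : ℂˣ) := by
  have h : ∃ δ' : ↥Γ, (δ' : SL(2, ℤ)) 1 = (δ : SL(2, ℤ)) 1 := ⟨δ, rfl⟩
  unfold chiTildeS
  rw [dif_pos h, chi_eq_of_row_eq χ hTm hT _ _ h.choose_spec]

lemma chiTildeS_of_not_row {v : Fin 2 → ℤ}
    (h : ¬ ∃ δ : ↥Γ, (δ : SL(2, ℤ)) 1 = v) : chiTildeS χ v = 0 := by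
  unfold chiTildeS
  rw [dif_neg h]

lemma norm_chiTildeS_le (hχ : ∀ δ, ‖(χ δ : ℂ)‖ = 1) (v : Fin 2 → ℤ) : ‖chiTildeS χ v‖ ≤ 1 := by
  unfold chiTildeS
  split_ifs with h
  · rw [Units.val_inv_eq_inv_val, norm_inv, hχ, inv_one]
  · simp

/-- Transformation of the weight under right multiplication by `γ ∈ Γ`. -/
lemma chiTildeS_vecMul (hTm : T ∈ Γ) (hT : χ ⟨T, hTm⟩ = 1) (γ : ↥Γ) (v : Fin 2 → ℤ) :
    chiTildeS χ (v ᵥ* ((γ : SL(2, ℤ)) : Matrix (Fin 2) (Fin 2) ℤ))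
      = chiTildeS χ v * ((χ γ)⁻¹ : ℂˣ) := by
  by_cases h : ∃ δ : ↥Γ, (δ : SL(2, ℤ)) 1 = v
  · obtain ⟨δ, rfl⟩ := h
    have h1 : ((δ : SL(2, ℤ)) 1) ᵥ* ((γ : SL(2, ℤ)) : Matrix (Fin 2) (Fin 2) ℤ)
        = ((δ * γ : ↥Γ) : SL(2, ℤ)) 1 := by
      rw [Subgroup.coe_mul, Matrix.SpecialLinearGroup.coe_mul, Matrix.mul_apply_eq_vecMul]
    rw [h1, chiTildeS_of_row χ hTm hT, chiTildeS_of_row χ hTm hT, map_mul, _root_.mul_inv_rev,
      Units.val_mul, mul_comm]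
  · have h' : ¬ ∃ δ : ↥Γ,
        (δ : SL(2, ℤ)) 1 = v ᵥ* ((γ : SL(2, ℤ)) : Matrix (Fin 2) (Fin 2) ℤ) := by
      rintro ⟨δ, hδ⟩
      apply h
      refine ⟨δ * γ⁻¹, ?_⟩
      rw [Subgroup.coe_mul, Matrix.SpecialLinearGroup.coe_mul, Matrix.mul_apply_eq_vecMul, hδ,
        Subgroup.coe_inv, vecMul_vecMul, ← Matrix.SpecialLinearGroup.coe_mul, mul_inv_cancel,
        Matrix.SpecialLinearGroup.coe_one, vecMul_one]
    rw [chiTildeS_of_not_row χ h, chiTildeS_of_not_row χ h', zero_mul]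

/-- The Eisenstein series of weight `k` attached to the character `χ` of `Γ`. -/
def eisCharS (k : ℤ) (z : ℍ) : ℂ := wEis (chiTildeS χ) k z

/-- Transformation law, in slash form. -/
theorem eisCharS_slash (hTm : T ∈ Γ) (hT : χ ⟨T, hTm⟩ = 1) (k : ℤ) (γ : ↥Γ) :
    eisCharS χ k ∣[k] (γ : SL(2, ℤ)) = ((χ γ : ℂˣ) : ℂ) • eisCharS χ k := by
  have h1 : eisCharS χ k = wEis (chiTildeS χ) k := rfl
  rw [h1, wEis_slash]
  ext z
  simp only [Pi.smul_apply, smul_eq_mul, wEis]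
  rw [← tsum_mul_left]
  refine tsum_congr (fun v => ?_)
  have h2 := chiTildeS_vecMul χ hTm hT γ⁻¹ v
  rw [Subgroup.coe_inv] at h2
  rw [h2, map_inv, inv_inv]
  ring

/-- Transformation law, in value form. -/
theorem eisCharS_smul (hTm : T ∈ Γ) (hT : χ ⟨T, hTm⟩ = 1) (k : ℤ) (γ : ↥Γ) (z : ℍ) :
    eisCharS χ k ((γ : SL(2, ℤ)) • z)
      = ((χ γ : ℂˣ) : ℂ) * denom (γ : SL(2, ℤ)) z ^ k * eisCharS χ k z := by
  have h1 := congrFun (eisCharS_slash χ hTm hT k γ) z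
  rw [SL_slash_apply] at h1
  simp only [Pi.smul_apply, smul_eq_mul] at h1
  have h3 : denom (γ : SL(2, ℤ)) z ≠ 0 := denom_ne_zero _ z
  have h4 : eisCharS χ k ((γ : SL(2, ℤ)) • z)
      = eisCharS χ k ((γ : SL(2, ℤ)) • z) * denom (γ : SL(2, ℤ)) z ^ (-k)
        * denom (γ : SL(2, ℤ)) z ^ k := by
    rw [mul_assoc, ← zpow_add₀ h3]
    simp
  rw [h4, h1]
  ring

lemma wEis_chiTildeS_T_zpow (hTm : T ∈ Γ) (hT : χ ⟨T, hTm⟩ = 1) (k : ℤ) (n : ℤ) (z : ℍ) :
    wEis (chiTildeS χ) k (T ^ n • z) = wEis (chiTildeS χ) k z := by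
  have h1 := eisCharS_smul χ hTm hT k ((⟨T, hTm⟩ : ↥Γ) ^ n) z
  rw [map_zpow, hT, _root_.one_zpow] at h1
  have h2 : (((⟨T, hTm⟩ : ↥Γ) ^ n : ↥Γ) : SL(2, ℤ)) = T ^ n := by
    rw [Subgroup.coe_zpow]
  rw [h2, denom_T_zpow, _root_.one_zpow] at h1
  simp only [eisCharS, Units.val_one, one_mul] at h1
  exact h1

/-- The constant term of the Eisenstein series with character: `2` if `-1 ∈ Γ`, `1` if not. -/
lemma constTerm_chiTildeS (hTm : T ∈ Γ) (hT : χ ⟨T, hTm⟩ = 1)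
    (hneg : ∀ h : (-1 : SL(2, ℤ)) ∈ Γ, χ ⟨-1, h⟩ = 1) {k : ℤ} (hk : Even k) :
    constTerm (chiTildeS χ) k = 1 ∨ constTerm (chiTildeS χ) k = 2 := by
  have hne : (![0, 1] : Fin 2 → ℤ) ≠ ![0, -1] := by
    intro h
    have := congrFun h 1
    simp at this
  have e1 : chiTildeS χ ![0, 1] = 1 := by
    have h1 : (((1 : ↥Γ) : SL(2, ℤ)) 1) = ![0, 1] := by
      ext i
      fin_cases i <;> simp
    rw [← h1, chiTildeS_of_row χ hTm hT, map_one]
    simp
  have e3 : (((-1 : ℤ) : ℂ)) ^ (-k) = 1 := by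
    push_cast
    exact Even.neg_one_zpow hk.neg
  have hsum : constTerm (chiTildeS χ) k = 1 + chiTildeS χ ![0, -1] := by
    unfold constTerm
    rw [tsum_eq_sum (s := {![0, 1], ![0, -1]})]
    · rw [Finset.sum_pair hne]
      simp only [Matrix.cons_val_zero, if_true, Matrix.cons_val_one, e1, one_mul]
      rw [e3]
      simp
    · intro v hv
      by_cases h0 : v 0 = 0
      · rw [if_pos h0]
        have hrow : ¬ ∃ δ : ↥Γ, (δ : SL(2, ℤ)) 1 = v := by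
          rintro ⟨δ, hδ⟩
          have hcop := ModularGroup.bottom_row_coprime (δ : SL(2, ℤ))
          have h10 : (δ : SL(2, ℤ)) 1 0 = 0 := by rw [hδ]; exact h0
          have h11 : (δ : SL(2, ℤ)) 1 1 = v 1 := by rw [hδ]
          rw [h10, h11, isCoprime_zero_left] at hcop
          rcases Int.isUnit_iff.mp hcop with h1 | h1
          · apply hv
            have : v = ![0, 1] := by
              ext i
              fin_cases i
              · simpa using h0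
              · simpa using h1
            simp [this]
          · apply hv
            have : v = ![0, -1] := by
              ext i
              fin_cases i
              · simpa using h0
              · simpa using h1
            simp [this]
        rw [chiTildeS_of_not_row χ hrow, zero_mul]
      · rw [if_neg h0]
  by_cases hm : (-1 : SL(2, ℤ)) ∈ Γ
  · right
    have e2 : chiTildeS χ ![0, -1] = 1 := by
      have h1 : (((⟨-1, hm⟩ : ↥Γ) : SL(2, ℤ)) 1) = ![0, -1] := by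
        ext i
        fin_cases i <;> simp
      rw [← h1, chiTildeS_of_row χ hTm hT, hneg hm]
      simp
    rw [hsum, e2]
    norm_num
  · left
    have e2 : chiTildeS χ ![0, -1] = 0 := by
      refine chiTildeS_of_not_row χ ?_
      rintro ⟨δ, hδ⟩
      apply hm
      have h1 : ((-1 : SL(2, ℤ)) 1) = ![0, -1] := by
        ext i
        fin_cases i <;> simp
      obtain ⟨m, hm'⟩ := exists_T_zpow_mul_of_row_eq (δ : SL(2, ℤ)) (-1 : SL(2, ℤ))
        (by rw [hδ, h1])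
      rw [hm']
      exact Γ.mul_mem (Γ.zpow_mem hTm m) δ.2
    rw [hsum, e2, add_zero]

/-- **Eisenstein series with a character of `Γ ∋ T`.** For a character `χ` of `Γ` with values of
absolute value one which is trivial on `T` (and on `-1` if `-1 ∈ Γ`), and an even weight `k ≥ 4`,
the series `eisCharS χ k` is holomorphic, transforms under `Γ` with the character `χ`, has a
nonzero limit at `i∞` and is bounded at every cusp. -/
theorem eisCharS_spec (hTm : T ∈ Γ) (hT : χ ⟨T, hTm⟩ = 1)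
    (hneg : ∀ h : (-1 : SL(2, ℤ)) ∈ Γ, χ ⟨-1, h⟩ = 1) (hχ : ∀ δ, ‖(χ δ : ℂ)‖ = 1)
    {k : ℤ} (hk : 4 ≤ k) (hk2 : Even k) :
    MDiff (eisCharS χ k) ∧
    (∀ (γ : ↥Γ) (z : ℍ), eisCharS χ k ((γ : SL(2, ℤ)) • z)
      = ((χ γ : ℂˣ) : ℂ) * denom (γ : SL(2, ℤ)) z ^ k * eisCharS χ k z) ∧
    (∃ c : ℂ, c ≠ 0 ∧ Tendsto (eisCharS χ k) atImInfty (𝓝 c)) ∧
    ∀ g : SL(2, ℤ), IsBoundedAtImInfty (eisCharS χ k ∣[k] g) := by
  have hk3 : 3 ≤ k := by omega
  have hφ := norm_chiTildeS_le χ hχ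
  refine ⟨wEis_mdifferentiable hφ hk3, eisCharS_smul χ hTm hT k, ?_, ?_⟩
  · refine ⟨constTerm (chiTildeS χ) k, ?_, wEis_tendsto hφ hk (wEis_chiTildeS_T_zpow χ hTm hT k)⟩
    rcases constTerm_chiTildeS χ hTm hT hneg hk2 with h | h <;> rw [h] <;> norm_num
  · intro g
    exact wEis_slash_isBoundedAtImInfty hφ hk3 g

/-- A character of finite order has values of absolute value one. -/
lemma norm_eq_one_of_pow_eq_one {n : ℕ} (hn : n ≠ 0) (hχn : ∀ δ, χ δ ^ n = 1) (δ : ↥Γ) :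
    ‖(χ δ : ℂ)‖ = 1 := by
  have h1 : ((χ δ : ℂˣ) : ℂ) ^ n = 1 := by
    rw [← Units.val_pow_eq_pow_val, hχn δ, Units.val_one]
  have h2 : ‖(χ δ : ℂ)‖ ^ n = 1 := by
    rw [← norm_pow, h1, norm_one]
  exact (pow_eq_one_iff_of_nonneg (norm_nonneg _) hn).mp h2

/-- The Eisenstein series with character is not identically zero. -/
theorem eisCharS_ne_zero (hTm : T ∈ Γ) (hT : χ ⟨T, hTm⟩ = 1)
    (hneg : ∀ h : (-1 : SL(2, ℤ)) ∈ Γ, χ ⟨-1, h⟩ = 1) (hχ : ∀ δ, ‖(χ δ : ℂ)‖ = 1)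
    {k : ℤ} (hk : 4 ≤ k) (hk2 : Even k) : eisCharS χ k ≠ 0 := by
  intro h0
  obtain ⟨c, hc, h1⟩ := (eisCharS_spec χ hTm hT hneg hχ hk hk2).2.2.1
  rw [h0] at h1
  have h2 : Tendsto (0 : ℍ → ℂ) atImInfty (𝓝 0) := tendsto_const_nhds
  exact hc (tendsto_nhds_unique h1 h2)

end Character

end Fermat.Agent.G1.EisCharSub
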