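import Mathlib
import Fermat.Agent.G1.HeckeSys1

/-!
# G1 / PER : twisted Hecke systems of `Γ₁(M)` and the adjoint operator `T_p^*`

The operators of `HeckeSys1.lean` are attached to the specific systems `t1Rep` and `d1Rep`.
The geometric side (norms along the degeneracy maps, diamond automorphisms) produces other
systems of representatives; this file identifies their transfer operators on `Hom(Γ₁(M), A)`.

* `isHeckeSystem_of_reps`, `hecke_of_reps` : changing representatives by left multiples of `Γ`;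
* `isHeckeSystem_mul_left`, `hecke_mul_left` : left translation by an element normalising `Γ`;
* `isHeckeSystem_mapGL_mul`, `hecke_mapGL_mul` : for `g ∈ Γ₀(M)` with lower-right entry `≡ d`,
  the system `g · a` is a Hecke system of `Γ₁(M)` with operator `T_a ∘ ⟨d⟩`;
* `isHeckeSystem_single1`, `hecke_single1` : the one-element system `{g}`, `g ∈ Γ₀(M)`, has
  operator `⟨d⟩`;
* `tStarRep p σ`, `isHeckeSystem_TStar1`, `hecke_TStar1` : the system
  `{(p 0; 0 1)} ∪ {σ (1 b; 0 p) : b mod p}` with `σ ∈ Γ₀(M)`, lower-right entry `≡ p⁻¹`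
  (the double coset `Γ₁(M) (p 0; 0 1) Γ₁(M)`) is a Hecke system with operator
  `T_p ∘ ⟨p⟩⁻¹ = T_p^*`.
-/

set_option autoImplicit false

namespace Fermat.Agent.G1

open Matrix.SpecialLinearGroup CongruenceSubgroup ModularForm
open Fermat.Agent.ESJ.ParHom Fermat.Agent.DS.Hecke1
open scoped MatrixGroups OnePoint

/-! ### Generic lemmas -/

section Generic

variable {Γ G : Type*} [Group Γ] [Group G] {j : Γ →* G} {ι : Type*} {a : ι → G}

/-- Changing the representatives of a Hecke system by left multiplication with elements of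
`Γ`. -/
theorem isHeckeSystem_of_reps (h : IsHeckeSystem j a) {b : ι → G} (g : ι → Γ)
    (e : ∀ i, b i = j (g i) * a i) : IsHeckeSystem j b where
  inj := h.inj
  sep i i' γ e' := by
    refine h.sep i i' ((g i)⁻¹ * γ * g i') ?_
    rw [map_mul, map_mul, map_inv, mul_assoc, mul_assoc, ← e i', ← e', e i, inv_mul_cancel_left]
  stab γ i := by
    refine ⟨h.perm γ i, g i * h.coc γ i * (g (h.perm γ i))⁻¹, ?_⟩
    rw [e i, e (h.perm γ i), mul_assoc, h.spec γ i]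
    simp only [map_mul, map_inv, mul_assoc, inv_mul_cancel_left]

theorem hecke_of_reps [Fintype ι] {A : Type*} [AddCommGroup A] (h : IsHeckeSystem j a)
    {b : ι → G} (g : ι → Γ) (e : ∀ i, b i = j (g i) * a i) (hb : IsHeckeSystem j b)
    (φ : Additive Γ →+ A) : hb.hecke φ = h.hecke φ :=
  h.hecke_eq_of_reps hb (Equiv.refl ι) g e φ

/-- Left translation of a Hecke system by an element normalising `j(Γ)`. -/
theorem isHeckeSystem_mul_left (h : IsHeckeSystem j a) (s : G) (c c' : Γ → Γ)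
    (hc : ∀ γ, s * j γ = j (c γ) * s) (hc' : ∀ γ, j γ * s = s * j (c' γ)) :
    IsHeckeSystem j (fun i => s * a i) where
  inj := h.inj
  sep i i' γ e := by
    refine h.sep i i' (c' γ) ?_
    have e2 : s * a i = s * (j (c' γ) * a i') := by
      rw [← mul_assoc, ← hc' γ, mul_assoc]
      exact e
    exact mul_left_cancel e2
  stab γ i := by
    refine ⟨h.perm γ i, c (h.coc γ i), ?_⟩
    show s * a i * j γ = j (c (h.coc γ i)) * (s * a (h.perm γ i))
    rw [mul_assoc, h.spec γ i, ← mul_assoc, hc, mul_assoc]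

theorem hecke_mul_left [Fintype ι] {A : Type*} [AddCommGroup A] (h : IsHeckeSystem j a) (s : G)
    (c : Γ → Γ) (hc : ∀ γ, s * j γ = j (c γ) * s)
    (hb : IsHeckeSystem j (fun i => s * a i)) (φ ψ : Additive Γ →+ A)
    (hψ : ∀ γ, ψ (Additive.ofMul γ) = φ (Additive.ofMul (c γ))) :
    hb.hecke φ = h.hecke ψ := by
  refine AddMonoidHom.ext fun γ => ?_
  obtain ⟨γ, rfl⟩ := Additive.ofMul.surjective γ
  have key : ∀ i, (fun i => s * a i) i * j γ
      = j (c (h.coc γ i)) * (fun i => s * a i) (h.perm γ i) := by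
    intro i
    show s * a i * j γ = j (c (h.coc γ i)) * (s * a (h.perm γ i))
    rw [mul_assoc, h.spec γ i, ← mul_assoc, hc, mul_assoc]
  rw [hb.hecke_apply_of φ γ _ _ key, h.hecke_apply]
  exact Finset.sum_congr rfl fun i _ => (hψ _).symm

end Generic

/-! ### Twists by `Γ₀(M)` -/

section Gamma1

variable {M : ℕ} [NeZero M] {A : Type*} [AddCommGroup A]

omit [NeZero M] in
theorem inv_conj_mem_Gamma1 {g γ : SL(2, ℤ)} (hg : g ∈ Gamma0 M) (hγ : γ ∈ Gamma1 M) :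
    g⁻¹ * γ * g ∈ Gamma1 M := by
  have h := conj_mem_Gamma1 ((Gamma0 M).inv_mem hg) hγ
  rwa [inv_inv] at h

omit [NeZero M] in
/-- For `g ∈ Γ₀(M)`, the left translate `g · a` of a Hecke system of `Γ₁(M)` is a Hecke
system. -/
theorem isHeckeSystem_mapGL_mul {ι : Type*} {a : ι → GL (Fin 2) ℝ}
    (h : IsHeckeSystem (jSub (Gamma1 M)) a) {g : SL(2, ℤ)} (hg : g ∈ Gamma0 M) :
    IsHeckeSystem (jSub (Gamma1 M)) (fun i => mapGL ℝ g * a i) := by
  refine isHeckeSystem_mul_left h (mapGL ℝ g)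
    (fun γ => ⟨g * (γ : SL(2, ℤ)) * g⁻¹, conj_mem_Gamma1 hg γ.2⟩)
    (fun γ => ⟨g⁻¹ * (γ : SL(2, ℤ)) * g, inv_conj_mem_Gamma1 hg γ.2⟩) ?_ ?_
  · intro γ
    show mapGL ℝ g * mapGL ℝ (γ : SL(2, ℤ)) = mapGL ℝ (g * (γ : SL(2, ℤ)) * g⁻¹) * mapGL ℝ g
    simp only [map_mul, map_inv, mul_assoc, inv_mul_cancel, mul_one]
  · intro γ
    show mapGL ℝ (γ : SL(2, ℤ)) * mapGL ℝ g = mapGL ℝ g * mapGL ℝ (g⁻¹ * (γ : SL(2, ℤ)) * g)
    simp only [map_mul, map_inv, mul_assoc, mul_inv_cancel_left]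

/-- The operator of `g · a` (`g ∈ Γ₀(M)` with lower-right entry `≡ d`) is `T_a ∘ ⟨d⟩`. -/
theorem hecke_mapGL_mul {ι : Type*} [Fintype ι] {a : ι → GL (Fin 2) ℝ}
    (h : IsHeckeSystem (jSub (Gamma1 M)) a) {g : SL(2, ℤ)} (hg : g ∈ Gamma0 M)
    {d : (ZMod M)ˣ} (hd : lr M g = d)
    (hb : IsHeckeSystem (jSub (Gamma1 M)) (fun i => mapGL ℝ g * a i))
    (φ : Additive (Gamma1 M) →+ A) :
    hb.hecke φ = h.hecke (heckeCoh1D M d φ) := by
  refine hecke_mul_left h (mapGL ℝ g)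
    (fun γ => ⟨g * (γ : SL(2, ℤ)) * g⁻¹, conj_mem_Gamma1 hg γ.2⟩) ?_ hb φ _
    (fun γ => heckeCoh1D_apply M d φ γ g hg hd)
  intro γ
  show mapGL ℝ g * mapGL ℝ (γ : SL(2, ℤ)) = mapGL ℝ (g * (γ : SL(2, ℤ)) * g⁻¹) * mapGL ℝ g
  simp only [map_mul, map_inv, mul_assoc, inv_mul_cancel, mul_one]

omit [NeZero M] in
/-- The one-element system `{g}`, `g ∈ Γ₀(M)`. -/
theorem isHeckeSystem_single1 {g : SL(2, ℤ)} (hg : g ∈ Gamma0 M) :
    IsHeckeSystem (jSub (Gamma1 M)) (fun _ : Unit => (mapGL ℝ g : GL (Fin 2) ℝ)) where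
  inj := jSub_injective _
  sep _ _ _ _ := rfl
  stab γ _ := by
    refine ⟨(), ⟨g * (γ : SL(2, ℤ)) * g⁻¹, conj_mem_Gamma1 hg γ.2⟩, ?_⟩
    show mapGL ℝ g * mapGL ℝ (γ : SL(2, ℤ)) = mapGL ℝ (g * (γ : SL(2, ℤ)) * g⁻¹) * mapGL ℝ g
    simp only [map_mul, map_inv, mul_assoc, inv_mul_cancel, mul_one]

/-- The operator of the one-element system `{g}` (`g ∈ Γ₀(M)` with lower-right entry `≡ d`)
is the diamond operator `⟨d⟩`. -/
theorem hecke_single1 {g : SL(2, ℤ)} (hg : g ∈ Gamma0 M) {d : (ZMod M)ˣ} (hd : lr M g = d)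
    (hb : IsHeckeSystem (jSub (Gamma1 M)) (fun _ : Unit => (mapGL ℝ g : GL (Fin 2) ℝ)))
    (φ : Additive (Gamma1 M) →+ A) : hb.hecke φ = heckeCoh1D M d φ := by
  refine AddMonoidHom.ext fun γ => ?_
  obtain ⟨γ, rfl⟩ := Additive.ofMul.surjective γ
  have e : ∀ _ : Unit, (fun _ : Unit => (mapGL ℝ g : GL (Fin 2) ℝ)) () * jSub (Gamma1 M) γ =
      jSub (Gamma1 M) (⟨g * (γ : SL(2, ℤ)) * g⁻¹, conj_mem_Gamma1 hg γ.2⟩ : Gamma1 M) *
        (fun _ : Unit => (mapGL ℝ g : GL (Fin 2) ℝ)) () := by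
    intro _
    show mapGL ℝ g * mapGL ℝ (γ : SL(2, ℤ)) = mapGL ℝ (g * (γ : SL(2, ℤ)) * g⁻¹) * mapGL ℝ g
    simp only [map_mul, map_inv, mul_assoc, inv_mul_cancel, mul_one]
  have h1 := hb.hecke_apply_of φ γ (fun _ => ()) _ e
  simp only [Finset.univ_unique, Finset.sum_singleton] at h1
  rw [h1, heckeCoh1D_apply M d φ γ g hg hd]

/-! ### The adjoint operator `T_p^*` -/

/-- Representatives of the double coset `Γ₁(M) (p 0; 0 1) Γ₁(M)`: `(p 0; 0 1)` and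
`σ (1 b; 0 p)`, `b` mod `p`, where `σ ∈ Γ₀(M)` has lower-right entry `≡ p⁻¹`. -/
noncomputable def tStarRep (p : ℕ) (σ : SL(2, ℤ)) (x : OnePoint (ZMod p)) : GL (Fin 2) ℝ :=
  x.elim (heckeDiagMatrix p) (fun b => mapGL ℝ σ * heckeMatrix p b.val)

theorem tStarRep_infty (p : ℕ) (σ : SL(2, ℤ)) : tStarRep p σ ∞ = heckeDiagMatrix p := rfl

theorem tStarRep_coe (p : ℕ) (σ : SL(2, ℤ)) (b : ZMod p) :
    tStarRep p σ (b : OnePoint (ZMod p)) = mapGL ℝ σ * heckeMatrix p b.val := rfl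

theorem lr_inv_rep (u : (ZMod M)ˣ) : lr M (rep M u)⁻¹ = ((u⁻¹ : (ZMod M)ˣ) : ZMod M) := by
  have h := lr_inv_mul (rep_mem (N := M) u)
  rw [lr_rep] at h
  exact Units.eq_inv_of_mul_eq_one_left (by rw [mul_comm]; exact h)

/-- The representatives `tStarRep` are left `Γ₁(M)`-multiples of `(rep u)⁻¹ · t1Rep`. -/
theorem exists_tStarRep_eq {p : ℕ} (u : (ZMod M)ˣ) (hu : (u : ZMod M) = (p : ZMod M))
    {σ : SL(2, ℤ)} (hσ : σ ∈ Gamma0 M) (hσp : lr M σ * (p : ZMod M) = 1)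
    (x : OnePoint (ZMod p)) :
    ∃ g : Gamma1 M, tStarRep p σ x
      = jSub (Gamma1 M) g * (mapGL ℝ (rep M u)⁻¹ * t1Rep M p u x) := by
  induction x using OnePoint.rec with
  | infty =>
    refine ⟨1, ?_⟩
    rw [tStarRep_infty, t1Rep_def, cU_infty, hRep_infty, map_one, one_mul, ← mul_assoc,
      ← map_mul, inv_mul_cancel, map_one, one_mul]
  | coe b =>
    have h1 : lr M (rep M (1 : (ZMod M)ˣ))⁻¹ = 1 := by
      rw [lr_inv_rep, inv_one, Units.val_one]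
    have hmem0 : σ * (rep M (1 : (ZMod M)ˣ))⁻¹ ∈ Gamma0 M :=
      (Gamma0 M).mul_mem hσ ((Gamma0 M).inv_mem (rep_mem 1))
    have hmem : σ * (rep M (1 : (ZMod M)ˣ))⁻¹ * rep M u ∈ Gamma1 M := by
      refine mem_Gamma1_of_lr_eq_one ((Gamma0 M).mul_mem hmem0 (rep_mem u)) ?_
      rw [lr_mul hmem0, lr_mul hσ, h1, mul_one, lr_rep, hu, hσp]
    refine ⟨⟨_, hmem⟩, ?_⟩
    rw [tStarRep_coe, t1Rep_def, cU_coe, hRep_coe]
    show mapGL ℝ σ * heckeMatrix p b.val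
      = mapGL ℝ (σ * (rep M (1 : (ZMod M)ˣ))⁻¹ * rep M u) *
        (mapGL ℝ (rep M u)⁻¹ * (mapGL ℝ (rep M (1 : (ZMod M)ˣ)) * heckeMatrix p b.val))
    simp only [map_mul, map_inv, mul_assoc, inv_mul_cancel_left, mul_inv_cancel_left]

/-- The system `{(p 0; 0 1)} ∪ {σ (1 b; 0 p)}` is a Hecke system of `Γ₁(M)`. -/
theorem isHeckeSystem_TStar1 {p : ℕ} [Fact p.Prime] (hpM : ¬ p ∣ M) {σ : SL(2, ℤ)}
    (hσ : σ ∈ Gamma0 M) (hσp : lr M σ * (p : ZMod M) = 1) :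
    IsHeckeSystem (jSub (Gamma1 M)) (tStarRep p σ) := by
  have hp : p.Prime := Fact.out
  have h0 := isHeckeSystem_mapGL_mul
    (isHeckeSystem_T1 M hpM (punit hp hpM) (coe_punit hp hpM))
    ((Gamma0 M).inv_mem (rep_mem (punit hp hpM)))
  choose g hg using exists_tStarRep_eq (punit hp hpM) (coe_punit hp hpM) hσ hσp
  exact isHeckeSystem_of_reps h0 g hg

/-- **The operator of the system `{(p 0; 0 1)} ∪ {σ (1 b; 0 p)}` is `T_p ∘ ⟨p⟩⁻¹`.** -/
theorem hecke_TStar1 {p : ℕ} [Fact p.Prime] (hp : p.Prime) (hpM : ¬ p ∣ M) {σ : SL(2, ℤ)}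
    (hσ : σ ∈ Gamma0 M) (hσp : lr M σ * (p : ZMod M) = 1)
    (hb : IsHeckeSystem (jSub (Gamma1 M)) (tStarRep p σ)) (φ : Additive (Gamma1 M) →+ A) :
    hb.hecke φ = heckeCoh1T M hp hpM (heckeCoh1D M (punit hp hpM)⁻¹ φ) := by
  have hτ := (Gamma0 M).inv_mem (rep_mem (N := M) (punit hp hpM))
  have h0 := isHeckeSystem_mapGL_mul
    (isHeckeSystem_T1 M hpM (punit hp hpM) (coe_punit hp hpM)) hτ
  choose g hg using exists_tStarRep_eq (punit hp hpM) (coe_punit hp hpM) hσ hσp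
  rw [hecke_of_reps h0 g hg hb φ, heckeCoh1T_eq]
  exact hecke_mapGL_mul _ hτ (lr_inv_rep (punit hp hpM)) h0 φ

end Gamma1

end Fermat.Agent.G1
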