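/-
G1 (= `DS.HES`, mod `l` Galois representations for Hecke eigen-characters of `S₂(Γ₁(M))`):
the REP wiring (owner: helper73).

`HESAt M l k θ` is the conclusion of `DS.HES` for fixed `(M, l, k, θ)`.  It is deduced here
from a TORSION PACKAGE: an abelian group `J` with a `G_ℚ`-action (in the intended use: the
divisor class group of the function field of `X₁(M)` over `ℚ̄`), a finite stable subgroup `P`
of finite level (`J[l]`), Hecke operators `T p` and diamond operators `D p` on `J` commuting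
with `G_ℚ`, a nonzero `θ`-eigen-functional on `P`, and the Eichler–Shimura relation
`σ² - T_p σ + p ⟨p⟩ = 0` on `P` at Frobenius elements — in either of the two conventions
(`T_p, ⟨p⟩` or the dual one `⟨p⟩⁻¹ T_p, ⟨p⟩⁻¹`).
-/
import Mathlib
import Fermat.Agent.DS.HES
import Fermat.Agent.ESJ.Rep.ResModuleChar

set_option autoImplicit false

noncomputable section

namespace Fermat.Agent.G1

open Fermat.Agent.ESJ.Rep Fermat.Agent.DS Polynomial

/-! ### Splitting of quadratics over the algebraic integers -/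

/-- A monic quadratic polynomial over the algebraic integers splits over the algebraic
integers. -/
theorem exists_roots_zbar (a d : integralClosure ℤ ℂ) :
    ∃ r s : integralClosure ℤ ℂ, r + s = a ∧ r * s = d := by
  obtain ⟨z, hz⟩ := IsAlgClosed.exists_eq_mul_self ((a : ℂ) ^ 2 - 4 * (d : ℂ))
  set r : ℂ := ((a : ℂ) + z) / 2 with hr
  have hroot : r ^ 2 - (a : ℂ) * r + (d : ℂ) = 0 := by
    rw [hr]
    field_simp
    linear_combination (-1 : ℂ) * hz
  have hdeg : (C a * X - C d : (integralClosure ℤ ℂ)[X]).degree < ((2 : ℕ) : WithBot ℕ) := by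
    refine lt_of_le_of_lt (degree_sub_le _ _) ?_
    refine max_lt (lt_of_le_of_lt (degree_C_mul_X_le _) (by norm_num))
      (lt_of_le_of_lt degree_C_le (by norm_num))
  have hint' : IsIntegral (integralClosure ℤ ℂ) r := by
    refine ⟨X ^ 2 - (C a * X - C d), monic_X_pow_sub hdeg, ?_⟩
    rw [← aeval_def]
    simp only [map_sub, map_pow, aeval_X, map_mul, aeval_C]
    have h1 : (algebraMap (integralClosure ℤ ℂ) ℂ) a = (a : ℂ) := rfl
    have h2 : (algebraMap (integralClosure ℤ ℂ) ℂ) d = (d : ℂ) := rfl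
    rw [h1, h2]
    linear_combination hroot
  have hint : IsIntegral ℤ r := isIntegral_trans r hint'
  refine ⟨⟨r, hint⟩, a - ⟨r, hint⟩, by ring, ?_⟩
  apply Subtype.ext
  push_cast
  linear_combination (-1 : ℂ) * hroot

/-- Quadratics with coefficients coming from algebraic integers split in any target field. -/
theorem exists_split_of_zbar {k : Type*} [Field k] (φ : integralClosure ℤ ℂ →+* k)
    (a d : integralClosure ℤ ℂ) : ∃ α β : k, α + β = φ a ∧ α * β = φ d := by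
  obtain ⟨r, s, h1, h2⟩ := exists_roots_zbar a d
  exact ⟨φ r, φ s, by rw [← map_add, h1], by rw [← map_mul, h2]⟩

/-! ### The conclusion of `HES` at fixed parameters -/

/-- The conclusion of `DS.HES` for fixed `(M, l, k, θ)`. -/
def HESAt (M : ℕ) [NeZero M] (l : ℕ) (k : Type) [Field k]
    (θ : Hecke1.heckeAlgebra M 2 →+* k) : Prop :=
  ∃ r : GQ →* GL (Fin 2) k, GaloisFactorsThroughFiniteLevel r ∧
    ∀ (p : ℕ) (hp : p.Prime) (hpM : ¬ p ∣ M), p ≠ l →
      ∀ A : ValuationSubring Qb, A.LiesOverPrime p →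
        (∀ σ ∈ A.inertiaSubgroupIn ℚ, r σ = 1) ∧
        ∀ σ : GQ, A.IsFrobeniusAt σ p →
          Matrix.trace (r σ).1 = θ (Hecke1.heckeAlgebra.T hp hpM) ∧
          Matrix.det (r σ).1 = (p : k) * θ (Hecke1.heckeAlgebra.D (Hecke1.punit hp hpM))

/-- The splitting hypothesis of `DS.HES` for fixed `(M, l, k, θ)`: the Hecke polynomials
`X² - θ(T_p) X + p θ(⟨p⟩)`, `p ∤ M l`, split in `k`. -/
def SplitAt (M : ℕ) [NeZero M] (l : ℕ) (k : Type) [Field k]
    (θ : Hecke1.heckeAlgebra M 2 →+* k) : Prop :=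
  ∀ (p : ℕ) (hp : p.Prime) (hpM : ¬ p ∣ M), p ≠ l →
    ∃ α β : k, α + β = θ (Hecke1.heckeAlgebra.T hp hpM) ∧
      α * β = (p : k) * θ (Hecke1.heckeAlgebra.D (Hecke1.punit hp hpM))

theorem hes_of_forall (h : ∀ (M : ℕ) [NeZero M] (l : ℕ), l.Prime → 5 ≤ l → l ∣ M →
    ∀ (k : Type) [Field k]
    [CharP k l] (θ : Hecke1.heckeAlgebra M 2 →+* k), SplitAt M l k θ → HESAt M l k θ) : HES :=
  fun M _ l hl h5 hlM k _ _ θ hs => h M l hl h5 hlM k θ hs

/-! ### The nebentypus character of `θ` -/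

/-- The diamond operators as a monoid homomorphism into the Hecke algebra. -/
def diamondHom (M : ℕ) [NeZero M] : (ZMod M)ˣ →* Hecke1.heckeAlgebra M 2 where
  toFun d := Hecke1.heckeAlgebra.D d
  map_one' := Subtype.ext Hecke1.diamond_one
  map_mul' d d' := Subtype.ext (Hecke1.diamond_mul d d')

/-- The nebentypus character `d ↦ θ(⟨d⟩)` of an eigen-character `θ`. -/
def nebChar (M : ℕ) [NeZero M] {k : Type} [Field k] (θ : Hecke1.heckeAlgebra M 2 →+* k) :
    (ZMod M)ˣ →* kˣ :=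
  ((θ : Hecke1.heckeAlgebra M 2 →* k).comp (diamondHom M)).toHomUnits

theorem nebChar_val (M : ℕ) [NeZero M] {k : Type} [Field k]
    (θ : Hecke1.heckeAlgebra M 2 →+* k) (d : (ZMod M)ˣ) :
    (nebChar M θ d : k) = θ (Hecke1.heckeAlgebra.D d) := rfl

/-- The determinant character `d ↦ d · θ(⟨d⟩)` on `(ℤ/Ml)ˣ`, for `k` of characteristic `l`. -/
def detChar (M : ℕ) [NeZero M] (l : ℕ) {k : Type} [Field k] [CharP k l]
    (θ : Hecke1.heckeAlgebra M 2 →+* k) : (ZMod (M * l))ˣ →* kˣ :=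
  Units.map ((ZMod.castHom (dvd_mul_left l M) k : ZMod (M * l) →+* k) : ZMod (M * l) →* k) *
    (nebChar M θ).comp (ZMod.unitsMap (dvd_mul_right M l))

theorem unitsMap_unitOfCoprime (M l : ℕ) [NeZero M] {p : ℕ} (hp : p.Prime) (hpM : ¬ p ∣ M)
    (h : Nat.Coprime p (M * l)) :
    ZMod.unitsMap (dvd_mul_right M l) (ZMod.unitOfCoprime p h) = Hecke1.punit hp hpM := by
  apply Units.ext
  rw [ZMod.unitsMap_val, ZMod.coe_unitOfCoprime, Hecke1.coe_punit]
  simp

theorem detChar_val (M : ℕ) [NeZero M] (l : ℕ) {k : Type} [Field k] [CharP k l]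
    (θ : Hecke1.heckeAlgebra M 2 →+* k) {p : ℕ} (hp : p.Prime) (hpM : ¬ p ∣ M)
    (h : Nat.Coprime p (M * l)) :
    (detChar M l θ (ZMod.unitOfCoprime p h) : k) =
      (p : k) * θ (Hecke1.heckeAlgebra.D (Hecke1.punit hp hpM)) := by
  rw [detChar, MonoidHom.mul_apply, Units.val_mul, MonoidHom.comp_apply,
    unitsMap_unitOfCoprime M l hp hpM h, nebChar_val, Units.coe_map, ZMod.coe_unitOfCoprime]
  simp

/-! ### From a torsion package to `HESAt` -/

/-- **The torsion package** G1 has to deliver for `(M, l, k, θ)`, standard convention: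
`c_p = θ(T_p)`, `e_p = θ(⟨p⟩)`, relation `σ² - T_p σ + p ⟨p⟩ = 0` on `P`. -/
def TorsionPackage (M : ℕ) [NeZero M] (l : ℕ) (k : Type) [Field k]
    (θ : Hecke1.heckeAlgebra M 2 →+* k) : Prop :=
  ∃ (J : Type) (_ : AddCommGroup J) (_ : DistribMulAction GQ J) (P : AddSubgroup J)
    (T D : ℕ → J → J) (lam : P →+ k),
    (∀ (σ : GQ) (x : J), x ∈ P → σ • x ∈ P) ∧ Finite P ∧
    (∃ L : IntermediateField ℚ Qb, FiniteDimensional ℚ L ∧
      ∀ σ : GQ, (∀ x ∈ L, σ x = x) → ∀ x ∈ P, σ • x = x) ∧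
    (∀ (p : ℕ) (σ : GQ) (x : J), T p (σ • x) = σ • T p x) ∧
    (∀ (p : ℕ) (σ : GQ) (x : J), D p (σ • x) = σ • D p x) ∧
    lam ≠ 0 ∧
    ∀ (p : ℕ) (hp : p.Prime) (hpM : ¬ p ∣ M), p ≠ l →
      (∀ x ∈ P, D p x ∈ P) ∧
      (∀ x y : P, (y : J) = T p (x : J) → lam y = θ (Hecke1.heckeAlgebra.T hp hpM) * lam x) ∧
      (∀ x y : P, (y : J) = D p (x : J) →
        lam y = θ (Hecke1.heckeAlgebra.D (Hecke1.punit hp hpM)) * lam x) ∧
      ∀ A : ValuationSubring Qb, A.LiesOverPrime p →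
        (∀ σ ∈ A.inertiaSubgroupIn ℚ, ∀ x ∈ P, σ • x = x) ∧
        ∀ σ : GQ, A.IsFrobeniusAt σ p → ∀ x ∈ P, σ • σ • x - T p (σ • x) + p • D p x = 0

/-- **`HESAt` from a torsion package** (standard convention) and the splitting of the
Frobenius quadratics in `k`. -/
theorem hesAt_of_torsionPackage (M : ℕ) [NeZero M] (l : ℕ) (hl : l.Prime) (k : Type) [Field k]
    [CharP k l] (θ : Hecke1.heckeAlgebra M 2 →+* k)
    (hsplit : ∀ (p : ℕ) (hp : p.Prime) (hpM : ¬ p ∣ M), p ≠ l →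
      ∃ α β : k, α + β = θ (Hecke1.heckeAlgebra.T hp hpM) ∧
        α * β = (p : k) * θ (Hecke1.heckeAlgebra.D (Hecke1.punit hp hpM)))
    (h : TorsionPackage M l k θ) : HESAt M l k θ := by
  obtain ⟨J, i1, i2, P, T, D, lam, hP, hfin, hPlev, hT, hD, hlam0, hmain⟩ := h
  have hMl : NeZero (M * l) := ⟨Nat.mul_ne_zero (NeZero.ne M) hl.ne_zero⟩
  set S : Finset ℕ := (M * l).primeFactors with hS
  have hSmem : ∀ p : ℕ, p.Prime → (p ∉ S ↔ ¬ p ∣ M ∧ p ≠ l) := by
    intro p hp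
    rw [hS, Nat.mem_primeFactors]
    constructor
    · intro h
      refine ⟨fun hd => h ⟨hp, Dvd.dvd.mul_right hd l, hMl.out⟩, ?_⟩
      rintro rfl
      exact h ⟨hp, dvd_mul_left p M, hMl.out⟩
    · rintro ⟨h1, h2⟩ ⟨-, hd, -⟩
      rcases (Nat.Prime.dvd_mul hp).mp hd with hd | hd
      · exact h1 hd
      · exact h2 ((Nat.prime_dvd_prime_iff_eq hp hl).mp hd)
  classical
  set c : ℕ → k := fun p =>
    if h : p.Prime ∧ ¬ p ∣ M then θ (Hecke1.heckeAlgebra.T h.1 h.2) else 0 with hc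
  set e : ℕ → k := fun p =>
    if h : p.Prime ∧ ¬ p ∣ M then θ (Hecke1.heckeAlgebra.D (Hecke1.punit h.1 h.2)) else 0
    with he
  have hcp : ∀ (p : ℕ) (hp : p.Prime) (hpM : ¬ p ∣ M), c p = θ (Hecke1.heckeAlgebra.T hp hpM) :=
    fun p hp hpM => by rw [hc]; exact dif_pos ⟨hp, hpM⟩
  have hep : ∀ (p : ℕ) (hp : p.Prime) (hpM : ¬ p ∣ M),
      e p = θ (Hecke1.heckeAlgebra.D (Hecke1.punit hp hpM)) :=
    fun p hp hpM => by rw [he]; exact dif_pos ⟨hp, hpM⟩
  obtain ⟨r, hr1, hr2⟩ := ResModuleChar.exists_galoisRep_of_torsion_dirChar P hP hPlev T D hT hD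
    S c e lam hlam0
    (fun p hp hpS x y hxy => by
      obtain ⟨hpM, hpl⟩ := (hSmem p hp).mp hpS
      rw [hcp p hp hpM]
      exact (hmain p hp hpM hpl).2.1 x y hxy)
    (fun p hp hpS x y hxy => by
      obtain ⟨hpM, hpl⟩ := (hSmem p hp).mp hpS
      rw [hep p hp hpM]
      exact (hmain p hp hpM hpl).2.2.1 x y hxy)
    (fun p hp hpS => by
      obtain ⟨hpM, hpl⟩ := (hSmem p hp).mp hpS
      exact (hmain p hp hpM hpl).1)
    (M * l) (fun q hq hqd => Nat.mem_primeFactors.mpr ⟨hq, hqd, hMl.out⟩) (detChar M l θ)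
    (fun p hp hpMl hpS => by
      obtain ⟨hpM, hpl⟩ := (hSmem p hp).mp hpS
      rw [detChar_val M l θ hp hpM, hep p hp hpM])
    (fun p hp hpS => by
      obtain ⟨hpM, hpl⟩ := (hSmem p hp).mp hpS
      rw [hcp p hp hpM, hep p hp hpM]
      exact hsplit p hp hpM hpl)
    (fun p hp hpS A hA => by
      obtain ⟨hpM, hpl⟩ := (hSmem p hp).mp hpS
      exact (hmain p hp hpM hpl).2.2.2 A hA)
  refine ⟨r, hr1, fun p hp hpM hpl A hA => ?_⟩
  have hpS : p ∉ S := (hSmem p hp).mpr ⟨hpM, hpl⟩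
  obtain ⟨hI, hF⟩ := hr2 p hp hpS A hA
  refine ⟨hI, fun σ hσ => ?_⟩
  obtain ⟨h1, h2⟩ := hF σ hσ
  exact ⟨by rw [h1, hcp p hp hpM], by rw [h2, hep p hp hpM]⟩

/-! ### Twisting by a character -/

section Twist

variable {G : Type*} [Group G] {k : Type*} [Field k]

/-- Scalar matrices as a homomorphism `kˣ → GL₂(k)`. -/
def scalarGL (k : Type*) [Field k] : kˣ →* GL (Fin 2) k :=
  Units.map ((Matrix.scalar (Fin 2) : k →+* Matrix (Fin 2) (Fin 2) k) :
    k →* Matrix (Fin 2) (Fin 2) k)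

theorem scalarGL_val (a : kˣ) :
    ((scalarGL k a : GL (Fin 2) k) : Matrix (Fin 2) (Fin 2) k) =
      Matrix.scalar (Fin 2) (a : k) := rfl

theorem scalarGL_mul_comm (a : kˣ) (A : GL (Fin 2) k) : scalarGL k a * A = A * scalarGL k a := by
  apply Units.ext
  rw [Units.val_mul, Units.val_mul, scalarGL_val]
  exact (Matrix.scalar_commute (a : k) (fun r => mul_comm _ _) (A : Matrix (Fin 2) (Fin 2) k)).eq

/-- The twist `η ⊗ r` of a `GL₂`-valued homomorphism by a character. -/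
def twist (η : G →* kˣ) (r : G →* GL (Fin 2) k) : G →* GL (Fin 2) k where
  toFun g := scalarGL k (η g) * r g
  map_one' := by rw [map_one, map_one, map_one, mul_one]
  map_mul' g h := by
    rw [map_mul, map_mul, map_mul, mul_assoc, ← mul_assoc (scalarGL k (η h)),
      scalarGL_mul_comm (η h) (r g), mul_assoc, ← mul_assoc]

theorem twist_apply (η : G →* kˣ) (r : G →* GL (Fin 2) k) (g : G) :
    twist η r g = scalarGL k (η g) * r g := rfl

theorem twist_val (η : G →* kˣ) (r : G →* GL (Fin 2) k) (g : G) :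
    ((twist η r g : GL (Fin 2) k) : Matrix (Fin 2) (Fin 2) k) =
      (η g : k) • ((r g : GL (Fin 2) k) : Matrix (Fin 2) (Fin 2) k) := by
  rw [twist_apply, Units.val_mul, scalarGL_val, Matrix.scalar_apply,
    ← Matrix.smul_eq_diagonal_mul]

theorem twist_eq_one (η : G →* kˣ) (r : G →* GL (Fin 2) k) (g : G) (h1 : η g = 1)
    (h2 : r g = 1) : twist η r g = 1 := by
  rw [twist_apply, h1, h2, map_one, mul_one]

theorem trace_twist (η : G →* kˣ) (r : G →* GL (Fin 2) k) (g : G) :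
    Matrix.trace (twist η r g).1 = (η g : k) * Matrix.trace (r g).1 := by
  show Matrix.trace ((twist η r g : GL (Fin 2) k) : Matrix (Fin 2) (Fin 2) k) = _
  rw [twist_val, Matrix.trace_smul, smul_eq_mul]

theorem det_twist (η : G →* kˣ) (r : G →* GL (Fin 2) k) (g : G) :
    Matrix.det (twist η r g).1 = (η g : k) ^ 2 * Matrix.det (r g).1 := by
  show Matrix.det ((twist η r g : GL (Fin 2) k) : Matrix (Fin 2) (Fin 2) k) = _
  rw [twist_val, Matrix.det_smul, Fintype.card_fin]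

end Twist

/-! ### The twisted torsion package (covers the dual convention) -/

/-- **The twisted torsion package**: as `TorsionPackage`, but the eigenvalues of the
geometric operators are `η(p) θ(T_p)` and `η(p)² θ(⟨p⟩)` for a character `η` of `(ℤ/M)ˣ`.
`η = 1` is the standard convention; `η = (nebChar M θ)⁻¹` is the dual convention
(`⟨p⟩⁻¹ T_p`, `⟨p⟩⁻¹`). -/
def TorsionPackageTw (M : ℕ) [NeZero M] (l : ℕ) (k : Type) [Field k]
    (θ : Hecke1.heckeAlgebra M 2 →+* k) (η : (ZMod M)ˣ →* kˣ) : Prop :=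
  ∃ (J : Type) (_ : AddCommGroup J) (_ : DistribMulAction GQ J) (P : AddSubgroup J)
    (T D : ℕ → J → J) (lam : P →+ k),
    (∀ (σ : GQ) (x : J), x ∈ P → σ • x ∈ P) ∧ Finite P ∧
    (∃ L : IntermediateField ℚ Qb, FiniteDimensional ℚ L ∧
      ∀ σ : GQ, (∀ x ∈ L, σ x = x) → ∀ x ∈ P, σ • x = x) ∧
    (∀ (p : ℕ) (σ : GQ) (x : J), T p (σ • x) = σ • T p x) ∧
    (∀ (p : ℕ) (σ : GQ) (x : J), D p (σ • x) = σ • D p x) ∧
    lam ≠ 0 ∧
    ∀ (p : ℕ) (hp : p.Prime) (hpM : ¬ p ∣ M), p ≠ l →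
      (∀ x ∈ P, D p x ∈ P) ∧
      (∀ x y : P, (y : J) = T p (x : J) →
        lam y = ((η (Hecke1.punit hp hpM) : k) * θ (Hecke1.heckeAlgebra.T hp hpM)) * lam x) ∧
      (∀ x y : P, (y : J) = D p (x : J) →
        lam y = ((η (Hecke1.punit hp hpM) : k) ^ 2 *
          θ (Hecke1.heckeAlgebra.D (Hecke1.punit hp hpM))) * lam x) ∧
      ∀ A : ValuationSubring Qb, A.LiesOverPrime p →
        (∀ σ ∈ A.inertiaSubgroupIn ℚ, ∀ x ∈ P, σ • x = x) ∧
        ∀ σ : GQ, A.IsFrobeniusAt σ p → ∀ x ∈ P, σ • σ • x - T p (σ • x) + p • D p x = 0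

/-- **`HESAt` from a twisted torsion package.** -/
theorem hesAt_of_torsionPackageTw (M : ℕ) [NeZero M] (l : ℕ) (hl : l.Prime) (k : Type)
    [Field k] [CharP k l] (θ : Hecke1.heckeAlgebra M 2 →+* k) (η : (ZMod M)ˣ →* kˣ)
    (hsplit : ∀ (p : ℕ) (hp : p.Prime) (hpM : ¬ p ∣ M), p ≠ l →
      ∃ α β : k, α + β = θ (Hecke1.heckeAlgebra.T hp hpM) ∧
        α * β = (p : k) * θ (Hecke1.heckeAlgebra.D (Hecke1.punit hp hpM)))
    (h : TorsionPackageTw M l k θ η) : HESAt M l k θ := by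
  obtain ⟨J, i1, i2, P, T, D, lam, hP, hfin, hPlev, hT, hD, hlam0, hmain⟩ := h
  have hMl : NeZero (M * l) := ⟨Nat.mul_ne_zero (NeZero.ne M) hl.ne_zero⟩
  set S : Finset ℕ := (M * l).primeFactors with hS
  have hSmem : ∀ p : ℕ, p.Prime → (p ∉ S ↔ ¬ p ∣ M ∧ p ≠ l) := by
    intro p hp
    rw [hS, Nat.mem_primeFactors]
    constructor
    · intro h
      refine ⟨fun hd => h ⟨hp, Dvd.dvd.mul_right hd l, hMl.out⟩, ?_⟩
      rintro rfl
      exact h ⟨hp, dvd_mul_left p M, hMl.out⟩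
    · rintro ⟨h1, h2⟩ ⟨-, hd, -⟩
      rcases (Nat.Prime.dvd_mul hp).mp hd with hd | hd
      · exact h1 hd
      · exact h2 ((Nat.prime_dvd_prime_iff_eq hp hl).mp hd)
  classical
  set c : ℕ → k := fun p =>
    if h : p.Prime ∧ ¬ p ∣ M then
      (η (Hecke1.punit h.1 h.2) : k) * θ (Hecke1.heckeAlgebra.T h.1 h.2) else 0 with hc
  set e : ℕ → k := fun p =>
    if h : p.Prime ∧ ¬ p ∣ M then
      (η (Hecke1.punit h.1 h.2) : k) ^ 2 * θ (Hecke1.heckeAlgebra.D (Hecke1.punit h.1 h.2))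
    else 0 with he
  have hcp : ∀ (p : ℕ) (hp : p.Prime) (hpM : ¬ p ∣ M),
      c p = (η (Hecke1.punit hp hpM) : k) * θ (Hecke1.heckeAlgebra.T hp hpM) :=
    fun p hp hpM => by rw [hc]; exact dif_pos ⟨hp, hpM⟩
  have hep : ∀ (p : ℕ) (hp : p.Prime) (hpM : ¬ p ∣ M),
      e p = (η (Hecke1.punit hp hpM) : k) ^ 2 *
        θ (Hecke1.heckeAlgebra.D (Hecke1.punit hp hpM)) :=
    fun p hp hpM => by rw [he]; exact dif_pos ⟨hp, hpM⟩
  -- the determinant character of the twisted system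
  set ψ : (ZMod (M * l))ˣ →* kˣ :=
    detChar M l θ * (η ^ 2).comp (ZMod.unitsMap (dvd_mul_right M l)) with hψ
  have hψval : ∀ (p : ℕ) (hp : p.Prime) (hpM : ¬ p ∣ M) (h : Nat.Coprime p (M * l)),
      (ψ (ZMod.unitOfCoprime p h) : k) = (p : k) * e p := by
    intro p hp hpM h
    rw [hψ, MonoidHom.mul_apply, Units.val_mul, detChar_val M l θ hp hpM h,
      MonoidHom.comp_apply, unitsMap_unitOfCoprime M l hp hpM h, MonoidHom.pow_apply,
      Units.val_pow_eq_pow_val, hep p hp hpM]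
    ring
  obtain ⟨r, hr1, hr2⟩ := ResModuleChar.exists_galoisRep_of_torsion_dirChar P hP hPlev T D hT hD
    S c e lam hlam0
    (fun p hp hpS x y hxy => by
      obtain ⟨hpM, hpl⟩ := (hSmem p hp).mp hpS
      rw [hcp p hp hpM]
      exact (hmain p hp hpM hpl).2.1 x y hxy)
    (fun p hp hpS x y hxy => by
      obtain ⟨hpM, hpl⟩ := (hSmem p hp).mp hpS
      rw [hep p hp hpM]
      exact (hmain p hp hpM hpl).2.2.1 x y hxy)
    (fun p hp hpS => by
      obtain ⟨hpM, hpl⟩ := (hSmem p hp).mp hpS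
      exact (hmain p hp hpM hpl).1)
    (M * l) (fun q hq hqd => Nat.mem_primeFactors.mpr ⟨hq, hqd, hMl.out⟩) ψ
    (fun p hp hpMl hpS => by
      obtain ⟨hpM, hpl⟩ := (hSmem p hp).mp hpS
      exact hψval p hp hpM _)
    (fun p hp hpS => by
      obtain ⟨hpM, hpl⟩ := (hSmem p hp).mp hpS
      obtain ⟨α, β, h1, h2⟩ := hsplit p hp hpM hpl
      refine ⟨(η (Hecke1.punit hp hpM) : k) * α, (η (Hecke1.punit hp hpM) : k) * β, ?_, ?_⟩
      · rw [hcp p hp hpM, ← h1]; ring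
      · rw [hep p hp hpM]
        linear_combination ((η (Hecke1.punit hp hpM) : k) ^ 2) * h2)
    (fun p hp hpS A hA => by
      obtain ⟨hpM, hpl⟩ := (hSmem p hp).mp hpS
      exact (hmain p hp hpM hpl).2.2.2 A hA)
  -- untwist
  refine ⟨twist (ResModuleChar.dirChar M η⁻¹) r, ?_, fun p hp hpM hpl A hA => ?_⟩
  · obtain ⟨L₀, hL₀, h₀⟩ := hr1
    obtain ⟨L₁, hL₁, h₁⟩ := ResModuleChar.dirChar_level M η⁻¹
    have hfin' : FiniteDimensional ℚ ↥(L₀ ⊔ L₁) := IntermediateField.finiteDimensional_sup L₀ L₁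
    exact ⟨L₀ ⊔ L₁, hfin', fun σ hσ => twist_eq_one _ _ σ
      (h₁ σ fun x hx => hσ x ((le_sup_right : L₁ ≤ L₀ ⊔ L₁) hx))
      (h₀ σ fun x hx => hσ x ((le_sup_left : L₀ ≤ L₀ ⊔ L₁) hx))⟩
  · have hpS : p ∉ S := (hSmem p hp).mpr ⟨hpM, hpl⟩
    obtain ⟨hI, hF⟩ := hr2 p hp hpS A hA
    refine ⟨fun σ hσ => twist_eq_one _ _ σ
      (ResModuleChar.dirChar_inertia M η⁻¹ hp hpM A hA σ hσ) (hI σ hσ), fun σ hσ => ?_⟩
    obtain ⟨h1, h2⟩ := hF σ hσ
    have hη : (ResModuleChar.dirChar M η⁻¹ σ : k) = ((η (Hecke1.punit hp hpM))⁻¹ : kˣ) := by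
      rw [ResModuleChar.dirChar_frobenius M η⁻¹ hp hpM A hA σ hσ]
      rfl
    have hu : (((η (Hecke1.punit hp hpM))⁻¹ : kˣ) : k) * (η (Hecke1.punit hp hpM) : k) = 1 := by
      rw [← Units.val_mul, inv_mul_cancel, Units.val_one]
    refine ⟨?_, ?_⟩
    · rw [trace_twist, hη, h1, hcp p hp hpM, ← mul_assoc, hu, one_mul]
    · rw [det_twist, hη, h2, hep p hp hpM]
      linear_combination ((p : k) * θ (Hecke1.heckeAlgebra.D (Hecke1.punit hp hpM)) *
        ((((η (Hecke1.punit hp hpM))⁻¹ : kˣ) : k) * (η (Hecke1.punit hp hpM) : k) + 1)) * hu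

/-- **`DS.HES` from torsion packages** (standard convention) for all `(M, l, k, θ)` with split
Hecke polynomials. -/
theorem hes_of_torsionPackage (h : ∀ (M : ℕ) [NeZero M] (l : ℕ), l.Prime → 5 ≤ l → l ∣ M →
    ∀ (k : Type)
    [Field k] [CharP k l] (θ : Hecke1.heckeAlgebra M 2 →+* k), SplitAt M l k θ →
    TorsionPackage M l k θ) : HES :=
  hes_of_forall fun M _ l hl h5 hlM k _ _ θ hs =>
    hesAt_of_torsionPackage M l hl k θ hs (h M l hl h5 hlM k θ hs)

/-- **`DS.HES` from twisted torsion packages**: for every `(M, l, k, θ)` with split Hecke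
polynomials, a twisting character `η` and a twisted torsion package. -/
theorem hes_of_torsionPackageTw (h : ∀ (M : ℕ) [NeZero M] (l : ℕ), l.Prime → 5 ≤ l → l ∣ M →
    ∀ (k : Type)
    [Field k] [CharP k l] (θ : Hecke1.heckeAlgebra M 2 →+* k), SplitAt M l k θ →
    ∃ η : (ZMod M)ˣ →* kˣ, TorsionPackageTw M l k θ η) : HES :=
  hes_of_forall fun M _ l hl h5 hlM k _ _ θ hs => by
    obtain ⟨η, hη⟩ := h M l hl h5 hlM k θ hs
    exact hesAt_of_torsionPackageTw M l hl k θ η hs hη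

/-- The inverse nebentypus character: `(nebChar M θ)⁻¹ d = θ(⟨d⁻¹⟩)`. -/
theorem nebChar_inv_val (M : ℕ) [NeZero M] {k : Type} [Field k]
    (θ : Hecke1.heckeAlgebra M 2 →+* k) (d : (ZMod M)ˣ) :
    (((nebChar M θ)⁻¹ d : kˣ) : k) = θ (Hecke1.heckeAlgebra.D d⁻¹) := by
  rw [MonoidHom.inv_apply, ← map_inv, nebChar_val]

end Fermat.Agent.G1

end
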