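/-
G1 (= `DS.HES`), REP wiring, general convention (owner: helper73).

`G1/HESWire.lean` deduces `HESAt M l k θ` from a torsion module with ONE diamond family,
sitting in the constant term of the Eichler–Shimura relation.  The abstract Frobenius relation
of `G1/Cong/TorsionESAbs.lean` (`frobenius_relation`) has the shape

  `σ² D₂ x - T (σ x) + p D₁ x = 0`        on the torsion module,

with TWO operators `D₁, D₂` (in the modular case one of them is a diamond operator and the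
other one the identity, and `T` is `T_p` or its transpose).  This file treats that shape
directly: three families of operators `T, D₁, D₂` on a finite Galois module, an
eigen-functional `lam` with eigenvalues `a, d₁, d₂` such that

  `d₂ ≠ 0`,  `a = d₂ · η(p) · θ(T_p)`,  `d₁ = d₂ · η(p)² · θ(⟨p⟩)`

for a character `η` of `(ℤ/M)ˣ` (`η = 1` or `η = (nebChar M θ)⁻¹` in practice).  No
invertibility of `D₂`, no commutation between the operators, and the commutation with the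
Galois action is only needed on the torsion module.
-/
import Mathlib
import Fermat.Agent.G1.HESWire

set_option autoImplicit false
set_option linter.style.haveILetI false

noncomputable section

namespace Fermat.Agent.G1.Rep3

open Fermat.Agent.ESJ.Rep Fermat.Agent.DS

/-! ### The abstract construction on a `G`-module -/

section Abstract

variable {G : Type*} [Group G] {P : Type*} [AddCommGroup P] [DistribMulAction G P]
  {ι : Type*} (op : ι → P → P) (good : ι → Prop)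
  (hcomm : ∀ i : ι, good i → ∀ (σ : G) (x : P), op i (σ • x) = σ • op i x)
  {k : Type*} [Field k] (eig : ι → k)

/-- The space of eigen-functionals on `P` for the eigenvalue system `eig`. -/
def eigSpace : Submodule k (P → k) where
  carrier := {μ | (∀ x y : P, μ (x + y) = μ x + μ y) ∧
    ∀ i : ι, good i → ∀ x : P, μ (op i x) = eig i * μ x}
  add_mem' := by
    rintro μ ν ⟨h1, h2⟩ ⟨h3, h4⟩
    refine ⟨fun x y => ?_, fun i hi x => ?_⟩
    · simp only [Pi.add_apply, h1 x y, h3 x y]; ring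
    · simp only [Pi.add_apply, h2 i hi x, h4 i hi x]; ring
  zero_mem' := ⟨fun x y => by simp, fun i hi x => by simp⟩
  smul_mem' := by
    rintro c μ ⟨h1, h2⟩
    refine ⟨fun x y => ?_, fun i hi x => ?_⟩
    · simp only [Pi.smul_apply, h1 x y, smul_eq_mul]; ring
    · simp only [Pi.smul_apply, h2 i hi x, smul_eq_mul]; ring

theorem eigSpace_add (μ : eigSpace op good eig) (x y : P) : μ.1 (x + y) = μ.1 x + μ.1 y :=
  μ.2.1 x y

theorem eigSpace_neg (μ : eigSpace op good eig) (x : P) : μ.1 (-x) = -μ.1 x :=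
  map_neg (AddMonoidHom.mk' μ.1 (eigSpace_add op good eig μ)) x

theorem eigSpace_sub (μ : eigSpace op good eig) (x y : P) : μ.1 (x - y) = μ.1 x - μ.1 y :=
  map_sub (AddMonoidHom.mk' μ.1 (eigSpace_add op good eig μ)) x y

theorem eigSpace_nsmul (μ : eigSpace op good eig) (n : ℕ) (x : P) :
    μ.1 (n • x) = (n : k) * μ.1 x := by
  have := map_nsmul (AddMonoidHom.mk' μ.1 (eigSpace_add op good eig μ)) n x
  simpa [nsmul_eq_mul] using this

theorem eigSpace_eig (μ : eigSpace op good eig) (i : ι) (hi : good i) (x : P) :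
    μ.1 (op i x) = eig i * μ.1 x :=
  μ.2.2 i hi x

/-- Right translation `μ ↦ μ ∘ σ` on the eigenspace. -/
def transl (σ : G) : eigSpace op good eig →ₗ[k] eigSpace op good eig where
  toFun μ := ⟨fun x => μ.1 (σ • x), fun x y => by
      show μ.1 (σ • (x + y)) = μ.1 (σ • x) + μ.1 (σ • y)
      rw [smul_add, eigSpace_add],
    fun i hi x => by
      show μ.1 (σ • op i x) = eig i * μ.1 (σ • x)
      rw [← hcomm i hi σ x, eigSpace_eig op good eig μ i hi]⟩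
  map_add' μ ν := rfl
  map_smul' c μ := rfl

theorem transl_apply (σ : G) (μ : eigSpace op good eig) (x : P) :
    (transl op good hcomm eig σ μ).1 x = μ.1 (σ • x) := rfl

theorem transl_eq_id (σ : G) (h : ∀ x : P, σ • x = x) :
    transl op good hcomm eig σ = LinearMap.id := by
  ext μ x
  rw [transl_apply, h x]
  rfl

theorem transl_mul (σ τ : G) :
    transl op good hcomm eig (σ * τ) =
      transl op good hcomm eig τ ∘ₗ transl op good hcomm eig σ := by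
  ext μ x
  rw [transl_apply, mul_smul]
  rfl

/-- The representation on the dual of the eigenspace. -/
def dualRep : G →* Module.End k (Module.Dual k (eigSpace op good eig)) where
  toFun σ := (transl op good hcomm eig σ).dualMap
  map_one' := by
    rw [transl_eq_id op good hcomm eig 1 (fun x => one_smul _ x), LinearMap.dualMap_id]
    rfl
  map_mul' σ τ := by
    rw [transl_mul, ← LinearMap.dualMap_comp_dualMap]
    rfl

theorem dualRep_apply (σ : G) (ξ : Module.Dual k (eigSpace op good eig))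
    (μ : eigSpace op good eig) :
    dualRep op good hcomm eig σ ξ μ = ξ (transl op good hcomm eig σ μ) := rfl

theorem dualRep_eq_one (σ : G) (h : ∀ x : P, σ • x = x) :
    dualRep op good hcomm eig σ = 1 := by
  ext ξ μ
  rw [dualRep_apply, transl_eq_id op good hcomm eig σ h]
  rfl

/-- The relation `σ² D₂ - T σ + n D₁ = 0` on `P` transposes twice to
`d₂ σ² - a σ + n d₁ = 0` on the dual of the eigenspace. -/
theorem dualRep_quad (σ : G) (iT i1 i2 : ι) (hT : good iT) (h1 : good i1) (h2 : good i2)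
    (n : ℕ) (hrel : ∀ x : P, σ • σ • op i2 x - op iT (σ • x) + n • op i1 x = 0) :
    eig i2 • (dualRep op good hcomm eig σ * dualRep op good hcomm eig σ) -
      eig iT • dualRep op good hcomm eig σ +
      ((n : k) * eig i1) • (1 : Module.End k (Module.Dual k (eigSpace op good eig))) = 0 := by
  ext ξ μ
  simp only [LinearMap.add_apply, LinearMap.sub_apply, Module.End.mul_apply,
    LinearMap.smul_apply, Module.End.one_apply, dualRep_apply, LinearMap.zero_apply]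
  have key : eig i2 • transl op good hcomm eig σ (transl op good hcomm eig σ μ) -
      eig iT • transl op good hcomm eig σ μ + ((n : k) * eig i1) • μ = 0 := by
    apply Subtype.ext
    funext x
    have hx := hrel x
    have e1 : σ • σ • op i2 x = op iT (σ • x) - n • op i1 x := by
      rw [← sub_eq_zero, ← hx]
      abel
    have e2 : μ.1 (σ • σ • op i2 x) = eig i2 * μ.1 (σ • σ • x) := by
      rw [← hcomm i2 h2 σ x, ← hcomm i2 h2 σ (σ • x), eigSpace_eig op good eig μ i2 h2]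
    have e3 : μ.1 (σ • σ • op i2 x) = eig iT * μ.1 (σ • x) - (n : k) * (eig i1 * μ.1 x) := by
      rw [e1, eigSpace_sub, eigSpace_nsmul, eigSpace_eig op good eig μ iT hT,
        eigSpace_eig op good eig μ i1 h1]
    show eig i2 * μ.1 (σ • σ • x) - eig iT * μ.1 (σ • x) + ((n : k) * eig i1) * μ.1 x = 0
    rw [← e2, e3]
    ring
  have := congrArg ξ key
  rw [map_add, map_sub, map_smul, map_smul, map_smul, map_zero] at this
  exact this

end Abstract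

/-- The abstract module behind `H_ES`, general convention: a finite `G`-module `P` with an
eigen-functional for a family of operators commuting with `G` gives a nonzero
finite-dimensional representation on which every relation `σ² D₂ - T σ + n D₁ = 0` becomes
`d₂ σ² - a σ + n d₁ = 0`. -/
theorem exists_module3 {G : Type} [Group G] {P : Type} [AddCommGroup P] [DistribMulAction G P]
    [Finite P] {ι : Type} (op : ι → P → P) (good : ι → Prop)
    (hcomm : ∀ i : ι, good i → ∀ (σ : G) (x : P), op i (σ • x) = σ • op i x)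
    {k : Type} [Field k] (eig : ι → k) (lam : P →+ k) (hlam0 : lam ≠ 0)
    (hlam : ∀ i : ι, good i → ∀ x : P, lam (op i x) = eig i * lam x) :
    ∃ (W : Type) (_ : AddCommGroup W) (_ : Module k W) (_ : Module.Finite k W)
      (_ : Nontrivial W) (ρ : G →* Module.End k W),
      (∀ σ : G, (∀ x : P, σ • x = x) → ρ σ = 1) ∧
      (∀ (σ : G) (iT i1 i2 : ι), good iT → good i1 → good i2 → ∀ n : ℕ,
        (∀ x : P, σ • σ • op i2 x - op iT (σ • x) + n • op i1 x = 0) →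
          eig i2 • (ρ σ * ρ σ) - eig iT • ρ σ +
            ((n : k) * eig i1) • (1 : Module.End k W) = 0) := by
  have hlam_mem : (fun x => lam x) ∈ eigSpace op good eig :=
    ⟨fun x y => map_add lam x y, fun i hi x => hlam i hi x⟩
  have hnt : Nontrivial (eigSpace op good eig) := by
    refine ⟨⟨⟨_, hlam_mem⟩, 0, fun h => hlam0 ?_⟩⟩
    ext x
    have := congrFun (congrArg Subtype.val h) x
    simpa using this
  have hntD : Nontrivial (Module.Dual k (eigSpace op good eig)) := by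
    apply Module.nontrivial_of_finrank_pos (R := k)
    rw [Subspace.dual_finrank_eq]
    exact Module.finrank_pos
  exact ⟨Module.Dual k (eigSpace op good eig), inferInstance, inferInstance, inferInstance, hntD,
    dualRep op good hcomm eig, fun σ h => dualRep_eq_one op good hcomm eig σ h,
    fun σ iT i1 i2 hT h1 h2 n hrel => dualRep_quad op good hcomm eig σ iT i1 i2 hT h1 h2 n hrel⟩

/-! ### The Galois representation -/

/-- **REP side of `H_ES`, three operator families, on a finite `G_ℚ`-module `P`**: operators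
`T ℓ, D₁ ℓ, D₂ ℓ` commuting with Galois, an eigen-functional `lam` with eigenvalues
`a ℓ, d₁ ℓ, d₂ ℓ`, where `d₂ ℓ ≠ 0`, `a ℓ = d₂ ℓ · c ℓ`, `d₁ ℓ = d₂ ℓ · e ℓ`; a character `δ`
with `δ(Frob_ℓ) = ℓ · e ℓ`; the relation `σ² D₂ x - T (σ x) + ℓ D₁ x = 0` at Frobenius
elements. -/
theorem exists_galoisRep3 {P : Type} [AddCommGroup P] [DistribMulAction GQ P] [Finite P]
    (hPlev : ∃ L : IntermediateField ℚ Qb, FiniteDimensional ℚ L ∧
      ∀ σ : GQ, (∀ x ∈ L, σ x = x) → ∀ x : P, σ • x = x)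
    (T D₁ D₂ : ℕ → P → P) {k : Type} [Field k] (S : Finset ℕ)
    (hT : ∀ ℓ : ℕ, ℓ.Prime → ℓ ∉ S → ∀ (σ : GQ) (x : P), T ℓ (σ • x) = σ • T ℓ x)
    (hD₁ : ∀ ℓ : ℕ, ℓ.Prime → ℓ ∉ S → ∀ (σ : GQ) (x : P), D₁ ℓ (σ • x) = σ • D₁ ℓ x)
    (hD₂ : ∀ ℓ : ℕ, ℓ.Prime → ℓ ∉ S → ∀ (σ : GQ) (x : P), D₂ ℓ (σ • x) = σ • D₂ ℓ x)
    (a d₁ d₂ c e : ℕ → k) (lam : P →+ k) (hlam0 : lam ≠ 0)
    (hlamT : ∀ ℓ : ℕ, ℓ.Prime → ℓ ∉ S → ∀ x : P, lam (T ℓ x) = a ℓ * lam x)
    (hlamD₁ : ∀ ℓ : ℕ, ℓ.Prime → ℓ ∉ S → ∀ x : P, lam (D₁ ℓ x) = d₁ ℓ * lam x)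
    (hlamD₂ : ∀ ℓ : ℕ, ℓ.Prime → ℓ ∉ S → ∀ x : P, lam (D₂ ℓ x) = d₂ ℓ * lam x)
    (hd : ∀ ℓ : ℕ, ℓ.Prime → ℓ ∉ S → d₂ ℓ ≠ 0 ∧ a ℓ = d₂ ℓ * c ℓ ∧ d₁ ℓ = d₂ ℓ * e ℓ)
    (δ : GQ →* kˣ) (hδ : GaloisFactorsThroughFiniteLevel δ)
    (hδI : ∀ q : ℕ, q.Prime → q ∉ S → ∀ A : ValuationSubring Qb, A.LiesOverPrime q →
      ∀ σ ∈ A.inertiaSubgroupIn ℚ, δ σ = 1)
    (hδF : ∀ ℓ : ℕ, ℓ.Prime → ℓ ∉ S → ∀ A : ValuationSubring Qb, A.LiesOverPrime ℓ →
      ∀ σ : GQ, A.IsFrobeniusAt σ ℓ → (δ σ : k) = (ℓ : k) * e ℓ)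
    (hsplit : ∀ ℓ : ℕ, ℓ.Prime → ℓ ∉ S → ∃ α β : k, α + β = c ℓ ∧ α * β = (ℓ : k) * e ℓ)
    (hES : ∀ ℓ : ℕ, ℓ.Prime → ℓ ∉ S → ∀ A : ValuationSubring Qb, A.LiesOverPrime ℓ →
      (∀ σ ∈ A.inertiaSubgroupIn ℚ, ∀ x : P, σ • x = x) ∧
      ∀ σ : GQ, A.IsFrobeniusAt σ ℓ →
        ∀ x : P, σ • σ • D₂ ℓ x - T ℓ (σ • x) + ℓ • D₁ ℓ x = 0) :
    ∃ r : GQ →* GL (Fin 2) k, GaloisFactorsThroughFiniteLevel r ∧
      ∀ ℓ : ℕ, ℓ.Prime → ℓ ∉ S → ∀ A : ValuationSubring Qb, A.LiesOverPrime ℓ →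
        (∀ σ ∈ A.inertiaSubgroupIn ℚ, r σ = 1) ∧
        ∀ σ : GQ, A.IsFrobeniusAt σ ℓ →
          ((r σ : GL (Fin 2) k) : Matrix (Fin 2) (Fin 2) k).trace = c ℓ ∧
          ((r σ : GL (Fin 2) k) : Matrix (Fin 2) (Fin 2) k).det = (ℓ : k) * e ℓ := by
  -- the combined family, indexed by `ℕ ⊕ (ℕ ⊕ ℕ)`
  set op : ℕ ⊕ (ℕ ⊕ ℕ) → P → P := Sum.elim T (Sum.elim D₁ D₂) with hop
  set good : ℕ ⊕ (ℕ ⊕ ℕ) → Prop :=
    Sum.elim (fun ℓ => ℓ.Prime ∧ ℓ ∉ S) (Sum.elim (fun ℓ => ℓ.Prime ∧ ℓ ∉ S)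
      (fun ℓ => ℓ.Prime ∧ ℓ ∉ S)) with hgood
  set eig : ℕ ⊕ (ℕ ⊕ ℕ) → k := Sum.elim a (Sum.elim d₁ d₂) with heig
  have hcomm : ∀ i : ℕ ⊕ (ℕ ⊕ ℕ), good i → ∀ (σ : GQ) (x : P), op i (σ • x) = σ • op i x := by
    rintro (ℓ | ℓ | ℓ) hi σ x
    · exact hT ℓ hi.1 hi.2 σ x
    · exact hD₁ ℓ hi.1 hi.2 σ x
    · exact hD₂ ℓ hi.1 hi.2 σ x
  have hlam : ∀ i : ℕ ⊕ (ℕ ⊕ ℕ), good i → ∀ x : P, lam (op i x) = eig i * lam x := by
    rintro (ℓ | ℓ | ℓ) hi x
    · exact hlamT ℓ hi.1 hi.2 x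
    · exact hlamD₁ ℓ hi.1 hi.2 x
    · exact hlamD₂ ℓ hi.1 hi.2 x
  obtain ⟨W, i1, i2, i3, i4, ρ, h1, h2⟩ := exists_module3 (G := GQ) op good hcomm eig lam hlam0
    hlam
  have hlev : GaloisFactorsThroughFiniteLevel ρ := by
    obtain ⟨L, hL, h⟩ := hPlev
    exact ⟨L, hL, fun σ hσ => h1 σ (h σ hσ)⟩
  obtain ⟨r, hr1, hr2⟩ := ExtractChar.exists_galoisRep_of_quadFrob frobDensity S δ hδ hδI ρ hlev c
    (fun ℓ hℓ hℓS A hA => ⟨fun σ hσ => h1 σ ((hES ℓ hℓ hℓS A hA).1 σ hσ), fun σ hσ => by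
      have hδσ := hδF ℓ hℓ hℓS A hA σ hσ
      obtain ⟨α, β, hab, hab'⟩ := hsplit ℓ hℓ hℓS
      refine ⟨⟨α, β, hab, by rw [hab', hδσ]⟩, ?_⟩
      rw [hδσ]
      obtain ⟨hd0, ha, hd1⟩ := hd ℓ hℓ hℓS
      have hq := h2 σ (Sum.inl ℓ) (Sum.inr (Sum.inl ℓ)) (Sum.inr (Sum.inr ℓ)) ⟨hℓ, hℓS⟩
        ⟨hℓ, hℓS⟩ ⟨hℓ, hℓS⟩ ℓ ((hES ℓ hℓ hℓS A hA).2 σ hσ)
      have hq' : d₂ ℓ • (ρ σ * ρ σ) - a ℓ • ρ σ + ((ℓ : k) * d₁ ℓ) • (1 : Module.End k W) = 0 :=
        hq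
      have hfac : d₂ ℓ • (ρ σ * ρ σ - c ℓ • ρ σ + ((ℓ : k) * e ℓ) • (1 : Module.End k W)) = 0 := by
        rw [← hq', ha, hd1, smul_add, smul_sub, smul_smul, smul_smul]
        congr 2
        ring_nf
      exact (smul_eq_zero.mp hfac).resolve_left hd0⟩)
  refine ⟨r, hr1, fun ℓ hℓ hℓS A hA => ⟨(hr2 ℓ hℓ hℓS A hA).1, fun σ hσ => ?_⟩⟩
  obtain ⟨ht, hd'⟩ := (hr2 ℓ hℓ hℓS A hA).2 σ hσ
  exact ⟨ht, by rw [hd', hδF ℓ hℓ hℓS A hA σ hσ]⟩

/-! ### `HESAt` from three operator families -/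

/-- **`HESAt` from three operator families on a finite `G_ℚ`-module `P`** of finite level:
operators `T p, D₁ p, D₂ p` (`p ∤ M l`) commuting with Galois, an eigen-functional `lam` with
eigenvalues `a p, d₁ p, d₂ p`, where `d₂ p ≠ 0`, `a p = d₂ p · η(p) θ(T_p)`,
`d₁ p = d₂ p · η(p)² θ(⟨p⟩)` for a character `η` of `(ℤ/M)ˣ`; inertia at `p ∤ M l` acts
trivially and `σ² D₂ x - T (σ x) + p D₁ x = 0` at Frobenius elements. -/
theorem hesAt_of_module3 (M : ℕ) [NeZero M] (l : ℕ) (hl : l.Prime) (k : Type) [Field k]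
    [CharP k l] (θ : Hecke1.heckeAlgebra M 2 →+* k) (η : (ZMod M)ˣ →* kˣ)
    (hsplit : SplitAt M l k θ)
    {P : Type} [AddCommGroup P] [DistribMulAction GQ P] [Finite P]
    (hPlev : ∃ L : IntermediateField ℚ Qb, FiniteDimensional ℚ L ∧
      ∀ σ : GQ, (∀ x ∈ L, σ x = x) → ∀ x : P, σ • x = x)
    (T D₁ D₂ : ℕ → P → P)
    (hT : ∀ p : ℕ, p.Prime → ¬ p ∣ M → p ≠ l → ∀ (σ : GQ) (x : P), T p (σ • x) = σ • T p x)
    (hD₁ : ∀ p : ℕ, p.Prime → ¬ p ∣ M → p ≠ l → ∀ (σ : GQ) (x : P),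
      D₁ p (σ • x) = σ • D₁ p x)
    (hD₂ : ∀ p : ℕ, p.Prime → ¬ p ∣ M → p ≠ l → ∀ (σ : GQ) (x : P),
      D₂ p (σ • x) = σ • D₂ p x)
    (lam : P →+ k) (hlam0 : lam ≠ 0) (a d₁ d₂ : ℕ → k)
    (heig : ∀ (p : ℕ) (hp : p.Prime) (hpM : ¬ p ∣ M), p ≠ l →
      d₂ p ≠ 0 ∧
      a p = d₂ p * ((η (Hecke1.punit hp hpM) : k) * θ (Hecke1.heckeAlgebra.T hp hpM)) ∧
      d₁ p = d₂ p * ((η (Hecke1.punit hp hpM) : k) ^ 2 *
        θ (Hecke1.heckeAlgebra.D (Hecke1.punit hp hpM))) ∧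
      (∀ x : P, lam (T p x) = a p * lam x) ∧ (∀ x : P, lam (D₁ p x) = d₁ p * lam x) ∧
      (∀ x : P, lam (D₂ p x) = d₂ p * lam x))
    (hES : ∀ p : ℕ, p.Prime → ¬ p ∣ M → p ≠ l → ∀ A : ValuationSubring Qb,
      A.LiesOverPrime p →
      (∀ σ ∈ A.inertiaSubgroupIn ℚ, ∀ x : P, σ • x = x) ∧
      ∀ σ : GQ, A.IsFrobeniusAt σ p →
        ∀ x : P, σ • σ • D₂ p x - T p (σ • x) + p • D₁ p x = 0) :
    HESAt M l k θ := by
  have hMl : NeZero (M * l) := ⟨Nat.mul_ne_zero (NeZero.ne M) hl.ne_zero⟩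
  set S : Finset ℕ := (M * l).primeFactors with hS
  have hSmem : ∀ p : ℕ, p.Prime → (p ∉ S ↔ ¬ p ∣ M ∧ p ≠ l) := by
    intro p hp
    rw [hS, Nat.mem_primeFactors]
    constructor
    · intro h
      refine ⟨fun hd => h ⟨hp, Dvd.dvd.mul_right hd l, hMl.out⟩, ?_⟩
      rintro rfl
      exact h ⟨hp, dvd_mul_left p M, hMl.out⟩
    · rintro ⟨h1, h2⟩ ⟨-, hd, -⟩
      rcases (Nat.Prime.dvd_mul hp).mp hd with hd | hd
      · exact h1 hd
      · exact h2 ((Nat.prime_dvd_prime_iff_eq hp hl).mp hd)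
  classical
  set c : ℕ → k := fun p =>
    if h : p.Prime ∧ ¬ p ∣ M then
      (η (Hecke1.punit h.1 h.2) : k) * θ (Hecke1.heckeAlgebra.T h.1 h.2) else 0 with hc
  set e : ℕ → k := fun p =>
    if h : p.Prime ∧ ¬ p ∣ M then
      (η (Hecke1.punit h.1 h.2) : k) ^ 2 * θ (Hecke1.heckeAlgebra.D (Hecke1.punit h.1 h.2))
    else 0 with he
  have hcp : ∀ (p : ℕ) (hp : p.Prime) (hpM : ¬ p ∣ M),
      c p = (η (Hecke1.punit hp hpM) : k) * θ (Hecke1.heckeAlgebra.T hp hpM) :=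
    fun p hp hpM => by rw [hc]; exact dif_pos ⟨hp, hpM⟩
  have hep : ∀ (p : ℕ) (hp : p.Prime) (hpM : ¬ p ∣ M),
      e p = (η (Hecke1.punit hp hpM) : k) ^ 2 *
        θ (Hecke1.heckeAlgebra.D (Hecke1.punit hp hpM)) :=
    fun p hp hpM => by rw [he]; exact dif_pos ⟨hp, hpM⟩
  -- the determinant character of the twisted system
  set ψ : (ZMod (M * l))ˣ →* kˣ :=
    detChar M l θ * (η ^ 2).comp (ZMod.unitsMap (dvd_mul_right M l)) with hψ
  have hψval : ∀ (p : ℕ) (hp : p.Prime) (hpM : ¬ p ∣ M) (h : Nat.Coprime p (M * l)),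
      (ψ (ZMod.unitOfCoprime p h) : k) = (p : k) * e p := by
    intro p hp hpM h
    rw [hψ, MonoidHom.mul_apply, Units.val_mul, detChar_val M l θ hp hpM h,
      MonoidHom.comp_apply, unitsMap_unitOfCoprime M l hp hpM h, MonoidHom.pow_apply,
      Units.val_pow_eq_pow_val, hep p hp hpM]
    ring
  obtain ⟨r, hr1, hr2⟩ := exists_galoisRep3 hPlev T D₁ D₂ S
    (fun p hp hpS => by
      obtain ⟨hpM, hpl⟩ := (hSmem p hp).mp hpS
      exact hT p hp hpM hpl)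
    (fun p hp hpS => by
      obtain ⟨hpM, hpl⟩ := (hSmem p hp).mp hpS
      exact hD₁ p hp hpM hpl)
    (fun p hp hpS => by
      obtain ⟨hpM, hpl⟩ := (hSmem p hp).mp hpS
      exact hD₂ p hp hpM hpl)
    a d₁ d₂ c e lam hlam0
    (fun p hp hpS => by
      obtain ⟨hpM, hpl⟩ := (hSmem p hp).mp hpS
      exact (heig p hp hpM hpl).2.2.2.1)
    (fun p hp hpS => by
      obtain ⟨hpM, hpl⟩ := (hSmem p hp).mp hpS
      exact (heig p hp hpM hpl).2.2.2.2.1)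
    (fun p hp hpS => by
      obtain ⟨hpM, hpl⟩ := (hSmem p hp).mp hpS
      exact (heig p hp hpM hpl).2.2.2.2.2)
    (fun p hp hpS => by
      obtain ⟨hpM, hpl⟩ := (hSmem p hp).mp hpS
      obtain ⟨h0, h1, h2, -⟩ := heig p hp hpM hpl
      exact ⟨h0, by rw [h1, hcp p hp hpM], by rw [h2, hep p hp hpM]⟩)
    (ResModuleChar.dirChar (M * l) ψ) (ResModuleChar.dirChar_level (M * l) ψ)
    (fun q hq hqS A hA σ hσ =>
      ResModuleChar.dirChar_inertia (M * l) ψ hq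
        (fun h => hqS (Nat.mem_primeFactors.mpr ⟨hq, h, hMl.out⟩)) A hA σ hσ)
    (fun p hp hpS A hA σ hσ => by
      obtain ⟨hpM, hpl⟩ := (hSmem p hp).mp hpS
      have hpMl : ¬ p ∣ M * l := fun h => hpS (Nat.mem_primeFactors.mpr ⟨hp, h, hMl.out⟩)
      rw [ResModuleChar.dirChar_frobenius (M * l) ψ hp hpMl A hA σ hσ]
      exact hψval p hp hpM _)
    (fun p hp hpS => by
      obtain ⟨hpM, hpl⟩ := (hSmem p hp).mp hpS
      obtain ⟨α, β, h1, h2⟩ := hsplit p hp hpM hpl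
      refine ⟨(η (Hecke1.punit hp hpM) : k) * α, (η (Hecke1.punit hp hpM) : k) * β, ?_, ?_⟩
      · rw [hcp p hp hpM, ← h1]; ring
      · rw [hep p hp hpM]
        linear_combination ((η (Hecke1.punit hp hpM) : k) ^ 2) * h2)
    (fun p hp hpS A hA => by
      obtain ⟨hpM, hpl⟩ := (hSmem p hp).mp hpS
      exact hES p hp hpM hpl A hA)
  -- untwist
  refine ⟨twist (ResModuleChar.dirChar M η⁻¹) r, ?_, fun p hp hpM hpl A hA => ?_⟩
  · obtain ⟨L₀, hL₀, h₀⟩ := hr1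
    obtain ⟨L₁, hL₁, h₁⟩ := ResModuleChar.dirChar_level M η⁻¹
    have hfin' : FiniteDimensional ℚ ↥(L₀ ⊔ L₁) := IntermediateField.finiteDimensional_sup L₀ L₁
    exact ⟨L₀ ⊔ L₁, hfin', fun σ hσ => twist_eq_one _ _ σ
      (h₁ σ fun x hx => hσ x ((le_sup_right : L₁ ≤ L₀ ⊔ L₁) hx))
      (h₀ σ fun x hx => hσ x ((le_sup_left : L₀ ≤ L₀ ⊔ L₁) hx))⟩
  · have hpS : p ∉ S := (hSmem p hp).mpr ⟨hpM, hpl⟩
    obtain ⟨hI, hF⟩ := hr2 p hp hpS A hA
    refine ⟨fun σ hσ => twist_eq_one _ _ σ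
      (ResModuleChar.dirChar_inertia M η⁻¹ hp hpM A hA σ hσ) (hI σ hσ), fun σ hσ => ?_⟩
    obtain ⟨h1, h2⟩ := hF σ hσ
    have hη : (ResModuleChar.dirChar M η⁻¹ σ : k) = ((η (Hecke1.punit hp hpM))⁻¹ : kˣ) := by
      rw [ResModuleChar.dirChar_frobenius M η⁻¹ hp hpM A hA σ hσ]
      rfl
    have hu : (((η (Hecke1.punit hp hpM))⁻¹ : kˣ) : k) * (η (Hecke1.punit hp hpM) : k) = 1 := by
      rw [← Units.val_mul, inv_mul_cancel, Units.val_one]
    refine ⟨?_, ?_⟩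
    · rw [trace_twist, hη, h1, hcp p hp hpM, ← mul_assoc, hu, one_mul]
    · rw [det_twist, hη, h2, hep p hp hpM]
      linear_combination ((p : k) * θ (Hecke1.heckeAlgebra.D (Hecke1.punit hp hpM)) *
        ((((η (Hecke1.punit hp hpM))⁻¹ : kˣ) : k) * (η (Hecke1.punit hp hpM) : k) + 1)) * hu

/-- **`HESAt` from three operator families on a finite Galois-stable subgroup `P ⊆ J`**: the
form in which the torsion subgroup of a Jacobian enters.  The operators are functions on `J`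
preserving `P`; commutation with Galois, the eigen-equations and the relations are only needed
on `P`. -/
theorem hesAt_of_torsion3 (M : ℕ) [NeZero M] (l : ℕ) (hl : l.Prime) (k : Type) [Field k]
    [CharP k l] (θ : Hecke1.heckeAlgebra M 2 →+* k) (η : (ZMod M)ˣ →* kˣ)
    (hsplit : SplitAt M l k θ)
    {J : Type} [AddCommGroup J] [DistribMulAction GQ J] (P : AddSubgroup J)
    (hP : ∀ (σ : GQ) (x : J), x ∈ P → σ • x ∈ P) (hfin : Finite P)
    (hPlev : ∃ L : IntermediateField ℚ Qb, FiniteDimensional ℚ L ∧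
      ∀ σ : GQ, (∀ x ∈ L, σ x = x) → ∀ x ∈ P, σ • x = x)
    (T D₁ D₂ : ℕ → J → J)
    (hTP : ∀ (p : ℕ) (x : J), x ∈ P → T p x ∈ P)
    (hD₁P : ∀ (p : ℕ) (x : J), x ∈ P → D₁ p x ∈ P)
    (hD₂P : ∀ (p : ℕ) (x : J), x ∈ P → D₂ p x ∈ P)
    (hT : ∀ p : ℕ, p.Prime → ¬ p ∣ M → p ≠ l → ∀ (σ : GQ) (x : J), x ∈ P →
      T p (σ • x) = σ • T p x)
    (hD₁ : ∀ p : ℕ, p.Prime → ¬ p ∣ M → p ≠ l → ∀ (σ : GQ) (x : J), x ∈ P →
      D₁ p (σ • x) = σ • D₁ p x)
    (hD₂ : ∀ p : ℕ, p.Prime → ¬ p ∣ M → p ≠ l → ∀ (σ : GQ) (x : J), x ∈ P →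
      D₂ p (σ • x) = σ • D₂ p x)
    (lam : P →+ k) (hlam0 : lam ≠ 0) (a d₁ d₂ : ℕ → k)
    (heig : ∀ (p : ℕ) (hp : p.Prime) (hpM : ¬ p ∣ M), p ≠ l →
      d₂ p ≠ 0 ∧
      a p = d₂ p * ((η (Hecke1.punit hp hpM) : k) * θ (Hecke1.heckeAlgebra.T hp hpM)) ∧
      d₁ p = d₂ p * ((η (Hecke1.punit hp hpM) : k) ^ 2 *
        θ (Hecke1.heckeAlgebra.D (Hecke1.punit hp hpM))) ∧
      (∀ x y : P, (y : J) = T p (x : J) → lam y = a p * lam x) ∧
      (∀ x y : P, (y : J) = D₁ p (x : J) → lam y = d₁ p * lam x) ∧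
      (∀ x y : P, (y : J) = D₂ p (x : J) → lam y = d₂ p * lam x))
    (hES : ∀ p : ℕ, p.Prime → ¬ p ∣ M → p ≠ l → ∀ A : ValuationSubring Qb,
      A.LiesOverPrime p →
      (∀ σ ∈ A.inertiaSubgroupIn ℚ, ∀ x ∈ P, σ • x = x) ∧
      ∀ σ : GQ, A.IsFrobeniusAt σ p →
        ∀ x ∈ P, σ • σ • D₂ p x - T p (σ • x) + p • D₁ p x = 0) :
    HESAt M l k θ := by
  letI actP : DistribMulAction GQ P :=
    { smul := fun σ x => ⟨σ • (x : J), hP σ x x.2⟩
      one_smul := fun x => Subtype.ext (one_smul GQ (x : J))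
      mul_smul := fun σ τ x => Subtype.ext (mul_smul σ τ (x : J))
      smul_zero := fun σ => Subtype.ext (smul_zero σ)
      smul_add := fun σ x y => Subtype.ext (smul_add σ (x : J) (y : J)) }
  have hsm : ∀ (σ : GQ) (x : P), ((σ • x : P) : J) = σ • (x : J) := fun _ _ => rfl
  refine hesAt_of_module3 M l hl k θ η hsplit (P := P)
    (by
      obtain ⟨L, hL, h⟩ := hPlev
      exact ⟨L, hL, fun σ hσ x => Subtype.ext (h σ hσ x x.2)⟩)
    (fun p x => ⟨T p (x : J), hTP p x x.2⟩) (fun p x => ⟨D₁ p (x : J), hD₁P p x x.2⟩)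
    (fun p x => ⟨D₂ p (x : J), hD₂P p x x.2⟩)
    (fun p hp hpM hpl σ x => Subtype.ext (hT p hp hpM hpl σ x x.2))
    (fun p hp hpM hpl σ x => Subtype.ext (hD₁ p hp hpM hpl σ x x.2))
    (fun p hp hpM hpl σ x => Subtype.ext (hD₂ p hp hpM hpl σ x x.2))
    lam hlam0 a d₁ d₂
    (fun p hp hpM hpl => by
      obtain ⟨h0, h1, h2, h3, h4, h5⟩ := heig p hp hpM hpl
      exact ⟨h0, h1, h2, fun x => h3 x _ rfl, fun x => h4 x _ rfl, fun x => h5 x _ rfl⟩)
    (fun p hp hpM hpl A hA => by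
      obtain ⟨hI, hF⟩ := hES p hp hpM hpl A hA
      refine ⟨fun σ hσ x => Subtype.ext (hI σ hσ x x.2), fun σ hσ x => ?_⟩
      apply Subtype.ext
      have := hF σ hσ x x.2
      simpa [hsm] using this)

end Fermat.Agent.G1.Rep3

end
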