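/-
G1-ASM (owner: helper73): `DS.HES` (mod `l` Galois representations for Hecke eigen-characters
of `S₂(Γ₁(M))`) assembled from the G1 bricks.

Model (G1 plan v1, helper13): `F1 M ⊂ ℚ((q))` is the `ℚ`-model of the function field of
`X₁(M)` (`G1/Gen.lean`), `J1 M := Pic0 ℚ̄ (ℚ̄·F1 M)` with the arithmetic Galois action,
`J1tors M l` its `l`-torsion subgroup.

BRICKS (hypotheses of `hesAt_of_bricks`, one per layer):

* **JAC**  `TorsionFinite1 M l`, `TorsionFiniteLevel1 M l`  (J1, J2);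
* **OPS**  operators `T p, D₁ p, D₂ p : J1 M →+ J1 M` for the primes `p ∤ M l`
  (`T p` = the Hecke correspondence, one of `D₁ p, D₂ p` a diamond operator, the other one the
  identity — whatever CONG produces), with `T p` commuting with Galois on `J1tors M l`;
* **RED-K + CONG**  `LocalES1 M l p (T p) (D₁ p) (D₂ p)`: for every valuation subring `A` of
  `ℚ̄` over `p`: `IntegralScaling (F1 M) A`, `KummerRootF (F1 M) A l`, and a
  `HeckeCong (F1 M) A p l` with these operators;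
* **JAC (J3) + PER**  an eigen-functional `lam ≠ 0` on `J1tors M l` with eigenvalues
  `a p, d₁ p, d₂ p` for `T p, D₁ p, D₂ p`, where `d₂ p ≠ 0`, `a p = d₂ p · η(p) θ(T_p)`,
  `d₁ p = d₂ p · η(p)² θ(⟨p⟩)` for a character `η` of `(ℤ/M)ˣ`.

`hesAt_of_kappa` is the same with `lam = μ ∘ κ`, `κ : J1tors M l → Hom_pe(Γ₁(M), ℤ/l)` a
surjection intertwining `T p, D₁ p, D₂ p` with `⟨u_T⟩ T_p, ⟨u₁⟩, ⟨u₂⟩` and `μ` the
eigen-functional of PER (a theorem: `G1/EigenFunc1Main.lean`); the convention is encoded by the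
units and one integer `j` (`η = (nebChar M θ) ^ j`): `u_T = u₂ pʲ`, `u₁ = u₂ p^(2j+1)`.
-/
import Mathlib
import Fermat.Agent.G1.Rep3
import Fermat.Agent.G1.Gen
import Fermat.Agent.G1.HeckeSys1
import Fermat.Agent.G1.EigenFunc1Main
import Fermat.Agent.G1.Cong.TorsionESAbs
import Fermat.Agent.Lib.FrobeniusExists

set_option autoImplicit false
set_option linter.style.haveILetI false

noncomputable section

namespace Fermat.Agent.G1

open ModularCurve AlgebraicCurve CongruenceSubgroup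
open Fermat.Agent.ESJ.Rep Fermat.Agent.DS Fermat.Agent.ESJ.Jac Fermat.Agent.ESJ.ParHom
  Fermat.Agent.ESJ.Cong

/-! ### The model -/

/-- The function field of `X₁(M)` over `ℚ̄`. -/
abbrev F1bar (M : ℕ) [NeZero M] : IntermediateField Qb (LaurentSeries Qb) :=
  laurentBaseChange Qb (F1 M)

/-- `J₁(M)`: the degree-zero divisor class group of `ℚ̄·F1 M`, with the arithmetic Galois
action. -/
abbrev J1 (M : ℕ) [NeZero M] : Type := Pic0 Qb (F1bar M)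

/-- `J₁(M)[n]`. -/
abbrev J1tors (M n : ℕ) [NeZero M] : AddSubgroup (J1 M) := Pic0.torsion Qb (F1bar M) n

/-- The torsion of `J₁(M)` is stable under the Galois action. -/
theorem smul_mem_J1tors (M n : ℕ) [NeZero M] (σ : GQ) (x : J1 M) (hx : x ∈ J1tors M n) :
    σ • x ∈ J1tors M n := by
  rw [Pic0.mem_torsion] at hx ⊢
  rw [smul_comm, hx]
  exact smul_zero (A := J1 M) σ

/-- Additive endomorphisms of `J₁(M)` preserve the torsion. -/
theorem map_mem_J1tors (M n : ℕ) [NeZero M] (f : J1 M →+ J1 M) (x : J1 M)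
    (hx : x ∈ J1tors M n) : f x ∈ J1tors M n := by
  rw [Pic0.mem_torsion] at hx ⊢
  rw [← map_zsmul, hx, map_zero]

/-! ### The brick interfaces -/

/-- **(J1)**: `J₁(M)[n]` is finite. -/
def TorsionFinite1 (M n : ℕ) [NeZero M] : Prop := Finite (J1tors M n)

/-- **(J2)**: the Galois action on `J₁(M)[n]` factors through a finite extension of `ℚ`. -/
def TorsionFiniteLevel1 (M n : ℕ) [NeZero M] : Prop :=
  ∃ L : IntermediateField ℚ Qb, FiniteDimensional ℚ L ∧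
    ∀ σ : GQ, (∀ x ∈ L, σ x = x) → ∀ z ∈ J1tors M n, σ • z = z

/-- **(PER)**: a nonzero `θ`-eigen-functional on `Hom_pe(Γ₁(M), ℤ/m)` for the operators
`heckeT1`, `diamond1` of `G1/HeckeSys1.lean`. -/
def EigenFunctionalPE1 (M m : ℕ) [NeZero M] (k : Type) [Field k]
    (θ : Hecke1.heckeAlgebra M 2 →+* k) : Prop :=
  ∃ μ : peHoms (Gamma1 M) ℤ (ZMod m) →+ k, μ ≠ 0 ∧
    (∀ (p : ℕ) (hp : p.Prime) (hpM : ¬ p ∣ M) (x : peHoms (Gamma1 M) ℤ (ZMod m)),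
      μ (heckeT1 M hp hpM ℤ (ZMod m) x) = θ (Hecke1.heckeAlgebra.T hp hpM) * μ x) ∧
    (∀ (d : (ZMod M)ˣ) (x : peHoms (Gamma1 M) ℤ (ZMod m)),
      μ (diamond1 M d ℤ (ZMod m) x) = θ (Hecke1.heckeAlgebra.D d) * μ x)

/-- **(RED-K + CONG)** at a prime `p`, on `l`-torsion, for given operators `T, D₁, D₂` on
`J₁(M)`: for every valuation subring `A` of `ℚ̄` over `p`, integral scaling, the Kummer root
statement, and a Hecke congruence datum with these operators. -/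
def LocalES1 (M l : ℕ) [NeZero M] (p : ℕ) [NeZero p] (T D₁ D₂ : J1 M →+ J1 M) : Prop :=
  ∀ A : ValuationSubring Qb, A.LiesOverPrime p →
    G1.Cong.IntegralScaling (F1 M) A ∧ G1.Cong.KummerRootF (F1 M) A l ∧
    ∃ C : G1.Cong.HeckeCong (F1 M) A p l, C.T = T ∧ C.D₁ = D₁ ∧ C.D₂ = D₂

/-- **The local Eichler–Shimura statement** at a prime `p`, on `l`-torsion, for given operators
`T, D₁, D₂` on `J₁(M)` (the CONCLUSION of RED-K + CONG, independent of the form of the Hecke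
congruence datum): for every valuation subring `A` of `ℚ̄` over `p`, the inertia group acts
trivially on `J₁(M)[l]` and `σ² D₂ x - T (σ x) + p D₁ x = 0` for Frobenius elements `σ`. -/
def LocalRel1 (M l p : ℕ) [NeZero M] (T D₁ D₂ : J1 M →+ J1 M) : Prop :=
  ∀ A : ValuationSubring Qb, A.LiesOverPrime p →
    (∀ σ ∈ A.inertiaSubgroupIn ℚ, ∀ x ∈ J1tors M l, σ • x = x) ∧
    ∀ σ : GQ, A.IsFrobeniusAt σ p →
      ∀ x ∈ J1tors M l, σ • σ • D₂ x - T (σ • x) + p • D₁ x = 0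

/-- An operator on `J₁(M)` commutes with the Galois action on `J₁(M)[l]`. -/
def GaloisComm1 (M l : ℕ) [NeZero M] (T : J1 M →+ J1 M) : Prop :=
  ∀ (σ : GQ) (x : J1 M), x ∈ J1tors M l → T (σ • x) = σ • T x

/-! ### Galois-equivariance of the operators of a Hecke congruence datum on torsion -/

section HeckeCongGalois

variable {F₀ : IntermediateField ℚ (LaurentSeries ℚ)} {A : ValuationSubring Qb}
  {ℓ m : ℕ} [NeZero ℓ]

/-- `D₁` of a Hecke congruence datum commutes with Galois on `m`-torsion. -/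
theorem heckeCong_D₁_galois (hm : m ≠ 0) (C : G1.Cong.HeckeCong F₀ A ℓ m) (σ : GQ)
    (x : Pic0 Qb (laurentBaseChange Qb F₀))
    (hx : x ∈ Pic0.torsion Qb (laurentBaseChange Qb F₀) m) :
    C.D₁ (σ • x) = σ • C.D₁ x := by
  obtain ⟨f, hf⟩ := exists_isKummerPair hx
  have h1 : IsKummerPair m (σ • x) (arithmeticGalois F₀ σ • f) :=
    TorsionESK.isKummerPair_semilinear_smul hf (arithmeticGalois F₀ σ)
  have h2 : IsKummerPair m (C.D₁ (σ • x)) (C.δ₁ (arithmeticGalois F₀ σ • f)) := C.kummer_D₁ h1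
  have h3 : IsKummerPair m (σ • C.D₁ x) (arithmeticGalois F₀ σ • C.δ₁ f) :=
    TorsionESK.isKummerPair_semilinear_smul (C.kummer_D₁ hf) (arithmeticGalois F₀ σ)
  rw [C.galois_δ₁] at h2
  exact IsKummerPair.eq_of_eq hm h2 h3

/-- `D₂` of a Hecke congruence datum commutes with Galois on `m`-torsion. -/
theorem heckeCong_D₂_galois (hm : m ≠ 0) (C : G1.Cong.HeckeCong F₀ A ℓ m) (σ : GQ)
    (x : Pic0 Qb (laurentBaseChange Qb F₀))
    (hx : x ∈ Pic0.torsion Qb (laurentBaseChange Qb F₀) m) :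
    C.D₂ (σ • x) = σ • C.D₂ x := by
  obtain ⟨f, hf⟩ := exists_isKummerPair hx
  have h1 : IsKummerPair m (σ • x) (arithmeticGalois F₀ σ • f) :=
    TorsionESK.isKummerPair_semilinear_smul hf (arithmeticGalois F₀ σ)
  have h2 : IsKummerPair m (C.D₂ (σ • x)) (C.δ₂ (arithmeticGalois F₀ σ • f)) := C.kummer_D₂ h1
  have h3 : IsKummerPair m (σ • C.D₂ x) (arithmeticGalois F₀ σ • C.δ₂ f) :=
    TorsionESK.isKummerPair_semilinear_smul (C.kummer_D₂ hf) (arithmeticGalois F₀ σ)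
  rw [C.galois_δ₂] at h2
  exact IsKummerPair.eq_of_eq hm h2 h3

/-- `T` of a Hecke congruence datum commutes with Galois on `m`-torsion as soon as its Kummer
transfer `NT` commutes with the coefficientwise Galois action (a way to discharge `hTgal` of
`hesAt_of_bricks`; the other one is the generic commutation of correspondences defined over
`ℚ` with `arithmeticGalois`). -/
theorem heckeCong_T_galois (hm : m ≠ 0) (C : G1.Cong.HeckeCong F₀ A ℓ m) (σ : GQ)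
    (hNT : ∀ f : laurentBaseChange Qb F₀,
      C.NT (arithmeticGalois F₀ σ • f) = arithmeticGalois F₀ σ • C.NT f)
    (x : Pic0 Qb (laurentBaseChange Qb F₀))
    (hx : x ∈ Pic0.torsion Qb (laurentBaseChange Qb F₀) m) :
    C.T (σ • x) = σ • C.T x := by
  obtain ⟨f, hf⟩ := exists_isKummerPair hx
  have h1 : IsKummerPair m (σ • x) (arithmeticGalois F₀ σ • f) :=
    TorsionESK.isKummerPair_semilinear_smul hf (arithmeticGalois F₀ σ)
  have h2 : IsKummerPair m (C.T (σ • x)) (C.NT (arithmeticGalois F₀ σ • f)) := C.kummer_T h1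
  have h3 : IsKummerPair m (σ • C.T x) (arithmeticGalois F₀ σ • C.NT f) :=
    TorsionESK.isKummerPair_semilinear_smul (C.kummer_T hf) (arithmeticGalois F₀ σ)
  rw [hNT] at h2
  exact IsKummerPair.eq_of_eq hm h2 h3

end HeckeCongGalois

/-! ### The assembly -/

/-- **G1-ASM, general convention, relation form.**  `HESAt M l k θ` from: finiteness and finite
level of `J₁(M)[l]`, operators `T p, D₁ p, D₂ p` on `J₁(M)` commuting with Galois on
`J₁(M)[l]`, the local Eichler–Shimura statement `LocalRel1` at every prime `p ∤ M l`, and a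
nonzero eigen-functional on `J₁(M)[l]` whose eigenvalues `a p, d₁ p, d₂ p` satisfy `d₂ p ≠ 0`,
`a p = d₂ p · η(p) θ(T_p)`, `d₁ p = d₂ p · η(p)² θ(⟨p⟩)`. -/
theorem hesAt_of_rel (M : ℕ) [NeZero M] (l : ℕ) (hl : l.Prime) (k : Type) [Field k]
    [CharP k l] (θ : Hecke1.heckeAlgebra M 2 →+* k) (hsplit : SplitAt M l k θ)
    (η : (ZMod M)ˣ →* kˣ)
    (hfin : TorsionFinite1 M l) (hlev : TorsionFiniteLevel1 M l)
    (T D₁ D₂ : ℕ → J1 M →+ J1 M)
    (hTgal : ∀ p : ℕ, p.Prime → ¬ p ∣ M → p ≠ l → GaloisComm1 M l (T p))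
    (hD₁gal : ∀ p : ℕ, p.Prime → ¬ p ∣ M → p ≠ l → GaloisComm1 M l (D₁ p))
    (hD₂gal : ∀ p : ℕ, p.Prime → ¬ p ∣ M → p ≠ l → GaloisComm1 M l (D₂ p))
    (hrel : ∀ p : ℕ, p.Prime → ¬ p ∣ M → p ≠ l → LocalRel1 M l p (T p) (D₁ p) (D₂ p))
    (lam : J1tors M l →+ k) (hlam0 : lam ≠ 0) (a d₁ d₂ : ℕ → k)
    (heig : ∀ (p : ℕ) (hp : p.Prime) (hpM : ¬ p ∣ M), p ≠ l →
      d₂ p ≠ 0 ∧
      a p = d₂ p * ((η (Hecke1.punit hp hpM) : k) * θ (Hecke1.heckeAlgebra.T hp hpM)) ∧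
      d₁ p = d₂ p * ((η (Hecke1.punit hp hpM) : k) ^ 2 *
        θ (Hecke1.heckeAlgebra.D (Hecke1.punit hp hpM))) ∧
      (∀ x y : J1tors M l, (y : J1 M) = T p (x : J1 M) → lam y = a p * lam x) ∧
      (∀ x y : J1tors M l, (y : J1 M) = D₁ p (x : J1 M) → lam y = d₁ p * lam x) ∧
      (∀ x y : J1tors M l, (y : J1 M) = D₂ p (x : J1 M) → lam y = d₂ p * lam x)) :
    HESAt M l k θ :=
  Rep3.hesAt_of_torsion3 M l hl k θ η hsplit (J := J1 M) (J1tors M l)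
    (fun σ x hx => smul_mem_J1tors M l σ x hx) hfin hlev
    (fun p x => T p x) (fun p x => D₁ p x) (fun p x => D₂ p x)
    (fun p x hx => map_mem_J1tors M l (T p) x hx)
    (fun p x hx => map_mem_J1tors M l (D₁ p) x hx)
    (fun p x hx => map_mem_J1tors M l (D₂ p) x hx)
    hTgal hD₁gal hD₂gal lam hlam0 a d₁ d₂ heig hrel

/-- `LocalES1` (integral scaling + Kummer roots + a Hecke congruence datum) gives the local
Eichler–Shimura statement. -/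
theorem localRel1_of_localES1 {M l : ℕ} [NeZero M] (hl0 : l ≠ 0) {p : ℕ} (hp : p.Prime)
    {T D₁ D₂ : J1 M →+ J1 M} (h : @LocalES1 M l _ p ⟨hp.ne_zero⟩ T D₁ D₂) :
    LocalRel1 M l p T D₁ D₂ := by
  intro A hA
  haveI : NeZero p := ⟨hp.ne_zero⟩
  obtain ⟨hS, hK, C, hCT, hC₁, hC₂⟩ := h A hA
  refine ⟨fun σ hσ x hx => ?_, fun σ hσ x hx => ?_⟩
  · exact G1.Cong.inertia_smul_eq hS hl0 hK σ hσ x (Pic0.mem_torsion.mp hx)
  · have h := G1.Cong.frobenius_relation hS p hp hA hl0 hK C σ hσ x (Pic0.mem_torsion.mp hx)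
    rw [hCT, hC₁, hC₂] at h
    exact h

/-- `D₁` of `LocalES1` commutes with Galois on torsion. -/
theorem galoisComm1_D₁_of_localES1 {M l : ℕ} [NeZero M] (hl0 : l ≠ 0) {p : ℕ} (hp : p.Prime)
    {T D₁ D₂ : J1 M →+ J1 M} (h : @LocalES1 M l _ p ⟨hp.ne_zero⟩ T D₁ D₂) :
    GaloisComm1 M l D₁ := by
  intro σ x hx
  haveI : NeZero p := ⟨hp.ne_zero⟩
  obtain ⟨A, hA⟩ := Fermat.Agent.Lib.FrobeniusExists.exists_liesOverPrime hp
  obtain ⟨-, -, C, -, hC₁, -⟩ := h A hA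
  rw [← hC₁]
  exact heckeCong_D₁_galois hl0 C σ x hx

/-- `D₂` of `LocalES1` commutes with Galois on torsion. -/
theorem galoisComm1_D₂_of_localES1 {M l : ℕ} [NeZero M] (hl0 : l ≠ 0) {p : ℕ} (hp : p.Prime)
    {T D₁ D₂ : J1 M →+ J1 M} (h : @LocalES1 M l _ p ⟨hp.ne_zero⟩ T D₁ D₂) :
    GaloisComm1 M l D₂ := by
  intro σ x hx
  haveI : NeZero p := ⟨hp.ne_zero⟩
  obtain ⟨A, hA⟩ := Fermat.Agent.Lib.FrobeniusExists.exists_liesOverPrime hp
  obtain ⟨-, -, C, -, -, hC₂⟩ := h A hA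
  rw [← hC₂]
  exact heckeCong_D₂_galois hl0 C σ x hx

/-- **G1-ASM, general convention.**  `HESAt M l k θ` from the G1 bricks: finiteness and finite
level of `J₁(M)[l]`, operators `T p, D₁ p, D₂ p` on `J₁(M)` with `T p` Galois-equivariant on
`J₁(M)[l]`, the local Eichler–Shimura data `LocalES1` at every prime `p ∤ M l`, and a nonzero
eigen-functional on `J₁(M)[l]` whose eigenvalues `a p, d₁ p, d₂ p` satisfy `d₂ p ≠ 0`,
`a p = d₂ p · η(p) θ(T_p)`, `d₁ p = d₂ p · η(p)² θ(⟨p⟩)`. -/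
theorem hesAt_of_bricks (M : ℕ) [NeZero M] (l : ℕ) (hl : l.Prime) (k : Type) [Field k]
    [CharP k l] (θ : Hecke1.heckeAlgebra M 2 →+* k) (hsplit : SplitAt M l k θ)
    (η : (ZMod M)ˣ →* kˣ)
    (hfin : TorsionFinite1 M l) (hlev : TorsionFiniteLevel1 M l)
    (T D₁ D₂ : ℕ → J1 M →+ J1 M)
    (hTgal : ∀ p : ℕ, p.Prime → ¬ p ∣ M → p ≠ l → ∀ (σ : GQ) (x : J1 M), x ∈ J1tors M l →
      T p (σ • x) = σ • T p x)
    (hloc : ∀ (p : ℕ) (hp : p.Prime), ¬ p ∣ M → p ≠ l →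
      @LocalES1 M l _ p ⟨hp.ne_zero⟩ (T p) (D₁ p) (D₂ p))
    (lam : J1tors M l →+ k) (hlam0 : lam ≠ 0) (a d₁ d₂ : ℕ → k)
    (heig : ∀ (p : ℕ) (hp : p.Prime) (hpM : ¬ p ∣ M), p ≠ l →
      d₂ p ≠ 0 ∧
      a p = d₂ p * ((η (Hecke1.punit hp hpM) : k) * θ (Hecke1.heckeAlgebra.T hp hpM)) ∧
      d₁ p = d₂ p * ((η (Hecke1.punit hp hpM) : k) ^ 2 *
        θ (Hecke1.heckeAlgebra.D (Hecke1.punit hp hpM))) ∧
      (∀ x y : J1tors M l, (y : J1 M) = T p (x : J1 M) → lam y = a p * lam x) ∧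
      (∀ x y : J1tors M l, (y : J1 M) = D₁ p (x : J1 M) → lam y = d₁ p * lam x) ∧
      (∀ x y : J1tors M l, (y : J1 M) = D₂ p (x : J1 M) → lam y = d₂ p * lam x)) :
    HESAt M l k θ :=
  hesAt_of_rel M l hl k θ hsplit η hfin hlev T D₁ D₂ hTgal
    (fun p hp hpM hpl => galoisComm1_D₁_of_localES1 hl.ne_zero hp (hloc p hp hpM hpl))
    (fun p hp hpM hpl => galoisComm1_D₂_of_localES1 hl.ne_zero hp (hloc p hp hpM hpl))
    (fun p hp hpM hpl => localRel1_of_localES1 hl.ne_zero hp (hloc p hp hpM hpl))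
    lam hlam0 a d₁ d₂ heig

/-! ### The eigen-functional from the Kummer comparison and the period side -/

/-- **(PER)** is a theorem (helper87, `G1/EigenFunc1Main.lean`). -/
theorem eigenFunctionalPE1 (M : ℕ) [NeZero M] (l : ℕ) (k : Type) [Field k] [CharP k l]
    (θ : Hecke1.heckeAlgebra M 2 →+* k) : EigenFunctionalPE1 M l k θ :=
  exists_eigenfunctional_zmod1 M l (CharP.cast_eq_zero k l) θ

/-- `⟨1⟩` is the identity on `Hom(Γ₁(M), A)`. -/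
theorem heckeCoh1D_one (M : ℕ) [NeZero M] {B : Type*} [AddCommGroup B]
    (φ : Additive (Gamma1 M) →+ B) : heckeCoh1D M 1 φ = φ := by
  apply AddMonoidHom.ext
  intro γ'
  obtain ⟨γ, rfl⟩ := Additive.ofMul.surjective γ'
  rw [heckeCoh1D_apply M 1 φ γ 1 (Subgroup.one_mem _) Hecke1.lr_one]
  congr 2
  apply Subtype.ext
  simp

/-- `⟨1⟩` is the identity on `Hom_pe(Γ₁(M), A)`. -/
theorem diamond1_one (M : ℕ) [NeZero M] (R : Type*) [Semiring R] (B : Type*) [AddCommGroup B]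
    [Module R B] (φ : peHoms (Gamma1 M) R B) : diamond1 M 1 R B φ = φ :=
  Subtype.ext (heckeCoh1D_one M (φ : Additive (Gamma1 M) →+ B))

/-- **G1-ASM, Kummer form, relation form.**  As `hesAt_of_rel`, with the eigen-functional
`lam = μ ∘ κ`: `μ` the `θ`-eigen-functional on `Hom_pe(Γ₁(M), ℤ/l)` (PER, `eigenFunctionalPE1`)
and `κ : J₁(M)[l] → Hom_pe(Γ₁(M), ℤ/l)` a surjection (JAC, J3) intertwining
`T p ↦ ⟨u_T p⟩ T_p`, `D₁ p ↦ ⟨u₁ p⟩`, `D₂ p ↦ ⟨u₂ p⟩`, where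
`u_T p = u₂ p · pʲ`, `u₁ p = u₂ p · p^(2j+1)` for one integer `j`.

Conventions: `(D₁, D₂) = (⟨p⟩, id)`, `T = T_p`: `u_T = 1, u₁ = p, u₂ = 1, j = 0`;
`(D₁, D₂) = (id, ⟨p⟩⁻¹)`, `T = ⟨p⟩⁻¹ T_p`: `u_T = p⁻¹, u₁ = 1, u₂ = p⁻¹, j = 0`;
`(D₁, D₂) = (id, ⟨p⟩)`, `T = T_p`: `u_T = 1, u₁ = 1, u₂ = p, j = -1`;
`(D₁, D₂) = (⟨p⟩⁻¹, id)`, `T = ⟨p⟩⁻¹ T_p`: `u_T = p⁻¹, u₁ = p⁻¹, u₂ = 1, j = -1`
(use `diamond1_one` for the identity). -/
theorem hesAt_of_kappa_rel (M : ℕ) [NeZero M] (l : ℕ) (hl : l.Prime) (k : Type) [Field k]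
    [CharP k l] (θ : Hecke1.heckeAlgebra M 2 →+* k) (hsplit : SplitAt M l k θ)
    (hfin : TorsionFinite1 M l) (hlev : TorsionFiniteLevel1 M l)
    (T D₁ D₂ : ℕ → J1 M →+ J1 M)
    (hTgal : ∀ p : ℕ, p.Prime → ¬ p ∣ M → p ≠ l → GaloisComm1 M l (T p))
    (hD₁gal : ∀ p : ℕ, p.Prime → ¬ p ∣ M → p ≠ l → GaloisComm1 M l (D₁ p))
    (hD₂gal : ∀ p : ℕ, p.Prime → ¬ p ∣ M → p ≠ l → GaloisComm1 M l (D₂ p))
    (hrel : ∀ p : ℕ, p.Prime → ¬ p ∣ M → p ≠ l → LocalRel1 M l p (T p) (D₁ p) (D₂ p))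
    (κ : J1tors M l →+ peHoms (Gamma1 M) ℤ (ZMod l)) (hκ : Function.Surjective κ)
    (j : ℤ) (uT u₁ u₂ : ℕ → (ZMod M)ˣ)
    (hu : ∀ (p : ℕ) (hp : p.Prime) (hpM : ¬ p ∣ M), p ≠ l →
      uT p = u₂ p * Hecke1.punit hp hpM ^ j ∧ u₁ p = u₂ p * Hecke1.punit hp hpM ^ (2 * j + 1))
    (hκT : ∀ (p : ℕ) (hp : p.Prime) (hpM : ¬ p ∣ M), p ≠ l →
      ∀ x y : J1tors M l, (y : J1 M) = T p (x : J1 M) →
        κ y = diamond1 M (uT p) ℤ (ZMod l) (heckeT1 M hp hpM ℤ (ZMod l) (κ x)))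
    (hκD₁ : ∀ p : ℕ, p.Prime → ¬ p ∣ M → p ≠ l →
      ∀ x y : J1tors M l, (y : J1 M) = D₁ p (x : J1 M) →
        κ y = diamond1 M (u₁ p) ℤ (ZMod l) (κ x))
    (hκD₂ : ∀ p : ℕ, p.Prime → ¬ p ∣ M → p ≠ l →
      ∀ x y : J1tors M l, (y : J1 M) = D₂ p (x : J1 M) →
        κ y = diamond1 M (u₂ p) ℤ (ZMod l) (κ x)) :
    HESAt M l k θ := by
  obtain ⟨μ, hμ0, hμT, hμD⟩ := eigenFunctionalPE1 M l k θ
  classical
  have hlam0 : μ.comp κ ≠ 0 := by
    intro h0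
    apply hμ0
    ext y
    obtain ⟨x, rfl⟩ := hκ y
    exact DFunLike.congr_fun h0 x
  have hneb : ∀ d : (ZMod M)ˣ, θ (Hecke1.heckeAlgebra.D d) = (nebChar M θ d : k) :=
    fun d => (nebChar_val M θ d).symm
  refine hesAt_of_rel M l hl k θ hsplit (nebChar M θ ^ j) hfin hlev T D₁ D₂ hTgal hD₁gal hD₂gal
    hrel (μ.comp κ) hlam0
    (fun p => if h : p.Prime ∧ ¬ p ∣ M then
      θ (Hecke1.heckeAlgebra.D (uT p)) * θ (Hecke1.heckeAlgebra.T h.1 h.2) else 0)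
    (fun p => θ (Hecke1.heckeAlgebra.D (u₁ p))) (fun p => θ (Hecke1.heckeAlgebra.D (u₂ p)))
    (fun p hp hpM hpl => ?_)
  obtain ⟨huT, hu1⟩ := hu p hp hpM hpl
  have ha : (if h : p.Prime ∧ ¬ p ∣ M then
      θ (Hecke1.heckeAlgebra.D (uT p)) * θ (Hecke1.heckeAlgebra.T h.1 h.2) else 0) =
      θ (Hecke1.heckeAlgebra.D (uT p)) * θ (Hecke1.heckeAlgebra.T hp hpM) := dif_pos ⟨hp, hpM⟩
  have hηp : ((nebChar M θ ^ j) (Hecke1.punit hp hpM) : kˣ) =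
      nebChar M θ (Hecke1.punit hp hpM) ^ j := rfl
  refine ⟨?_, ?_, ?_, fun x y hxy => ?_, fun x y hxy => ?_, fun x y hxy => ?_⟩
  · rw [hneb]
    exact Units.ne_zero _
  · rw [ha, hneb, hneb, huT, map_mul, map_zpow, Units.val_mul, hηp, mul_assoc]
  · have hu1' : nebChar M θ (u₁ p) = nebChar M θ (u₂ p) *
        ((nebChar M θ (Hecke1.punit hp hpM) ^ j) ^ 2 * nebChar M θ (Hecke1.punit hp hpM)) := by
      rw [hu1, map_mul, map_zpow, zpow_add_one, mul_comm 2 j, zpow_mul, zpow_ofNat]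
    rw [hneb, hneb, hneb, hu1', hηp]
    push_cast
    rfl
  · rw [ha]
    show μ (κ y) = _ * μ (κ x)
    rw [hκT p hp hpM hpl x y hxy, hμD, hμT, mul_assoc]
  · show μ (κ y) = _ * μ (κ x)
    rw [hκD₁ p hp hpM hpl x y hxy, hμD]
  · show μ (κ y) = _ * μ (κ x)
    rw [hκD₂ p hp hpM hpl x y hxy, hμD]

/-- **G1-ASM, Kummer form**, with the local Eichler–Shimura statement given by `LocalES1`
(integral scaling + Kummer roots + a Hecke congruence datum `HeckeCong`). -/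
theorem hesAt_of_kappa (M : ℕ) [NeZero M] (l : ℕ) (hl : l.Prime) (k : Type) [Field k]
    [CharP k l] (θ : Hecke1.heckeAlgebra M 2 →+* k) (hsplit : SplitAt M l k θ)
    (hfin : TorsionFinite1 M l) (hlev : TorsionFiniteLevel1 M l)
    (T D₁ D₂ : ℕ → J1 M →+ J1 M)
    (hTgal : ∀ p : ℕ, p.Prime → ¬ p ∣ M → p ≠ l → ∀ (σ : GQ) (x : J1 M), x ∈ J1tors M l →
      T p (σ • x) = σ • T p x)
    (hloc : ∀ (p : ℕ) (hp : p.Prime), ¬ p ∣ M → p ≠ l →
      @LocalES1 M l _ p ⟨hp.ne_zero⟩ (T p) (D₁ p) (D₂ p))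
    (κ : J1tors M l →+ peHoms (Gamma1 M) ℤ (ZMod l)) (hκ : Function.Surjective κ)
    (j : ℤ) (uT u₁ u₂ : ℕ → (ZMod M)ˣ)
    (hu : ∀ (p : ℕ) (hp : p.Prime) (hpM : ¬ p ∣ M), p ≠ l →
      uT p = u₂ p * Hecke1.punit hp hpM ^ j ∧ u₁ p = u₂ p * Hecke1.punit hp hpM ^ (2 * j + 1))
    (hκT : ∀ (p : ℕ) (hp : p.Prime) (hpM : ¬ p ∣ M), p ≠ l →
      ∀ x y : J1tors M l, (y : J1 M) = T p (x : J1 M) →
        κ y = diamond1 M (uT p) ℤ (ZMod l) (heckeT1 M hp hpM ℤ (ZMod l) (κ x)))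
    (hκD₁ : ∀ p : ℕ, p.Prime → ¬ p ∣ M → p ≠ l →
      ∀ x y : J1tors M l, (y : J1 M) = D₁ p (x : J1 M) →
        κ y = diamond1 M (u₁ p) ℤ (ZMod l) (κ x))
    (hκD₂ : ∀ p : ℕ, p.Prime → ¬ p ∣ M → p ≠ l →
      ∀ x y : J1tors M l, (y : J1 M) = D₂ p (x : J1 M) →
        κ y = diamond1 M (u₂ p) ℤ (ZMod l) (κ x)) :
    HESAt M l k θ :=
  hesAt_of_kappa_rel M l hl k θ hsplit hfin hlev T D₁ D₂ hTgal
    (fun p hp hpM hpl => galoisComm1_D₁_of_localES1 hl.ne_zero hp (hloc p hp hpM hpl))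
    (fun p hp hpM hpl => galoisComm1_D₂_of_localES1 hl.ne_zero hp (hloc p hp hpM hpl))
    (fun p hp hpM hpl => localRel1_of_localES1 hl.ne_zero hp (hloc p hp hpM hpl))
    κ hκ j uT u₁ u₂ hu hκT hκD₁ hκD₂

/-! ### `DS.HES` -/

/-- All G1 bricks at `(M, l, k, θ)`, general convention, as one proposition. -/
def Bricks (M l : ℕ) [NeZero M] (k : Type) [Field k] (θ : Hecke1.heckeAlgebra M 2 →+* k) :
    Prop :=
  TorsionFinite1 M l ∧ TorsionFiniteLevel1 M l ∧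
    ∃ (η : (ZMod M)ˣ →* kˣ) (T D₁ D₂ : ℕ → J1 M →+ J1 M) (lam : J1tors M l →+ k)
      (a d₁ d₂ : ℕ → k),
      lam ≠ 0 ∧
      (∀ p : ℕ, p.Prime → ¬ p ∣ M → p ≠ l → ∀ (σ : GQ) (x : J1 M), x ∈ J1tors M l →
        T p (σ • x) = σ • T p x) ∧
      (∀ (p : ℕ) (hp : p.Prime), ¬ p ∣ M → p ≠ l →
        @LocalES1 M l _ p ⟨hp.ne_zero⟩ (T p) (D₁ p) (D₂ p)) ∧
      ∀ (p : ℕ) (hp : p.Prime) (hpM : ¬ p ∣ M), p ≠ l →
        d₂ p ≠ 0 ∧
        a p = d₂ p * ((η (Hecke1.punit hp hpM) : k) * θ (Hecke1.heckeAlgebra.T hp hpM)) ∧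
        d₁ p = d₂ p * ((η (Hecke1.punit hp hpM) : k) ^ 2 *
          θ (Hecke1.heckeAlgebra.D (Hecke1.punit hp hpM))) ∧
        (∀ x y : J1tors M l, (y : J1 M) = T p (x : J1 M) → lam y = a p * lam x) ∧
        (∀ x y : J1tors M l, (y : J1 M) = D₁ p (x : J1 M) → lam y = d₁ p * lam x) ∧
        (∀ x y : J1tors M l, (y : J1 M) = D₂ p (x : J1 M) → lam y = d₂ p * lam x)

theorem hesAt_of_Bricks (M : ℕ) [NeZero M] (l : ℕ) (hl : l.Prime) (k : Type) [Field k]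
    [CharP k l] (θ : Hecke1.heckeAlgebra M 2 →+* k) (hsplit : SplitAt M l k θ)
    (h : Bricks M l k θ) : HESAt M l k θ := by
  obtain ⟨hfin, hlev, η, T, D₁, D₂, lam, a, d₁, d₂, hlam0, hTgal, hloc, heig⟩ := h
  exact hesAt_of_bricks M l hl k θ hsplit η hfin hlev T D₁ D₂ hTgal hloc lam hlam0 a d₁ d₂ heig

/-- **`DS.HES` from the G1 bricks.** -/
theorem hes_of_Bricks (h : ∀ (M : ℕ) [NeZero M] (l : ℕ), l.Prime → 5 ≤ l → l ∣ M →
    ∀ (k : Type) [Field k] [CharP k l] (θ : Hecke1.heckeAlgebra M 2 →+* k), SplitAt M l k θ →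
    Bricks M l k θ) : HES :=
  hes_of_forall fun M _ l hl h5 hlM k _ _ θ hs =>
    hesAt_of_Bricks M l hl k θ hs (h M l hl h5 hlM k θ hs)

end Fermat.Agent.G1

end
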