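/-
G1-ASM (owner: helper73), Gauss-ring form: the local Eichler–Shimura statement `LocalRel1` and
the Galois-equivariance `GaloisComm1` of the operators of a Hecke congruence datum in
Gauss-ring form (`G1.Cong.HeckeCongG`, `G1/Cong/TorsionESGauss.lean`), and the corresponding
assemblies of `HESAt` (`G1/Main.lean`).
-/
import Mathlib
import Fermat.Agent.G1.Main
import Fermat.Agent.G1.Cong.TorsionESGauss

set_option autoImplicit false
set_option linter.style.haveILetI false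

noncomputable section

namespace Fermat.Agent.G1

open ModularCurve AlgebraicCurve CongruenceSubgroup
open Fermat.Agent.ESJ.Rep Fermat.Agent.DS Fermat.Agent.ESJ.Jac Fermat.Agent.ESJ.ParHom
  Fermat.Agent.ESJ.Cong

/-! ### Galois-equivariance of the operators of a Hecke congruence datum (Gauss-ring form) -/

section HeckeCongGGalois

variable {F₀ : IntermediateField ℚ (LaurentSeries ℚ)} {A : ValuationSubring Qb}
  {ℓ m : ℕ} [NeZero ℓ]

/-- `D₁` of a Hecke congruence datum (Gauss-ring form) commutes with Galois on `m`-torsion. -/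
theorem heckeCongG_D₁_galois (hm : m ≠ 0) (C : G1.Cong.HeckeCongG F₀ A ℓ m) (σ : GQ)
    (x : Pic0 Qb (laurentBaseChange Qb F₀))
    (hx : x ∈ Pic0.torsion Qb (laurentBaseChange Qb F₀) m) :
    C.D₁ (σ • x) = σ • C.D₁ x := by
  obtain ⟨f, hf⟩ := exists_isKummerPair hx
  have h1 : IsKummerPair m (σ • x) (arithmeticGalois F₀ σ • f) :=
    TorsionESK.isKummerPair_semilinear_smul hf (arithmeticGalois F₀ σ)
  have h2 : IsKummerPair m (C.D₁ (σ • x)) (C.δ₁ (arithmeticGalois F₀ σ • f)) := C.kummer_D₁ h1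
  have h3 : IsKummerPair m (σ • C.D₁ x) (arithmeticGalois F₀ σ • C.δ₁ f) :=
    TorsionESK.isKummerPair_semilinear_smul (C.kummer_D₁ hf) (arithmeticGalois F₀ σ)
  rw [C.galois_δ₁] at h2
  exact IsKummerPair.eq_of_eq hm h2 h3

/-- `D₂` of a Hecke congruence datum (Gauss-ring form) commutes with Galois on `m`-torsion. -/
theorem heckeCongG_D₂_galois (hm : m ≠ 0) (C : G1.Cong.HeckeCongG F₀ A ℓ m) (σ : GQ)
    (x : Pic0 Qb (laurentBaseChange Qb F₀))
    (hx : x ∈ Pic0.torsion Qb (laurentBaseChange Qb F₀) m) :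
    C.D₂ (σ • x) = σ • C.D₂ x := by
  obtain ⟨f, hf⟩ := exists_isKummerPair hx
  have h1 : IsKummerPair m (σ • x) (arithmeticGalois F₀ σ • f) :=
    TorsionESK.isKummerPair_semilinear_smul hf (arithmeticGalois F₀ σ)
  have h2 : IsKummerPair m (C.D₂ (σ • x)) (C.δ₂ (arithmeticGalois F₀ σ • f)) := C.kummer_D₂ h1
  have h3 : IsKummerPair m (σ • C.D₂ x) (arithmeticGalois F₀ σ • C.δ₂ f) :=
    TorsionESK.isKummerPair_semilinear_smul (C.kummer_D₂ hf) (arithmeticGalois F₀ σ)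
  rw [C.galois_δ₂] at h2
  exact IsKummerPair.eq_of_eq hm h2 h3

/-- `T` of a Hecke congruence datum (Gauss-ring form) commutes with Galois on `m`-torsion as
soon as its Kummer transfer `NT` commutes with the coefficientwise Galois action. -/
theorem heckeCongG_T_galois (hm : m ≠ 0) (C : G1.Cong.HeckeCongG F₀ A ℓ m) (σ : GQ)
    (hNT : ∀ f : laurentBaseChange Qb F₀,
      C.NT (arithmeticGalois F₀ σ • f) = arithmeticGalois F₀ σ • C.NT f)
    (x : Pic0 Qb (laurentBaseChange Qb F₀))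
    (hx : x ∈ Pic0.torsion Qb (laurentBaseChange Qb F₀) m) :
    C.T (σ • x) = σ • C.T x := by
  obtain ⟨f, hf⟩ := exists_isKummerPair hx
  have h1 : IsKummerPair m (σ • x) (arithmeticGalois F₀ σ • f) :=
    TorsionESK.isKummerPair_semilinear_smul hf (arithmeticGalois F₀ σ)
  have h2 : IsKummerPair m (C.T (σ • x)) (C.NT (arithmeticGalois F₀ σ • f)) := C.kummer_T h1
  have h3 : IsKummerPair m (σ • C.T x) (arithmeticGalois F₀ σ • C.NT f) :=
    TorsionESK.isKummerPair_semilinear_smul (C.kummer_T hf) (arithmeticGalois F₀ σ)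
  rw [hNT] at h2
  exact IsKummerPair.eq_of_eq hm h2 h3

/-- Generic form: an additive operator `T` on `Pic0` with a Kummer transfer `NT` on `m`-torsion
which commutes with the coefficientwise Galois action commutes with Galois on `m`-torsion. -/
theorem galois_comm_of_kummer (hm : m ≠ 0)
    (T : Pic0 Qb (laurentBaseChange Qb F₀) → Pic0 Qb (laurentBaseChange Qb F₀))
    (NT : laurentBaseChange Qb F₀ → laurentBaseChange Qb F₀)
    (hk : ∀ {x : Pic0 Qb (laurentBaseChange Qb F₀)} {f : laurentBaseChange Qb F₀},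
      IsKummerPair m x f → IsKummerPair m (T x) (NT f))
    (σ : GQ)
    (hNT : ∀ f : laurentBaseChange Qb F₀,
      NT (arithmeticGalois F₀ σ • f) = arithmeticGalois F₀ σ • NT f)
    (x : Pic0 Qb (laurentBaseChange Qb F₀))
    (hx : x ∈ Pic0.torsion Qb (laurentBaseChange Qb F₀) m) :
    T (σ • x) = σ • T x := by
  obtain ⟨f, hf⟩ := exists_isKummerPair hx
  have h1 : IsKummerPair m (σ • x) (arithmeticGalois F₀ σ • f) :=
    TorsionESK.isKummerPair_semilinear_smul hf (arithmeticGalois F₀ σ)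
  have h2 : IsKummerPair m (T (σ • x)) (NT (arithmeticGalois F₀ σ • f)) := hk h1
  have h3 : IsKummerPair m (σ • T x) (arithmeticGalois F₀ σ • NT f) :=
    TorsionESK.isKummerPair_semilinear_smul (hk hf) (arithmeticGalois F₀ σ)
  rw [hNT] at h2
  exact IsKummerPair.eq_of_eq hm h2 h3

end HeckeCongGGalois

/-! ### The local brick in Gauss-ring form -/

/-- **(RED-K + CONG), Gauss-ring form**, at a prime `p`, on `l`-torsion, for given operators
`T, D₁, D₂` on `J₁(M)`: for every valuation subring `A` of `ℚ̄` over `p`, integral scaling, the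
Kummer root statement, and a Hecke congruence datum `HeckeCongG` with these operators. -/
def LocalESG1 (M l : ℕ) [NeZero M] (p : ℕ) [NeZero p] (T D₁ D₂ : J1 M →+ J1 M) : Prop :=
  ∀ A : ValuationSubring Qb, A.LiesOverPrime p →
    G1.Cong.IntegralScaling (F1 M) A ∧ G1.Cong.KummerRootF (F1 M) A l ∧
    ∃ C : G1.Cong.HeckeCongG (F1 M) A p l, C.T = T ∧ C.D₁ = D₁ ∧ C.D₂ = D₂

/-- `LocalESG1` gives the local Eichler–Shimura statement. -/
theorem localRel1_of_localESG1 {M l : ℕ} [NeZero M] (hl0 : l ≠ 0) {p : ℕ} (hp : p.Prime)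
    {T D₁ D₂ : J1 M →+ J1 M} (h : @LocalESG1 M l _ p ⟨hp.ne_zero⟩ T D₁ D₂) :
    LocalRel1 M l p T D₁ D₂ := by
  intro A hA
  haveI : NeZero p := ⟨hp.ne_zero⟩
  obtain ⟨hS, hK, C, hCT, hC₁, hC₂⟩ := h A hA
  refine ⟨fun σ hσ x hx => ?_, fun σ hσ x hx => ?_⟩
  · exact G1.Cong.inertia_smul_eq hS hl0 hK σ hσ x (Pic0.mem_torsion.mp hx)
  · have h := G1.Cong.frobenius_relationG hS p hp hA hl0 hK C σ hσ x (Pic0.mem_torsion.mp hx)
    rw [hCT, hC₁, hC₂] at h
    exact h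

/-- The local Eichler–Shimura statement from its pieces, one valuation subring at a time (no
bundling): integral scaling, Kummer roots, and a Hecke congruence datum (Gauss-ring form) whose
operators are the given ones. -/
theorem localRel1_of_heckeCongG {M l : ℕ} [NeZero M] (hl0 : l ≠ 0) {p : ℕ} [NeZero p]
    (hp : p.Prime) {T D₁ D₂ : J1 M →+ J1 M}
    (hS : ∀ A : ValuationSubring Qb, A.LiesOverPrime p → G1.Cong.IntegralScaling (F1 M) A)
    (hK : ∀ A : ValuationSubring Qb, A.LiesOverPrime p → G1.Cong.KummerRootF (F1 M) A l)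
    (hC : ∀ A : ValuationSubring Qb, A.LiesOverPrime p →
      ∃ C : G1.Cong.HeckeCongG (F1 M) A p l, C.T = T ∧ C.D₁ = D₁ ∧ C.D₂ = D₂) :
    LocalRel1 M l p T D₁ D₂ :=
  localRel1_of_localESG1 hl0 hp fun A hA => ⟨hS A hA, hK A hA, hC A hA⟩

/-- `D₁` of `LocalESG1` commutes with Galois on torsion. -/
theorem galoisComm1_D₁_of_localESG1 {M l : ℕ} [NeZero M] (hl0 : l ≠ 0) {p : ℕ} (hp : p.Prime)
    {T D₁ D₂ : J1 M →+ J1 M} (h : @LocalESG1 M l _ p ⟨hp.ne_zero⟩ T D₁ D₂) :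
    GaloisComm1 M l D₁ := by
  intro σ x hx
  haveI : NeZero p := ⟨hp.ne_zero⟩
  obtain ⟨A, hA⟩ := Fermat.Agent.Lib.FrobeniusExists.exists_liesOverPrime hp
  obtain ⟨-, -, C, -, hC₁, -⟩ := h A hA
  rw [← hC₁]
  exact heckeCongG_D₁_galois hl0 C σ x hx

/-- `D₂` of `LocalESG1` commutes with Galois on torsion. -/
theorem galoisComm1_D₂_of_localESG1 {M l : ℕ} [NeZero M] (hl0 : l ≠ 0) {p : ℕ} (hp : p.Prime)
    {T D₁ D₂ : J1 M →+ J1 M} (h : @LocalESG1 M l _ p ⟨hp.ne_zero⟩ T D₁ D₂) :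
    GaloisComm1 M l D₂ := by
  intro σ x hx
  haveI : NeZero p := ⟨hp.ne_zero⟩
  obtain ⟨A, hA⟩ := Fermat.Agent.Lib.FrobeniusExists.exists_liesOverPrime hp
  obtain ⟨-, -, C, -, -, hC₂⟩ := h A hA
  rw [← hC₂]
  exact heckeCongG_D₂_galois hl0 C σ x hx

/-- `T` of a Hecke congruence datum (Gauss-ring form, any ONE valuation subring) commutes with
Galois on torsion if its Kummer transfer `NT` commutes with the coefficientwise Galois
action. -/
theorem galoisComm1_T_of_heckeCongG {M l : ℕ} [NeZero M] (hl0 : l ≠ 0) {p : ℕ} [NeZero p]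
    {T : J1 M →+ J1 M} (A : ValuationSubring Qb)
    (C : G1.Cong.HeckeCongG (F1 M) A p l) (hCT : C.T = T)
    (hNT : ∀ (σ : GQ) (f : F1bar M),
      C.NT (arithmeticGalois (F1 M) σ • f) = arithmeticGalois (F1 M) σ • C.NT f) :
    GaloisComm1 M l T := by
  intro σ x hx
  rw [← hCT]
  exact heckeCongG_T_galois hl0 C σ (hNT σ) x hx

/-! ### The assembly, Gauss-ring form -/

/-- **G1-ASM, Kummer form, Gauss-ring form of the Hecke congruence data.**  As
`hesAt_of_kappa` (`G1/Main.lean`) with `LocalESG1` instead of `LocalES1`. -/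
theorem hesAt_of_kappaG (M : ℕ) [NeZero M] (l : ℕ) (hl : l.Prime) (k : Type) [Field k]
    [CharP k l] (θ : Hecke1.heckeAlgebra M 2 →+* k) (hsplit : SplitAt M l k θ)
    (hfin : TorsionFinite1 M l) (hlev : TorsionFiniteLevel1 M l)
    (T D₁ D₂ : ℕ → J1 M →+ J1 M)
    (hTgal : ∀ p : ℕ, p.Prime → ¬ p ∣ M → p ≠ l → GaloisComm1 M l (T p))
    (hloc : ∀ (p : ℕ) (hp : p.Prime), ¬ p ∣ M → p ≠ l →
      @LocalESG1 M l _ p ⟨hp.ne_zero⟩ (T p) (D₁ p) (D₂ p))
    (κ : J1tors M l →+ peHoms (Gamma1 M) ℤ (ZMod l)) (hκ : Function.Surjective κ)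
    (j : ℤ) (uT u₁ u₂ : ℕ → (ZMod M)ˣ)
    (hu : ∀ (p : ℕ) (hp : p.Prime) (hpM : ¬ p ∣ M), p ≠ l →
      uT p = u₂ p * Hecke1.punit hp hpM ^ j ∧ u₁ p = u₂ p * Hecke1.punit hp hpM ^ (2 * j + 1))
    (hκT : ∀ (p : ℕ) (hp : p.Prime) (hpM : ¬ p ∣ M), p ≠ l →
      ∀ x y : J1tors M l, (y : J1 M) = T p (x : J1 M) →
        κ y = diamond1 M (uT p) ℤ (ZMod l) (heckeT1 M hp hpM ℤ (ZMod l) (κ x)))
    (hκD₁ : ∀ p : ℕ, p.Prime → ¬ p ∣ M → p ≠ l →
      ∀ x y : J1tors M l, (y : J1 M) = D₁ p (x : J1 M) →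
        κ y = diamond1 M (u₁ p) ℤ (ZMod l) (κ x))
    (hκD₂ : ∀ p : ℕ, p.Prime → ¬ p ∣ M → p ≠ l →
      ∀ x y : J1tors M l, (y : J1 M) = D₂ p (x : J1 M) →
        κ y = diamond1 M (u₂ p) ℤ (ZMod l) (κ x)) :
    HESAt M l k θ :=
  hesAt_of_kappa_rel M l hl k θ hsplit hfin hlev T D₁ D₂ hTgal
    (fun p hp hpM hpl => galoisComm1_D₁_of_localESG1 hl.ne_zero hp (hloc p hp hpM hpl))
    (fun p hp hpM hpl => galoisComm1_D₂_of_localESG1 hl.ne_zero hp (hloc p hp hpM hpl))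
    (fun p hp hpM hpl => localRel1_of_localESG1 hl.ne_zero hp (hloc p hp hpM hpl))
    κ hκ j uT u₁ u₂ hu hκT hκD₁ hκD₂

end Fermat.Agent.G1

end
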