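/-
G1-ASM (owner: helper73), generic model field.

`G1/Main.lean` and `G1/MainG.lean` assemble `HESAt M l k θ` for the model `F1 M`.  Here the same
assembly is stated for an ARBITRARY field of `q`-expansions `F₀ ⊆ ℚ((q))` (G1 ruling #5: the
model field of G1 is `F1a M 1`): `JF F₀ := Pic0 ℚ̄ (ℚ̄·F₀)` with the arithmetic Galois action,
`JFtors F₀ l` its `l`-torsion subgroup, and

* `TorsionFiniteF F₀ l`, `TorsionFiniteLevelF F₀ l`   (J1), (J2);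
* `GaloisCommF F₀ l T` : an operator commuting with Galois on `JFtors F₀ l`;
* `LocalRelF F₀ l p T D₁ D₂` : inertia at `p` acts trivially on `JFtors F₀ l`, and
  `σ² D₂ x - T (σ x) + p D₁ x = 0` for Frobenius elements `σ` at `p`;
* `LocalESGF F₀ l p T D₁ D₂` : `IntegralScaling F₀ A`, `KummerRootF F₀ A l` and a
  `HeckeCongG F₀ A p l` with operators `T, D₁, D₂`, for every `A` over `p` (⟹ `LocalRelF` and
  `GaloisCommF` for `D₁, D₂`);
* `hesAt_of_relF`, `hesAt_of_kappa_relF`, `hesAt_of_kappaGF` : the assemblies.  The Kummer map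
  is `κ : JFtors F₀ l →+ Hom_pe(Γ₁(M), ℤ/l)`.
-/
import Mathlib
import Fermat.Agent.G1.MainG

set_option autoImplicit false
set_option linter.style.haveILetI false

noncomputable section

namespace Fermat.Agent.G1

open ModularCurve AlgebraicCurve CongruenceSubgroup
open Fermat.Agent.ESJ.Rep Fermat.Agent.DS Fermat.Agent.ESJ.Jac Fermat.Agent.ESJ.ParHom
  Fermat.Agent.ESJ.Cong

/-! ### The model -/

/-- The divisor class group of degree zero of `ℚ̄·F₀`, with the arithmetic Galois action. -/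
abbrev JF (F₀ : IntermediateField ℚ (LaurentSeries ℚ)) : Type :=
  Pic0 Qb (laurentBaseChange Qb F₀)

/-- Its `n`-torsion subgroup. -/
abbrev JFtors (F₀ : IntermediateField ℚ (LaurentSeries ℚ)) (n : ℕ) : AddSubgroup (JF F₀) :=
  Pic0.torsion Qb (laurentBaseChange Qb F₀) n

/-- The torsion is stable under the Galois action. -/
theorem smul_mem_JFtors (F₀ : IntermediateField ℚ (LaurentSeries ℚ)) (n : ℕ) (σ : GQ)
    (x : JF F₀) (hx : x ∈ JFtors F₀ n) : σ • x ∈ JFtors F₀ n := by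
  rw [Pic0.mem_torsion] at hx ⊢
  rw [smul_comm, hx]
  exact smul_zero (A := JF F₀) σ

/-- Additive endomorphisms preserve the torsion. -/
theorem map_mem_JFtors (F₀ : IntermediateField ℚ (LaurentSeries ℚ)) (n : ℕ)
    (f : JF F₀ →+ JF F₀) (x : JF F₀) (hx : x ∈ JFtors F₀ n) : f x ∈ JFtors F₀ n := by
  rw [Pic0.mem_torsion] at hx ⊢
  rw [← map_zsmul, hx, map_zero]

/-! ### The brick interfaces -/

/-- **(J1)**: `Pic0(ℚ̄·F₀)[n]` is finite. -/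
def TorsionFiniteF (F₀ : IntermediateField ℚ (LaurentSeries ℚ)) (n : ℕ) : Prop :=
  Finite (JFtors F₀ n)

/-- **(J2)**: the Galois action on `Pic0(ℚ̄·F₀)[n]` factors through a finite extension of
`ℚ`. -/
def TorsionFiniteLevelF (F₀ : IntermediateField ℚ (LaurentSeries ℚ)) (n : ℕ) : Prop :=
  ∃ L : IntermediateField ℚ Qb, FiniteDimensional ℚ L ∧
    ∀ σ : GQ, (∀ x ∈ L, σ x = x) → ∀ z ∈ JFtors F₀ n, σ • z = z

/-- **The local Eichler–Shimura statement** at a prime `p`, on `l`-torsion, for operators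
`T, D₁, D₂` on `Pic0(ℚ̄·F₀)`. -/
def LocalRelF (F₀ : IntermediateField ℚ (LaurentSeries ℚ)) (l p : ℕ)
    (T D₁ D₂ : JF F₀ →+ JF F₀) : Prop :=
  ∀ A : ValuationSubring Qb, A.LiesOverPrime p →
    (∀ σ ∈ A.inertiaSubgroupIn ℚ, ∀ x ∈ JFtors F₀ l, σ • x = x) ∧
    ∀ σ : GQ, A.IsFrobeniusAt σ p →
      ∀ x ∈ JFtors F₀ l, σ • σ • D₂ x - T (σ • x) + p • D₁ x = 0

/-- An operator on `Pic0(ℚ̄·F₀)` commutes with the Galois action on the `l`-torsion. -/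
def GaloisCommF (F₀ : IntermediateField ℚ (LaurentSeries ℚ)) (l : ℕ) (T : JF F₀ →+ JF F₀) :
    Prop :=
  ∀ (σ : GQ) (x : JF F₀), x ∈ JFtors F₀ l → T (σ • x) = σ • T x

/-- **(RED-K + CONG), Gauss-ring form**, at a prime `p`, on `l`-torsion, for operators
`T, D₁, D₂` on `Pic0(ℚ̄·F₀)`: for every valuation subring `A` of `ℚ̄` over `p`, integral
scaling, the Kummer root statement, and a Hecke congruence datum `HeckeCongG` with these
operators. -/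
def LocalESGF (F₀ : IntermediateField ℚ (LaurentSeries ℚ)) (l p : ℕ) [NeZero p]
    (T D₁ D₂ : JF F₀ →+ JF F₀) : Prop :=
  ∀ A : ValuationSubring Qb, A.LiesOverPrime p →
    G1.Cong.IntegralScaling F₀ A ∧ G1.Cong.KummerRootF F₀ A l ∧
    ∃ C : G1.Cong.HeckeCongG F₀ A p l, C.T = T ∧ C.D₁ = D₁ ∧ C.D₂ = D₂

section Local

variable {F₀ : IntermediateField ℚ (LaurentSeries ℚ)} {l : ℕ}

/-- `LocalESGF` gives the local Eichler–Shimura statement. -/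
theorem localRelF_of_localESGF (hl0 : l ≠ 0) {p : ℕ} (hp : p.Prime)
    {T D₁ D₂ : JF F₀ →+ JF F₀} (h : @LocalESGF F₀ l p ⟨hp.ne_zero⟩ T D₁ D₂) :
    LocalRelF F₀ l p T D₁ D₂ := by
  intro A hA
  haveI : NeZero p := ⟨hp.ne_zero⟩
  obtain ⟨hS, hK, C, hCT, hC₁, hC₂⟩ := h A hA
  refine ⟨fun σ hσ x hx => ?_, fun σ hσ x hx => ?_⟩
  · exact G1.Cong.inertia_smul_eq hS hl0 hK σ hσ x (Pic0.mem_torsion.mp hx)
  · have h := G1.Cong.frobenius_relationG hS p hp hA hl0 hK C σ hσ x (Pic0.mem_torsion.mp hx)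
    rw [hCT, hC₁, hC₂] at h
    exact h

/-- The local Eichler–Shimura statement from its pieces (no bundling): integral scaling (V),
Kummer roots (K18), and a Hecke congruence datum in Gauss-ring form (CONG) with the given
operators, for every valuation subring over `p`. -/
theorem localRelF_of_heckeCongG (hl0 : l ≠ 0) {p : ℕ} [NeZero p] (hp : p.Prime)
    {T D₁ D₂ : JF F₀ →+ JF F₀}
    (hS : ∀ A : ValuationSubring Qb, A.LiesOverPrime p → G1.Cong.IntegralScaling F₀ A)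
    (hK : ∀ A : ValuationSubring Qb, A.LiesOverPrime p → G1.Cong.KummerRootF F₀ A l)
    (hC : ∀ A : ValuationSubring Qb, A.LiesOverPrime p →
      ∃ C : G1.Cong.HeckeCongG F₀ A p l, C.T = T ∧ C.D₁ = D₁ ∧ C.D₂ = D₂) :
    LocalRelF F₀ l p T D₁ D₂ :=
  localRelF_of_localESGF hl0 hp fun A hA => ⟨hS A hA, hK A hA, hC A hA⟩

/-- `D₁` of `LocalESGF` commutes with Galois on torsion. -/
theorem galoisCommF_D₁_of_localESGF (hl0 : l ≠ 0) {p : ℕ} (hp : p.Prime)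
    {T D₁ D₂ : JF F₀ →+ JF F₀} (h : @LocalESGF F₀ l p ⟨hp.ne_zero⟩ T D₁ D₂) :
    GaloisCommF F₀ l D₁ := by
  intro σ x hx
  haveI : NeZero p := ⟨hp.ne_zero⟩
  obtain ⟨A, hA⟩ := Fermat.Agent.Lib.FrobeniusExists.exists_liesOverPrime hp
  obtain ⟨-, -, C, -, hC₁, -⟩ := h A hA
  rw [← hC₁]
  exact heckeCongG_D₁_galois hl0 C σ x hx

/-- `D₂` of `LocalESGF` commutes with Galois on torsion. -/
theorem galoisCommF_D₂_of_localESGF (hl0 : l ≠ 0) {p : ℕ} (hp : p.Prime)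
    {T D₁ D₂ : JF F₀ →+ JF F₀} (h : @LocalESGF F₀ l p ⟨hp.ne_zero⟩ T D₁ D₂) :
    GaloisCommF F₀ l D₂ := by
  intro σ x hx
  haveI : NeZero p := ⟨hp.ne_zero⟩
  obtain ⟨A, hA⟩ := Fermat.Agent.Lib.FrobeniusExists.exists_liesOverPrime hp
  obtain ⟨-, -, C, -, -, hC₂⟩ := h A hA
  rw [← hC₂]
  exact heckeCongG_D₂_galois hl0 C σ x hx

/-- `T` of a Hecke congruence datum (Gauss-ring form, any ONE valuation subring) commutes with
Galois on torsion if its Kummer transfer `NT` commutes with the coefficientwise Galois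
action. -/
theorem galoisCommF_T_of_heckeCongG (hl0 : l ≠ 0) {p : ℕ} [NeZero p]
    {T : JF F₀ →+ JF F₀} (A : ValuationSubring Qb)
    (C : G1.Cong.HeckeCongG F₀ A p l) (hCT : C.T = T)
    (hNT : ∀ (σ : GQ) (f : laurentBaseChange Qb F₀),
      C.NT (arithmeticGalois F₀ σ • f) = arithmeticGalois F₀ σ • C.NT f) :
    GaloisCommF F₀ l T := by
  intro σ x hx
  rw [← hCT]
  exact heckeCongG_T_galois hl0 C σ (hNT σ) x hx

/-- An additive operator with a Kummer transfer on `l`-torsion which commutes with the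
coefficientwise Galois action commutes with Galois on the `l`-torsion. -/
theorem galoisCommF_of_kummer (hl0 : l ≠ 0) (T : JF F₀ →+ JF F₀)
    (NT : laurentBaseChange Qb F₀ → laurentBaseChange Qb F₀)
    (hk : ∀ {x : JF F₀} {f : laurentBaseChange Qb F₀},
      IsKummerPair l x f → IsKummerPair l (T x) (NT f))
    (hNT : ∀ (σ : GQ) (f : laurentBaseChange Qb F₀),
      NT (arithmeticGalois F₀ σ • f) = arithmeticGalois F₀ σ • NT f) :
    GaloisCommF F₀ l T :=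
  fun σ x hx => galois_comm_of_kummer hl0 T NT hk σ (hNT σ) x hx

end Local

/-! ### The assembly -/

/-- **G1-ASM, generic model field, relation form.**  `HESAt M l k θ` from: finiteness and
finite level of `Pic0(ℚ̄·F₀)[l]`, operators `T p, D₁ p, D₂ p` commuting with Galois on the
`l`-torsion, the local Eichler–Shimura statement `LocalRelF` at every prime `p ∤ M l`, and a
nonzero eigen-functional on the `l`-torsion whose eigenvalues `a p, d₁ p, d₂ p` satisfy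
`d₂ p ≠ 0`, `a p = d₂ p · η(p) θ(T_p)`, `d₁ p = d₂ p · η(p)² θ(⟨p⟩)`. -/
theorem hesAt_of_relF (M : ℕ) [NeZero M] (F₀ : IntermediateField ℚ (LaurentSeries ℚ))
    (l : ℕ) (hl : l.Prime) (k : Type) [Field k]
    [CharP k l] (θ : Hecke1.heckeAlgebra M 2 →+* k) (hsplit : SplitAt M l k θ)
    (η : (ZMod M)ˣ →* kˣ)
    (hfin : TorsionFiniteF F₀ l) (hlev : TorsionFiniteLevelF F₀ l)
    (T D₁ D₂ : ℕ → JF F₀ →+ JF F₀)
    (hTgal : ∀ p : ℕ, p.Prime → ¬ p ∣ M → p ≠ l → GaloisCommF F₀ l (T p))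
    (hD₁gal : ∀ p : ℕ, p.Prime → ¬ p ∣ M → p ≠ l → GaloisCommF F₀ l (D₁ p))
    (hD₂gal : ∀ p : ℕ, p.Prime → ¬ p ∣ M → p ≠ l → GaloisCommF F₀ l (D₂ p))
    (hrel : ∀ p : ℕ, p.Prime → ¬ p ∣ M → p ≠ l → LocalRelF F₀ l p (T p) (D₁ p) (D₂ p))
    (lam : JFtors F₀ l →+ k) (hlam0 : lam ≠ 0) (a d₁ d₂ : ℕ → k)
    (heig : ∀ (p : ℕ) (hp : p.Prime) (hpM : ¬ p ∣ M), p ≠ l →
      d₂ p ≠ 0 ∧
      a p = d₂ p * ((η (Hecke1.punit hp hpM) : k) * θ (Hecke1.heckeAlgebra.T hp hpM)) ∧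
      d₁ p = d₂ p * ((η (Hecke1.punit hp hpM) : k) ^ 2 *
        θ (Hecke1.heckeAlgebra.D (Hecke1.punit hp hpM))) ∧
      (∀ x y : JFtors F₀ l, (y : JF F₀) = T p (x : JF F₀) → lam y = a p * lam x) ∧
      (∀ x y : JFtors F₀ l, (y : JF F₀) = D₁ p (x : JF F₀) → lam y = d₁ p * lam x) ∧
      (∀ x y : JFtors F₀ l, (y : JF F₀) = D₂ p (x : JF F₀) → lam y = d₂ p * lam x)) :
    HESAt M l k θ :=
  Rep3.hesAt_of_torsion3 M l hl k θ η hsplit (J := JF F₀) (JFtors F₀ l)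
    (fun σ x hx => smul_mem_JFtors F₀ l σ x hx) hfin hlev
    (fun p x => T p x) (fun p x => D₁ p x) (fun p x => D₂ p x)
    (fun p x hx => map_mem_JFtors F₀ l (T p) x hx)
    (fun p x hx => map_mem_JFtors F₀ l (D₁ p) x hx)
    (fun p x hx => map_mem_JFtors F₀ l (D₂ p) x hx)
    hTgal hD₁gal hD₂gal lam hlam0 a d₁ d₂ heig hrel

/-- **G1-ASM, generic model field, Kummer form, relation form.**  As `hesAt_of_relF`, with the
eigen-functional `lam = μ ∘ κ`: `μ` the `θ`-eigen-functional on `Hom_pe(Γ₁(M), ℤ/l)` (PER,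
`eigenFunctionalPE1`) and `κ : Pic0(ℚ̄·F₀)[l] → Hom_pe(Γ₁(M), ℤ/l)` a surjection intertwining
`T p ↦ ⟨u_T p⟩ T_p`, `D₁ p ↦ ⟨u₁ p⟩`, `D₂ p ↦ ⟨u₂ p⟩`, where `u_T p = u₂ p · pʲ`,
`u₁ p = u₂ p · p^(2j+1)` for one integer `j` (conventions: see `hesAt_of_kappa_rel`). -/
theorem hesAt_of_kappa_relF (M : ℕ) [NeZero M] (F₀ : IntermediateField ℚ (LaurentSeries ℚ))
    (l : ℕ) (hl : l.Prime) (k : Type) [Field k]
    [CharP k l] (θ : Hecke1.heckeAlgebra M 2 →+* k) (hsplit : SplitAt M l k θ)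
    (hfin : TorsionFiniteF F₀ l) (hlev : TorsionFiniteLevelF F₀ l)
    (T D₁ D₂ : ℕ → JF F₀ →+ JF F₀)
    (hTgal : ∀ p : ℕ, p.Prime → ¬ p ∣ M → p ≠ l → GaloisCommF F₀ l (T p))
    (hD₁gal : ∀ p : ℕ, p.Prime → ¬ p ∣ M → p ≠ l → GaloisCommF F₀ l (D₁ p))
    (hD₂gal : ∀ p : ℕ, p.Prime → ¬ p ∣ M → p ≠ l → GaloisCommF F₀ l (D₂ p))
    (hrel : ∀ p : ℕ, p.Prime → ¬ p ∣ M → p ≠ l → LocalRelF F₀ l p (T p) (D₁ p) (D₂ p))
    (κ : JFtors F₀ l →+ peHoms (Gamma1 M) ℤ (ZMod l)) (hκ : Function.Surjective κ)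
    (j : ℤ) (uT u₁ u₂ : ℕ → (ZMod M)ˣ)
    (hu : ∀ (p : ℕ) (hp : p.Prime) (hpM : ¬ p ∣ M), p ≠ l →
      uT p = u₂ p * Hecke1.punit hp hpM ^ j ∧ u₁ p = u₂ p * Hecke1.punit hp hpM ^ (2 * j + 1))
    (hκT : ∀ (p : ℕ) (hp : p.Prime) (hpM : ¬ p ∣ M), p ≠ l →
      ∀ x y : JFtors F₀ l, (y : JF F₀) = T p (x : JF F₀) →
        κ y = diamond1 M (uT p) ℤ (ZMod l) (heckeT1 M hp hpM ℤ (ZMod l) (κ x)))
    (hκD₁ : ∀ p : ℕ, p.Prime → ¬ p ∣ M → p ≠ l →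
      ∀ x y : JFtors F₀ l, (y : JF F₀) = D₁ p (x : JF F₀) →
        κ y = diamond1 M (u₁ p) ℤ (ZMod l) (κ x))
    (hκD₂ : ∀ p : ℕ, p.Prime → ¬ p ∣ M → p ≠ l →
      ∀ x y : JFtors F₀ l, (y : JF F₀) = D₂ p (x : JF F₀) →
        κ y = diamond1 M (u₂ p) ℤ (ZMod l) (κ x)) :
    HESAt M l k θ := by
  obtain ⟨μ, hμ0, hμT, hμD⟩ := eigenFunctionalPE1 M l k θ
  classical
  have hlam0 : μ.comp κ ≠ 0 := by
    intro h0
    apply hμ0
    ext y
    obtain ⟨x, rfl⟩ := hκ y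
    exact DFunLike.congr_fun h0 x
  have hneb : ∀ d : (ZMod M)ˣ, θ (Hecke1.heckeAlgebra.D d) = (nebChar M θ d : k) :=
    fun d => (nebChar_val M θ d).symm
  refine hesAt_of_relF M F₀ l hl k θ hsplit (nebChar M θ ^ j) hfin hlev T D₁ D₂ hTgal hD₁gal
    hD₂gal hrel (μ.comp κ) hlam0
    (fun p => if h : p.Prime ∧ ¬ p ∣ M then
      θ (Hecke1.heckeAlgebra.D (uT p)) * θ (Hecke1.heckeAlgebra.T h.1 h.2) else 0)
    (fun p => θ (Hecke1.heckeAlgebra.D (u₁ p))) (fun p => θ (Hecke1.heckeAlgebra.D (u₂ p)))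
    (fun p hp hpM hpl => ?_)
  obtain ⟨huT, hu1⟩ := hu p hp hpM hpl
  have ha : (if h : p.Prime ∧ ¬ p ∣ M then
      θ (Hecke1.heckeAlgebra.D (uT p)) * θ (Hecke1.heckeAlgebra.T h.1 h.2) else 0) =
      θ (Hecke1.heckeAlgebra.D (uT p)) * θ (Hecke1.heckeAlgebra.T hp hpM) := dif_pos ⟨hp, hpM⟩
  have hηp : ((nebChar M θ ^ j) (Hecke1.punit hp hpM) : kˣ) =
      nebChar M θ (Hecke1.punit hp hpM) ^ j := rfl
  refine ⟨?_, ?_, ?_, fun x y hxy => ?_, fun x y hxy => ?_, fun x y hxy => ?_⟩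
  · rw [hneb]
    exact Units.ne_zero _
  · rw [ha, hneb, hneb, huT, map_mul, map_zpow, Units.val_mul, hηp, mul_assoc]
  · have hu1' : nebChar M θ (u₁ p) = nebChar M θ (u₂ p) *
        ((nebChar M θ (Hecke1.punit hp hpM) ^ j) ^ 2 * nebChar M θ (Hecke1.punit hp hpM)) := by
      rw [hu1, map_mul, map_zpow, zpow_add_one, mul_comm 2 j, zpow_mul, zpow_ofNat]
    rw [hneb, hneb, hneb, hu1', hηp]
    push_cast
    rfl
  · rw [ha]
    show μ (κ y) = _ * μ (κ x)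
    rw [hκT p hp hpM hpl x y hxy, hμD, hμT, mul_assoc]
  · show μ (κ y) = _ * μ (κ x)
    rw [hκD₁ p hp hpM hpl x y hxy, hμD]
  · show μ (κ y) = _ * μ (κ x)
    rw [hκD₂ p hp hpM hpl x y hxy, hμD]

/-- **G1-ASM, generic model field, Kummer form, Gauss-ring form of the Hecke congruence
data** (`LocalESGF`). -/
theorem hesAt_of_kappaGF (M : ℕ) [NeZero M] (F₀ : IntermediateField ℚ (LaurentSeries ℚ))
    (l : ℕ) (hl : l.Prime) (k : Type) [Field k]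
    [CharP k l] (θ : Hecke1.heckeAlgebra M 2 →+* k) (hsplit : SplitAt M l k θ)
    (hfin : TorsionFiniteF F₀ l) (hlev : TorsionFiniteLevelF F₀ l)
    (T D₁ D₂ : ℕ → JF F₀ →+ JF F₀)
    (hTgal : ∀ p : ℕ, p.Prime → ¬ p ∣ M → p ≠ l → GaloisCommF F₀ l (T p))
    (hloc : ∀ (p : ℕ) (hp : p.Prime), ¬ p ∣ M → p ≠ l →
      @LocalESGF F₀ l p ⟨hp.ne_zero⟩ (T p) (D₁ p) (D₂ p))
    (κ : JFtors F₀ l →+ peHoms (Gamma1 M) ℤ (ZMod l)) (hκ : Function.Surjective κ)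
    (j : ℤ) (uT u₁ u₂ : ℕ → (ZMod M)ˣ)
    (hu : ∀ (p : ℕ) (hp : p.Prime) (hpM : ¬ p ∣ M), p ≠ l →
      uT p = u₂ p * Hecke1.punit hp hpM ^ j ∧ u₁ p = u₂ p * Hecke1.punit hp hpM ^ (2 * j + 1))
    (hκT : ∀ (p : ℕ) (hp : p.Prime) (hpM : ¬ p ∣ M), p ≠ l →
      ∀ x y : JFtors F₀ l, (y : JF F₀) = T p (x : JF F₀) →
        κ y = diamond1 M (uT p) ℤ (ZMod l) (heckeT1 M hp hpM ℤ (ZMod l) (κ x)))
    (hκD₁ : ∀ p : ℕ, p.Prime → ¬ p ∣ M → p ≠ l →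
      ∀ x y : JFtors F₀ l, (y : JF F₀) = D₁ p (x : JF F₀) →
        κ y = diamond1 M (u₁ p) ℤ (ZMod l) (κ x))
    (hκD₂ : ∀ p : ℕ, p.Prime → ¬ p ∣ M → p ≠ l →
      ∀ x y : JFtors F₀ l, (y : JF F₀) = D₂ p (x : JF F₀) →
        κ y = diamond1 M (u₂ p) ℤ (ZMod l) (κ x)) :
    HESAt M l k θ :=
  hesAt_of_kappa_relF M F₀ l hl k θ hsplit hfin hlev T D₁ D₂ hTgal
    (fun p hp hpM hpl => galoisCommF_D₁_of_localESGF hl.ne_zero hp (hloc p hp hpM hpl))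
    (fun p hp hpM hpl => galoisCommF_D₂_of_localESGF hl.ne_zero hp (hloc p hp hpM hpl))
    (fun p hp hpM hpl => localRelF_of_localESGF hl.ne_zero hp (hloc p hp hpM hpl))
    κ hκ j uT u₁ u₂ hu hκT hκD₁ hκD₂

/-- **`DS.HES` from `HESAt` at a model field depending on `M`** (bookkeeping: the final theorem
is `hes_of_forall` applied to `hesAt_of_kappa_relF M (F₀ M) …`). -/
theorem hes_of_forallF (h : ∀ (M : ℕ) [NeZero M] (l : ℕ), l.Prime → 5 ≤ l → l ∣ M →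
    ∀ (k : Type) [Field k] [CharP k l] (θ : Hecke1.heckeAlgebra M 2 →+* k), SplitAt M l k θ →
    HESAt M l k θ) : HES :=
  hes_of_forall fun M _ l hl h5 hlM k _ _ θ hs => h M l hl h5 hlM k θ hs

end Fermat.Agent.G1

end
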