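/-
G1-ASM (owner: helper73): `HESAt M l k θ` from the RAW bricks of the G1 layers, for the model
field `F1a M 1` (end-to-end wiring of JAC, PER, CONG, GAL, V, K18 through the abstract files
on main).
-/
import Mathlib
import Fermat.Agent.G1.MainF
import Fermat.Agent.G1.Jac.MainG
import Fermat.Agent.G1.Jac.KappaOps
import Fermat.Agent.G1.Jac.HeckeMer1
import Fermat.Agent.G1.Cong.HeckeAbs
import Fermat.Agent.G1.GaloisOps
import Fermat.Agent.G1.GaloisOps1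
import Fermat.Agent.G1.GalBridge
import Fermat.Agent.G1.GalFull
import Fermat.Agent.G1.Dict.Inst1
import Fermat.Agent.G1.Dict.Mer
import Fermat.Agent.G1.GroupFacts
import Fermat.Agent.G1.GenHecke

set_option autoImplicit false
set_option linter.style.haveILetI false

noncomputable section

namespace Fermat.Agent.G1.Wire1

open ModularCurve AlgebraicCurve CongruenceSubgroup UpperHalfPlane Filter
open scoped MatrixGroups
open Fermat.Agent.ESJ.Rep Fermat.Agent.DS Fermat.Agent.ESJ.Jac Fermat.Agent.ESJ.ParHom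
  Fermat.Agent.ESJ.Cong Fermat.Agent.S24 Fermat.Agent.G1.Dict Fermat.Agent.G1.Jac
  Fermat.Agent.G1.Gal

/-! ### JAC at `Γ₁(M)`, model field `F1a M 1` -/

/-- **JAC package**: finiteness, finite level, the Kummer system and the Kummer isomorphism of
`Pic0(ℚ̄·F1a M 1)[n]`, from the dictionaries over `ℚ̄` and `ℂ` and finiteness over `ℚ̄(j₀)`,
`ℂ(j₀)`. -/
theorem jac_package (M : ℕ) [NeZero M] (hM : 5 ≤ M)
    (hDQ : IsDict1 iotaK M 1) (hDC : IsDict1 (RingHom.id ℂ) M 1)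
    (j₀ : F1a M 1) (hj₀ : (j₀ : LaurentSeries ℚ).order ≠ 0)
    [FiniteDimensional (IntermediateField.adjoin ℂ {baseElt (F1a M 1) ℂ j₀})
      (laurentBaseChange ℂ (F1a M 1))]
    [FiniteDimensional (IntermediateField.adjoin KQ {baseElt (F1a M 1) KQ j₀})
      (laurentBaseChange KQ (F1a M 1))]
    (n : ℕ) [NeZero n] :
    TorsionFiniteF (F1a M 1) n ∧ TorsionFiniteLevelF (F1a M 1) n ∧
    KummerInjG KQ ↥(laurentBaseChange KQ (F1a M 1)) (Gamma1 M) n
      (IsKummerCharG (Gamma1 M) (mer1K iotaK M 1) n) ∧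
    ∃ κ : JFtors (F1a M 1) n ≃+ peHoms (Gamma1 M) ℤ (ZMod n),
      ∀ (x : JFtors (F1a M 1) n) (f : ↥(laurentBaseChange KQ (F1a M 1)))
        (χ : Gamma1 M →* ℂˣ), IsKummerPair n (x : JF (F1a M 1)) f →
        IsKummerCharG (Gamma1 M) (mer1K iotaK M 1) n f χ →
        peChar (Gamma1 M) n (κ x : Additive (Gamma1 M) →+ ZMod n) = χ := by
  have hn : 0 < n := Nat.pos_of_ne_zero (NeZero.ne n)
  have hmQ : MerDict iotaK (Gamma1 M) (mer1K iotaK M 1) := Inst1.merDict_Gamma1 hDQ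
  have hmC : MerDict (RingHom.id ℂ) (Gamma1 M) (mer1K (RingHom.id ℂ) M 1) :=
    Inst1.merDict_Gamma1 hDC
  have hfull : MerFull (Gamma1 M) (mer1K (RingHom.id ℂ) M 1) :=
    Inst1.merFull_Gamma1 (GalArt.merFull_of_isDict1 M 1 (by omega) hDC)
  have hbc : MerBc (F1a M 1) (mer1K iotaK M 1) (mer1K (RingHom.id ℂ) M 1) := Mer.merBc_mer1K M 1
  have hreg : IsReg (Gamma1 M) := isReg_Gamma1 hM
  refine ⟨finite_torsion_of_merDict (F1a M 1) j₀ hmQ hmC hfull hbc hreg hn,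
    exists_level_torsion_of_merDict (F1a M 1) j₀ hmQ hmC hfull hbc hreg hn,
    kummerInjG_of_merDict (F1a M 1) j₀ hmQ hmC hfull hbc hreg hn, ?_⟩
  obtain ⟨κ, hκ, -⟩ := exists_kummerEquiv_universal (F1a M 1) j₀ hj₀ hmQ hmC hfull hbc hreg hn
  exact ⟨κ, hκ⟩

/-! ### The operators -/

section Ops

variable (M : ℕ) [NeZero M]

theorem F1a_one_le (p : ℕ) [NeZero p] : F1a M 1 ≤ F1a M p := by
  rw [F1a_one]
  exact F1_le_F1a M p

theorem vStable1 (hM : 3 ≤ M) (p : ℕ) [NeZero p] :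
    ∀ y ∈ F1a M 1, qExpand ℚ p y ∈ F1a M p := by
  intro y hy
  rw [F1a_one] at hy
  exact qExpand_mem_F1a hM hy

open Classical in
/-- The Hecke operator `T_p = α_* V_p^*` on `Pic0(ℚ̄·F1a M 1)` (`α` the inclusion into
`ℚ̄·F1a M p`), as a total function of `p`. -/
def TOp (p : ℕ) : JF (F1a M 1) →+ JF (F1a M 1) :=
  if h : p ≠ 0 ∧ 3 ≤ M then
    haveI : NeZero p := ⟨h.1⟩
    G1.Cong.heckeTOfLevel p (F1a_one_le M p) (vStable1 M h.2 p)
  else 0

theorem TOp_eq (hM : 3 ≤ M) (p : ℕ) [NeZero p] :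
    TOp M p = G1.Cong.heckeTOfLevel p (F1a_one_le M p) (vStable1 M hM p) := by
  rw [TOp, dif_pos ⟨NeZero.ne p, hM⟩]

/-- The diamond automorphism `δ_p` of `ℚ̄·F1a M 1`: `x_u ↦ x_{u p}` (`= diaK (p⁻¹)`). -/
def dia (p : ℕ) : F1aK Qb M 1 ≃ₐ[Qb] F1aK Qb M 1 := diaK iotaK M 1 (uStar M p)

/-- `δ_p` as a monoid homomorphism. -/
def diaM (p : ℕ) : F1aK Qb M 1 →* F1aK Qb M 1 := MonoidHomClass.toMonoidHom (dia M p)

theorem diaM_apply (p : ℕ) (f : F1aK Qb M 1) : diaM M p f = dia M p f := rfl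

/-- The diamond operator on `Pic0(ℚ̄·F1a M 1)`: push-forward along `δ_p`. -/
def DOp (p : ℕ) : JF (F1a M 1) →+ JF (F1a M 1) := GaloisOps.autOp (dia M p)

theorem isKummerPair_DOp (p : ℕ) {n : ℕ} {x : JF (F1a M 1)} {f : F1aK Qb M 1}
    (h : IsKummerPair n x f) : IsKummerPair n (DOp M p x) (diaM M p f) :=
  GaloisOps.isKummerPair_autOp h (dia M p)

/-- The diamonds commute with the coefficientwise Galois action. -/
theorem diaK_galois (c : (ZMod M)ˣ) (σ : GQ) (f : F1aK Qb M 1) :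
    diaK iotaK M 1 c (arithmeticGalois (F1a M 1) σ • f) =
      arithmeticGalois (F1a M 1) σ • diaK iotaK M 1 c f := by
  refine GaloisOps.galois_comm_F1a (M := M) (a := 1) (diaK iotaK M 1 c) ?_ ?_ σ f
  · intro s hs hs'
    refine ⟨s, ?_⟩
    rw [diaK_eq_self_of_mem_base iotaK M 1 c _ (coeffEmb_mem_laurentBaseChange Qb hs)]
  · intro u hs'
    refine ⟨xgen M (u * c⁻¹), ?_⟩
    rw [coeffEmb_xgen M Qb (u * c⁻¹)]
    exact coe_diaK_xgenR iotaK M 1 c u _ (coeffEmb_xgen M Qb u)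

/-- `j`, as an element of `ℚ̄·F1a M 1`. -/
def jElt : F1aK Qb M 1 :=
  ⟨coeffEmb Qb jq, coeffEmb_mem_laurentBaseChange Qb (full_le_F1a M 1 (by
    have h := jqd_mem_full (N := M * 1) (d := 1) (one_dvd _)
    rwa [qExpand_one_apply] at h))⟩

theorem coe_jElt : ((jElt M : F1aK Qb M 1) : LaurentSeries Qb) = jqModC Qb := by
  show coeffEmb Qb jq = jqModC Qb
  rw [← jqModC_rat]
  exact Fermat.Agent.S28.Kummer.coeffMap_jqModC _

theorem dia_jElt (p : ℕ) : dia M p (jElt M) = jElt M := by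
  refine diaK_eq_self_of_mem_base iotaK M 1 _ _ ?_
  show coeffEmb Qb jq ∈ _
  refine coeffEmb_mem_laurentBaseChange Qb ?_
  have h := jqd_mem_full (N := M * 1) (d := 1) (one_dvd _)
  rwa [qExpand_one_apply] at h

end Ops

/-! ### The raw bricks -/

/-- **CONG at the prime `p`** (level `F1a M p` over `F1a M 1`): the function-field inputs of the
Hecke correspondence `α_* V_p^*`, the degree bound `[ℚ̄·F1a M p : ℚ̄·F1a M 1] ≤ p + 1`, and the
conjugate embeddings (`hconj`) for the diamond `δ_p`. -/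
structure LevelBricks (M : ℕ) [NeZero M] (hM : 3 ≤ M) (p : ℕ) [NeZero p] : Prop where
  corr : G1.Cong.CorrInputs (G1.Cong.alphaOfLe Qb (F1a_one_le M p))
    (G1.Cong.betaOfStable Qb p (vStable1 M hM p))
  deg : finrankAlong Qb (G1.Cong.alphaOfLe Qb (F1a_one_le M p)) ≤ p + 1
  conj : ∀ w : Qbˣ, w ^ p = 1 →
    ∃ τ : ↥(laurentBaseChange Qb (F1a M p)) →+* LaurentSeries Qb,
      (∀ x : F1aK Qb M 1, τ (G1.Cong.alphaOfLe Qb (F1a_one_le M p) x) =
        qExpand Qb p (x : LaurentSeries Qb)) ∧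
      (∀ x : F1aK Qb M 1, τ (G1.Cong.betaOfStable Qb p (vStable1 M hM p) x) =
        Fermat.Agent.S28.Chain.rot w ((dia M p x : F1aK Qb M 1) : LaurentSeries Qb))

/-- **V + K18 at a valuation subring `A`** of `ℚ̄` (over a prime `p ∤ M l`): integral scaling,
Kummer roots on `l`-torsion, and `δ_p` preserves the units of the Gauss valuation ring. -/
structure LocalBricks (M l : ℕ) [NeZero M] (p : ℕ) (A : ValuationSubring Qb) : Prop where
  scaling : G1.Cong.IntegralScaling (F1a M 1) A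
  kummerRoot : G1.Cong.KummerRootF (F1a M 1) A l
  unit_dia : ∀ (f : F1aK Qb M 1) (u : LaurentSeries (IsLocalRing.ResidueField A)), u ≠ 0 →
    Fermat.Agent.ESJ.RedK.RedTo A (IsLocalRing.residue A) (f : LaurentSeries Qb) u →
    ∃ u' : LaurentSeries (IsLocalRing.ResidueField A), u' ≠ 0 ∧
      Fermat.Agent.ESJ.RedK.RedTo A (IsLocalRing.residue A)
        ((dia M p f : F1aK Qb M 1) : LaurentSeries Qb) u'

/-! ### CONG + V + K18 ⟹ the local brick of the assembly -/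

section Local

variable (M l : ℕ) [NeZero M] (hM : 3 ≤ M)

/-- The Hecke congruence datum at `(p, A)`. -/
def heckeCongG1 (p : ℕ) [NeZero p] (hp : p.Prime) (A : ValuationSubring Qb)
    (hA : A.LiesOverPrime p) (hL : LevelBricks M hM p) (hA' : LocalBricks M l p A) :
    G1.Cong.HeckeCongG (F1a M 1) A p l :=
  G1.Cong.heckeCongGOfLevel A hA'.scaling p l hp hA (F1a_one_le M p) (vStable1 M hM p)
    hL.corr hL.deg (DOp M p) (diaM M p) (fun h => isKummerPair_DOp M p h)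
    (fun σ f => diaK_galois M _ σ f) hA'.unit_dia hL.conj (jElt M)
    (by rw [diaM_apply, dia_jElt, coe_jElt])

theorem localESGF1 (p : ℕ) (hp : p.Prime) (hL : @LevelBricks M _ hM p ⟨hp.ne_zero⟩)
    (hloc : ∀ A : ValuationSubring Qb, A.LiesOverPrime p → LocalBricks M l p A) :
    @LocalESGF (F1a M 1) l p ⟨hp.ne_zero⟩ (TOp M p) (AddMonoidHom.id _) (DOp M p) := by
  haveI : NeZero p := ⟨hp.ne_zero⟩
  intro A hA
  exact ⟨(hloc A hA).scaling, (hloc A hA).kummerRoot,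
    heckeCongG1 M l hM p hp A hA hL (hloc A hA), (TOp_eq M hM p).symm, rfl, rfl⟩

theorem galoisCommF_TOp (hl0 : l ≠ 0) (p : ℕ) [NeZero p] (hL : LevelBricks M hM p) :
    GaloisCommF (F1a M 1) l (TOp M p) := by
  intro σ x hx
  rw [TOp_eq M hM p]
  exact G1.Cong.heckeTOfLevel_galois p (F1a_one_le M p) (vStable1 M hM p) hL.corr hl0 σ x
    (Pic0.mem_torsion.mp hx)

end Local

/-! ### JAC + CONG ⟹ the equivariance of the Kummer map -/

section Kappa

/-- A matrix of `Γ₀(M)` realising `δ_p`: lower right entry `≡ p⁻¹`. -/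
theorem exists_sigma (M : ℕ) [NeZero M] {p : ℕ} (hp : p.Prime) (hpM : ¬ p ∣ M) :
    ∃ σ : SL(2, ℤ), σ ∈ Gamma0 (M * 1) ∧ σ ∈ Gamma0 M ∧
      ((uStar M p : (ZMod M)ˣ) : ZMod M) = ((σ 1 1 : ℤ) : ZMod M) ∧
      Hecke1.lr M σ * (p : ZMod M) = 1 := by
  obtain ⟨σ, hσ, hc⟩ := exists_mem_Gamma0_lowerRight M 1 (uStar M p)
  refine ⟨σ, hσ, Fermat.Agent.G1.Gal.Gamma0_mul_le M 1 hσ, hc, ?_⟩
  rw [Hecke1.lr_def, ← hc, uStar_eq hp hpM, ← Hecke1.coe_punit hp hpM, ← Units.val_mul,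
    inv_mul_cancel, Units.val_one]

theorem kappa_TOp (M : ℕ) [NeZero M] (hM : 3 ≤ M) (hDQ : IsDict1 iotaK M 1) (n : ℕ) [NeZero n]
    (hK : KummerInjG KQ ↥(laurentBaseChange KQ (F1a M 1)) (Gamma1 M) n
      (IsKummerCharG (Gamma1 M) (mer1K iotaK M 1) n))
    (κ : JFtors (F1a M 1) n → peHoms (Gamma1 M) ℤ (ZMod n))
    (hκ : ∀ (x : JFtors (F1a M 1) n) (f : ↥(laurentBaseChange KQ (F1a M 1)))
      (χ : Gamma1 M →* ℂˣ), IsKummerPair n (x : JF (F1a M 1)) f →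
      IsKummerCharG (Gamma1 M) (mer1K iotaK M 1) n f χ →
      peChar (Gamma1 M) n (κ x : Additive (Gamma1 M) →+ ZMod n) = χ)
    {p : ℕ} [NeZero p] (hp : p.Prime) (hpM : ¬ p ∣ M)
    (hL : LevelBricks M hM p) :
    ∀ x y : JFtors (F1a M 1) n, (y : JF (F1a M 1)) = TOp M p (x : JF (F1a M 1)) →
      κ y = diamond1 M (uStar M p) ℤ (ZMod n) (heckeT1 M hp hpM ℤ (ZMod n) (κ x)) := by
  obtain ⟨σ, hσ, hσ', hc, hσp⟩ := exists_sigma M hp hpM
  haveI : Fact p.Prime := ⟨hp⟩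
  have hx₀ : ((dia M p (jElt M) : F1aK Qb M 1) : LaurentSeries Qb) = jqModC Qb := by
    rw [dia_jElt, coe_jElt]
  refine hκT_star hK κ hκ hp hpM hσ' hσp (fun x => TOp M p x)
    (fun f => G1.Cong.normTOfLevel p (F1a_one_le M p) (vStable1 M hM p) f) ?_ ?_
  · intro x f hf
    show IsKummerPair n (TOp M p x) _
    rw [TOp_eq M hM p]
    exact G1.Cong.isKummerPair_heckeTOfLevel p (F1a_one_le M p) (vStable1 M hM p) hL.corr hf
  · intro f _
    exact HeckeMer1.mer1K_norm_actG' M 1 hDQ p hp σ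
      (fun y => G1.Cong.normTOfLevel p (F1a_one_le M p) (vStable1 M hM p) y)
      (fun y => dia M p y)
      (fun ζ hζ y => G1.Cong.qExpand_norm_of_level p hp (F1a_one_le M p) (vStable1 M hM p)
        (G1.Cong.corrInputs_finiteAlong hL.corr) hL.deg (fun f => dia M p f) hL.conj (jElt M)
        hx₀ ζ hζ y)
      (fun y => mer1K_diaK iotaK M 1 (uStar M p) σ hσ hc y) f

theorem kappa_DOp (M : ℕ) [NeZero M] (n : ℕ) [NeZero n]
    (hK : KummerInjG KQ ↥(laurentBaseChange KQ (F1a M 1)) (Gamma1 M) n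
      (IsKummerCharG (Gamma1 M) (mer1K iotaK M 1) n))
    (κ : JFtors (F1a M 1) n → peHoms (Gamma1 M) ℤ (ZMod n))
    (hκ : ∀ (x : JFtors (F1a M 1) n) (f : ↥(laurentBaseChange KQ (F1a M 1)))
      (χ : Gamma1 M →* ℂˣ), IsKummerPair n (x : JF (F1a M 1)) f →
      IsKummerCharG (Gamma1 M) (mer1K iotaK M 1) n f χ →
      peChar (Gamma1 M) n (κ x : Additive (Gamma1 M) →+ ZMod n) = χ)
    {p : ℕ} (hp : p.Prime) (hpM : ¬ p ∣ M) :
    ∀ x y : JFtors (F1a M 1) n, (y : JF (F1a M 1)) = DOp M p (x : JF (F1a M 1)) →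
      κ y = diamond1 M (uStar M p) ℤ (ZMod n) (κ x) := by
  obtain ⟨σ, hσ, hσ', hc, hσp⟩ := exists_sigma M hp hpM
  exact hκD₂_star hK κ hκ hp hpM hσ' hσp (fun x => DOp M p x) (fun f => dia M p f)
    (fun x f hf => isKummerPair_DOp M p hf)
    (fun f _ => mer1K_diaK iotaK M 1 (uStar M p) σ hσ hc f)

end Kappa

/-! ### The assembly from the raw bricks -/

/-- **`HESAt M l k θ` from the raw G1 bricks** (model field `F1a M 1`):
* DICT: the dictionaries `IsDict1` of `Γ₁(M)` over `ℚ̄` and `ℂ`;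
* FF: finiteness of `ℚ̄·F1a M 1`, `ℂ·F1a M 1` over the rational subfield of some `j₀` of nonzero
  `q`-order;
* CONG: `LevelBricks` at every prime `p ∤ M`;
* V + K18: `LocalBricks` at every valuation subring over a prime `p ∤ M`. -/
theorem hesAt_of_raw (M : ℕ) [NeZero M] (l : ℕ) (hl : l.Prime) (h5 : 5 ≤ l) (hlM : l ∣ M)
    (k : Type) [Field k] [CharP k l] (θ : Hecke1.heckeAlgebra M 2 →+* k)
    (hsplit : SplitAt M l k θ)
    (hDQ : IsDict1 iotaK M 1) (hDC : IsDict1 (RingHom.id ℂ) M 1)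
    (j₀ : F1a M 1) (hj₀ : (j₀ : LaurentSeries ℚ).order ≠ 0)
    (hfC : FiniteDimensional (IntermediateField.adjoin ℂ {baseElt (F1a M 1) ℂ j₀})
      (laurentBaseChange ℂ (F1a M 1)))
    (hfQ : FiniteDimensional (IntermediateField.adjoin KQ {baseElt (F1a M 1) KQ j₀})
      (laurentBaseChange KQ (F1a M 1)))
    (hM3 : 3 ≤ M)
    (hlevel : ∀ (p : ℕ) (hp : p.Prime), ¬ p ∣ M → @LevelBricks M _ hM3 p ⟨hp.ne_zero⟩)
    (hlocal : ∀ p : ℕ, p.Prime → ¬ p ∣ M → ∀ A : ValuationSubring Qb, A.LiesOverPrime p →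
      LocalBricks M l p A) :
    HESAt M l k θ := by
  haveI : NeZero l := ⟨hl.ne_zero⟩
  have hM5 : 5 ≤ M := h5.trans (Nat.le_of_dvd (Nat.pos_of_ne_zero (NeZero.ne M)) hlM)
  obtain ⟨hfin, hlev, hK, κ, hκ⟩ := jac_package M hM5 hDQ hDC j₀ hj₀ l
  refine hesAt_of_kappaGF M (F1a M 1) l hl k θ hsplit hfin hlev (TOp M)
    (fun _ => AddMonoidHom.id _) (DOp M) ?_ ?_ κ.toAddMonoidHom κ.surjective 0 (uStar M)
    (fun _ => 1) (uStar M) ?_ ?_ ?_ ?_
  · intro p hp hpM _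
    haveI : NeZero p := ⟨hp.ne_zero⟩
    exact galoisCommF_TOp M l hM3 hl.ne_zero p (hlevel p hp hpM)
  · intro p hp hpM _
    exact localESGF1 M l hM3 p hp (hlevel p hp hpM) (hlocal p hp hpM)
  · intro p hp hpM _
    exact hu_star hp hpM
  · intro p hp hpM _
    haveI : NeZero p := ⟨hp.ne_zero⟩
    exact kappa_TOp M hM3 hDQ l hK (fun x => κ x) hκ hp hpM (hlevel p hp hpM)
  · intro p hp hpM _
    exact hκD₁_id (fun x => κ x)
  · intro p hp hpM _
    exact kappa_DOp M l hK (fun x => κ x) hκ hp hpM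

/-- **All raw G1 bricks at `(M, l)`** as one proposition (DICT, FF, CONG, V, K18). -/
structure RawBricks (M l : ℕ) [NeZero M] : Prop where
  three_le : 3 ≤ M
  dictQ : IsDict1 iotaK M 1
  dictC : IsDict1 (RingHom.id ℂ) M 1
  findim : ∃ j₀ : F1a M 1, (j₀ : LaurentSeries ℚ).order ≠ 0 ∧
    FiniteDimensional (IntermediateField.adjoin ℂ {baseElt (F1a M 1) ℂ j₀})
      (laurentBaseChange ℂ (F1a M 1)) ∧
    FiniteDimensional (IntermediateField.adjoin KQ {baseElt (F1a M 1) KQ j₀})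
      (laurentBaseChange KQ (F1a M 1))
  level : ∀ (p : ℕ) (hp : p.Prime), ¬ p ∣ M → @LevelBricks M _ three_le p ⟨hp.ne_zero⟩
  loc : ∀ p : ℕ, p.Prime → ¬ p ∣ M → ∀ A : ValuationSubring Qb, A.LiesOverPrime p →
    LocalBricks M l p A

theorem hesAt_of_rawBricks (M : ℕ) [NeZero M] (l : ℕ) (hl : l.Prime) (h5 : 5 ≤ l)
    (hlM : l ∣ M) (k : Type) [Field k] [CharP k l] (θ : Hecke1.heckeAlgebra M 2 →+* k)
    (hsplit : SplitAt M l k θ) (h : RawBricks M l) : HESAt M l k θ := by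
  obtain ⟨j₀, hj₀, hfC, hfQ⟩ := h.findim
  exact hesAt_of_raw M l hl h5 hlM k θ hsplit h.dictQ h.dictC j₀ hj₀ hfC hfQ h.three_le
    h.level h.loc

/-- **`DS.HES` from the raw G1 bricks.** -/
theorem hes_of_rawBricks (h : ∀ (M : ℕ) [NeZero M] (l : ℕ), l.Prime → 5 ≤ l → l ∣ M →
    RawBricks M l) : HES :=
  hes_of_forall fun M _ l hl h5 hlM k _ _ θ hs =>
    hesAt_of_rawBricks M l hl h5 hlM k θ hs (h M l hl h5 hlM)

end Fermat.Agent.G1.Wire1

end
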