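/-
G1-ASM (owner: helper73): the raw bricks of `G1/Wire1.lean` which are theorems on main —
FF (finiteness over `ℚ̄(j)`, `ℂ(j)`: helper86) and CONG (`LevelBricks`: helper43's degree bound
and correspondence inputs, helper17's conjugate embeddings).  What is left of `DS.HES` after
this file: the dictionaries `IsDict1` at level `(M, 1)` over `ℚ̄` and `ℂ`, and `LocalBricks`
(V + K18).
-/
import Mathlib
import Fermat.Agent.G1.Wire1
import Fermat.Agent.G1.Cong.Final1
import Fermat.Agent.G1.ConjLevel1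
import Fermat.Agent.G1.Dict.FFShapes

set_option autoImplicit false
set_option linter.style.haveILetI false

noncomputable section

namespace Fermat.Agent.G1.Wire2

open ModularCurve AlgebraicCurve CongruenceSubgroup
open Fermat.Agent.ESJ.Rep Fermat.Agent.DS Fermat.Agent.ESJ.Jac Fermat.Agent.S24
  Fermat.Agent.G1.Dict Fermat.Agent.G1.Jac Fermat.Agent.G1.Wire1

/-- **FF**: `ℚ̄·F1a M 1` and `ℂ·F1a M 1` are finite over the rational subfield of `j`. -/
theorem findim (M : ℕ) [NeZero M] :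
    ∃ j₀ : F1a M 1, (j₀ : LaurentSeries ℚ).order ≠ 0 ∧
      FiniteDimensional (IntermediateField.adjoin ℂ {baseElt (F1a M 1) ℂ j₀})
        (laurentBaseChange ℂ (F1a M 1)) ∧
      FiniteDimensional (IntermediateField.adjoin KQ {baseElt (F1a M 1) KQ j₀})
        (laurentBaseChange KQ (F1a M 1)) :=
  ⟨FFGlue.j0 M 1, FFGlue.order_j0_ne_zero M 1, FFGlue.finiteDimensional_baseElt M 1 ℂ,
    FFGlue.finiteDimensional_baseElt M 1 KQ⟩

/-- `⟨p⟩⁻¹ · p = 1` in `ℤ/M`. -/
theorem uStar_mul {M : ℕ} [NeZero M] {p : ℕ} (hp : p.Prime) (hpM : ¬ p ∣ M) :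
    ((uStar M p : (ZMod M)ˣ) : ZMod M) * (p : ZMod M) = 1 := by
  rw [uStar_eq hp hpM, ← Hecke1.coe_punit hp hpM, ← Units.val_mul, inv_mul_cancel,
    Units.val_one]

/-- **CONG**: the level bricks at every prime `p ∤ M`. -/
theorem levelBricks (M : ℕ) [NeZero M] (hM : 3 ≤ M) (p : ℕ) [NeZero p] (hp : p.Prime)
    (hpM : ¬ p ∣ M) : LevelBricks M hM p where
  corr := G1.Cong.corrInputs1 p hM (FFGlue.exists_transcendental_finiteDimensional M 1 Qb)
    (FFGlue.exists_transcendental_finiteDimensional M p Qb)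
  deg := G1.Cong.finrankAlong_incl1_le M p hp hpM
  conj := fun w hw =>
    ConjF1.hconj1 M p hp hpM (F1a_one_le M p) (vStable1 M hM p) (uStar M p) (uStar_mul hp hpM)
      w hw

/-- **`RawBricks` from DICT + V + K18.** -/
theorem rawBricks (M l : ℕ) [NeZero M] (hM : 3 ≤ M) (hDQ : IsDict1 iotaK M 1)
    (hDC : IsDict1 (RingHom.id ℂ) M 1)
    (hloc : ∀ p : ℕ, p.Prime → ¬ p ∣ M → ∀ A : ValuationSubring Qb, A.LiesOverPrime p →
      LocalBricks M l p A) : RawBricks M l where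
  three_le := hM
  dictQ := hDQ
  dictC := hDC
  findim := findim M
  level := fun p hp hpM => @levelBricks M _ hM p ⟨hp.ne_zero⟩ hp hpM
  loc := hloc

/-- **`DS.HES` from DICT (`IsDict1` at level `(M, 1)` over `ℚ̄` and `ℂ`) and V + K18
(`LocalBricks`)**, for the levels `M` divisible by a prime `l ≥ 5`. -/
theorem hes_of_dict_local
    (hDQ : ∀ (M : ℕ) [NeZero M], 5 ≤ M → IsDict1 iotaK M 1)
    (hDC : ∀ (M : ℕ) [NeZero M], 5 ≤ M → IsDict1 (RingHom.id ℂ) M 1)
    (hloc : ∀ (M : ℕ) [NeZero M] (l : ℕ), l.Prime → 5 ≤ l → l ∣ M →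
      ∀ p : ℕ, p.Prime → ¬ p ∣ M → ∀ A : ValuationSubring Qb, A.LiesOverPrime p →
        LocalBricks M l p A) : HES :=
  hes_of_rawBricks fun M _ l hl h5 hlM => by
    have hM5 : 5 ≤ M := h5.trans (Nat.le_of_dvd (Nat.pos_of_ne_zero (NeZero.ne M)) hlM)
    exact rawBricks M l (by omega) (hDQ M hM5) (hDC M hM5) (hloc M l hl h5 hlM)

end Fermat.Agent.G1.Wire2

end
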