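/-
G1-ASM (owner: helper73): the last raw brick of `G1/Wire1.lean` — `LocalBricks M l p A`
(V + K18 at a valuation subring `A` of `ℚ̄` over a prime `p ∤ M`, `l ∣ M` a prime `≥ 5`) —
from the theorems on main: helper4/helper80's V-package (`G1/V/PackMain.lean`), helper95's
(K18) wiring (`G1/K18/Wire.lean`, `G1/K18/BranchDict.lean`) and helper67's dictionary
(`G1/Dict/InstMain.lean`).
-/
import Mathlib
import Fermat.Agent.G1.Wire2
import Fermat.Agent.G1.V.PackMain
import Fermat.Agent.G1.K18.Wire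
import Fermat.Agent.G1.K18.BranchDict
import Fermat.Agent.G1.Dict.InstMain

set_option autoImplicit false
set_option linter.style.haveILetI false

noncomputable section

namespace Fermat.Agent.G1.Wire3

open ModularCurve AlgebraicCurve CongruenceSubgroup
open Fermat.Agent.ESJ.Rep Fermat.Agent.DS Fermat.Agent.ESJ.Jac Fermat.Agent.S24
  Fermat.Agent.G1.Dict Fermat.Agent.G1.Jac Fermat.Agent.G1.Wire1 Fermat.Agent.G1.Gal

/-- The inputs of (K18) at the auxiliary levels `(M, a)`, `p ∤ M a`. -/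
theorem k18Inputs (M : ℕ) [NeZero M] (hM : 5 ≤ M) (a : ℕ) [NeZero a] (p : ℕ) (hp : p.Prime)
    (hpa : ¬ p ∣ M * a) : G1.K18.K18Inputs M a p := by
  refine ⟨G1.K18.placeCases1_of_isDict1 (Dict.Inst.isDict1_Qbar hM), fun A hA => ?_⟩
  have hk : ((M * a : ℕ) : IsLocalRing.ResidueField A) ≠ 0 :=
    Fermat.Agent.ESJ.RedK.natCast_residue_ne_zero hp hA hpa
  exact ⟨G1.V.inputs_Qbar A M a (by omega) hk,
    G1.V.exists_sepPoly A (IsLocalRing.residue A) (G1.V.residue_eq_zero_of_not_isUnit A) M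
      (M * a) (by omega) (Dvd.intro a rfl) hk⟩

/-- **V + K18 at `(p, A)`**, unconditionally. -/
theorem localBricks (M : ℕ) [NeZero M] (l : ℕ) (hl : l.Prime) (h5 : 5 ≤ l) (hlM : l ∣ M)
    (p : ℕ) (hp : p.Prime) (hpM : ¬ p ∣ M) (A : ValuationSubring Qb)
    (hA : A.LiesOverPrime p) : LocalBricks M l p A := by
  have hM5 : 5 ≤ M := h5.trans (Nat.le_of_dvd (Nat.pos_of_ne_zero (NeZero.ne M)) hlM)
  have hpl : p ≠ l := by
    rintro rfl
    exact hpM hlM
  have hk : ((M * 1 : ℕ) : IsLocalRing.ResidueField A) ≠ 0 :=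
    Fermat.Agent.ESJ.RedK.natCast_residue_ne_zero hp hA (by rwa [mul_one])
  have H := G1.V.inputs_Qbar A M 1 (by omega) hk
  refine ⟨G1.V.integralScaling_F1a_main A M 1 (by omega) hk,
    G1.K18.kummerRootF_F1a_one_of_inputs M l hl h5 p hp hpM hpl
      (fun a _ _ hpa => k18Inputs M hM5 a p hp hpa) A hA, ?_⟩
  intro f u hu hf
  refine G1.V.Pack.redTo_ringHom (G1.V.residue_eq_zero_of_not_isUnit A) hk H
    ((dia M p : F1aK Qb M 1 ≃ₐ[Qb] F1aK Qb M 1) : F1aK Qb M 1 →+* F1aK Qb M 1) ?_ f u hu hf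
  intro c
  have hc : ((algebraMap ↥(laurentBaseChange Qb (modularFunctionFieldFull (M * 1)))
      ↥(laurentBaseChange Qb (F1a M 1)) c : laurentBaseChange Qb (F1a M 1)) :
        LaurentSeries Qb) ∈ laurentBaseChange Qb (modularFunctionFieldFull (M * 1)) := by
    rw [G1.V.Pack.coe_algebraMap_F1a]
    exact c.2
  exact diaK_eq_self_of_mem_base iotaK M 1 (uStar M p) _ hc

end Fermat.Agent.G1.Wire3

end
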