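/-
G1-ASM (owner: helper73): **`DS.HES` is a theorem.**

`Fermat.Agent.G1.hes : Fermat.Agent.DS.HES` — the Eichler–Shimura input of Deligne–Serre for
`Γ₁(M)`: every mod-`l` system of Hecke eigenvalues `(T_p, ⟨p⟩)`, `p ∤ M`, occurring in
`S₂(Γ₁(M))` (`l ∣ M` a prime `≥ 5`) has a semisimple 2-dimensional Galois representation over a
finite field of characteristic `l`, of finite level, unramified outside `M`, with
`charpoly(Frob_p) = X² − T_p X + p⟨p⟩`.

Assembly: `G1/Wire2.hes_of_dict_local` (JAC + PER + CONG + GAL + REP, file `G1/Wire1.lean`)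
applied to helper67's dictionaries (`G1/Dict/InstMain.lean`) and `G1/Wire3.localBricks`
(V + K18).
-/
import Mathlib
import Fermat.Agent.G1.Wire3

set_option autoImplicit false

namespace Fermat.Agent.G1

/-- **The Eichler–Shimura input `H_ES` of Deligne–Serre (`Γ₁(M)`, mod `l`), unconditionally.** -/
theorem hes : Fermat.Agent.DS.HES :=
  Wire2.hes_of_dict_local (fun _ _ hM => Dict.Inst.isDict1_Qbar hM)
    (fun _ _ hM => Dict.Inst.isDict1_C hM)
    (fun M _ l hl h5 hlM p hp hpM A hA => Wire3.localBricks M l hl h5 hlM p hp hpM A hA)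

end Fermat.Agent.G1
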