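import Mathlib
import Fermat.Agent.G1.GalBridge
import Fermat.Prelude.Def_ModularCurve_ArithmeticGalois

/-!
# G1 / GAL: the diamond automorphisms commute with the arithmetic Galois action

`diaK ι M a c` (`G1/GalBridge.lean`) acts on the generators of `L·F1a M a` by a renaming defined
over `ℚ`, hence commutes with the coefficientwise action `arithmeticGalois (F1a M a) σ` of
`σ ∈ Aut(L/ℚ)` — the hypothesis `galois_δ` of `HeckeCongG` / `GaloisOps.comm_autOp`.
-/

set_option autoImplicit false

open ModularCurve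

noncomputable section

namespace Fermat.Agent.G1.Gal

open Fermat.Agent.G1.Dict

variable {L : Type} [Field L] [Algebra ℚ L] (ι : L →+* ℂ) (M a : ℕ) [NeZero M] [NeZero a]

/-- **`galois_δ` for the diamonds**: `δ_c (σ • f) = σ • δ_c f`. -/
theorem diaK_galois (c : (ZMod M)ˣ) (σ : L ≃ₐ[ℚ] L) (f : F1aK L M a) :
    diaK ι M a c (arithmeticGalois (F1a M a) σ • f)
      = arithmeticGalois (F1a M a) σ • diaK ι M a c f := by
  apply Subtype.ext
  rw [coe_arithmeticGalois_smul]
  exact coeffMap_diaK ι M a ι (σ : L →+* L) c (coe_arithmeticGalois_smul (F1a M a) σ f)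

/-- `galois_δ` in the literal monoid-hom shape of `HeckeCongG.galois_δ₂`. -/
theorem diaK_galois_monoidHom (c : (ZMod M)ˣ) (σ : L ≃ₐ[ℚ] L) (f : F1aK L M a) :
    ((diaK ι M a c : F1aK L M a ≃ₐ[L] F1aK L M a) : F1aK L M a →* F1aK L M a)
        (arithmeticGalois (F1a M a) σ • f)
      = arithmeticGalois (F1a M a) σ •
        ((diaK ι M a c : F1aK L M a ≃ₐ[L] F1aK L M a) : F1aK L M a →* F1aK L M a) f :=
  diaK_galois ι M a c σ f

end Fermat.Agent.G1.Gal
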