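import Mathlib
import Fermat.Agent.ESJ.ParHom.HeckeGamma0
import Fermat.Agent.DS.Hecke1.Coset

/-!
# G1: integer `2 × 2` matrices and the cosets of the Hecke operators

* `bInt p x` (`x : OnePoint (ZMod p)`): the integer matrices `(1 j; 0 p)` and `(p 0; 0 1)`
  underlying the representatives `tRep p x` of `T_p`;
* `exists_eq_mul_bInt`: an integer matrix whose determinant is divisible by the prime `p` is
  `m' * bInt p x` for some integer matrix `m'` and some `x`;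
* `bInt_unique`: `x` is unique if `p ∤ det m'`;
* `mem_Gamma1_of_models`: if `m₁ = γ m₂` with `γ ∈ SL₂(ℤ)`, both `mᵢ` have lower-left entry
  divisible by `M`, the same lower-right entry modulo `M`, and `det m₂` is prime to `M`, then
  `γ ∈ Γ₁(M)`.
-/

set_option autoImplicit false

open scoped MatrixGroups
open CongruenceSubgroup

namespace Fermat.Agent.G1.HeckeInt

open Fermat.Agent.ESJ.ParHom Fermat.Agent.DS.Hecke1

/-- The integer matrices underlying the representatives of `T_p`: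
`∞ ↦ (p 0; 0 1)`, `j ↦ (1 j; 0 p)`. -/
def bInt (p : ℕ) (x : OnePoint (ZMod p)) : Matrix (Fin 2) (Fin 2) ℤ :=
  x.elim !![(p : ℤ), 0; 0, 1] (fun j => !![1, (j.val : ℤ); 0, (p : ℤ)])

theorem bInt_infty (p : ℕ) : bInt p OnePoint.infty = !![(p : ℤ), 0; 0, 1] := rfl

theorem bInt_coe (p : ℕ) (j : ZMod p) :
    bInt p (j : OnePoint (ZMod p)) = !![1, (j.val : ℤ); 0, (p : ℤ)] := rfl

theorem det_bInt (p : ℕ) (x : OnePoint (ZMod p)) : (bInt p x).det = p := by
  induction x using OnePoint.rec with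
  | infty => rw [bInt_infty, Matrix.det_fin_two_of]; ring
  | coe j => rw [bInt_coe, Matrix.det_fin_two_of]; ring

theorem mul_bInt_infty (p : ℕ) (m : Matrix (Fin 2) (Fin 2) ℤ) :
    m * bInt p OnePoint.infty = !![m 0 0 * p, m 0 1; m 1 0 * p, m 1 1] := by
  rw [bInt_infty]
  ext i k
  fin_cases i <;> fin_cases k <;> simp [Matrix.mul_apply, Fin.sum_univ_two]

theorem mul_bInt_coe (p : ℕ) (j : ZMod p) (m : Matrix (Fin 2) (Fin 2) ℤ) :
    m * bInt p (j : OnePoint (ZMod p)) =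
      !![m 0 0, m 0 0 * j.val + m 0 1 * p; m 1 0, m 1 0 * j.val + m 1 1 * p] := by
  rw [bInt_coe]
  ext i k
  fin_cases i <;> fin_cases k <;> simp [Matrix.mul_apply, Fin.sum_univ_two]

/-- **Existence**: an integer matrix with determinant divisible by `p` factors through some
`bInt p x` on the right. -/
theorem exists_eq_mul_bInt {p : ℕ} [Fact p.Prime] (m : Matrix (Fin 2) (Fin 2) ℤ)
    (hdet : (p : ℤ) ∣ m.det) :
    ∃ (x : OnePoint (ZMod p)) (m' : Matrix (Fin 2) (Fin 2) ℤ), m = m' * bInt p x := by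
  have : NeZero p := ⟨(Fact.out : p.Prime).ne_zero⟩
  have hd : ((m 0 0 : ℤ) : ZMod p) * ((m 1 1 : ℤ) : ZMod p) =
      ((m 0 1 : ℤ) : ZMod p) * ((m 1 0 : ℤ) : ZMod p) := by
    have h := (ZMod.intCast_zmod_eq_zero_iff_dvd _ _).mpr hdet
    rw [Matrix.det_fin_two] at h
    push_cast at h
    linear_combination h
  by_cases h0 : ((m 0 0 : ℤ) : ZMod p) = 0 ∧ ((m 1 0 : ℤ) : ZMod p) = 0
  · obtain ⟨e, he⟩ := (ZMod.intCast_zmod_eq_zero_iff_dvd _ _).mp h0.1
    obtain ⟨f, hf⟩ := (ZMod.intCast_zmod_eq_zero_iff_dvd _ _).mp h0.2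
    refine ⟨OnePoint.infty, !![e, m 0 1; f, m 1 1], ?_⟩
    rw [mul_bInt_infty]
    ext i k
    fin_cases i <;> fin_cases k <;> simp [he, hf, mul_comm]
  · obtain ⟨j, hj1, hj2⟩ : ∃ j : ZMod p, ((m 0 1 : ℤ) : ZMod p) = ((m 0 0 : ℤ) : ZMod p) * j ∧
        ((m 1 1 : ℤ) : ZMod p) = ((m 1 0 : ℤ) : ZMod p) * j := by
      by_cases ha : ((m 0 0 : ℤ) : ZMod p) = 0
      · have hc : ((m 1 0 : ℤ) : ZMod p) ≠ 0 := fun hc => h0 ⟨ha, hc⟩
        refine ⟨((m 1 1 : ℤ) : ZMod p) / ((m 1 0 : ℤ) : ZMod p), ?_, ?_⟩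
        · rw [ha, zero_mul] at hd ⊢
          exact (mul_eq_zero.mp hd.symm).resolve_right hc
        · rw [mul_div_cancel₀ _ hc]
      · refine ⟨((m 0 1 : ℤ) : ZMod p) / ((m 0 0 : ℤ) : ZMod p), ?_, ?_⟩
        · rw [mul_div_cancel₀ _ ha]
        · rw [eq_comm, mul_div_assoc', div_eq_iff ha]
          linear_combination -hd
    have h1 : (p : ℤ) ∣ m 0 1 - m 0 0 * j.val := by
      rw [← ZMod.intCast_zmod_eq_zero_iff_dvd]
      push_cast
      rw [ZMod.natCast_zmod_val, hj1, sub_self]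
    have h2 : (p : ℤ) ∣ m 1 1 - m 1 0 * j.val := by
      rw [← ZMod.intCast_zmod_eq_zero_iff_dvd]
      push_cast
      rw [ZMod.natCast_zmod_val, hj2, sub_self]
    obtain ⟨e, he⟩ := h1
    obtain ⟨f, hf⟩ := h2
    refine ⟨(j : OnePoint (ZMod p)), !![m 0 0, e; m 1 0, f], ?_⟩
    rw [mul_bInt_coe]
    generalize (j.val : ℤ) = t at he hf ⊢
    ext i k
    fin_cases i <;> fin_cases k
    · rfl
    · show m 0 1 = m 0 0 * t + e * p
      linarith
    · rfl
    · show m 1 1 = m 1 0 * t + f * p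
      linarith

/-- **Uniqueness**: if `m' * bInt p x = m'' * bInt p x'` and `p ∤ det m'`, then `x = x'`. -/
theorem bInt_unique {p : ℕ} [Fact p.Prime] (m' m'' : Matrix (Fin 2) (Fin 2) ℤ)
    (x x' : OnePoint (ZMod p)) (h : m' * bInt p x = m'' * bInt p x')
    (hdet : ¬ (p : ℤ) ∣ m'.det) : x = x' := by
  have hp : p.Prime := Fact.out
  have : NeZero p := ⟨hp.ne_zero⟩
  have hpZ : Prime (p : ℤ) := Nat.prime_iff_prime_int.mp hp
  have hdet' : ∀ {u v : ℤ}, m' 0 0 = (p : ℤ) * u → m' 1 0 = (p : ℤ) * v → False := by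
    intro u v hu hv
    apply hdet
    rw [Matrix.det_fin_two, hu, hv]
    exact ⟨u * m' 1 1 - m' 0 1 * v, by ring⟩
  induction x using OnePoint.rec with
  | infty =>
    induction x' using OnePoint.rec with
    | infty => rfl
    | coe j' =>
      exfalso
      rw [mul_bInt_infty, mul_bInt_coe] at h
      have e00 : m' 0 0 * p = m'' 0 0 := congrFun (congrFun h 0) 0
      have e01 : m' 0 1 = m'' 0 0 * j'.val + m'' 0 1 * p := congrFun (congrFun h 0) 1
      have e10 : m' 1 0 * p = m'' 1 0 := congrFun (congrFun h 1) 0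
      have e11 : m' 1 1 = m'' 1 0 * j'.val + m'' 1 1 * p := congrFun (congrFun h 1) 1
      apply hdet
      rw [Matrix.det_fin_two, e01, e11, ← e00, ← e10]
      exact ⟨m' 0 0 * (m' 1 0 * j'.val + m'' 1 1) - (m' 0 0 * j'.val + m'' 0 1) * m' 1 0, by ring⟩
  | coe j =>
    induction x' using OnePoint.rec with
    | infty =>
      exfalso
      rw [mul_bInt_infty, mul_bInt_coe] at h
      have e00 : m' 0 0 = m'' 0 0 * p := congrFun (congrFun h 0) 0
      have e10 : m' 1 0 = m'' 1 0 * p := congrFun (congrFun h 1) 0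
      exact hdet' (u := m'' 0 0) (v := m'' 1 0) (by rw [e00]; ring) (by rw [e10]; ring)
    | coe j' =>
      rw [mul_bInt_coe, mul_bInt_coe] at h
      have e00 : m' 0 0 = m'' 0 0 := congrFun (congrFun h 0) 0
      have e01 : m' 0 0 * j.val + m' 0 1 * p = m'' 0 0 * j'.val + m'' 0 1 * p :=
        congrFun (congrFun h 0) 1
      have e10 : m' 1 0 = m'' 1 0 := congrFun (congrFun h 1) 0
      have e11 : m' 1 0 * j.val + m' 1 1 * p = m'' 1 0 * j'.val + m'' 1 1 * p :=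
        congrFun (congrFun h 1) 1
      have k0 : (p : ℤ) ∣ m' 0 0 * ((j.val : ℤ) - j'.val) :=
        ⟨m'' 0 1 - m' 0 1, by rw [← e00] at e01; linear_combination e01⟩
      have k1 : (p : ℤ) ∣ m' 1 0 * ((j.val : ℤ) - j'.val) :=
        ⟨m'' 1 1 - m' 1 1, by rw [← e10] at e11; linear_combination e11⟩
      have hjj : (p : ℤ) ∣ (j.val : ℤ) - j'.val := by
        by_contra hn
        obtain ⟨u, hu⟩ := (hpZ.dvd_or_dvd k0).resolve_right hn
        obtain ⟨v, hv⟩ := (hpZ.dvd_or_dvd k1).resolve_right hn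
        exact hdet' hu hv
      have hz := (ZMod.intCast_zmod_eq_zero_iff_dvd _ _).mpr hjj
      push_cast at hz
      rw [ZMod.natCast_zmod_val, ZMod.natCast_zmod_val, sub_eq_zero] at hz
      rw [hz]

/-- Right multiplication by `bInt p x` is injective (`p ≠ 0`). -/
theorem mul_bInt_cancel {p : ℕ} (hp : p ≠ 0) (x : OnePoint (ZMod p))
    {m m' : Matrix (Fin 2) (Fin 2) ℤ} (h : m * bInt p x = m' * bInt p x) : m = m' := by
  have hp' : (p : ℤ) ≠ 0 := by exact_mod_cast hp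
  induction x using OnePoint.rec with
  | infty =>
    rw [mul_bInt_infty, mul_bInt_infty] at h
    have e00 : m 0 0 * p = m' 0 0 * p := congrFun (congrFun h 0) 0
    have e01 : m 0 1 = m' 0 1 := congrFun (congrFun h 0) 1
    have e10 : m 1 0 * p = m' 1 0 * p := congrFun (congrFun h 1) 0
    have e11 : m 1 1 = m' 1 1 := congrFun (congrFun h 1) 1
    ext i k
    fin_cases i <;> fin_cases k
    · exact mul_right_cancel₀ hp' e00
    · exact e01
    · exact mul_right_cancel₀ hp' e10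
    · exact e11
  | coe j =>
    rw [mul_bInt_coe, mul_bInt_coe] at h
    have e00 : m 0 0 = m' 0 0 := congrFun (congrFun h 0) 0
    have e01 : m 0 0 * j.val + m 0 1 * p = m' 0 0 * j.val + m' 0 1 * p :=
      congrFun (congrFun h 0) 1
    have e10 : m 1 0 = m' 1 0 := congrFun (congrFun h 1) 0
    have e11 : m 1 0 * j.val + m 1 1 * p = m' 1 0 * j.val + m' 1 1 * p :=
      congrFun (congrFun h 1) 1
    ext i k
    fin_cases i <;> fin_cases k
    · exact e00
    · rw [e00] at e01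
      exact mul_right_cancel₀ hp' (add_left_cancel e01)
    · exact e10
    · rw [e10] at e11
      exact mul_right_cancel₀ hp' (add_left_cancel e11)

/-! ### Level structure -/

/-- Lower-left entries: divisibility by `M` is preserved by products. -/
theorem dvd_mul_apply_one_zero {M : ℕ} {m m' : Matrix (Fin 2) (Fin 2) ℤ}
    (h : (M : ℤ) ∣ m 1 0) (h' : (M : ℤ) ∣ m' 1 0) : (M : ℤ) ∣ (m * m') 1 0 := by
  rw [Matrix.mul_apply, Fin.sum_univ_two]
  exact dvd_add (Dvd.dvd.mul_right h _) (Dvd.dvd.mul_left h' _)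

/-- Lower-right entries are multiplicative modulo `M` on matrices with lower-left entry
divisible by `M`. -/
theorem cast_mul_apply_one_one {M : ℕ} {m m' : Matrix (Fin 2) (Fin 2) ℤ}
    (h : (M : ℤ) ∣ m 1 0) :
    (((m * m') 1 1 : ℤ) : ZMod M) = ((m 1 1 : ℤ) : ZMod M) * ((m' 1 1 : ℤ) : ZMod M) := by
  have h0 : ((m 1 0 : ℤ) : ZMod M) = 0 := (ZMod.intCast_zmod_eq_zero_iff_dvd _ _).mpr h
  rw [Matrix.mul_apply, Fin.sum_univ_two]
  push_cast
  rw [h0, zero_mul, zero_add]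

/-- **The `Γ₁(M)` criterion.** -/
theorem mem_Gamma1_of_models {M : ℕ} (γ : SL(2, ℤ)) (m₁ m₂ : Matrix (Fin 2) (Fin 2) ℤ)
    (h : m₁ = (γ : Matrix (Fin 2) (Fin 2) ℤ) * m₂) (h1 : (M : ℤ) ∣ m₁ 1 0)
    (h2 : (M : ℤ) ∣ m₂ 1 0) (hdet : IsUnit ((m₂.det : ℤ) : ZMod M))
    (hlr : ((m₁ 1 1 : ℤ) : ZMod M) = ((m₂ 1 1 : ℤ) : ZMod M)) : γ ∈ Gamma1 M := by
  have h20 : ((m₂ 1 0 : ℤ) : ZMod M) = 0 := (ZMod.intCast_zmod_eq_zero_iff_dvd _ _).mpr h2
  have h10 : ((m₁ 1 0 : ℤ) : ZMod M) = 0 := (ZMod.intCast_zmod_eq_zero_iff_dvd _ _).mpr h1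
  have hd : ((m₂.det : ℤ) : ZMod M) = ((m₂ 0 0 : ℤ) : ZMod M) * ((m₂ 1 1 : ℤ) : ZMod M) := by
    rw [Matrix.det_fin_two]
    push_cast
    rw [h20, mul_zero, sub_zero]
  rw [hd] at hdet
  have hu0 : IsUnit ((m₂ 0 0 : ℤ) : ZMod M) := isUnit_of_mul_isUnit_left hdet
  have hu1 : IsUnit ((m₂ 1 1 : ℤ) : ZMod M) := isUnit_of_mul_isUnit_right hdet
  have e10 : ((m₁ 1 0 : ℤ) : ZMod M) =
      ((γ 1 0 : ℤ) : ZMod M) * ((m₂ 0 0 : ℤ) : ZMod M) +
        ((γ 1 1 : ℤ) : ZMod M) * ((m₂ 1 0 : ℤ) : ZMod M) := by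
    rw [h, Matrix.mul_apply, Fin.sum_univ_two]
    push_cast
    rfl
  have e11 : ((m₁ 1 1 : ℤ) : ZMod M) =
      ((γ 1 0 : ℤ) : ZMod M) * ((m₂ 0 1 : ℤ) : ZMod M) +
        ((γ 1 1 : ℤ) : ZMod M) * ((m₂ 1 1 : ℤ) : ZMod M) := by
    rw [h, Matrix.mul_apply, Fin.sum_univ_two]
    push_cast
    rfl
  have hγ10 : ((γ 1 0 : ℤ) : ZMod M) = 0 := by
    rw [h10, h20, mul_zero, add_zero] at e10
    exact (hu0.mul_left_eq_zero).mp e10.symm
  have hγ0 : γ ∈ Gamma0 M := Gamma0_mem.mpr hγ10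
  have hγ11 : ((γ 1 1 : ℤ) : ZMod M) = 1 := by
    rw [hlr, hγ10, zero_mul, zero_add] at e11
    have e : (((γ 1 1 : ℤ) : ZMod M) - 1) * ((m₂ 1 1 : ℤ) : ZMod M) = 0 := by
      rw [sub_mul, one_mul, ← e11, sub_self]
    exact sub_eq_zero.mp ((hu1.mul_left_eq_zero).mp e)
  exact mem_Gamma1_of_lr_eq_one hγ0 hγ11

end Fermat.Agent.G1.HeckeInt
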