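import Mathlib
import Fermat.Agent.ESJ.ParHom.HeckeGamma0
import Fermat.Agent.G1.HeckeCommAbs

/-!
# G1 : commutation of Hecke operators of coprime degrees on `Hom(Γ₁(M), A)` — the arithmetic

Systems of representatives are families `a : ι → GL(2, ℝ)` for `jSub (Gamma1 M)`.  A system is a
*degree-`n` system of level `M`* (`IsDegSystem M n a A`) if its members are integer matrices
`A i` of determinant `n`, of the shape `(1 *; 0 *)` modulo `M`, and every integer matrix whose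
determinant is divisible by `n` is left-divisible by some `A i`.

* `sep_mul` : the products `a i * b k` of two such systems of coprime degrees lie in pairwise
  distinct cosets (denominator argument: `b k * (b k')⁻¹` has denominators dividing both degrees);
* `swap_mul` : every `a i * b k` lies in a coset `Γ₁(M) (b k' * a i')` (division property);
* `hecke_comm_of_coprime` : hence the two Hecke operators commute on `Additive (Gamma1 M) →+ C`,
  for every `C` (via `G1/HeckeCommAbs.hecke_comm_of_exists`).  No normal form, no counting.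
* `Shape`, `shape_mul`, `shape_of_mul`, `shape_conj`, `mem_Gamma1_of_shape` : the congruence
  bookkeeping.
-/

set_option autoImplicit false

open scoped MatrixGroups
open CongruenceSubgroup Matrix

namespace Fermat.Agent.G1.HeckeDegSys

open Fermat.Agent.ESJ.ParHom

/-- Integer `2 × 2` matrices. -/
abbrev M2 : Type := Matrix (Fin 2) (Fin 2) ℤ

/-- The coefficientwise embedding of integer matrices into real matrices. -/
def castR : M2 →+* Matrix (Fin 2) (Fin 2) ℝ := (Int.castRingHom ℝ).mapMatrix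

theorem castR_apply (X : M2) (r c : Fin 2) : castR X r c = ((X r c : ℤ) : ℝ) := rfl

theorem castR_injective : Function.Injective castR := by
  intro X Y h
  ext r c
  have h1 := congrFun (congrFun h r) c
  rw [castR_apply, castR_apply] at h1
  exact_mod_cast h1

theorem coe_jSub (Γ : Subgroup SL(2, ℤ)) (γ : Γ) :
    ((jSub Γ γ : GL (Fin 2) ℝ) : Matrix (Fin 2) (Fin 2) ℝ) = castR ((γ : SL(2, ℤ)) : M2) := by
  ext r c
  rw [jSub_apply, coe_mapGL_apply, castR_apply]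

/-! ### The shape `(1 *; 0 *)` modulo `M` -/

/-- `A ≡ (1 *; 0 *)` modulo `M`. -/
def Shape (M : ℕ) (A : M2) : Prop := (M : ℤ) ∣ A 1 0 ∧ (M : ℤ) ∣ A 0 0 - 1

theorem shape_mul {M : ℕ} {A B : M2} (hA : Shape M A) (hB : Shape M B) : Shape M (A * B) := by
  obtain ⟨⟨a, ha⟩, ⟨a', ha'⟩⟩ := hA
  obtain ⟨⟨b, hb⟩, ⟨b', hb'⟩⟩ := hB
  refine ⟨⟨a * B 0 0 + A 1 1 * b, ?_⟩, ⟨a' * B 0 0 + b' + A 0 1 * b, ?_⟩⟩
  · rw [Matrix.mul_apply, Fin.sum_univ_two]
    linear_combination B 0 0 * ha + A 1 1 * hb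
  · rw [Matrix.mul_apply, Fin.sum_univ_two]
    linear_combination B 0 0 * ha' + hb' + A 0 1 * hb

theorem shape_of_mul {M : ℕ} {H A : M2} (hHA : Shape M (H * A)) (hA : Shape M A) : Shape M H := by
  obtain ⟨⟨c, hc⟩, ⟨c', hc'⟩⟩ := hHA
  obtain ⟨⟨a, ha⟩, ⟨a', ha'⟩⟩ := hA
  rw [Matrix.mul_apply, Fin.sum_univ_two] at hc hc'
  refine ⟨⟨c - H 1 1 * a - H 1 0 * a', ?_⟩, ⟨c' - H 0 0 * a' - H 0 1 * a, ?_⟩⟩
  · linear_combination hc - H 1 1 * ha - H 1 0 * ha'
  · linear_combination hc' - H 0 0 * ha' - H 0 1 * ha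

theorem det_eq (Z : SL(2, ℤ)) : Z 0 0 * Z 1 1 - Z 0 1 * Z 1 0 = 1 := by
  have h := Z.2
  rw [Matrix.det_fin_two] at h
  exact h

theorem mem_Gamma1_of_shape {M : ℕ} (Z : SL(2, ℤ)) (h : Shape M (Z : M2)) : Z ∈ Gamma1 M := by
  obtain ⟨⟨a, ha⟩, ⟨a', ha'⟩⟩ := h
  have hd := det_eq Z
  rw [Gamma1_mem]
  have e00 : ((Z 0 0 : ℤ) : ZMod M) = 1 := by
    have h1 : (((Z 0 0 - 1 : ℤ)) : ZMod M) = 0 :=
      (ZMod.intCast_zmod_eq_zero_iff_dvd _ M).mpr ⟨a', ha'⟩
    push_cast at h1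
    exact sub_eq_zero.mp h1
  have e10 : ((Z 1 0 : ℤ) : ZMod M) = 0 := (ZMod.intCast_zmod_eq_zero_iff_dvd _ M).mpr ⟨a, ha⟩
  refine ⟨e00, ?_, e10⟩
  have h1 : (((Z 1 1 - 1 : ℤ)) : ZMod M) = 0 := by
    refine (ZMod.intCast_zmod_eq_zero_iff_dvd _ M).mpr ⟨-Z 1 1 * a' + Z 0 1 * a, ?_⟩
    linear_combination hd - Z 1 1 * ha' + Z 0 1 * ha
  push_cast at h1
  exact sub_eq_zero.mp h1

theorem shape_of_mem_Gamma1 {M : ℕ} {Z : SL(2, ℤ)} (h : Z ∈ Gamma1 M) : Shape M (Z : M2) := by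
  rw [Gamma1_mem] at h
  obtain ⟨h00, -, h10⟩ := h
  refine ⟨(ZMod.intCast_zmod_eq_zero_iff_dvd _ M).mp h10, ?_⟩
  refine (ZMod.intCast_zmod_eq_zero_iff_dvd _ M).mp ?_
  push_cast
  rw [h00, sub_self]

/-- Conjugation by an element of `Γ₀(M)` preserves the shape. -/
theorem shape_conj {M : ℕ} {τ : SL(2, ℤ)} (hτ : τ ∈ Gamma0 M) {A : M2} (hA : Shape M A) :
    Shape M (((τ⁻¹ : SL(2, ℤ)) : M2) * A * (τ : M2)) := by
  obtain ⟨⟨a, ha⟩, ⟨a', ha'⟩⟩ := hA
  have hd := det_eq τ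
  obtain ⟨t, ht⟩ : (M : ℤ) ∣ τ 1 0 := by
    rw [Gamma0_mem] at hτ
    exact (ZMod.intCast_zmod_eq_zero_iff_dvd _ M).mp hτ
  have e : ((τ⁻¹ : SL(2, ℤ)) : M2) = !![τ 1 1, -τ 0 1; -τ 1 0, τ 0 0] := by
    rw [Matrix.SpecialLinearGroup.coe_inv, Matrix.adjugate_fin_two]
  refine ⟨⟨(-t * A 0 0 + τ 0 0 * a) * τ 0 0 + (-τ 1 0 * A 0 1 + τ 0 0 * A 1 1) * t, ?_⟩,
    ⟨a' + τ 0 1 * t * A 0 0 - τ 0 1 * τ 0 0 * a + (τ 1 1 * A 0 1 - τ 0 1 * A 1 1) * t, ?_⟩⟩
  · rw [e]
    simp only [Matrix.mul_apply, Fin.sum_univ_two, Matrix.of_apply, Matrix.cons_val_zero,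
      Matrix.cons_val_one, Matrix.cons_val', Matrix.empty_val', Matrix.cons_val_fin_one]
    linear_combination (-A 0 0 * τ 0 0 - τ 1 0 * A 0 1 + τ 0 0 * A 1 1) * ht
      + τ 0 0 * τ 0 0 * ha
  · rw [e]
    simp only [Matrix.mul_apply, Fin.sum_univ_two, Matrix.of_apply, Matrix.cons_val_zero,
      Matrix.cons_val_one, Matrix.cons_val', Matrix.empty_val', Matrix.cons_val_fin_one]
    linear_combination A 0 0 * hd + ha' + (τ 0 1 * A 0 0 + τ 1 1 * A 0 1 - τ 0 1 * A 1 1) * ht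
      - τ 0 1 * τ 0 0 * ha

/-! ### Degree-`n` systems -/

/-- A system of representatives consisting of integer matrices of determinant `n` and shape
`(1 *; 0 *)` mod `M`, such that every integer matrix whose determinant is divisible by `n` is
left-divisible by a member of the system. -/
structure IsDegSystem (M : ℕ) (n : ℤ) {ι : Type*} (a : ι → GL (Fin 2) ℝ) (A : ι → M2) :
    Prop where
  coe : ∀ i, ((a i : GL (Fin 2) ℝ) : Matrix (Fin 2) (Fin 2) ℝ) = castR (A i)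
  det : ∀ i, (A i).det = n
  shape : ∀ i, Shape M (A i)
  div : ∀ g : M2, n ∣ g.det → ∃ (i : ι) (h : M2), g = h * A i

theorem smul_cancel {q : ℤ} (hq : q ≠ 0) {X Y : M2} (h : q • X = q • Y) : X = Y := by
  ext r c
  have h1 := congrFun (congrFun h r) c
  rw [Matrix.smul_apply, Matrix.smul_apply, smul_eq_mul, smul_eq_mul] at h1
  exact mul_left_cancel₀ hq h1

theorem mul_right_cancel_det {X Y B : M2} (hB : B.det ≠ 0) (h : X * B = Y * B) : X = Y := by
  have h1 : X * B * B.adjugate = Y * B * B.adjugate := by rw [h]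
  rw [mul_assoc, mul_assoc, Matrix.mul_adjugate, Matrix.mul_smul, Matrix.mul_smul, mul_one,
    mul_one] at h1
  exact smul_cancel hB h1

theorem eq_jSub_mul {M : ℕ} {x y : GL (Fin 2) ℝ} {X Y : M2} (hx : (x : Matrix (Fin 2) (Fin 2) ℝ)
    = castR X) (hy : (y : Matrix (Fin 2) (Fin 2) ℝ) = castR Y) (γ : Gamma1 M)
    (h : X = ((γ : SL(2, ℤ)) : M2) * Y) : x = jSub (Gamma1 M) γ * y := by
  apply Units.ext
  rw [Units.val_mul, hx, hy, coe_jSub, ← map_mul, h]

section Comm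

variable {M : ℕ} {p q : ℤ} {ι κ : Type*} {a : ι → GL (Fin 2) ℝ} {b : κ → GL (Fin 2) ℝ}
  {A : ι → M2} {B : κ → M2}

/-- Separation of the cosets of the products, for coprime degrees. -/
theorem sep_mul (hpq : IsCoprime p q) (hq0 : q ≠ 0)
    (ha : IsHeckeSystem (jSub (Gamma1 M)) a) (hb : IsHeckeSystem (jSub (Gamma1 M)) b)
    (Ha : IsDegSystem M p a A) (Hb : IsDegSystem M q b B)
    (i : ι) (k : κ) (i' : ι) (k' : κ) (γ : Gamma1 M)
    (e : a i * b k = jSub (Gamma1 M) γ * (a i' * b k')) : i = i' ∧ k = k' := by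
  -- the integer equation
  have E : A i * B k = ((γ : SL(2, ℤ)) : M2) * (A i' * B k') := by
    apply castR_injective
    have h1 := congrArg (fun g : GL (Fin 2) ℝ => (g : Matrix (Fin 2) (Fin 2) ℝ)) e
    simp only [Units.val_mul] at h1
    rw [map_mul, map_mul, map_mul, ← Ha.coe, ← Hb.coe, ← Ha.coe, ← Hb.coe, ← coe_jSub]
    exact h1
  -- `p • (B k * adj (B k')) = q • (adj (A i) * γ * A i')`
  have E1 : p • (B k * (B k').adjugate)
      = q • ((A i).adjugate * ((γ : SL(2, ℤ)) : M2) * A i') := by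
    have h1 : (A i).adjugate * (A i * B k) * (B k').adjugate
        = (A i).adjugate * (((γ : SL(2, ℤ)) : M2) * (A i' * B k')) * (B k').adjugate := by
      rw [E]
    rw [← mul_assoc, Matrix.adjugate_mul, Ha.det, Matrix.smul_mul, one_mul, Matrix.smul_mul] at h1
    rw [h1]
    have h2 : (A i).adjugate * (((γ : SL(2, ℤ)) : M2) * (A i' * B k')) * (B k').adjugate
        = (A i).adjugate * ((γ : SL(2, ℤ)) : M2) * A i' * (B k' * (B k').adjugate) := by
      simp only [mul_assoc]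
    rw [h2, Matrix.mul_adjugate, Hb.det, Matrix.mul_smul, mul_one]
  -- divide by `q`
  have hdvd : ∀ r c, q ∣ (B k * (B k').adjugate) r c := by
    intro r c
    have h1 := congrFun (congrFun E1 r) c
    rw [Matrix.smul_apply, Matrix.smul_apply, smul_eq_mul, smul_eq_mul] at h1
    exact hpq.symm.dvd_of_dvd_mul_left ⟨_, h1⟩
  choose Z hZ using hdvd
  have hX : B k * (B k').adjugate = q • (Matrix.of Z : M2) := by
    ext r c
    rw [hZ r c, Matrix.smul_apply, smul_eq_mul, Matrix.of_apply]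
  have hBk : B k = (Matrix.of Z : M2) * B k' := by
    have h1 : B k * (B k').adjugate * B k' = q • (Matrix.of Z : M2) * B k' := by rw [hX]
    rw [mul_assoc, Matrix.adjugate_mul, Hb.det, Matrix.mul_smul, mul_one, Matrix.smul_mul] at h1
    exact smul_cancel hq0 h1
  have hdetZ : (Matrix.of Z : M2).det = 1 := by
    have h1 := congrArg Matrix.det hBk
    rw [Matrix.det_mul, Hb.det, Hb.det] at h1
    have h2 : q * 1 = q * (Matrix.of Z : M2).det := by rw [mul_one, mul_comm]; exact h1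
    exact (mul_left_cancel₀ hq0 h2).symm
  let Zs : SL(2, ℤ) := ⟨Matrix.of Z, hdetZ⟩
  have hZs : Zs ∈ Gamma1 M := mem_Gamma1_of_shape Zs
    (shape_of_mul (A := B k') (by rw [← hBk]; exact Hb.shape k) (Hb.shape k'))
  have hk : k = k' := hb.sep k k' ⟨Zs, hZs⟩ (eq_jSub_mul (Hb.coe k) (Hb.coe k') ⟨Zs, hZs⟩ hBk)
  subst hk
  refine ⟨ha.sep i i' γ (eq_jSub_mul (Ha.coe i) (Ha.coe i') γ ?_), rfl⟩
  refine mul_right_cancel_det (B := B k) (by rw [Hb.det]; exact hq0) ?_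
  rw [E, mul_assoc]

/-- The swap property, for systems with the division property. -/
theorem swap_mul (hp0 : p ≠ 0) (hq0 : q ≠ 0)
    (Ha : IsDegSystem M p a A) (Hb : IsDegSystem M q b B) (i : ι) (k : κ) :
    ∃ (k' : κ) (i' : ι) (γ : Gamma1 M), a i * b k = jSub (Gamma1 M) γ * (b k' * a i') := by
  have hdet : (A i * B k).det = p * q := by rw [Matrix.det_mul, Ha.det, Hb.det]
  obtain ⟨i', h, hg⟩ := Ha.div (A i * B k) ⟨q, hdet⟩
  have hdeth : h.det = q := by
    have h1 := congrArg Matrix.det hg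
    rw [hdet, Matrix.det_mul, Ha.det] at h1
    have h2 : p * q = p * h.det := by rw [h1, mul_comm]
    exact (mul_left_cancel₀ hp0 h2).symm
  obtain ⟨k', γ, hh⟩ := Hb.div h ⟨1, by rw [hdeth, mul_one]⟩
  have hdetγ : γ.det = 1 := by
    have h1 := congrArg Matrix.det hh
    rw [hdeth, Matrix.det_mul, Hb.det] at h1
    have h2 : q * 1 = q * γ.det := by rw [mul_one, mul_comm]; exact h1
    exact (mul_left_cancel₀ hq0 h2).symm
  have hshape_h : Shape M h :=
    shape_of_mul (A := A i') (by rw [← hg]; exact shape_mul (Ha.shape i) (Hb.shape k))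
      (Ha.shape i')
  have hshape_γ : Shape M γ :=
    shape_of_mul (A := B k') (by rw [← hh]; exact hshape_h) (Hb.shape k')
  let γs : SL(2, ℤ) := ⟨γ, hdetγ⟩
  have hγs : γs ∈ Gamma1 M := mem_Gamma1_of_shape γs hshape_γ
  refine ⟨k', i', ⟨γs, hγs⟩, ?_⟩
  apply Units.ext
  rw [Units.val_mul, Units.val_mul, Units.val_mul, Ha.coe, Hb.coe, Ha.coe, Hb.coe, coe_jSub,
    ← map_mul, ← map_mul, ← map_mul, hg, hh, mul_assoc]

variable {C : Type*} [AddCommGroup C] [Fintype ι] [Fintype κ]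

/-- **Hecke operators of coprime degrees commute** on `Hom(Γ₁(M), C)`. -/
theorem hecke_comm_of_coprime (hpq : IsCoprime p q) (hp0 : p ≠ 0) (hq0 : q ≠ 0)
    (ha : IsHeckeSystem (jSub (Gamma1 M)) a) (hb : IsHeckeSystem (jSub (Gamma1 M)) b)
    (Ha : IsDegSystem M p a A) (Hb : IsDegSystem M q b B) (φ : Additive (Gamma1 M) →+ C) :
    ha.hecke (hb.hecke φ) = hb.hecke (ha.hecke φ) :=
  Fermat.Agent.G1.HeckeComm.hecke_comm_of_exists ha hb (swap_mul hp0 hq0 Ha Hb)
    (sep_mul hpq hq0 ha hb Ha Hb) φ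

end Comm

end Fermat.Agent.G1.HeckeDegSys
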