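import Mathlib
import Fermat.Agent.ESJ.ParHom.Hecke

/-!
# G1: products of Hecke systems and commutation of Hecke operators on `Hom(Γ, A)`

Setting of `ESJ/ParHom/Hecke.lean`: `j : Γ →* G` injective, `a : ι → G` a Hecke system
(`IsHeckeSystem j a`), `h.hecke φ` the transfer operator on `Additive Γ →+ A`.

* `isHeckeSystem_mul` : if the product family `(k, i) ↦ b k * a i` of two Hecke systems is
  separated, it is a Hecke system;
* `hecke_mul` : its operator is the composite `ha.hecke ∘ hb.hecke`;
* `hecke_comm_of_cover` : if both product families are Hecke systems and every `a i * b k`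
  lies in some `j(Γ) * (b k' * a i')`, the two operators commute;
* `hecke_comm_single` : the case of a one-element system `{s}` (`s` normalising `j(Γ)`).
-/

set_option autoImplicit false

namespace Fermat.Agent.G1

open Fermat.Agent.ESJ.ParHom

noncomputable section

variable {Γ G : Type*} [Group Γ] [Group G] {j : Γ →* G} {ι κ : Type*} {a : ι → G} {b : κ → G}

/-- The product family of two Hecke systems is a Hecke system as soon as it is separated. -/
theorem isHeckeSystem_mul (ha : IsHeckeSystem j a) (hb : IsHeckeSystem j b)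
    (hsep : ∀ (m m' : κ × ι) (γ : Γ), b m.1 * a m.2 = j γ * (b m'.1 * a m'.2) → m = m') :
    IsHeckeSystem j (fun m : κ × ι => b m.1 * a m.2) where
  inj := ha.inj
  sep := hsep
  stab γ m := ⟨(hb.perm (ha.coc γ m.2) m.1, ha.perm γ m.2), hb.coc (ha.coc γ m.2) m.1, by
    show b m.1 * a m.2 * j γ = j _ * (b _ * a _)
    rw [mul_assoc, ha.spec γ m.2, ← mul_assoc, hb.spec, mul_assoc]⟩

section Hom

variable {A : Type*} [AddCommGroup A] [Fintype ι] [Fintype κ]

/-- The operator of the product system `(k, i) ↦ b k * a i` is `T_a ∘ T_b`. -/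
theorem hecke_mul (ha : IsHeckeSystem j a) (hb : IsHeckeSystem j b)
    (hab : IsHeckeSystem j (fun m : κ × ι => b m.1 * a m.2)) (φ : Additive Γ →+ A) :
    hab.hecke φ = ha.hecke (hb.hecke φ) := by
  refine AddMonoidHom.ext fun γ => ?_
  obtain ⟨γ, rfl⟩ := Additive.ofMul.surjective γ
  rw [hab.hecke_apply_of φ γ (fun m => (hb.perm (ha.coc γ m.2) m.1, ha.perm γ m.2))
    (fun m => hb.coc (ha.coc γ m.2) m.1) (by
      intro m
      show b m.1 * a m.2 * j γ = j _ * (b _ * a _)
      rw [mul_assoc, ha.spec γ m.2, ← mul_assoc, hb.spec, mul_assoc])]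
  rw [ha.hecke_apply, Fintype.sum_prod_type_right]
  refine Finset.sum_congr rfl fun i _ => ?_
  rw [hb.hecke_apply]

/-- **Commutation of Hecke operators.**  If both product families are Hecke systems and every
product `a i * b k` lies in a coset `j(Γ) * (b k' * a i')`, then `T_a T_b = T_b T_a` on
`Hom(Γ, A)` for every coefficient group `A`. -/
theorem hecke_comm_of_cover (ha : IsHeckeSystem j a) (hb : IsHeckeSystem j b)
    (hab : IsHeckeSystem j (fun m : κ × ι => b m.1 * a m.2))
    (hba : IsHeckeSystem j (fun m : ι × κ => a m.1 * b m.2))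
    (hcov : ∀ (i : ι) (k : κ), ∃ (k' : κ) (i' : ι) (γ : Γ), a i * b k = j γ * (b k' * a i'))
    (φ : Additive Γ →+ A) : ha.hecke (hb.hecke φ) = hb.hecke (ha.hecke φ) := by
  classical
  rw [← hecke_mul ha hb hab, ← hecke_mul hb ha hba]
  choose k' i' g hg using hcov
  let f : ι × κ → κ × ι := fun m => (k' m.1 m.2, i' m.1 m.2)
  have hf : Function.Injective f := by
    intro m m' h
    apply hba.sep m m' (g m.1 m.2 * (g m'.1 m'.2)⁻¹)
    show a m.1 * b m.2 = j _ * (a m'.1 * b m'.2)
    have h1 : k' m.1 m.2 = k' m'.1 m'.2 := congrArg Prod.fst h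
    have h2 : i' m.1 m.2 = i' m'.1 m'.2 := congrArg Prod.snd h
    rw [hg m.1 m.2, hg m'.1 m'.2, map_mul, map_inv, h1, h2]
    group
  have hbij : Function.Bijective f := by
    rw [Fintype.bijective_iff_injective_and_card]
    exact ⟨hf, by rw [Fintype.card_prod, Fintype.card_prod, mul_comm]⟩
  exact (hab.hecke_eq_of_reps hba (Equiv.ofBijective f hbij) (fun m => g m.1 m.2)
    (fun m => hg m.1 m.2) φ).symm

omit [Fintype κ] in
/-- **Commutation with a one-element system** `{s}` (a "diamond"), `s` normalising `j(Γ)`. -/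
theorem hecke_comm_single (ha : IsHeckeSystem j a) {s : G}
    (hs : IsHeckeSystem j (fun _ : Unit => s)) (hs' : ∀ γ : Γ, ∃ γ' : Γ, j γ * s = s * j γ')
    (hcov : ∀ i : ι, ∃ (i' : ι) (γ : Γ), a i * s = j γ * (s * a i'))
    (φ : Additive Γ →+ A) : ha.hecke (hs.hecke φ) = hs.hecke (ha.hecke φ) := by
  have hab : IsHeckeSystem j (fun m : Unit × ι => (fun _ : Unit => s) m.1 * a m.2) :=
    isHeckeSystem_mul ha hs (by
      intro m m' γ e
      obtain ⟨γ', hγ'⟩ := hs' γ
      have e' : a m.2 = j γ' * a m'.2 := by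
        have e2 : s * a m.2 = s * (j γ' * a m'.2) := by
          rw [← mul_assoc, ← hγ', mul_assoc]
          exact e
        exact mul_left_cancel e2
      exact Prod.ext rfl (ha.sep _ _ _ e'))
  have hba : IsHeckeSystem j (fun m : ι × Unit => a m.1 * (fun _ : Unit => s) m.2) :=
    isHeckeSystem_mul hs ha (by
      intro m m' γ e
      have e' : a m.1 = j γ * a m'.1 := by
        have e2 : a m.1 * s = j γ * a m'.1 * s := by
          rw [mul_assoc]
          exact e
        exact mul_right_cancel e2
      exact Prod.ext (ha.sep _ _ _ e') rfl)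
  exact hecke_comm_of_cover ha hs hab hba
    (fun i _ => by
      obtain ⟨i', γ, e⟩ := hcov i
      exact ⟨(), i', γ, e⟩) φ

end Hom

end

end Fermat.Agent.G1
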