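/-
G1 / INERT (helper13): the abstract core of "the Gauss valuation is inert in `F1(M)/F0(M)`"
(= irreducibility of `X_1(M)` modulo `p`), through the Hecke correspondence at an auxiliary
prime `m`.  Pure field theory, Mathlib only.

Dictionary with the plan (report G1 PLAN v1, §5).  `E0` = residue field of `F0(M')`,
`K = k((q))`, `K' = k((q^{1/m}))`;
`ξ = x̄_1`, `ξm = x̄_{m^{∓1}}`, `ξ'` = the image of `x̄_1` in `K'`;
`θ = j̄(q^m)` (generator of the residue field of `F0(M' m)` over `E0`, minimal polynomial `Ψ`),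
`θ' = j̄(ζ^b q^{1/m})` its conjugate; `V` = `q ↦ q^m`, `S` = `q ↦ ζ^b q^{1/m}`;
`G(X, Y)` = the polynomial with `V x̄_1 = G(x̄_1, θ)` and `x̄_{m^{∓1}}(ζ^b q^{1/m}) = G(x̄_1, θ')`.

* `ev2 x y` : evaluation of a polynomial in two variables (inner variable `↦ x`,
  outer variable `↦ y`).
* `step` : every polynomial relation over `E0` satisfied by `ξ` is satisfied by `ξm`.
* `hind_of_factor` : the linear-disjointness hypothesis of `step` from the factorisation of
  `Ψ` over `K` and a degree inequality.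
* `linearIndependent_pow_of_roots` : if all `ξ i` satisfy the relations of `ξ i₀`, then
  `1, ξ i₀, …, ξ i₀ ^ (n-1)` are `E0`-linearly independent (`n` = number of the `ξ i`).
-/
import Mathlib

set_option autoImplicit false

open Polynomial

noncomputable section

namespace Fermat.Agent.G1.InertAbs

variable {E0 : Type*} [Field E0]

/-- Evaluation of a two-variable polynomial `p ∈ E0[X][Y]`: the inner variable goes to `x`,
the outer one to `y`. -/
def ev2 {A : Type*} [CommRing A] [Algebra E0 A] (x y : A) : E0[X][X] →+* A :=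
  Polynomial.eval₂RingHom ((Polynomial.aeval x : E0[X] →ₐ[E0] A) : E0[X] →+* A) y

theorem ev2_apply {A : Type*} [CommRing A] [Algebra E0 A] (x y : A) (p : E0[X][X]) :
    ev2 x y p = p.eval₂ ((Polynomial.aeval x : E0[X] →ₐ[E0] A) : E0[X] →+* A) y := rfl

theorem ev2_map_C {A : Type*} [CommRing A] [Algebra E0 A] (x y : A) (g : E0[X]) :
    ev2 x y (g.map (C : E0 →+* E0[X])) = aeval y g := by
  rw [ev2_apply, Polynomial.eval₂_map, Polynomial.aeval_def]
  congr 1
  ext a
  simp

theorem ev2_eq_sum {A : Type*} [CommRing A] [Algebra E0 A] (x y : A) (p : E0[X][X]) :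
    ev2 x y p = ∑ j ∈ Finset.range (p.natDegree + 1), aeval x (p.coeff j) * y ^ j := by
  rw [ev2_apply, Polynomial.eval₂_eq_sum_range]
  rfl

/-- **INERT, Hecke step.**  See the header for the dictionary. -/
theorem step {K K' : Type*} [Field K] [Field K'] [Algebra E0 K] [Algebra E0 K']
    (ξ θ ξm : K) (ξ' θ' : K') (V : K →+* K) (S : K →+* K')
    (Ψ : E0[X]) (hΨm : Ψ.Monic) (hΨθ : aeval θ Ψ = 0) (hΨθ' : aeval θ' Ψ = 0)
    (hV : ∀ f : E0, ∃ g : E0[X],
      aeval θ g = V (algebraMap E0 K f) ∧ aeval θ' g = S (algebraMap E0 K f))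
    (G : E0[X][X]) (hG : ev2 ξ θ G = V ξ) (hG' : ev2 ξ' θ' G = S ξm)
    (hind : ∀ H : E0[X][X], H.natDegree < Ψ.natDegree → ev2 ξ θ H = 0 →
      ∀ j, aeval ξ (H.coeff j) = 0)
    (hι : ∀ Q : E0[X], aeval ξ Q = 0 → aeval ξ' Q = 0)
    (Q : E0[X]) (hQ : aeval ξ Q = 0) : aeval ξm Q = 0 := by
  classical
  choose g hg hg' using hV
  -- the two-variable polynomial `H₀(X, Y) = ∑ g_k(Y) G(X, Y)^k`
  set H₀ : E0[X][X] :=
    ∑ k ∈ Finset.range (Q.natDegree + 1), (g (Q.coeff k)).map (C : E0 →+* E0[X]) * G ^ k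
    with hH₀
  have h1 : ev2 ξ θ H₀ = V (aeval ξ Q) := by
    rw [hH₀, map_sum, Polynomial.aeval_eq_sum_range, map_sum]
    refine Finset.sum_congr rfl fun k _ => ?_
    rw [map_mul, map_pow, ev2_map_C, hg, hG, Algebra.smul_def, map_mul, map_pow]
  have h2 : ev2 ξ' θ' H₀ = S (aeval ξm Q) := by
    rw [hH₀, map_sum, Polynomial.aeval_eq_sum_range, map_sum]
    refine Finset.sum_congr rfl fun k _ => ?_
    rw [map_mul, map_pow, ev2_map_C, hg', hG', Algebra.smul_def, map_mul, map_pow]
  -- division by `Ψ(Y)`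
  set Ψ' : E0[X][X] := Ψ.map (C : E0 →+* E0[X]) with hΨ'
  have hΨ'm : Ψ'.Monic := hΨm.map _
  have hΨne : Ψ ≠ 1 := by
    rintro rfl
    simp at hΨθ
  have hΨ'ne : Ψ' ≠ 1 := by
    intro h
    apply hΨne
    have h3 : Ψ.map (C : E0 →+* E0[X]) = (1 : E0[X]).map (C : E0 →+* E0[X]) := by
      rw [← hΨ', h, Polynomial.map_one]
    exact Polynomial.map_injective _ C_injective h3
  have hΨ'deg : Ψ'.natDegree = Ψ.natDegree :=
    Polynomial.natDegree_map_eq_of_injective C_injective Ψ
  set H : E0[X][X] := H₀ %ₘ Ψ' with hH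
  have hdecomp : H + Ψ' * (H₀ /ₘ Ψ') = H₀ := Polynomial.modByMonic_add_div H₀ Ψ'
  have hHdeg : H.natDegree < Ψ.natDegree := by
    rw [← hΨ'deg]
    exact Polynomial.natDegree_modByMonic_lt H₀ hΨ'm hΨ'ne
  have h3 : ev2 ξ θ H = 0 := by
    have h4 := congrArg (ev2 ξ θ) hdecomp
    rw [map_add, map_mul, hΨ', ev2_map_C, hΨθ, zero_mul, add_zero, h1, hQ, map_zero] at h4
    exact h4
  have h5 : ev2 ξ' θ' H = 0 := by
    rw [ev2_eq_sum]
    refine Finset.sum_eq_zero fun j _ => ?_
    rw [hι _ (hind H hHdeg h3 j), zero_mul]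
  have h6 : S (aeval ξm Q) = 0 := by
    have h4 := congrArg (ev2 ξ' θ') hdecomp
    rw [map_add, map_mul, hΨ', ev2_map_C, hΨθ', zero_mul, add_zero, h5, h2] at h4
    exact h4.symm
  exact (map_eq_zero S).mp h6

/-- **Linear disjointness** in the form needed by `step`: if over `K` the minimal polynomial
of `θ` over `E0` factors as `(X - θ) · Ψ₂` with `Ψ₂` irreducible, and `ξ` has smaller degree
than `θ` over `E0`, then `1, θ, …, θ^(d-1)` (`d = deg θ`) are linearly independent over
`E0(ξ)`. -/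
theorem hind_of_factor {K : Type*} [Field K] [Algebra E0 K] (ξ θ : K)
    (hξ : IsIntegral E0 ξ) (hθ : IsIntegral E0 θ) (Ψ₂ : K[X])
    (hΨ : (minpoly E0 θ).map (algebraMap E0 K) = (X - C θ) * Ψ₂) (hirr : Irreducible Ψ₂)
    (hdeg : (minpoly E0 ξ).natDegree < (minpoly E0 θ).natDegree) :
    ∀ H : E0[X][X], H.natDegree < (minpoly E0 θ).natDegree → ev2 ξ θ H = 0 →
      ∀ j, aeval ξ (H.coeff j) = 0 := by
  classical
  set E' := IntermediateField.adjoin E0 ({ξ} : Set K) with hE'
  have : FiniteDimensional E0 E' := IntermediateField.adjoin.finiteDimensional hξ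
  have hθ' : IsIntegral E' θ := hθ.tower_top
  set μ' := minpoly E' θ with hμ'
  have hμ'm : μ'.Monic := minpoly.monic hθ'
  -- the degree of `θ` over `E'` is its degree over `E0`
  have hdegμ : μ'.natDegree = (minpoly E0 θ).natDegree := by
    have hdvd : μ' ∣ (minpoly E0 θ).map (algebraMap E0 E') :=
      minpoly.dvd_map_of_isScalarTower E0 E' θ
    set D : K[X] := μ'.map (algebraMap E' K) with hD
    have hDm : D.Monic := hμ'm.map _
    have hDdvd : D ∣ (X - C θ) * Ψ₂ := by
      rw [← hΨ, IsScalarTower.algebraMap_eq E0 E' K, ← Polynomial.map_map]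
      exact Polynomial.map_dvd _ hdvd
    have hDroot : D.eval θ = 0 := by
      rw [hD, Polynomial.eval_map, ← Polynomial.aeval_def]
      exact minpoly.aeval E' θ
    obtain ⟨D', hD'⟩ : (X - C θ) ∣ D := Polynomial.dvd_iff_isRoot.mpr hDroot
    have hXne : (X - C θ : K[X]) ≠ 0 := Polynomial.X_sub_C_ne_zero θ
    have hD'dvd : D' ∣ Ψ₂ := by
      rw [hD'] at hDdvd
      exact (mul_dvd_mul_iff_left hXne).mp hDdvd
    have hDdeg : D.natDegree = μ'.natDegree :=
      Polynomial.natDegree_map_eq_of_injective (algebraMap E' K).injective μ'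
    have hD'ne : D' ≠ 0 := by
      rintro rfl
      rw [mul_zero] at hD'
      exact hDm.ne_zero hD'
    have hdegD : D.natDegree = 1 + D'.natDegree := by
      rw [hD', Polynomial.natDegree_mul hXne hD'ne, Polynomial.natDegree_X_sub_C]
    have hΨ₂ne : Ψ₂ ≠ 0 := hirr.ne_zero
    have hdegΨ : (minpoly E0 θ).natDegree = 1 + Ψ₂.natDegree := by
      have h1 := congrArg Polynomial.natDegree hΨ
      rw [Polynomial.natDegree_map_eq_of_injective (algebraMap E0 K).injective,
        Polynomial.natDegree_mul hXne hΨ₂ne, Polynomial.natDegree_X_sub_C] at h1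
      exact h1
    rcases (hirr.dvd_iff).mp hD'dvd with hu | ha
    · -- `D'` is a unit: `θ ∈ E'`, impossible by degrees
      exfalso
      have h1 : D'.natDegree = 0 := Polynomial.natDegree_eq_zero_of_isUnit hu
      have h2 : μ'.natDegree = 1 := by rw [← hDdeg, hdegD, h1]
      have h3 : θ ∈ (algebraMap E' K).range := (minpoly.natDegree_eq_one_iff).mp h2
      obtain ⟨t, ht⟩ := h3
      have h4 : (minpoly E0 t).natDegree ≤ Module.finrank E0 E' := minpoly.natDegree_le t
      have h5 : minpoly E0 t = minpoly E0 θ := by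
        rw [← ht]
        exact (minpoly.algebraMap_eq (algebraMap E' K).injective t).symm
      have h6 : Module.finrank E0 E' = (minpoly E0 ξ).natDegree :=
        IntermediateField.adjoin.finrank hξ
      rw [h5, h6] at h4
      omega
    · have h1 : D'.natDegree = Ψ₂.natDegree :=
        (Polynomial.natDegree_eq_of_degree_eq (Polynomial.degree_eq_degree_of_associated ha)).symm
      rw [← hDdeg, hdegD, h1, hdegΨ]
  -- conclusion
  intro H hH hev j
  set φ : E0[X] →+* E' :=
    ((Polynomial.aeval (IntermediateField.AdjoinSimple.gen E0 ξ) : E0[X] →ₐ[E0] E') :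
      E0[X] →+* E') with hφ
  have hφ' : ∀ p : E0[X], algebraMap E' K (φ p) = aeval ξ p := by
    intro p
    rw [hφ]
    change algebraMap E' K (aeval (IntermediateField.AdjoinSimple.gen E0 ξ) p) = aeval ξ p
    rw [← Polynomial.aeval_algebraMap_apply, IntermediateField.AdjoinSimple.algebraMap_gen]
  set h : E'[X] := H.map φ with hh
  have hh0 : aeval θ h = 0 := by
    rw [hh, Polynomial.aeval_def, Polynomial.eval₂_map, ← hev, ev2_apply]
    congr 1
    ext p
    · simp [hφ']
    · simp [hφ']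
  have hhz : h = 0 := by
    by_contra hne
    have h1 : μ'.natDegree ≤ h.natDegree :=
      Polynomial.natDegree_le_natDegree (minpoly.degree_le_of_ne_zero E' θ hne hh0)
    have h2 : h.natDegree ≤ H.natDegree := Polynomial.natDegree_map_le
    omega
  have h1 : φ (H.coeff j) = 0 := by
    have h2 := congrArg (fun p : E'[X] => p.coeff j) hhz
    simpa [hh, Polynomial.coeff_map] using h2
  rw [← hφ', h1, map_zero]

/-- If every `ξ i` satisfies all the polynomial relations over `E0` of `ξ i₀`, and the `ξ i`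
are pairwise distinct, then the first `n` powers of `ξ i₀` are `E0`-linearly independent,
`n` the number of indices. -/
theorem linearIndependent_pow_of_roots {K : Type*} [Field K] [Algebra E0 K] {ι : Type*}
    [Fintype ι] (ξ : ι → K) (hinj : Function.Injective ξ) (i₀ : ι)
    (h : ∀ i, ∀ Q : E0[X], aeval (ξ i₀) Q = 0 → aeval (ξ i) Q = 0) :
    LinearIndependent E0 (fun j : Fin (Fintype.card ι) => ξ i₀ ^ (j : ℕ)) := by
  classical
  rw [Fintype.linearIndependent_iff]
  intro c hc
  set Q : E0[X] := ∑ j : Fin (Fintype.card ι), C (c j) * X ^ (j : ℕ) with hQ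
  have hQ0 : aeval (ξ i₀) Q = 0 := by
    rw [hQ, map_sum, ← hc]
    refine Finset.sum_congr rfl fun j _ => ?_
    rw [map_mul, map_pow, aeval_C, aeval_X, Algebra.smul_def]
  have hdeg : Q.natDegree < Fintype.card ι := by
    rcases Nat.eq_zero_or_pos (Fintype.card ι) with h0 | hpos
    · exact (Fintype.card_eq_zero_iff.mp h0).elim i₀
    · have h1 : Q.degree < (Fintype.card ι : ℕ) := by
        rw [hQ]
        refine lt_of_le_of_lt (Polynomial.degree_sum_le _ _) ?_
        rw [Finset.sup_lt_iff (by exact WithBot.bot_lt_coe _)]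
        intro j _
        refine lt_of_le_of_lt (Polynomial.degree_C_mul_X_pow_le _ _) ?_
        exact_mod_cast j.2
      by_cases hQz : Q = 0
      · rw [hQz]; simpa using hpos
      · exact (Polynomial.natDegree_lt_iff_degree_lt hQz).mpr h1
  have hmap : Q.map (algebraMap E0 K) = 0 := by
    refine Polynomial.eq_zero_of_natDegree_lt_card_of_eval_eq_zero _ hinj (fun i => ?_) ?_
    · rw [Polynomial.eval_map, ← Polynomial.aeval_def]
      exact h i Q hQ0
    · exact lt_of_le_of_lt Polynomial.natDegree_map_le hdeg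
  have hQz : Q = 0 := Polynomial.map_injective _ (algebraMap E0 K).injective
    (by rw [hmap, Polynomial.map_zero])
  intro j
  have h1 := congrArg (fun p : E0[X] => p.coeff (j : ℕ)) hQz
  simp only [hQ, Polynomial.finsetSum_coeff, Polynomial.coeff_C_mul, Polynomial.coeff_X_pow,
    Polynomial.coeff_zero] at h1
  rw [Finset.sum_eq_single j] at h1
  · simpa using h1
  · intro b _ hb
    have : (j : ℕ) ≠ (b : ℕ) := fun h2 => hb (Fin.ext h2.symm)
    simp [this]
  · intro hj
    exact absurd (Finset.mem_univ j) hj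

/-- `step` with the linear-disjointness hypothesis discharged by `hind_of_factor`
(`Ψ` := the minimal polynomial of `θ` over `E0`). -/
theorem step_of_factor {K K' : Type*} [Field K] [Field K'] [Algebra E0 K] [Algebra E0 K']
    (ξ θ ξm : K) (ξ' θ' : K') (V : K →+* K) (S : K →+* K')
    (hξ : IsIntegral E0 ξ) (hθ : IsIntegral E0 θ) (Ψ₂ : K[X])
    (hΨ : (minpoly E0 θ).map (algebraMap E0 K) = (X - C θ) * Ψ₂) (hirr : Irreducible Ψ₂)
    (hdeg : (minpoly E0 ξ).natDegree < (minpoly E0 θ).natDegree)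
    (hΨθ' : aeval θ' (minpoly E0 θ) = 0)
    (hV : ∀ f : E0, ∃ g : E0[X],
      aeval θ g = V (algebraMap E0 K f) ∧ aeval θ' g = S (algebraMap E0 K f))
    (G : E0[X][X]) (hG : ev2 ξ θ G = V ξ) (hG' : ev2 ξ' θ' G = S ξm)
    (hι : ∀ Q : E0[X], aeval ξ Q = 0 → aeval ξ' Q = 0)
    (Q : E0[X]) (hQ : aeval ξ Q = 0) : aeval ξm Q = 0 :=
  step ξ θ ξm ξ' θ' V S (minpoly E0 θ) (minpoly.monic hθ) (minpoly.aeval E0 θ) hΨθ' hV G hG hG'
    (hind_of_factor ξ θ hξ hθ Ψ₂ hΨ hirr hdeg) hι Q hQ

/-- **INERT, assembled.**  A finite family of pairwise distinct elements `ξ i` such that for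
every `i` the relations of `ξ i₀` over `E0` are inherited by `ξ i` (each instance of this
hypothesis is an application of `step` / `step_of_factor` at a suitable auxiliary prime):
then `ξ i₀` has degree at least `#ι` over `E0`, in the form of linear independence of its
first `#ι` powers. -/
theorem inert {K : Type*} [Field K] [Algebra E0 K] {ι : Type*} [Fintype ι] (ξ : ι → K)
    (hinj : Function.Injective ξ) (i₀ : ι)
    (h : ∀ i, ∀ Q : E0[X], aeval (ξ i₀) Q = 0 → aeval (ξ i) Q = 0) :
    LinearIndependent E0 (fun j : Fin (Fintype.card ι) => ξ i₀ ^ (j : ℕ)) :=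
  linearIndependent_pow_of_roots ξ hinj i₀ h

end Fermat.Agent.G1.InertAbs
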