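import Mathlib
import Fermat.Prelude.Def_AlgebraicCurve_DivisorPushPull
import Fermat.Agent.S24.Counting

/-!
# G1 / DICT: places of a Galois extension of function fields

Pure function-field theory in the Prelude's `Place` vocabulary (no modular objects).

`K` a field, `F ⊆ F'` fields over `K` (`[Algebra F F'] [IsScalarTower K F F']`), and a finite
group `G` of `K`-algebra automorphisms of `F'` (a `Subgroup (F' ≃ₐ[K] F')`, or the range of a
homomorphism `δ : C →* (F' ≃ₐ[K] F')`) whose invariants lie in `F`.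

* `ord_smul_eq`, `restrict_smul`, `ramificationIndex_smul` : the action of `F' ≃ₐ[K] F'` on
  `Place K F'` (Prelude) and restriction to `F`.
* `exists_smul_eq_of_restrict_eq` : **transitivity** — two places of `F'` with the same
  restriction to `F` are `G`-conjugate.
* `mem_fiber_iff_exists_smul` : the fibre over `w.restrict F` is the `G`-orbit of `w`.
* `finrank_eq_card` : `[F' : F] = #G` (Artin).
* `ramificationIndex_eq_card_stabilizer` : `e(w | v) = #Stab_G(w)` when all inertia degrees are
  one and `∑ e f = [F' : F]`.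
* `card_dvd_ramificationIndex` : a subgroup fixing `w` has order dividing `e(w | v)`.
* the same statements for a homomorphism `δ : C →* (F' ≃ₐ[K] F')` (`…_hom`).
-/

set_option autoImplicit false

noncomputable section

namespace Fermat.Agent.G1.PlaceGalois

open AlgebraicCurve
open scoped Pointwise

variable {K F F' : Type*} [Field K] [Field F] [Field F']
  [Algebra K F] [Algebra K F'] [Algebra F F'] [IsScalarTower K F F']

/-! ### The action on places -/

/-- `(σ • w).ord f = w.ord (σ⁻¹ f)`. -/
theorem ord_smul_eq (σ : F' ≃ₐ[K] F') (w : Place K F') (f : F') :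
    (σ • w).ord f = w.ord (σ.symm f) := by
  have h := Place.ord_smul σ w (σ.symm f)
  rwa [AlgEquiv.apply_symm_apply] at h

/-- `w.ord (σ f) = (σ⁻¹ • w).ord f`. -/
theorem ord_apply_eq (σ : F' ≃ₐ[K] F') (w : Place K F') (f : F') :
    w.ord (σ f) = (σ⁻¹ • w).ord f := by
  have h := Place.ord_smul σ⁻¹ w (σ f)
  rw [← h]
  congr 1
  show σ.symm (σ f) = f
  exact σ.symm_apply_apply f

theorem mem_smul_iff (σ : F' ≃ₐ[K] F') (w : Place K F') (f : F') :
    f ∈ (σ • w).toValuationSubring ↔ σ.symm f ∈ w.toValuationSubring := by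
  rw [Place.smul_toValuationSubring, ValuationSubring.mem_pointwise_smul_iff_inv_smul_mem]
  rfl

omit [Algebra K F] [IsScalarTower K F F'] in
/-- An automorphism fixing `F` pointwise does not change the ramification index over `F`. -/
theorem ramificationIndex_smul (σ : F' ≃ₐ[K] F')
    (hσ : ∀ f : F, σ (algebraMap F F' f) = algebraMap F F' f) (w : Place K F') :
    (σ • w).ramificationIndex F = w.ramificationIndex F := by
  unfold Place.ramificationIndex
  congr 1
  ext n
  simp only [Set.mem_ofPred_eq]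
  have : ∀ f : F, (σ • w).ord (algebraMap F F' f) = w.ord (algebraMap F F' f) := by
    intro f
    rw [ord_smul_eq]
    congr 1
    rw [AlgEquiv.symm_apply_eq, hσ]
  simp only [this]

/-! ### Orders of products -/

theorem ord_prod {ι : Type*} (w : Place K F') (s : Finset ι) (g : ι → F')
    (hg : ∀ i ∈ s, g i ≠ 0) : w.ord (∏ i ∈ s, g i) = ∑ i ∈ s, w.ord (g i) := by
  classical
  induction s using Finset.induction_on with
  | empty => simp
  | insert a s ha ih =>
    rw [Finset.prod_insert ha, Finset.sum_insert ha,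
      w.ord_mul (hg a (Finset.mem_insert_self a s))
        (Finset.prod_ne_zero_iff.2 fun i hi => hg i (Finset.mem_insert_of_mem hi)),
      ih fun i hi => hg i (Finset.mem_insert_of_mem hi)]

/-! ### Transitivity -/

section Transitivity

variable [Algebra.IsIntegral F F']

/-- An automorphism fixing `F` pointwise does not change the restriction of a place to `F`. -/
theorem restrict_smul (σ : F' ≃ₐ[K] F')
    (hσ : ∀ f : F, σ (algebraMap F F' f) = algebraMap F F' f) (w : Place K F') :
    (σ • w).restrict F = w.restrict F := by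
  apply Place.ext
  ext f
  rw [Place.mem_restrict_iff, Place.mem_restrict_iff, mem_smul_iff]
  have : σ.symm (algebraMap F F' f) = algebraMap F F' f := by
    rw [AlgEquiv.symm_apply_eq, hσ]
  rw [this]

/-- **Transitivity.**  `G` a finite group of `K`-automorphisms of `F'` all of whose invariants
lie in `F`.  Two places of `F'` with the same restriction to `F` are `G`-conjugate. -/
theorem exists_smul_eq_of_restrict_eq (G : Subgroup (F' ≃ₐ[K] F')) [Finite G]
    (hfix : ∀ f' : F', (∀ σ ∈ G, σ f' = f') → f' ∈ (algebraMap F F').range)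
    {w w' : Place K F'} (h : w.restrict F = w'.restrict F) :
    ∃ σ ∈ G, σ • w = w' := by
  classical
  have := Fintype.ofFinite G
  by_contra hne
  push Not at hne
  set S : Finset (Place K F') :=
    (Finset.univ.image fun σ : G => (σ : F' ≃ₐ[K] F') • w) ∪
      ((Finset.univ.image fun σ : G => (σ : F' ≃ₐ[K] F') • w').erase w') with hS
  have hw'S : w' ∉ S := by
    rw [hS, Finset.mem_union, not_or]
    refine ⟨?_, Finset.notMem_erase _ _⟩
    simp only [Finset.mem_image, Finset.mem_univ, true_and, not_exists]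
    exact fun σ => hne σ σ.2
  obtain ⟨g, hg0, hgw', hgS⟩ := Fermat.Agent.S24.Counting.exists_ord_neg_pos w' S hw'S
  -- `f := 1 / (1 + g)` has a zero at `w'` and is a unit at every place of `S`
  have hraw := fun u : Place K F' => Fermat.Agent.S24.Counting.isRawVal_ord (K := K) u
  have h1g : g + 1 ≠ 0 := by
    intro h0
    have : g = -1 := eq_neg_of_add_eq_zero_left h0
    rw [this, (hraw w').map_neg one_ne_zero, w'.ord_one] at hgw'
    exact lt_irrefl _ hgw'
  set f : F' := (g + 1)⁻¹ with hf
  have hf0 : f ≠ 0 := inv_ne_zero h1g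
  have hfw' : 0 < w'.ord f := by
    have h1 : w'.ord (g + 1) = w'.ord g :=
      (hraw w').map_add_of_lt hg0 one_ne_zero (by rw [w'.ord_one]; exact hgw')
    rw [hf, w'.ord_inv, h1]
    omega
  have hfS : ∀ u ∈ S, u.ord f = 0 := by
    intro u hu
    have h1 : u.ord (1 + g) = u.ord 1 :=
      (hraw u).map_add_of_lt one_ne_zero hg0 (by rw [u.ord_one]; exact hgS u hu)
    rw [hf, u.ord_inv, add_comm, h1, u.ord_one, neg_zero]
  -- the norm
  set N : F' := ∏ σ : G, (σ : F' ≃ₐ[K] F') f with hN
  have hNfix : ∀ τ ∈ G, τ N = N := by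
    intro τ hτ
    rw [hN, map_prod]
    exact Fintype.prod_equiv (Equiv.mulLeft (⟨τ, hτ⟩ : G)) _ _ fun σ => rfl
  obtain ⟨n, hn⟩ := hfix N hNfix
  have hσf0 : ∀ σ : G, (σ : F' ≃ₐ[K] F') f ≠ 0 := fun σ =>
    (EmbeddingLike.map_ne_zero_iff (f := (σ : F' ≃ₐ[K] F'))).2 hf0
  have hordN : ∀ u : Place K F', u.ord N = ∑ σ : G, ((σ : F' ≃ₐ[K] F')⁻¹ • u).ord f := by
    intro u
    rw [hN, ord_prod u Finset.univ _ fun σ _ => hσf0 σ]
    exact Finset.sum_congr rfl fun σ _ => ord_apply_eq _ _ _
  have hwN : w.ord N = 0 := by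
    rw [hordN]
    refine Finset.sum_eq_zero fun σ _ => hfS _ ?_
    rw [hS, Finset.mem_union]
    left
    exact Finset.mem_image.2 ⟨σ⁻¹, Finset.mem_univ _, rfl⟩
  have hw'N : 0 < w'.ord N := by
    rw [hordN]
    have hnn : ∀ σ : G, 0 ≤ ((σ : F' ≃ₐ[K] F')⁻¹ • w').ord f := by
      intro σ
      by_cases hσ : (σ : F' ≃ₐ[K] F')⁻¹ • w' = w'
      · rw [hσ]
        exact hfw'.le
      · refine (hfS _ ?_).ge
        rw [hS, Finset.mem_union]
        right
        exact Finset.mem_erase.2 ⟨hσ, Finset.mem_image.2 ⟨σ⁻¹, Finset.mem_univ _, rfl⟩⟩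
    have h1 : ((((1 : G) : F' ≃ₐ[K] F'))⁻¹ • w').ord f ≤
        ∑ σ : G, ((σ : F' ≃ₐ[K] F')⁻¹ • w').ord f :=
      Finset.single_le_sum (f := fun σ : G => ((σ : F' ≃ₐ[K] F')⁻¹ • w').ord f)
        (fun σ _ => hnn σ) (Finset.mem_univ 1)
    have h2 : ((((1 : G) : F' ≃ₐ[K] F'))⁻¹ • w').ord f = w'.ord f := by
      rw [OneMemClass.coe_one, inv_one, one_smul]
    omega
  -- but `N` comes from `F`, where `w` and `w'` restrict to the same place
  rw [← hn, Place.ord_restrict] at hwN hw'N
  have he : 0 < (w.ramificationIndex F : ℤ) := by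
    exact_mod_cast w.ramificationIndex_pos (F := F)
  have h0 : (w.restrict F).ord n = 0 := by
    rcases mul_eq_zero.1 hwN with h' | h'
    · omega
    · exact h'
  rw [← h, h0, mul_zero] at hw'N
  exact lt_irrefl _ hw'N

/-- The fibre over `w.restrict F` is the `G`-orbit of `w` (set form, no finiteness of the fibre
needed). -/
theorem restrict_eq_iff_exists_smul (G : Subgroup (F' ≃ₐ[K] F')) [Finite G]
    (hG : ∀ σ ∈ G, ∀ f : F, σ (algebraMap F F' f) = algebraMap F F' f)
    (hfix : ∀ f' : F', (∀ σ ∈ G, σ f' = f') → f' ∈ (algebraMap F F').range)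
    (w w' : Place K F') :
    w'.restrict F = w.restrict F ↔ ∃ σ ∈ G, σ • w = w' := by
  constructor
  · intro h
    exact exists_smul_eq_of_restrict_eq G hfix h.symm
  · rintro ⟨σ, hσ, rfl⟩
    exact restrict_smul σ (hG σ hσ) w

/-- Transitivity for a homomorphism `δ : C →* (F' ≃ₐ[K] F')` from a finite group. -/
theorem exists_smul_eq_of_restrict_eq_hom {C : Type*} [Group C] [Finite C]
    (δ : C →* (F' ≃ₐ[K] F'))
    (hfix : ∀ f' : F', (∀ c : C, δ c f' = f') → f' ∈ (algebraMap F F').range)
    {w w' : Place K F'} (h : w.restrict F = w'.restrict F) :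
    ∃ c : C, δ c • w = w' := by
  have : Finite δ.range := Set.finite_range δ
  obtain ⟨σ, ⟨c, rfl⟩, hσ⟩ := exists_smul_eq_of_restrict_eq δ.range
    (fun f' hf' => hfix f' fun c => hf' _ ⟨c, rfl⟩) h
  exact ⟨c, hσ⟩

end Transitivity

/-! ### Artin: the degree -/

omit [Algebra K F] [IsScalarTower K F F'] in
/-- **Artin.**  `[F' : F] = #G` for a finite group `G` of automorphisms of `F'` fixing `F`
pointwise, all of whose invariants lie in `F`. -/
theorem finrank_eq_card (G : Subgroup (F' ≃ₐ[K] F')) [Finite G]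
    (hG : ∀ σ ∈ G, ∀ f : F, σ (algebraMap F F' f) = algebraMap F F' f)
    (hfix : ∀ f' : F', (∀ σ ∈ G, σ f' = f') → f' ∈ (algebraMap F F').range) :
    Module.finrank F F' = Nat.card G := by
  classical
  have := Fintype.ofFinite G
  rw [Nat.card_eq_fintype_card, ← FixedPoints.finrank_eq_card G F']
  -- `F` is isomorphic to the fixed field
  let φ : F →+* FixedPoints.subfield G F' :=
    (algebraMap F F').codRestrict (FixedPoints.subfield G F') fun f σ => hG σ σ.2 f
  have hφ : Function.Bijective φ := by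
    constructor
    · intro a b hab
      exact (algebraMap F F').injective (congrArg Subtype.val hab)
    · rintro ⟨x, hx⟩
      obtain ⟨f, rfl⟩ := hfix x fun σ hσ => hx ⟨σ, hσ⟩
      exact ⟨f, rfl⟩
  exact Algebra.finrank_eq_of_equiv_equiv (RingEquiv.ofBijective φ hφ) (RingEquiv.refl F') rfl

/-! ### The fibre and the ramification index -/

section Fibre

variable [Algebra.IsIntegral F F'] [HasPrincipalDivisors K F']

/-- The fibre over `w.restrict F` is the `G`-orbit of `w`. -/
theorem mem_fiber_iff_exists_smul (G : Subgroup (F' ≃ₐ[K] F')) [Finite G]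
    (hG : ∀ σ ∈ G, ∀ f : F, σ (algebraMap F F' f) = algebraMap F F' f)
    (hfix : ∀ f' : F', (∀ σ ∈ G, σ f' = f') → f' ∈ (algebraMap F F').range)
    (w w' : Place K F') :
    w' ∈ (w.restrict F).fiber F' ↔ ∃ σ ∈ G, σ • w = w' := by
  rw [Place.mem_fiber]
  exact restrict_eq_iff_exists_smul G hG hfix w w'

/-- `#(fibre) · #Stab_G(w) = #G`. -/
theorem card_fiber_mul_card_stabilizer (G : Subgroup (F' ≃ₐ[K] F')) [Finite G]
    (hG : ∀ σ ∈ G, ∀ f : F, σ (algebraMap F F' f) = algebraMap F F' f)
    (hfix : ∀ f' : F', (∀ σ ∈ G, σ f' = f') → f' ∈ (algebraMap F F').range)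
    (w : Place K F') :
    ((w.restrict F).fiber F').card * Nat.card (MulAction.stabilizer G w) = Nat.card G := by
  classical
  have hset : (((w.restrict F).fiber F' : Finset (Place K F')) : Set (Place K F'))
      = MulAction.orbit G w := by
    ext w'
    rw [Finset.mem_coe, mem_fiber_iff_exists_smul G hG hfix, MulAction.mem_orbit_iff]
    constructor
    · rintro ⟨σ, hσ, rfl⟩
      exact ⟨⟨σ, hσ⟩, rfl⟩
    · rintro ⟨σ, rfl⟩
      exact ⟨σ, σ.2, rfl⟩
  have h1 : ((w.restrict F).fiber F').card = Nat.card (MulAction.orbit G w) := by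
    rw [← hset, Nat.card_coe_set_eq, Set.ncard_coe_finset]
  rw [h1, ← Nat.card_prod]
  exact Nat.card_congr (MulAction.orbitProdStabilizerEquivGroup G w)

/-- **`e(w | v) = #Stab_G(w)`** when all inertia degrees are one (e.g. `K` algebraically closed)
and `∑ e f = [F' : F]`. -/
theorem ramificationIndex_eq_card_stabilizer [SumRamificationInertia K F F']
    (G : Subgroup (F' ≃ₐ[K] F')) [Finite G]
    (hG : ∀ σ ∈ G, ∀ f : F, σ (algebraMap F F' f) = algebraMap F F' f)
    (hfix : ∀ f' : F', (∀ σ ∈ G, σ f' = f') → f' ∈ (algebraMap F F').range)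
    (hdeg : ∀ u : Place K F', u.inertiaDeg F = 1) (w : Place K F') :
    w.ramificationIndex F = Nat.card (MulAction.stabilizer G w) := by
  classical
  have hsum := SumRamificationInertia.sum_ramificationIndex_mul_inertiaDeg
    (K := K) (F := F) (F' := F') (w.restrict F)
  have hconst : ∀ u ∈ (w.restrict F).fiber F',
      (u.ramificationIndex F : ℤ) * (u.inertiaDeg F : ℤ) = (w.ramificationIndex F : ℤ) := by
    intro u hu
    obtain ⟨σ, hσ, rfl⟩ := (mem_fiber_iff_exists_smul G hG hfix w u).1 hu
    rw [hdeg, ramificationIndex_smul σ (hG σ hσ)]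
    simp
  rw [Finset.sum_congr rfl hconst, Finset.sum_const, nsmul_eq_mul, finrank_eq_card G hG hfix,
    ← card_fiber_mul_card_stabilizer G hG hfix w] at hsum
  have hpos : 0 < ((w.restrict F).fiber F').card :=
    Finset.card_pos.2 ⟨w, Place.restrict_mem_fiber w⟩
  have hsum' : ((w.restrict F).fiber F').card * w.ramificationIndex F
      = ((w.restrict F).fiber F').card * Nat.card (MulAction.stabilizer G w) := by
    exact_mod_cast hsum
  exact Nat.eq_of_mul_eq_mul_left hpos hsum'

/-- The number of places over `w.restrict F` times `e(w | v)` is `#G`. -/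
theorem card_fiber_mul_ramificationIndex [SumRamificationInertia K F F']
    (G : Subgroup (F' ≃ₐ[K] F')) [Finite G]
    (hG : ∀ σ ∈ G, ∀ f : F, σ (algebraMap F F' f) = algebraMap F F' f)
    (hfix : ∀ f' : F', (∀ σ ∈ G, σ f' = f') → f' ∈ (algebraMap F F').range)
    (hdeg : ∀ u : Place K F', u.inertiaDeg F = 1) (w : Place K F') :
    ((w.restrict F).fiber F').card * w.ramificationIndex F = Nat.card G := by
  rw [ramificationIndex_eq_card_stabilizer G hG hfix hdeg w,
    card_fiber_mul_card_stabilizer G hG hfix w]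

/-- A finite set of elements of `G` fixing `w` which is closed under multiplication… in the
form used by the dictionary: a subgroup `D ≤ G` fixing `w` has order dividing `e(w | v)`. -/
theorem card_dvd_ramificationIndex [SumRamificationInertia K F F']
    (G : Subgroup (F' ≃ₐ[K] F')) [Finite G]
    (hG : ∀ σ ∈ G, ∀ f : F, σ (algebraMap F F' f) = algebraMap F F' f)
    (hfix : ∀ f' : F', (∀ σ ∈ G, σ f' = f') → f' ∈ (algebraMap F F').range)
    (hdeg : ∀ u : Place K F', u.inertiaDeg F = 1) (w : Place K F')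
    (D : Subgroup (F' ≃ₐ[K] F')) (hDG : D ≤ G) (hD : ∀ σ ∈ D, σ • w = w) :
    Nat.card D ∣ w.ramificationIndex F := by
  rw [ramificationIndex_eq_card_stabilizer G hG hfix hdeg w]
  -- `D` embeds into the stabiliser as a subgroup
  let D' : Subgroup (MulAction.stabilizer G w) :=
    D.comap ((Subgroup.subtype G).comp (Subgroup.subtype (MulAction.stabilizer G w)))
  have hcard : Nat.card D' = Nat.card D := by
    refine Nat.card_congr
      { toFun := fun x => ⟨((x : MulAction.stabilizer G w) : G), x.2⟩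
        invFun := fun y => ⟨⟨⟨y, hDG y.2⟩, ?_⟩, ?_⟩
        left_inv := fun x => rfl
        right_inv := fun y => rfl }
    · exact MulAction.mem_stabilizer_iff.2 (hD y y.2)
    · exact y.2
  rw [← hcard]
  exact Subgroup.card_subgroup_dvd_card D'

end Fibre

/-! ### Homomorphism forms

`δ : C →* (F' ≃ₐ[K] F')` from a finite group (e.g. the diamond operators, `C = (ℤ/M)ˣ`, with
kernel `{±1}`), fixing `F` pointwise, all of whose invariants lie in `F`. -/

section Hom

variable {C : Type*} [Group C]

/-- The subgroup of `C` fixing the place `w` through `δ`. -/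
def stab (δ : C →* (F' ≃ₐ[K] F')) (w : Place K F') : Subgroup C where
  carrier := {c | δ c • w = w}
  mul_mem' := by
    intro a b ha hb
    simp only [Set.mem_ofPred_eq] at ha hb ⊢
    rw [map_mul, mul_smul, hb, ha]
  one_mem' := by simp
  inv_mem' := by
    intro a ha
    simp only [Set.mem_ofPred_eq] at ha ⊢
    rw [map_inv]
    exact inv_smul_eq_iff.2 ha.symm

theorem mem_stab {δ : C →* (F' ≃ₐ[K] F')} {w : Place K F'} {c : C} :
    c ∈ stab δ w ↔ δ c • w = w := Iff.rfl

/-- `#Stab_C(w) = #Stab_{δ(C)}(w) · #ker δ`. -/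
theorem card_stab_eq [Finite C] (δ : C →* (F' ≃ₐ[K] F')) (w : Place K F') :
    Nat.card (stab δ w) = Nat.card (MulAction.stabilizer δ.range w) * Nat.card δ.ker := by
  classical
  let ψ : stab δ w →* MulAction.stabilizer δ.range w :=
    { toFun := fun c => ⟨⟨δ (c : C), ⟨(c : C), rfl⟩⟩, MulAction.mem_stabilizer_iff.2 c.2⟩
      map_one' := by
        ext1; ext1
        exact map_one δ
      map_mul' := by
        intro a b
        ext1; ext1
        exact map_mul δ (a : C) (b : C) }
  have hψ : Function.Surjective ψ := by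
    rintro ⟨⟨σ, c, rfl⟩, hσ⟩
    exact ⟨⟨c, MulAction.mem_stabilizer_iff.1 hσ⟩, rfl⟩
  have hker : Nat.card ψ.ker = Nat.card δ.ker := by
    refine Nat.card_congr
      { toFun := fun x => ⟨((x : stab δ w) : C), ?_⟩
        invFun := fun y => ⟨⟨y, ?_⟩, ?_⟩
        left_inv := fun x => rfl
        right_inv := fun y => rfl }
    · have hx := x.2
      rw [MonoidHom.mem_ker] at hx ⊢
      exact congrArg (fun z : MulAction.stabilizer δ.range w => ((z : δ.range) : F' ≃ₐ[K] F')) hx
    · have hy := y.2
      rw [MonoidHom.mem_ker] at hy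
      rw [mem_stab, hy, one_smul]
    · have hy := y.2
      rw [MonoidHom.mem_ker] at hy ⊢
      ext1; ext1
      exact hy
  rw [Subgroup.card_eq_card_quotient_mul_card_subgroup ψ.ker, hker,
    Nat.card_congr (QuotientGroup.quotientKerEquivOfSurjective ψ hψ).toEquiv]

omit [Algebra K F] [IsScalarTower K F F'] in
/-- Artin for a homomorphism: `[F' : F] · #ker δ = #C`. -/
theorem finrank_mul_card_ker_hom [Finite C] (δ : C →* (F' ≃ₐ[K] F'))
    (hδ : ∀ (c : C) (f : F), δ c (algebraMap F F' f) = algebraMap F F' f)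
    (hfix : ∀ f' : F', (∀ c : C, δ c f' = f') → f' ∈ (algebraMap F F').range) :
    Module.finrank F F' * Nat.card δ.ker = Nat.card C := by
  have : Finite δ.range := Set.finite_range δ
  rw [finrank_eq_card δ.range (by rintro σ ⟨c, rfl⟩ f; exact hδ c f)
    (fun f' hf' => hfix f' fun c => hf' _ ⟨c, rfl⟩),
    Subgroup.card_eq_card_quotient_mul_card_subgroup δ.ker,
    Nat.card_congr (QuotientGroup.quotientKerEquivRange δ).toEquiv]

variable [Algebra.IsIntegral F F'] [HasPrincipalDivisors K F'] [SumRamificationInertia K F F']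

/-- **`#Stab_C(w) = e(w | v) · #ker δ`.** -/
theorem card_stab_eq_ramificationIndex_mul [Finite C] (δ : C →* (F' ≃ₐ[K] F'))
    (hδ : ∀ (c : C) (f : F), δ c (algebraMap F F' f) = algebraMap F F' f)
    (hfix : ∀ f' : F', (∀ c : C, δ c f' = f') → f' ∈ (algebraMap F F').range)
    (hdeg : ∀ u : Place K F', u.inertiaDeg F = 1) (w : Place K F') :
    Nat.card (stab δ w) = w.ramificationIndex F * Nat.card δ.ker := by
  have : Finite δ.range := Set.finite_range δ
  rw [card_stab_eq, ← ramificationIndex_eq_card_stabilizer δ.range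
    (by rintro σ ⟨c, rfl⟩ f; exact hδ c f)
    (fun f' hf' => hfix f' fun c => hf' _ ⟨c, rfl⟩) hdeg w]

/-- **`e(w | v) = #Stab_C(w)`** for a faithful action. -/
theorem ramificationIndex_eq_card_stab [Finite C] (δ : C →* (F' ≃ₐ[K] F'))
    (hinj : Function.Injective δ)
    (hδ : ∀ (c : C) (f : F), δ c (algebraMap F F' f) = algebraMap F F' f)
    (hfix : ∀ f' : F', (∀ c : C, δ c f' = f') → f' ∈ (algebraMap F F').range)
    (hdeg : ∀ u : Place K F', u.inertiaDeg F = 1) (w : Place K F') :
    w.ramificationIndex F = Nat.card (stab δ w) := by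
  rw [card_stab_eq_ramificationIndex_mul δ hδ hfix hdeg w, (MonoidHom.ker_eq_bot_iff δ).2 hinj,
    Subgroup.card_bot, mul_one]

/-- A subgroup `D ≤ C` fixing `w` satisfies `#D ∣ e(w | v) · #ker δ`; for a faithful action,
`#D ∣ e(w | v)`. -/
theorem card_dvd_ramificationIndex_mul [Finite C] (δ : C →* (F' ≃ₐ[K] F'))
    (hδ : ∀ (c : C) (f : F), δ c (algebraMap F F' f) = algebraMap F F' f)
    (hfix : ∀ f' : F', (∀ c : C, δ c f' = f') → f' ∈ (algebraMap F F').range)
    (hdeg : ∀ u : Place K F', u.inertiaDeg F = 1) (w : Place K F')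
    (D : Subgroup C) (hD : ∀ c ∈ D, δ c • w = w) :
    Nat.card D ∣ w.ramificationIndex F * Nat.card δ.ker := by
  rw [← card_stab_eq_ramificationIndex_mul δ hδ hfix hdeg w]
  exact Subgroup.card_dvd_of_le (fun c hc => hD c hc)

omit [SumRamificationInertia K F F'] in
/-- The number of places over `w.restrict F`, times `#Stab_C(w)`, is `#C`. -/
theorem card_fiber_mul_card_stab [Finite C] (δ : C →* (F' ≃ₐ[K] F'))
    (hδ : ∀ (c : C) (f : F), δ c (algebraMap F F' f) = algebraMap F F' f)
    (hfix : ∀ f' : F', (∀ c : C, δ c f' = f') → f' ∈ (algebraMap F F').range)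
    (w : Place K F') :
    ((w.restrict F).fiber F').card * Nat.card (stab δ w) = Nat.card C := by
  have : Finite δ.range := Set.finite_range δ
  rw [card_stab_eq, ← mul_assoc, card_fiber_mul_card_stabilizer δ.range
    (by rintro σ ⟨c, rfl⟩ f; exact hδ c f)
    (fun f' hf' => hfix f' fun c => hf' _ ⟨c, rfl⟩) w,
    Subgroup.card_eq_card_quotient_mul_card_subgroup δ.ker,
    Nat.card_congr (QuotientGroup.quotientKerEquivRange δ).toEquiv]

omit [SumRamificationInertia K F F'] in
/-- The fibre over `w.restrict F` is the `C`-orbit of `w`. -/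
theorem mem_fiber_iff_exists_smul_hom [Finite C] (δ : C →* (F' ≃ₐ[K] F'))
    (hδ : ∀ (c : C) (f : F), δ c (algebraMap F F' f) = algebraMap F F' f)
    (hfix : ∀ f' : F', (∀ c : C, δ c f' = f') → f' ∈ (algebraMap F F').range)
    (w w' : Place K F') :
    w' ∈ (w.restrict F).fiber F' ↔ ∃ c : C, δ c • w = w' := by
  rw [Place.mem_fiber]
  constructor
  · intro h
    exact exists_smul_eq_of_restrict_eq_hom δ hfix h.symm
  · rintro ⟨c, rfl⟩
    exact restrict_smul (δ c) (hδ c) w

end Hom

end Fermat.Agent.G1.PlaceGalois
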