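import Mathlib
import Fermat.Agent.ESJ.Jac.Resolvent
import Fermat.Agent.G1.EisCharSub

/-!
# G1 / JAC (surj side, JAC-E for `Γ₁(M)`) : a holomorphic function on `U` with a given PE character

For a parabolic-elliptic character `χ` of finite order of a subgroup `Γ ≤ SL(2, ℤ)` containing
`T` (e.g. `Γ₁(M)`), the function `u = E_{χ,12} / Δ` (Eisenstein series of weight `12` with
character `χ`, `G1/EisCharSub`, divided by the discriminant) is holomorphic on the upper half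
plane, not identically zero, satisfies `u (γ z) = χ γ · u z` for `γ ∈ Γ` and is meromorphic at
all cusps.

* `exists_resolvent_analytic_sub`, `exists_resolvent_sub` : for any `Γ ∋ T`;
* `exists_resolvent_analytic1`, `exists_resolvent1` : for `Γ₁(M)`.
-/

set_option autoImplicit false

open Complex Filter Topology UpperHalfPlane Set ModularForm
open scoped MatrixGroups Manifold Real

noncomputable section

namespace Fermat.Agent.G1.Resolvent1

open Fermat.Agent.ESJ.Jac Fermat.Agent.ESJ.Jac.Resolvent Fermat.Agent.G1.EisCharSub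

/-- **JAC-E for a subgroup `Γ ∋ T`, analytic form**: for a PE character `χ` of `Γ` of exponent
`n > 0` there is a function `u`, ANALYTIC on `U`, not locally zero, with `u (γ z) = χ γ · u z`
for `γ ∈ Γ` and meromorphic at all cusps. -/
theorem exists_resolvent_analytic_sub (Γ : Subgroup SL(2, ℤ)) (hTm : ModularGroup.T ∈ Γ)
    (n : ℕ) (hn : 0 < n) (χ : Γ →* ℂˣ) (hχ : IsPEChar Γ n χ) :
    ∃ u : ℂ → ℂ, (∀ z ∈ U, AnalyticAt ℂ u z) ∧ (∀ z ∈ U, meromorphicOrderAt u z ≠ ⊤) ∧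
      HasMultiplier Γ u χ ∧ MerAtCusps u := by
  have hχn : ∀ δ, χ δ ^ n = 1 := hχ.1
  have hT : χ ⟨ModularGroup.T, hTm⟩ = 1 := by
    apply hχ.2
    simp [ModularGroup.coe_T, Matrix.trace_fin_two]
  have hneg : ∀ h : (-1 : SL(2, ℤ)) ∈ Γ, χ ⟨-1, h⟩ = 1 := by
    intro h
    apply hχ.2
    simp
  have hχ1 := norm_eq_one_of_pow_eq_one χ hn.ne' hχn
  have h12 : Even (12 : ℤ) := ⟨6, by norm_num⟩
  obtain ⟨hG, hsmul, -, hbdd⟩ := eisCharS_spec χ hTm hT hneg hχ1 (k := 12) (by norm_num) h12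
  have hG0 := eisCharS_ne_zero χ hTm hT hneg hχ1 (k := 12) (by norm_num) h12
  refine ⟨quot (eisCharS χ 12), fun z hz => analyticAt_quot hG hz, order_quot_ne_top hG hG0,
    ?_, merAtCusps_quot hG hbdd⟩
  intro γ z hz
  have h1 : mob (γ : SL(2, ℤ)) z = (((γ : SL(2, ℤ)) • (⟨z, hz⟩ : ℍ) : ℍ) : ℂ) :=
    mob_coe _ ⟨z, hz⟩
  have h2 : quot (eisCharS χ 12) z
      = eisCharS χ 12 ⟨z, hz⟩ / ModularForm.discriminant ⟨z, hz⟩ :=
    quot_coe _ ⟨z, hz⟩
  rw [h1, quot_coe, h2, hsmul γ ⟨z, hz⟩, discriminant_smul]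
  have h3 : denom (γ : SL(2, ℤ)) (⟨z, hz⟩ : ℍ) ^ (12 : ℤ) ≠ 0 :=
    zpow_ne_zero _ (denom_ne_zero _ _)
  have h4 : ModularForm.discriminant (⟨z, hz⟩ : ℍ) ≠ 0 := discriminant_ne_zero _
  generalize denom (γ : SL(2, ℤ)) (⟨z, hz⟩ : ℍ) ^ (12 : ℤ) = D at h3 ⊢
  generalize ModularForm.discriminant (⟨z, hz⟩ : ℍ) = E at h4 ⊢
  field_simp

/-- **JAC-E for a subgroup `Γ ∋ T`**: existence of a nonzero meromorphic function on `U` with a
given PE character. -/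
theorem exists_resolvent_sub (Γ : Subgroup SL(2, ℤ)) (hTm : ModularGroup.T ∈ Γ)
    (n : ℕ) (hn : 0 < n) (χ : Γ →* ℂˣ) (hχ : IsPEChar Γ n χ) :
    ∃ u : ℂ → ℂ, MeromorphicNFOn u U ∧ (∀ z ∈ U, meromorphicOrderAt u z ≠ ⊤) ∧
      HasMultiplier Γ u χ ∧ MerAtCusps u := by
  obtain ⟨u, han, hfin, hmult, hcusp⟩ := exists_resolvent_analytic_sub Γ hTm n hn χ hχ
  exact ⟨u, fun z hz => (han z hz).meromorphicNFAt, hfin, hmult, hcusp⟩

/-- `T ∈ Γ₁(M)`. -/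
theorem T_mem_Gamma1 (M : ℕ) : ModularGroup.T ∈ CongruenceSubgroup.Gamma1 M := by
  rw [CongruenceSubgroup.Gamma1_mem]
  simp [ModularGroup.coe_T]

/-- **JAC-E for `Γ₁(M)`, analytic form.** -/
theorem exists_resolvent_analytic1 (M n : ℕ) (hn : 0 < n)
    (χ : CongruenceSubgroup.Gamma1 M →* ℂˣ) (hχ : IsPEChar (CongruenceSubgroup.Gamma1 M) n χ) :
    ∃ u : ℂ → ℂ, (∀ z ∈ U, AnalyticAt ℂ u z) ∧ (∀ z ∈ U, meromorphicOrderAt u z ≠ ⊤) ∧
      HasMultiplier (CongruenceSubgroup.Gamma1 M) u χ ∧ MerAtCusps u :=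
  exists_resolvent_analytic_sub _ (T_mem_Gamma1 M) n hn χ hχ

/-- **JAC-E for `Γ₁(M)`.** -/
theorem exists_resolvent1 (M n : ℕ) (hn : 0 < n)
    (χ : CongruenceSubgroup.Gamma1 M →* ℂˣ) (hχ : IsPEChar (CongruenceSubgroup.Gamma1 M) n χ) :
    ∃ u : ℂ → ℂ, MeromorphicNFOn u U ∧ (∀ z ∈ U, meromorphicOrderAt u z ≠ ⊤) ∧
      HasMultiplier (CongruenceSubgroup.Gamma1 M) u χ ∧ MerAtCusps u :=
  exists_resolvent_sub _ (T_mem_Gamma1 M) n hn χ hχ

end Fermat.Agent.G1.Resolvent1
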